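import Fermat.Agent.S55.Top.Levels

/-!
# S55 top layer, file 2: low-degree inhomogeneous cochains, differentials `dd0 … dd3`,
smooth (= level-constant) cochains and the smooth cohomology groups `smH0 … smH3`.

Conventions are those of Mathlib's `groupCohomology.d₀₁, d₁₂, d₂₃` (and of the frozen Prelude's
`continuousH2`, `continuousH2S`), but for an unbundled `Representation k G V`.
-/

set_option autoImplicit false

namespace Fermat.Agent.S55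

variable {k : Type*} [CommRing k] {G : Type*} [Group G]
  {V : Type*} [AddCommGroup V] [Module k V]

section Diff

variable (ρ : Representation k G V)

/-- `d⁰ : V → C¹`, `(d⁰ m)(g) = g m - m`. -/
def dd0 : V →ₗ[k] (G → V) where
  toFun m g := ρ g m - m
  map_add' x y := by ext g; simp only [map_add, Pi.add_apply]; abel
  map_smul' c x := by ext g; simp only [map_smul, Pi.smul_apply, RingHom.id_apply, smul_sub]

/-- `d¹ : C¹ → C²`, `(d¹ f)(g,h) = g f(h) - f(gh) + f(g)`. -/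
def dd1 : (G → V) →ₗ[k] (G × G → V) where
  toFun f p := ρ p.1 (f p.2) - f (p.1 * p.2) + f p.1
  map_add' x y := by ext p; simp only [map_add, Pi.add_apply]; abel
  map_smul' c x := by
    ext p; simp only [map_smul, Pi.smul_apply, RingHom.id_apply, smul_sub, smul_add]

/-- `d² : C² → C³`, `(d² f)(g,h,j) = g f(h,j) - f(gh,j) + f(g,hj) - f(g,h)`. -/
def dd2 : (G × G → V) →ₗ[k] (G × G × G → V) where
  toFun f p := ρ p.1 (f (p.2.1, p.2.2)) - f (p.1 * p.2.1, p.2.2) + f (p.1, p.2.1 * p.2.2)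
    - f (p.1, p.2.1)
  map_add' x y := by ext p; simp only [map_add, Pi.add_apply]; abel
  map_smul' c x := by
    ext p; simp only [map_smul, Pi.smul_apply, RingHom.id_apply, smul_sub, smul_add]

/-- `d³ : C³ → C⁴`,
`(d³ f)(g,h,j,l) = g f(h,j,l) - f(gh,j,l) + f(g,hj,l) - f(g,h,jl) + f(g,h,j)`. -/
def dd3 : (G × G × G → V) →ₗ[k] (G × G × G × G → V) where
  toFun f p := ρ p.1 (f (p.2.1, p.2.2.1, p.2.2.2)) - f (p.1 * p.2.1, p.2.2.1, p.2.2.2)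
    + f (p.1, p.2.1 * p.2.2.1, p.2.2.2) - f (p.1, p.2.1, p.2.2.1 * p.2.2.2)
    + f (p.1, p.2.1, p.2.2.1)
  map_add' x y := by ext p; simp only [map_add, Pi.add_apply]; abel
  map_smul' c x := by
    ext p; simp only [map_smul, Pi.smul_apply, RingHom.id_apply, smul_sub, smul_add]

@[simp] lemma dd0_apply (m : V) (g : G) : dd0 ρ m g = ρ g m - m := rfl

@[simp] lemma dd1_apply (f : G → V) (g h : G) :
    dd1 ρ f (g, h) = ρ g (f h) - f (g * h) + f g := rfl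

@[simp] lemma dd2_apply (f : G × G → V) (g h j : G) :
    dd2 ρ f (g, h, j) = ρ g (f (h, j)) - f (g * h, j) + f (g, h * j) - f (g, h) := rfl

@[simp] lemma dd3_apply (f : G × G × G → V) (g h j l : G) :
    dd3 ρ f (g, h, j, l) = ρ g (f (h, j, l)) - f (g * h, j, l) + f (g, h * j, l)
      - f (g, h, j * l) + f (g, h, j) := rfl

lemma dd1_dd0 (m : V) : dd1 ρ (dd0 ρ m) = 0 := by
  ext ⟨g, h⟩
  simp only [dd1_apply, dd0_apply, map_sub, map_mul, Module.End.mul_apply, Pi.zero_apply]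
  abel

lemma dd2_dd1 (f : G → V) : dd2 ρ (dd1 ρ f) = 0 := by
  ext ⟨g, h, j⟩
  simp only [dd2_apply, dd1_apply, map_sub, map_add, map_mul, Module.End.mul_apply,
    Pi.zero_apply, mul_assoc]
  abel

lemma dd3_dd2 (f : G × G → V) : dd3 ρ (dd2 ρ f) = 0 := by
  ext ⟨g, h, j, l⟩
  simp only [dd3_apply, dd2_apply, map_sub, map_add, map_mul, Module.End.mul_apply,
    Pi.zero_apply, mul_assoc]
  abel

end Diff

section Smooth

variable (𝓛 : Levels G)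

/-- smooth 1-cochains -/
def smC1 (k : Type*) [CommRing k] (V : Type*) [AddCommGroup V] [Module k V] :
    Submodule k (G → V) where
  carrier := {f | IsLC₁ 𝓛 f}
  add_mem' hf hf' := hf.map₂ hf' (· + ·)
  zero_mem' := isLC₁_const 𝓛 (0 : V)
  smul_mem' c _ hf := hf.comp (c • ·)

/-- smooth 2-cochains -/
def smC2 (k : Type*) [CommRing k] (V : Type*) [AddCommGroup V] [Module k V] :
    Submodule k (G × G → V) where
  carrier := {f | IsLC₂ 𝓛 f}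
  add_mem' hf hf' := hf.map₂ hf' (· + ·)
  zero_mem' := isLC₂_const 𝓛 (0 : V)
  smul_mem' c _ hf := hf.comp (c • ·)

/-- smooth 3-cochains -/
def smC3 (k : Type*) [CommRing k] (V : Type*) [AddCommGroup V] [Module k V] :
    Submodule k (G × G × G → V) where
  carrier := {f | IsLC₃ 𝓛 f}
  add_mem' hf hf' := hf.map₂ hf' (· + ·)
  zero_mem' := isLC₃_const 𝓛 (0 : V)
  smul_mem' c _ hf := hf.comp (c • ·)

/-- smooth 4-cochains -/
def smC4 (k : Type*) [CommRing k] (V : Type*) [AddCommGroup V] [Module k V] :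
    Submodule k (G × G × G × G → V) where
  carrier := {f | IsLC₄ 𝓛 f}
  add_mem' hf hf' := hf.map₂ hf' (· + ·)
  zero_mem' := isLC₄_const 𝓛 (0 : V)
  smul_mem' c _ hf := hf.comp (c • ·)

@[simp] lemma mem_smC1 (f : G → V) : f ∈ smC1 𝓛 k V ↔ IsLC₁ 𝓛 f := Iff.rfl
@[simp] lemma mem_smC2 (f : G × G → V) : f ∈ smC2 𝓛 k V ↔ IsLC₂ 𝓛 f := Iff.rfl
@[simp] lemma mem_smC3 (f : G × G × G → V) : f ∈ smC3 𝓛 k V ↔ IsLC₃ 𝓛 f := Iff.rfl
@[simp] lemma mem_smC4 (f : G × G × G × G → V) : f ∈ smC4 𝓛 k V ↔ IsLC₄ 𝓛 f := Iff.rfl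

variable (ρ : Representation k G V)

/-- `H⁰`: the invariants, as a submodule of `V`. -/
def smH0 : Submodule k V := LinearMap.ker (dd0 ρ)

/-- smooth 1-cocycles -/
def smZ1 : Submodule k (G → V) := LinearMap.ker (dd1 ρ) ⊓ smC1 𝓛 k V
/-- 1-coboundaries -/
def smB1 : Submodule k (G → V) := LinearMap.range (dd0 ρ)
/-- smooth 2-cocycles -/
def smZ2 : Submodule k (G × G → V) := LinearMap.ker (dd2 ρ) ⊓ smC2 𝓛 k V
/-- smooth 2-coboundaries -/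
def smB2 : Submodule k (G × G → V) := (smC1 𝓛 k V).map (dd1 ρ)
/-- smooth 3-cocycles -/
def smZ3 : Submodule k (G × G × G → V) := LinearMap.ker (dd3 ρ) ⊓ smC3 𝓛 k V
/-- smooth 3-coboundaries -/
def smB3 : Submodule k (G × G × G → V) := (smC2 𝓛 k V).map (dd2 ρ)

/-- smooth `H¹` -/
abbrev smH1 : Type _ := ↥(smZ1 𝓛 ρ) ⧸ (smB1 ρ).comap (smZ1 𝓛 ρ).subtype
/-- smooth `H²` (same shape as the Prelude's `continuousH2`, `continuousH2S`) -/
abbrev smH2 : Type _ := ↥(smZ2 𝓛 ρ) ⧸ (smB2 𝓛 ρ).comap (smZ2 𝓛 ρ).subtype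
/-- smooth `H³` -/
abbrev smH3 : Type _ := ↥(smZ3 𝓛 ρ) ⧸ (smB3 𝓛 ρ).comap (smZ3 𝓛 ρ).subtype

/-- the class of a smooth 1-cocycle -/
abbrev smH1π : ↥(smZ1 𝓛 ρ) →ₗ[k] smH1 𝓛 ρ := Submodule.mkQ _
/-- the class of a smooth 2-cocycle -/
abbrev smH2π : ↥(smZ2 𝓛 ρ) →ₗ[k] smH2 𝓛 ρ := Submodule.mkQ _
/-- the class of a smooth 3-cocycle -/
abbrev smH3π : ↥(smZ3 𝓛 ρ) →ₗ[k] smH3 𝓛 ρ := Submodule.mkQ _

lemma mem_smZ1 (f : G → V) : f ∈ smZ1 𝓛 ρ ↔ dd1 ρ f = 0 ∧ IsLC₁ 𝓛 f := Iff.rfl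
lemma mem_smZ2 (f : G × G → V) : f ∈ smZ2 𝓛 ρ ↔ dd2 ρ f = 0 ∧ IsLC₂ 𝓛 f := Iff.rfl
lemma mem_smZ3 (f : G × G × G → V) : f ∈ smZ3 𝓛 ρ ↔ dd3 ρ f = 0 ∧ IsLC₃ 𝓛 f := Iff.rfl
lemma mem_smB1 (f : G → V) : f ∈ smB1 ρ ↔ ∃ m : V, dd0 ρ m = f := Iff.rfl
lemma mem_smB2 (f : G × G → V) : f ∈ smB2 𝓛 ρ ↔ ∃ x : G → V, IsLC₁ 𝓛 x ∧ dd1 ρ x = f := by
  simp only [smB2, Submodule.mem_map, mem_smC1]
lemma mem_smB3 (f : G × G × G → V) :
    f ∈ smB3 𝓛 ρ ↔ ∃ x : G × G → V, IsLC₂ 𝓛 x ∧ dd2 ρ x = f := by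
  simp only [smB3, Submodule.mem_map, mem_smC2]

lemma smH1π_eq_zero_iff (f : ↥(smZ1 𝓛 ρ)) : smH1π 𝓛 ρ f = 0 ↔ (f : G → V) ∈ smB1 ρ := by
  simp [Submodule.Quotient.mk_eq_zero, Submodule.mem_comap]
lemma smH2π_eq_zero_iff (f : ↥(smZ2 𝓛 ρ)) : smH2π 𝓛 ρ f = 0 ↔ (f : G × G → V) ∈ smB2 𝓛 ρ := by
  simp [Submodule.Quotient.mk_eq_zero, Submodule.mem_comap]
lemma smH3π_eq_zero_iff (f : ↥(smZ3 𝓛 ρ)) :
    smH3π 𝓛 ρ f = 0 ↔ (f : G × G × G → V) ∈ smB3 𝓛 ρ := by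
  simp [Submodule.Quotient.mk_eq_zero, Submodule.mem_comap]

end Smooth

end Fermat.Agent.S55
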