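import Fermat.Agent.S55.Top.CupDefs
import Fermat.Agent.S55.SM.IndDefs

/-!
# S55 top layer, leaf T-IND: induced representations.

`G` a group with levels `𝓛`, `χ : G →* kˣ` a character, `H` a subgroup (of finite index).
`Ind_H^G A = {F : G → A | F (h g) = h F(g)}` with `G` acting by right translation:
smooth, finite-dimensional, exact; the induced pairing `Σ_{Hg} χ(g)⁻¹ b (F g) (F' g)`;
unit / counit `V ⇄ Ind Res V`.
-/

set_option autoImplicit false

namespace Fermat.Agent.S55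

variable {k : Type*} [Field k] {G : Type*} [Group G]

/-- `k` with `G` acting through the character `χ` -/
def chiRep (χ : G →* kˣ) : Representation k G k where
  toFun g := (χ g : k) • LinearMap.id
  map_one' := by ext; simp
  map_mul' g h := by
    ext
    simp [mul_comm]

@[simp] theorem chiRep_apply (χ : G →* kˣ) (g : G) (x : k) : chiRep χ g x = (χ g : k) * x := by
  simp [chiRep]

/-! ### right coset representatives -/

section Transversal

variable (H : Subgroup G)

/-- a chosen representative of the right coset `H g` -/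
noncomputable def indCosetRep (g : G) : G := (Quotient.mk (QuotientGroup.rightRel H) g).out

theorem indCosetRep_mem (g : G) : g * (indCosetRep H g)⁻¹ ∈ H :=
  QuotientGroup.rightRel_apply.1 (Quotient.mk_out (s := QuotientGroup.rightRel H) g)

theorem indCosetRep_mul (h : H) (g : G) : indCosetRep H ((h : G) * g) = indCosetRep H g := by
  have h1 : Quotient.mk (QuotientGroup.rightRel H) ((h : G) * g)
      = Quotient.mk (QuotientGroup.rightRel H) g := by
    apply Quotient.sound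
    show QuotientGroup.rightRel H _ _
    rw [QuotientGroup.rightRel_apply]
    have h2 : g * ((h : G) * g)⁻¹ = ((h : G))⁻¹ := by group
    rw [h2]
    exact H.inv_mem h.2
  unfold indCosetRep
  rw [h1]

/-- the element of `H` carrying the representative of `H g` to `g` -/
noncomputable def indCosetElt (g : G) : H := ⟨g * (indCosetRep H g)⁻¹, indCosetRep_mem H g⟩

theorem indCosetElt_mul_rep (g : G) : (indCosetElt H g : G) * indCosetRep H g = g := by
  simp [indCosetElt]

theorem indCosetElt_mul (h : H) (g : G) : indCosetElt H ((h : G) * g) = h * indCosetElt H g := by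
  apply Subtype.ext
  simp [indCosetElt, indCosetRep_mul, mul_assoc]

/-- a finite set of right coset representatives -/
def IsIndTransv (T : Finset G) : Prop := ∀ g : G, ∃! t, t ∈ T ∧ g * t⁻¹ ∈ H

instance indFiniteRightQuot [H.FiniteIndex] : Finite (Quotient (QuotientGroup.rightRel H)) :=
  Finite.of_equiv (G ⧸ H) (QuotientGroup.quotientRightRelEquivQuotientLeftRel H).symm

theorem exists_isIndTransv [H.FiniteIndex] : ∃ T : Finset G, IsIndTransv H T := by
  classical
  have := Fintype.ofFinite (Quotient (QuotientGroup.rightRel H))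
  refine ⟨(Finset.univ : Finset (Quotient (QuotientGroup.rightRel H))).image Quotient.out, ?_⟩
  intro g
  refine ⟨indCosetRep H g, ⟨Finset.mem_image.2 ⟨_, Finset.mem_univ _, rfl⟩, indCosetRep_mem H g⟩, ?_⟩
  rintro t' ⟨ht', hg⟩
  obtain ⟨q, -, rfl⟩ := Finset.mem_image.1 ht'
  have h1 : Quotient.mk (QuotientGroup.rightRel H) q.out
      = Quotient.mk (QuotientGroup.rightRel H) g :=
    Quotient.sound (QuotientGroup.rightRel_apply.2 hg)
  rw [Quotient.out_eq] at h1
  rw [h1]
  rfl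

variable {H}

theorem IsIndTransv.mul_right [DecidableEq G] {T : Finset G} (hT : IsIndTransv H T) (g' : G) :
    IsIndTransv H (T.image (· * g')) := by
  intro g
  obtain ⟨t, ⟨ht, hg⟩, huniq⟩ := hT (g * g'⁻¹)
  refine ⟨t * g', ⟨Finset.mem_image.2 ⟨t, ht, rfl⟩, ?_⟩, ?_⟩
  · have h1 : g * (t * g')⁻¹ = g * g'⁻¹ * t⁻¹ := by group
    rw [h1]
    exact hg
  · rintro t'' ⟨ht'', hg''⟩
    obtain ⟨t', ht', rfl⟩ := Finset.mem_image.1 ht''
    have h1 : g * (t' * g')⁻¹ = g * g'⁻¹ * t'⁻¹ := by group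
    rw [h1] at hg''
    rw [huniq t' ⟨ht', hg''⟩]

theorem IsIndTransv.sum_mul_right [DecidableEq G] {M : Type*} [AddCommMonoid M] (T : Finset G)
    (g' : G) (f : G → M) : ∑ t ∈ T.image (· * g'), f t = ∑ t ∈ T, f (t * g') :=
  Finset.sum_image (fun _ _ _ _ h => mul_right_cancel h)

variable (H)

theorem IsIndTransv.bijective_mk {T : Finset G} (hT : IsIndTransv H T) :
    Function.Bijective
      (fun t : {t // t ∈ T} => Quotient.mk (QuotientGroup.rightRel H) (t : G)) := by
  refine ⟨?_, ?_⟩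
  · rintro ⟨t, ht⟩ ⟨t', ht'⟩ h
    have h1 : QuotientGroup.rightRel H t t' := Quotient.exact h
    rw [QuotientGroup.rightRel_apply] at h1
    obtain ⟨t₀, _, huniq⟩ := hT t'
    have e1 : t = t₀ := huniq t ⟨ht, h1⟩
    have e2 : t' = t₀ := huniq t' ⟨ht', by simp [H.one_mem]⟩
    exact Subtype.ext (e1.trans e2.symm)
  · intro q
    obtain ⟨t, ⟨ht, hg⟩, _⟩ := hT q.out
    refine ⟨⟨t, ht⟩, ?_⟩
    have h1 : Quotient.mk (QuotientGroup.rightRel H) t
        = Quotient.mk (QuotientGroup.rightRel H) q.out :=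
      Quotient.sound (QuotientGroup.rightRel_apply.2 hg)
    rw [Quotient.out_eq] at h1
    exact h1

/-- sums over right cosets of a coset-invariant function can be computed on any transversal -/
theorem finsum_indCosetRep {M : Type*} [AddCommMonoid M] (φ : G → M)
    (hφ : ∀ (h : H) (g : G), φ ((h : G) * g) = φ g) (T : Finset G) (hT : IsIndTransv H T) :
    ∑ᶠ q : Quotient (QuotientGroup.rightRel H), φ q.out = ∑ t ∈ T, φ t := by
  rw [← finsum_mem_coe_finset, ← finsum_set_coe_eq_finsum_mem]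
  symm
  refine finsum_eq_of_bijective
    (fun t : (T : Set G) => Quotient.mk (QuotientGroup.rightRel H) (t : G))
    (IsIndTransv.bijective_mk H hT) ?_
  rintro ⟨t, ht⟩
  have h1 := hφ (indCosetElt H t) (indCosetRep H t)
  rw [indCosetElt_mul_rep] at h1
  exact h1

theorem IsIndTransv.card_eq {T : Finset G} (hT : IsIndTransv H T) : T.card = H.index := by
  rw [← Nat.card_eq_finsetCard, Nat.card_eq_of_bijective _ (IsIndTransv.bijective_mk H hT),
    Subgroup.index, Nat.card_congr (QuotientGroup.quotientRightRelEquivQuotientLeftRel H)]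


theorem exists_isIndTransv_mem [H.FiniteIndex] (g₀ : G) :
    ∃ T : Finset G, IsIndTransv H T ∧ g₀ ∈ T := by
  classical
  obtain ⟨T, hT⟩ := exists_isIndTransv H
  obtain ⟨t₀, ⟨ht₀, -⟩, -⟩ := hT g₀
  refine ⟨T.image (· * (t₀⁻¹ * g₀)), hT.mul_right _, Finset.mem_image.2 ⟨t₀, ht₀, ?_⟩⟩
  simp

theorem IsIndTransv.eq_of_mem {T : Finset G} (hT : IsIndTransv H T) {t t' : G} (ht : t ∈ T)
    (ht' : t' ∈ T) (h : t * t'⁻¹ ∈ H) : t = t' := by
  obtain ⟨t₀, -, huniq⟩ := hT t
  rw [huniq t ⟨ht, by simp [H.one_mem]⟩, huniq t' ⟨ht', h⟩]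

/-- finitely many levels contain a common level -/
theorem Levels.ind_exists_le_finset (𝓛 : Levels G) {ι : Type*} (T : Finset ι)
    (U : ι → Subgroup G) (hU : ∀ t ∈ T, 𝓛.IsLevel (U t)) :
    ∃ W, 𝓛.IsLevel W ∧ ∀ t ∈ T, W ≤ U t := by
  classical
  induction T using Finset.induction_on with
  | empty =>
    obtain ⟨W, hW⟩ := 𝓛.exists_level
    exact ⟨W, hW, by simp⟩
  | insert a s ha ih =>
    obtain ⟨W, hW, hle⟩ := ih (fun t ht => hU t (Finset.mem_insert_of_mem ht))
    obtain ⟨W', hW', hle'⟩ := 𝓛.exists_le_inf W (U a) hW (hU a (Finset.mem_insert_self a s))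
    refine ⟨W', hW', fun t ht => ?_⟩
    rcases Finset.mem_insert.1 ht with rfl | ht
    · exact hle'.trans inf_le_right
    · exact hle'.trans (inf_le_left.trans (hle t ht))

end Transversal

section Ind

variable (H : Subgroup G) {A A' : Type*} [AddCommGroup A] [Module k A] [AddCommGroup A']
  [Module k A'] (ρA : Representation k H A) (ρA' : Representation k H A')

/-- functoriality of `Ind` in `H`-equivariant maps -/
def indMap (φ : A →ₗ[k] A') (hφ : IsEquivariant ρA ρA' φ) :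
    ↥(indSpace H ρA) →ₗ[k] ↥(indSpace H ρA') :=
  ((postComp φ G).comp (indSpace H ρA).subtype).codRestrict (indSpace H ρA') (fun F h g => by
    show φ (F.1 (h * g)) = ρA' h (φ (F.1 g))
    rw [F.2 h g, hφ])

theorem indMap_equivariant (φ : A →ₗ[k] A') (hφ : IsEquivariant ρA ρA' φ) :
    IsEquivariant (indRep H ρA) (indRep H ρA') (indMap H ρA ρA' φ hφ) :=
  fun _ _ => rfl

theorem indMap_apply_val (φ : A →ₗ[k] A') (hφ : IsEquivariant ρA ρA' φ)
    (F : ↥(indSpace H ρA)) (g : G) : (indMap H ρA ρA' φ hφ F).1 g = φ (F.1 g) := rfl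

/-- the value of `F ∈ Ind` at `g` in terms of the value at another point of the coset `H g` -/
theorem indSpace.apply_eq (F : ↥(indSpace H ρA)) (g t : G) (hg : g * t⁻¹ ∈ H) :
    F.1 g = ρA ⟨g * t⁻¹, hg⟩ (F.1 t) := by
  have h1 := F.2 ⟨g * t⁻¹, hg⟩ t
  simpa using h1

variable (𝓛 : Levels G)

/-- `Ind` of a smooth representation of an open subgroup is smooth -/
theorem indRep_isSmooth (hH : 𝓛.IsOpen H) (hA : IsSmoothRep (𝓛.sub H) ρA) :
    IsSmoothRep 𝓛 (indRep H ρA) := by
  classical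
  intro F
  obtain ⟨U₀, hU₀, hU₀H⟩ := hH
  have : U₀.FiniteIndex := 𝓛.finiteIndex U₀ hU₀
  have : H.FiniteIndex := Subgroup.finiteIndex_of_le hU₀H
  obtain ⟨T, hT⟩ := exists_isIndTransv H
  have h1 : ∀ t : G, ∃ U : Subgroup G, 𝓛.IsLevel U ∧
      ∀ s : H, (s : G) ∈ U → ρA s (F.1 t) = F.1 t := by
    intro t
    obtain ⟨U', ⟨U, hU, rfl⟩, hfix⟩ := hA (F.1 t)
    exact ⟨U, hU, fun s hs => hfix s hs⟩
  choose U hU hfix using h1
  obtain ⟨W, hW, hWle⟩ := Levels.ind_exists_le_finset 𝓛 T U (fun t _ => hU t)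
  obtain ⟨N, hN, hNn, hNW, hNU₀⟩ := 𝓛.exists_normal_le_inf W U₀ hW hU₀
  refine ⟨N, hN, fun s hs => ?_⟩
  apply Subtype.ext
  funext g
  show F.1 (g * s) = F.1 g
  obtain ⟨t, ⟨ht, hg⟩, -⟩ := hT g
  have hs' : t * s * t⁻¹ ∈ N := hNn.conj_mem s hs t
  have key : ∀ (h : H) (t : G) (n : H), ρA n (F.1 t) = F.1 t →
      F.1 ((h : G) * ((n : G) * t)) = F.1 ((h : G) * t) := by
    intro h t n hn
    rw [F.2 h, F.2 n, hn, ← F.2 h]
  have h2 := key ⟨g * t⁻¹, hg⟩ t ⟨t * s * t⁻¹, hU₀H (hNU₀ hs')⟩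
    (hfix t _ (hWle t ht (hNW hs')))
  simpa [mul_assoc] using h2

/-- `Ind` of a finite-dimensional representation of a finite-index subgroup -/
theorem indSpace_finiteDimensional [H.FiniteIndex] [FiniteDimensional k A] :
    FiniteDimensional k ↥(indSpace H ρA) := by
  classical
  obtain ⟨T, hT⟩ := exists_isIndTransv H
  let r : ↥(indSpace H ρA) →ₗ[k] ({t // t ∈ T} → A) :=
    (LinearMap.funLeft k A (fun t : {t // t ∈ T} => (t : G))).comp (indSpace H ρA).subtype
  have hr : Function.Injective r := by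
    intro F F' hFF'
    apply Subtype.ext
    funext g
    obtain ⟨t, ⟨ht, hg⟩, -⟩ := hT g
    have h1 : F.1 t = F'.1 t := congrFun hFF' ⟨t, ht⟩
    rw [indSpace.apply_eq H ρA F g t hg, indSpace.apply_eq H ρA F' g t hg, h1]
  exact FiniteDimensional.of_injective r hr

/-- lifting along `indMap`: pointwise liftable elements are liftable -/
theorem indMap_exists_lift (φ : A →ₗ[k] A') (hφ : IsEquivariant ρA ρA' φ)
    (F' : ↥(indSpace H ρA')) (hF' : ∀ g, F'.1 g ∈ Set.range φ) :
    ∃ F, indMap H ρA ρA' φ hφ F = F' := by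
  choose a ha using hF'
  refine ⟨⟨fun g => ρA (indCosetElt H g) (a (indCosetRep H g)), fun h g => ?_⟩, ?_⟩
  · show ρA (indCosetElt H (h * g)) (a (indCosetRep H (h * g)))
      = ρA h (ρA (indCosetElt H g) (a (indCosetRep H g)))
    rw [indCosetElt_mul, indCosetRep_mul, map_mul, Module.End.mul_apply]
  · apply Subtype.ext
    funext g
    show φ (ρA (indCosetElt H g) (a (indCosetRep H g))) = F'.1 g
    rw [hφ, ha, ← F'.2, indCosetElt_mul_rep]

/-- `Ind` is exact (surjectivity: lift along coset representatives) -/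
theorem indMap_surjective (φ : A →ₗ[k] A') (hφ : IsEquivariant ρA ρA' φ)
    (hs : Function.Surjective φ) : Function.Surjective (indMap H ρA ρA' φ hφ) :=
  fun F' => indMap_exists_lift H ρA ρA' φ hφ F' (fun g => hs (F'.1 g))

theorem indMap_injective (φ : A →ₗ[k] A') (hφ : IsEquivariant ρA ρA' φ)
    (hi : Function.Injective φ) : Function.Injective (indMap H ρA ρA' φ hφ) := by
  intro F F₂ h
  apply Subtype.ext
  funext g
  exact hi (congrFun (congrArg Subtype.val h) g)

theorem indMap_exact {A'' : Type*} [AddCommGroup A''] [Module k A'']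
    (ρA'' : Representation k H A'') (φ : A →ₗ[k] A') (hφ : IsEquivariant ρA ρA' φ)
    (ψ : A' →ₗ[k] A'') (hψ : IsEquivariant ρA' ρA'' ψ) (hex : Function.Exact φ ψ) :
    Function.Exact (indMap H ρA ρA' φ hφ) (indMap H ρA' ρA'' ψ hψ) := by
  intro F'
  constructor
  · intro h0
    exact indMap_exists_lift H ρA ρA' φ hφ F' (fun g => (hex (F'.1 g)).1
      (congrFun (congrArg Subtype.val h0) g))
  · rintro ⟨F, rfl⟩
    apply Subtype.ext
    funext g
    show ψ (φ (F.1 g)) = 0
    exact (hex _).2 ⟨_, rfl⟩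

/-- evaluation at `g : G` on `Ind` -/
def indEval (g : G) : ↥(indSpace H ρA) →ₗ[k] A :=
  (LinearMap.proj g).comp (indSpace H ρA).subtype

@[simp] theorem indEval_apply (g : G) (F : ↥(indSpace H ρA)) : indEval H ρA g F = F.1 g := rfl

/-- the summand of the induced pairing at `g : G` -/
def indPairingTerm (χ : G →* kˣ) (b : A →ₗ[k] A' →ₗ[k] k) (g : G) :
    ↥(indSpace H ρA) →ₗ[k] ↥(indSpace H ρA') →ₗ[k] k :=
  (((χ g)⁻¹ : kˣ) : k) • b.compl₁₂ (indEval H ρA g) (indEval H ρA' g)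

theorem indPairingTerm_apply (χ : G →* kˣ) (b : A →ₗ[k] A' →ₗ[k] k) (g : G)
    (F : ↥(indSpace H ρA)) (F' : ↥(indSpace H ρA')) :
    indPairingTerm H ρA ρA' χ b g F F' = ((χ g)⁻¹ : kˣ) • b (F.1 g) (F'.1 g) := by
  simp [indPairingTerm, Units.smul_def]

/-- The induced pairing: for an `H`-INVARIANT pairing `b : A × A' → k` and a character `χ` of
`G` trivial on `H`: `⟨F, F'⟩ = Σ_{Hg ∈ H\G} χ(g)⁻¹ b (F g) (F' g)` (finite sum; the summand is a
function on right cosets).  Defined as a `finsum` over `Quotient (QuotientGroup.rightRel H)`. -/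
noncomputable def indPairing (χ : G →* kˣ) (b : A →ₗ[k] A' →ₗ[k] k) :
    ↥(indSpace H ρA) →ₗ[k] ↥(indSpace H ρA') →ₗ[k] k :=
  ∑ᶠ q : Quotient (QuotientGroup.rightRel H), indPairingTerm H ρA ρA' χ b q.out

/-- the raw formula (no invariance needed) -/
theorem indPairing_apply_out [H.FiniteIndex] (χ : G →* kˣ) (b : A →ₗ[k] A' →ₗ[k] k)
    (F : ↥(indSpace H ρA)) (F' : ↥(indSpace H ρA')) :
    indPairing H ρA ρA' χ b F F' = ∑ᶠ q : Quotient (QuotientGroup.rightRel H),
      ((χ q.out)⁻¹ : kˣ) • b (F.1 q.out) (F'.1 q.out) := by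
  have := Fintype.ofFinite (Quotient (QuotientGroup.rightRel H))
  rw [indPairing, finsum_eq_sum_of_fintype, finsum_eq_sum_of_fintype, LinearMap.sum_apply,
    LinearMap.sum_apply]
  exact Finset.sum_congr rfl fun q _ => indPairingTerm_apply H ρA ρA' χ b q.out F F'

/-- the defining formula on a set of right coset representatives -/
theorem indPairing_apply [H.FiniteIndex] (χ : G →* kˣ) (hχ : H ≤ χ.ker)
    (b : A →ₗ[k] A' →ₗ[k] k) (hb : ∀ (h : H) a a', b (ρA h a) (ρA' h a') = b a a')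
    (F : ↥(indSpace H ρA)) (F' : ↥(indSpace H ρA'))
    (T : Finset G) (hT : ∀ g : G, ∃! t, t ∈ T ∧ g * t⁻¹ ∈ H) :
    indPairing H ρA ρA' χ b F F' = ∑ t ∈ T, ((χ t)⁻¹ : kˣ) • b (F.1 t) (F'.1 t) := by
  have hinv : ∀ (h : H) (g : G), indPairingTerm H ρA ρA' χ b ((h : G) * g)
      = indPairingTerm H ρA ρA' χ b g := by
    intro h g
    refine LinearMap.ext fun F => LinearMap.ext fun F' => ?_
    have hχh : χ (h : G) = 1 := MonoidHom.mem_ker.1 (hχ h.2)
    rw [indPairingTerm_apply, indPairingTerm_apply, F.2 h g, F'.2 h g, hb, map_mul, hχh, one_mul]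
  rw [indPairing, finsum_indCosetRep H _ hinv T hT, LinearMap.sum_apply, LinearMap.sum_apply]
  exact Finset.sum_congr rfl fun t _ => indPairingTerm_apply H ρA ρA' χ b t F F'

/-- the flip, as an additive monoid homomorphism -/
def indFlipHom (M N : Type*) [AddCommGroup M] [Module k M] [AddCommGroup N] [Module k N] :
    (M →ₗ[k] N →ₗ[k] k) →+ (N →ₗ[k] M →ₗ[k] k) where
  toFun := LinearMap.flip
  map_zero' := rfl
  map_add' _ _ := rfl

/-- symmetry of the induced pairing (no hypotheses) -/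
theorem indPairing_flip (χ : G →* kˣ) (b : A →ₗ[k] A' →ₗ[k] k) :
    (indPairing H ρA ρA' χ b).flip = indPairing H ρA' ρA χ b.flip := by
  have h1 : ∀ g, (indPairingTerm H ρA ρA' χ b g).flip = indPairingTerm H ρA' ρA χ b.flip g := by
    intro g
    refine LinearMap.ext fun F' => LinearMap.ext fun F => ?_
    rw [LinearMap.flip_apply, indPairingTerm_apply, indPairingTerm_apply, LinearMap.flip_apply]
  have hinj : Function.Injective (indFlipHom (k := k) ↥(indSpace H ρA) ↥(indSpace H ρA')) := by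
    intro x y hxy
    have : x.flip.flip = y.flip.flip := congrArg LinearMap.flip hxy
    simpa using this
  have h2 := AddMonoidHom.map_finsum_of_injective
    (indFlipHom (k := k) ↥(indSpace H ρA) ↥(indSpace H ρA')) hinj
    (fun q : Quotient (QuotientGroup.rightRel H) => indPairingTerm H ρA ρA' χ b q.out)
  show indFlipHom (k := k) _ _ (indPairing H ρA ρA' χ b) = _
  rw [indPairing, h2, indPairing]
  exact finsum_congr fun q => h1 q.out

theorem ind_units_smul_aux (u v : kˣ) (x : k) :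
    (u⁻¹ : kˣ) • x = (v : k) * (((u * v)⁻¹ : kˣ) • x) := by
  rw [mul_inv_rev, Units.smul_def, Units.smul_def, smul_eq_mul, smul_eq_mul, Units.val_mul,
    ← mul_assoc, ← mul_assoc, Units.mul_inv, one_mul]

theorem indPairing_equivariant [H.FiniteIndex] (χ : G →* kˣ) (hχ : H ≤ χ.ker)
    (b : A →ₗ[k] A' →ₗ[k] k) (hb : ∀ (h : H) a a', b (ρA h a) (ρA' h a') = b a a') :
    IsEquivariant₂ (indRep H ρA) (indRep H ρA') (chiRep χ) (indPairing H ρA ρA' χ b) := by
  classical
  intro g' F F'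
  obtain ⟨T, hT⟩ := exists_isIndTransv H
  rw [indPairing_apply H ρA ρA' χ hχ b hb _ _ T hT,
    indPairing_apply H ρA ρA' χ hχ b hb F F' _ (hT.mul_right g'), IsIndTransv.sum_mul_right,
    chiRep_apply, Finset.mul_sum]
  refine Finset.sum_congr rfl fun t _ => ?_
  rw [indRep_apply, indRep_apply, map_mul]
  exact ind_units_smul_aux (χ t) (χ g') _

open Classical in
/-- the element of `Ind` supported on the coset `H g₀` with value `a` at `g₀` -/
noncomputable def indDelta (g₀ : G) (a : A) : ↥(indSpace H ρA) :=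
  ⟨fun g => if hg : g * g₀⁻¹ ∈ H then ρA ⟨g * g₀⁻¹, hg⟩ a else 0, fun h g => by
    have hiff : (h : G) * g * g₀⁻¹ ∈ H ↔ g * g₀⁻¹ ∈ H := by
      rw [mul_assoc]
      exact H.mul_mem_cancel_left h.2
    beta_reduce
    by_cases hg : g * g₀⁻¹ ∈ H
    · have hg' := hiff.2 hg
      rw [dif_pos hg, dif_pos hg', ← Module.End.mul_apply, ← map_mul]
      congr 2
      exact Subtype.ext (by simp [mul_assoc])
    · have hg' : ¬ (h : G) * g * g₀⁻¹ ∈ H := fun h' => hg (hiff.1 h')
      rw [dif_neg hg, dif_neg hg', map_zero]⟩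

open Classical in
theorem indDelta_apply_self (g₀ : G) (a : A) : (indDelta H ρA g₀ a).1 g₀ = a := by
  have h1 : g₀ * g₀⁻¹ ∈ H := by simp [H.one_mem]
  have h2 : (⟨g₀ * g₀⁻¹, h1⟩ : H) = 1 := Subtype.ext (by simp)
  show (if hg : g₀ * g₀⁻¹ ∈ H then ρA ⟨g₀ * g₀⁻¹, hg⟩ a else 0) = a
  rw [dif_pos h1, h2, map_one, Module.End.one_apply]

open Classical in
theorem indDelta_apply_of_notMem (g₀ : G) (a : A) (g : G) (hg : g * g₀⁻¹ ∉ H) :
    (indDelta H ρA g₀ a).1 g = 0 := by
  show (if hg : g * g₀⁻¹ ∈ H then ρA ⟨g * g₀⁻¹, hg⟩ a else 0) = 0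
  rw [dif_neg hg]

theorem indPairing_indDelta_right [H.FiniteIndex] (χ : G →* kˣ) (hχ : H ≤ χ.ker)
    (b : A →ₗ[k] A' →ₗ[k] k) (hb : ∀ (h : H) a a', b (ρA h a) (ρA' h a') = b a a')
    (F : ↥(indSpace H ρA)) (g₀ : G) (a' : A') :
    indPairing H ρA ρA' χ b F (indDelta H ρA' g₀ a') = ((χ g₀)⁻¹ : kˣ) • b (F.1 g₀) a' := by
  obtain ⟨T, hT, hg₀⟩ := exists_isIndTransv_mem H g₀
  rw [indPairing_apply H ρA ρA' χ hχ b hb _ _ T hT, Finset.sum_eq_single g₀,
    indDelta_apply_self]
  · intro t ht hne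
    rw [indDelta_apply_of_notMem H ρA' g₀ a' t (fun h => hne (hT.eq_of_mem H ht hg₀ h)),
      map_zero, smul_zero]
  · intro h
    exact absurd hg₀ h

theorem indPairing_indDelta_left [H.FiniteIndex] (χ : G →* kˣ) (hχ : H ≤ χ.ker)
    (b : A →ₗ[k] A' →ₗ[k] k) (hb : ∀ (h : H) a a', b (ρA h a) (ρA' h a') = b a a')
    (g₀ : G) (a : A) (F' : ↥(indSpace H ρA')) :
    indPairing H ρA ρA' χ b (indDelta H ρA g₀ a) F' = ((χ g₀)⁻¹ : kˣ) • b a (F'.1 g₀) := by
  obtain ⟨T, hT, hg₀⟩ := exists_isIndTransv_mem H g₀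
  rw [indPairing_apply H ρA ρA' χ hχ b hb _ _ T hT, Finset.sum_eq_single g₀,
    indDelta_apply_self]
  · intro t ht hne
    rw [indDelta_apply_of_notMem H ρA g₀ a t (fun h => hne (hT.eq_of_mem H ht hg₀ h)),
      map_zero, LinearMap.zero_apply, smul_zero]
  · intro h
    exact absurd hg₀ h

theorem indPairing_nondeg_left [H.FiniteIndex] (χ : G →* kˣ) (hχ : H ≤ χ.ker)
    (b : A →ₗ[k] A' →ₗ[k] k) (hb : ∀ (h : H) a a', b (ρA h a) (ρA' h a') = b a a')
    (hnd : ∀ a, (∀ a', b a a' = 0) → a = 0) (F : ↥(indSpace H ρA))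
    (hF : ∀ F', indPairing H ρA ρA' χ b F F' = 0) : F = 0 := by
  apply Subtype.ext
  funext g
  refine hnd (F.1 g) fun a' => ?_
  have h1 := hF (indDelta H ρA' g a')
  rw [indPairing_indDelta_right H ρA ρA' χ hχ b hb, smul_eq_zero_iff_eq] at h1
  exact h1

theorem indPairing_nondeg_right [H.FiniteIndex] (χ : G →* kˣ) (hχ : H ≤ χ.ker)
    (b : A →ₗ[k] A' →ₗ[k] k) (hb : ∀ (h : H) a a', b (ρA h a) (ρA' h a') = b a a')
    (hnd : ∀ a', (∀ a, b a a' = 0) → a' = 0) (F' : ↥(indSpace H ρA'))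
    (hF : ∀ F, indPairing H ρA ρA' χ b F F' = 0) : F' = 0 := by
  apply Subtype.ext
  funext g
  refine hnd (F'.1 g) fun a => ?_
  have h1 := hF (indDelta H ρA g a)
  rw [indPairing_indDelta_left H ρA ρA' χ hχ b hb, smul_eq_zero_iff_eq] at h1
  exact h1

/-- naturality of the induced pairing: if `b₁ a (ψ a') = b₂ (φ a) a'` then the same holds
after `Ind` -/
theorem indPairing_natural [H.FiniteIndex] (χ : G →* kˣ)
    {B B' : Type*} [AddCommGroup B] [Module k B] [AddCommGroup B'] [Module k B']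
    (ρB : Representation k H B) (ρB' : Representation k H B')
    (b₁ : A →ₗ[k] A' →ₗ[k] k) (b₂ : B →ₗ[k] B' →ₗ[k] k)
    (φ : A →ₗ[k] B) (hφ : IsEquivariant ρA ρB φ) (ψ : B' →ₗ[k] A') (hψ : IsEquivariant ρB' ρA' ψ)
    (hadj : ∀ a b', b₂ (φ a) b' = b₁ a (ψ b'))
    (F : ↥(indSpace H ρA)) (F' : ↥(indSpace H ρB')) :
    indPairing H ρB ρB' χ b₂ (indMap H ρA ρB φ hφ F) F'
      = indPairing H ρA ρA' χ b₁ F (indMap H ρB' ρA' ψ hψ F') := by
  rw [indPairing_apply_out, indPairing_apply_out]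
  refine finsum_congr fun q => ?_
  rw [indMap_apply_val, indMap_apply_val, hadj]

/-! the summand maps for a `G`-representation `V` restricted to `H` -/

variable {V : Type*} [AddCommGroup V] [Module k V] (ρV : Representation k G V)

/-- `V → Ind_H^G Res V`, `v ↦ (g ↦ g v)` -/
def indUnit : V →ₗ[k] ↥(indSpace H (ρV.comp H.subtype)) where
  toFun v := ⟨fun g => ρV g v, fun h g => by simp [map_mul]⟩
  map_add' _ _ := by ext; simp
  map_smul' _ _ := by ext; simp

theorem indUnit_equivariant :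
    IsEquivariant ρV (indRep H (ρV.comp H.subtype)) (indUnit H ρV) := by
  intro g v
  ext g'
  simp [indUnit, map_mul]

theorem indUnit_apply_val (v : V) (g : G) : (indUnit H ρV v).1 g = ρV g v := rfl

/-- the summand of the counit at `g : G` -/
def indCounitTerm (g : G) : ↥(indSpace H (ρV.comp H.subtype)) →ₗ[k] V :=
  LinearMap.comp (ρV g⁻¹) (indEval H (ρV.comp H.subtype) g)

theorem indCounitTerm_apply (g : G) (F : ↥(indSpace H (ρV.comp H.subtype))) :
    indCounitTerm H ρV g F = ρV g⁻¹ (F.1 g) := rfl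

/-- `Ind_H^G Res V → V`, `F ↦ Σ_{Hg} g⁻¹ F(g)` (finite sum over right cosets) -/
noncomputable def indCounit : ↥(indSpace H (ρV.comp H.subtype)) →ₗ[k] V :=
  ∑ᶠ q : Quotient (QuotientGroup.rightRel H), indCounitTerm H ρV q.out

theorem indCounit_apply [H.FiniteIndex] (F : ↥(indSpace H (ρV.comp H.subtype)))
    (T : Finset G) (hT : ∀ g : G, ∃! t, t ∈ T ∧ g * t⁻¹ ∈ H) :
    indCounit H ρV F = ∑ t ∈ T, ρV t⁻¹ (F.1 t) := by
  have hinv : ∀ (h : H) (g : G), indCounitTerm H ρV ((h : G) * g) = indCounitTerm H ρV g := by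
    intro h g
    refine LinearMap.ext fun F => ?_
    rw [indCounitTerm_apply, indCounitTerm_apply, F.2 h g, ← Module.End.mul_apply]
    show (ρV ((h : G) * g)⁻¹ * ρV (h : G)) (F.1 g) = ρV g⁻¹ (F.1 g)
    rw [← map_mul]
    congr 2
    group
  rw [indCounit, finsum_indCosetRep H _ hinv T hT, LinearMap.sum_apply]
  rfl

theorem indCounit_equivariant [H.FiniteIndex] :
    IsEquivariant (indRep H (ρV.comp H.subtype)) ρV (indCounit H ρV) := by
  classical
  intro g' F
  obtain ⟨T, hT⟩ := exists_isIndTransv H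
  rw [indCounit_apply H ρV _ T hT, indCounit_apply H ρV F _ (hT.mul_right g'),
    IsIndTransv.sum_mul_right, map_sum]
  refine Finset.sum_congr rfl fun t _ => ?_
  rw [indRep_apply, ← Module.End.mul_apply, ← map_mul]
  congr 2
  group

theorem indCounit_indUnit [H.FiniteIndex] (v : V) :
    indCounit H ρV (indUnit H ρV v) = (H.index : k) • v := by
  obtain ⟨T, hT⟩ := exists_isIndTransv H
  rw [indCounit_apply H ρV _ T hT, ← IsIndTransv.card_eq H hT]
  have h1 : ∀ t ∈ T, ρV t⁻¹ ((indUnit H ρV v).1 t) = v := by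
    intro t _
    rw [indUnit_apply_val, ← Module.End.mul_apply, ← map_mul, inv_mul_cancel, map_one,
      Module.End.one_apply]
  rw [Finset.sum_congr rfl h1, Finset.sum_const, Nat.cast_smul_eq_nsmul]

/-- the restriction to `H` of a `χ`-equivariant pairing is `H`-invariant if `H ≤ ker χ` -/
theorem indRes_invariant (χ : G →* kˣ) (hχ : H ≤ χ.ker)
    {W : Type*} [AddCommGroup W] [Module k W] (ρW : Representation k G W)
    (β : V →ₗ[k] W →ₗ[k] k) (hβ : IsEquivariant₂ ρV ρW (chiRep χ) β) (h : H) (a : V) (a' : W) :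
    β ((ρV.comp H.subtype) h a) ((ρW.comp H.subtype) h a') = β a a' := by
  have hχh : χ (h : G) = 1 := MonoidHom.mem_ker.1 (hχ h.2)
  show β (ρV (h : G) a) (ρW (h : G) a') = β a a'
  rw [hβ, chiRep_apply, hχh, Units.val_one, one_mul]

/-- adjunction of `indUnit` / `indCounit` with respect to a `χ`-equivariant pairing on `G` -/
theorem indPairing_indUnit_left [H.FiniteIndex] (χ : G →* kˣ) (hχ : H ≤ χ.ker)
    {W : Type*} [AddCommGroup W] [Module k W] (ρW : Representation k G W)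
    (β : V →ₗ[k] W →ₗ[k] k) (hβ : IsEquivariant₂ ρV ρW (chiRep χ) β)
    (v : V) (F' : ↥(indSpace H (ρW.comp H.subtype))) :
    indPairing H (ρV.comp H.subtype) (ρW.comp H.subtype) χ β (indUnit H ρV v) F'
      = β v (indCounit H ρW F') := by
  obtain ⟨T, hT⟩ := exists_isIndTransv H
  rw [indPairing_apply H _ _ χ hχ β (indRes_invariant H ρV χ hχ ρW β hβ) _ _ T hT,
    indCounit_apply H ρW _ T hT, map_sum]
  refine Finset.sum_congr rfl fun t _ => ?_
  have h1 := hβ t v (ρW t⁻¹ (F'.1 t))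
  rw [← Module.End.mul_apply (ρW t), ← map_mul, mul_inv_cancel, map_one, Module.End.one_apply,
    chiRep_apply] at h1
  rw [indUnit_apply_val, h1, Units.smul_def, smul_eq_mul, ← mul_assoc, Units.inv_mul, one_mul]

theorem indPairing_indUnit_right [H.FiniteIndex] (χ : G →* kˣ) (hχ : H ≤ χ.ker)
    {W : Type*} [AddCommGroup W] [Module k W] (ρW : Representation k G W)
    (β : V →ₗ[k] W →ₗ[k] k) (hβ : IsEquivariant₂ ρV ρW (chiRep χ) β)
    (F : ↥(indSpace H (ρV.comp H.subtype))) (w : W) :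
    indPairing H (ρV.comp H.subtype) (ρW.comp H.subtype) χ β F (indUnit H ρW w)
      = β (indCounit H ρV F) w := by
  obtain ⟨T, hT⟩ := exists_isIndTransv H
  rw [indPairing_apply H _ _ χ hχ β (indRes_invariant H ρV χ hχ ρW β hβ) _ _ T hT,
    indCounit_apply H ρV _ T hT, map_sum, LinearMap.sum_apply]
  refine Finset.sum_congr rfl fun t _ => ?_
  have h1 := hβ t (ρV t⁻¹ (F.1 t)) w
  rw [← Module.End.mul_apply (ρV t), ← map_mul, mul_inv_cancel, map_one, Module.End.one_apply,
    chiRep_apply] at h1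
  rw [indUnit_apply_val, h1, Units.smul_def, smul_eq_mul, ← mul_assoc, Units.inv_mul, one_mul]

end Ind

end Fermat.Agent.S55
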