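import Fermat.Agent.S55.Top.ExtSpec

/-!
# S55 top layer, leaf T-CRIT-A: cohomology-level cup products, the local pairings and
`θ^i (∂ b) = ⟨b, loc ·⟩`.

This is `Top/CritSpec.lean` from the top down to `theta1_bdry1`, plus `pair20_eq_sum`,
`pair11_eq_sum`, `pair02_eq_sum`, with every placeholder replaced:

* `cupH20, cupH11, cupH02`: the cup products `H² × H⁰ → H²`, `H¹ × H¹ → H²`, `H⁰ × H² → H²` on
  smooth cohomology (descended from `cup20, cup11, cup02` on cocycles by the Leibniz rules of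
  `CupSpec`), with `cupH20_mk, cupH11_mk, cupH02_mk` (all `rfl`);
* `PairingData.loc, trLoc, pair20, pair11, pair02` verbatim;
* `theta3_bdry3, theta2_bdry2, theta1_bdry1` (on representatives, via `bdry2_mk / bdry3_mk`);
* `pair20_eq_sum, pair11_eq_sum, pair02_eq_sum`.

Auxiliary names have the prefix `crita`.
-/

set_option autoImplicit false

namespace Fermat.Agent.S55

variable {k : Type*} [Field k] {G : Type*} [Group G]
  {V W Z : Type*} [AddCommGroup V] [Module k V] [AddCommGroup W] [Module k W]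
  [AddCommGroup Z] [Module k Z]
  {ρV : Representation k G V} {ρW : Representation k G W} {ρZ : Representation k G Z}
  {β : V →ₗ[k] W →ₗ[k] Z}

section CupH

variable {𝓛 : Levels G} (P : PairingData 𝓛 ρV ρW ρZ β)

include P in
theorem crita_cup20_mem (a : ↥(smZ2 𝓛 ρV)) (w : ↥(smH0 ρW)) :
    cup20 β ρW (a : G × G → V) (w : W) ∈ smZ2 𝓛 ρZ := by
  refine ⟨LinearMap.mem_ker.2 ?_, cup20_isLC P.smW a.2.2 _⟩
  have ha : dd2 ρV (a : G × G → V) = 0 := LinearMap.mem_ker.1 a.2.1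
  have hw : dd0 ρW (w : W) = 0 := LinearMap.mem_ker.1 w.2
  rw [dd2_cup20 P.equiv, ha, hw, map_zero, LinearMap.zero_apply, map_zero, add_zero]

include P in
theorem crita_cup11_mem (a : ↥(smZ1 𝓛 ρV)) (f : ↥(smZ1 𝓛 ρW)) :
    cup11 β ρW (a : G → V) (f : G → W) ∈ smZ2 𝓛 ρZ := by
  refine ⟨LinearMap.mem_ker.2 ?_, cup11_isLC P.smW a.2.2 f.2.2⟩
  have ha : dd1 ρV (a : G → V) = 0 := LinearMap.mem_ker.1 a.2.1
  have hf : dd1 ρW (f : G → W) = 0 := LinearMap.mem_ker.1 f.2.1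
  rw [dd2_cup11 P.equiv, ha, hf, map_zero, LinearMap.zero_apply, map_zero, sub_zero]

include P in
theorem crita_cup02_mem (m : ↥(smH0 ρV)) (f : ↥(smZ2 𝓛 ρW)) :
    cup02 β (m : V) (f : G × G → W) ∈ smZ2 𝓛 ρZ := by
  refine ⟨LinearMap.mem_ker.2 ?_, cup02_isLC _ f.2.2⟩
  have hm : dd0 ρV (m : V) = 0 := LinearMap.mem_ker.1 m.2
  have hf : dd2 ρW (f : G × G → W) = 0 := LinearMap.mem_ker.1 f.2.1
  rw [dd2_cup02 P.equiv _ hf, hm, map_zero, LinearMap.zero_apply]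

/-- cup product on cocycles `Z² × H⁰ → H²` -/
noncomputable def critaCupZ20 : ↥(smZ2 𝓛 ρV) →ₗ[k] ↥(smH0 ρW) →ₗ[k] smH2 𝓛 ρZ :=
  LinearMap.mk₂ k (fun a w => smH2π 𝓛 ρZ ⟨cup20 β ρW (a : G × G → V) (w : W),
      crita_cup20_mem P a w⟩)
    (fun a a' w => by
      rw [← map_add]; congr 1; apply Subtype.ext
      exact LinearMap.map_add₂ (cup20 β ρW) _ _ _)
    (fun c a w => by
      rw [← map_smul]; congr 1; apply Subtype.ext
      exact LinearMap.map_smul₂ (cup20 β ρW) _ _ _)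
    (fun a w w' => by
      rw [← map_add]; congr 1; apply Subtype.ext
      exact map_add (cup20 β ρW _) _ _)
    (fun c a w => by
      rw [← map_smul]; congr 1; apply Subtype.ext
      exact map_smul (cup20 β ρW _) _ _)

/-- `H² × H⁰ → H²` -/
noncomputable def cupH20 : smH2 𝓛 ρV →ₗ[k] ↥(smH0 ρW) →ₗ[k] smH2 𝓛 ρZ :=
  Submodule.liftQ _ (critaCupZ20 P) (by
    rintro a ⟨x, hx, hxa⟩
    rw [LinearMap.mem_ker]
    ext w
    rw [LinearMap.zero_apply]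
    refine (smH2π_eq_zero_iff 𝓛 ρZ _).2 ?_
    refine (mem_smB2 𝓛 ρZ _).2 ⟨cup10 β ρW x (w : W), cup10_isLC P.smW hx _, ?_⟩
    have hw : dd0 ρW (w : W) = 0 := LinearMap.mem_ker.1 w.2
    have hxa' : dd1 ρV x = (a : G × G → V) := hxa
    show dd1 ρZ (cup10 β ρW x (w : W)) = cup20 β ρW (a : G × G → V) (w : W)
    rw [dd1_cup10 P.equiv, hxa', hw, map_zero, sub_zero])

theorem cupH20_mk (a : ↥(smZ2 𝓛 ρV)) (w : ↥(smH0 ρW))
    (h : cup20 β ρW (a : G × G → V) (w : W) ∈ smZ2 𝓛 ρZ) :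
    cupH20 P (smH2π 𝓛 ρV a) w = smH2π 𝓛 ρZ ⟨_, h⟩ := rfl
/-- cup product on cocycles `Z¹ × Z¹ → H²` -/
noncomputable def critaCupZ11 : ↥(smZ1 𝓛 ρV) →ₗ[k] ↥(smZ1 𝓛 ρW) →ₗ[k] smH2 𝓛 ρZ :=
  LinearMap.mk₂ k (fun a f => smH2π 𝓛 ρZ ⟨cup11 β ρW (a : G → V) (f : G → W),
      crita_cup11_mem P a f⟩)
    (fun a a' w => by
      rw [← map_add]; congr 1; apply Subtype.ext
      exact LinearMap.map_add₂ (cup11 β ρW) _ _ _)
    (fun c a w => by
      rw [← map_smul]; congr 1; apply Subtype.ext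
      exact LinearMap.map_smul₂ (cup11 β ρW) _ _ _)
    (fun a w w' => by
      rw [← map_add]; congr 1; apply Subtype.ext
      exact map_add (cup11 β ρW _) _ _)
    (fun c a w => by
      rw [← map_smul]; congr 1; apply Subtype.ext
      exact map_smul (cup11 β ρW _) _ _)

/-- `H¹ × H¹ → H²` -/
noncomputable def cupH11 : smH1 𝓛 ρV →ₗ[k] smH1 𝓛 ρW →ₗ[k] smH2 𝓛 ρZ :=
  (critaCupZ11 P).liftQ₂ _ _
    (by
      rintro a ⟨m, hm⟩
      rw [LinearMap.mem_ker]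
      ext f
      rw [LinearMap.zero_apply]
      refine (smH2π_eq_zero_iff 𝓛 ρZ _).2 ?_
      refine (mem_smB2 𝓛 ρZ _).2 ⟨cup01 β m (f : G → W), cup01_isLC _ f.2.2, ?_⟩
      have hf : dd1 ρW (f : G → W) = 0 := LinearMap.mem_ker.1 f.2.1
      have hm' : dd0 ρV m = (a : G → V) := hm
      show dd1 ρZ (cup01 β m (f : G → W)) = cup11 β ρW (a : G → V) (f : G → W)
      rw [dd1_cup01 P.equiv, hm', hf, map_zero, add_zero])
    (by
      rintro f ⟨w, hw⟩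
      rw [LinearMap.mem_ker]
      ext a
      rw [LinearMap.zero_apply, LinearMap.flip_apply]
      refine (smH2π_eq_zero_iff 𝓛 ρZ _).2 ?_
      refine (mem_smB2 𝓛 ρZ _).2 ⟨- cup10 β ρW (a : G → V) w, ?_, ?_⟩
      · exact (smC1 𝓛 k Z).neg_mem (cup10_isLC P.smW a.2.2 _)
      · have ha : dd1 ρV (a : G → V) = 0 := LinearMap.mem_ker.1 a.2.1
        have hw' : dd0 ρW w = (f : G → W) := hw
        show dd1 ρZ (- cup10 β ρW (a : G → V) w) = cup11 β ρW (a : G → V) (f : G → W)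
        rw [map_neg, dd1_cup10 P.equiv, ha, hw', map_zero, LinearMap.zero_apply, zero_sub,
          neg_neg])

theorem cupH11_mk (a : ↥(smZ1 𝓛 ρV)) (f : ↥(smZ1 𝓛 ρW))
    (h : cup11 β ρW (a : G → V) (f : G → W) ∈ smZ2 𝓛 ρZ) :
    cupH11 P (smH1π 𝓛 ρV a) (smH1π 𝓛 ρW f) = smH2π 𝓛 ρZ ⟨_, h⟩ := rfl

/-- cup product on cocycles `H⁰ × Z² → H²` -/
noncomputable def critaCupZ02 : ↥(smH0 ρV) →ₗ[k] ↥(smZ2 𝓛 ρW) →ₗ[k] smH2 𝓛 ρZ :=
  LinearMap.mk₂ k (fun m f => smH2π 𝓛 ρZ ⟨cup02 β (m : V) (f : G × G → W),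
      crita_cup02_mem P m f⟩)
    (fun a a' w => by
      rw [← map_add]; congr 1; apply Subtype.ext
      exact LinearMap.map_add₂ (cup02 β) _ _ _)
    (fun c a w => by
      rw [← map_smul]; congr 1; apply Subtype.ext
      exact LinearMap.map_smul₂ (cup02 β) _ _ _)
    (fun a w w' => by
      rw [← map_add]; congr 1; apply Subtype.ext
      exact map_add (cup02 β _) _ _)
    (fun c a w => by
      rw [← map_smul]; congr 1; apply Subtype.ext
      exact map_smul (cup02 β _) _ _)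

/-- `H⁰ × H² → H²` -/
noncomputable def cupH02 : ↥(smH0 ρV) →ₗ[k] smH2 𝓛 ρW →ₗ[k] smH2 𝓛 ρZ :=
  (Submodule.liftQ _ (critaCupZ02 P).flip (by
    rintro f ⟨x, hx, hxf⟩
    rw [LinearMap.mem_ker]
    ext m
    rw [LinearMap.zero_apply, LinearMap.flip_apply]
    refine (smH2π_eq_zero_iff 𝓛 ρZ _).2 ?_
    refine (mem_smB2 𝓛 ρZ _).2 ⟨cup01 β (m : V) x, cup01_isLC _ hx, ?_⟩
    have hm : dd0 ρV (m : V) = 0 := LinearMap.mem_ker.1 m.2
    have hxf' : dd1 ρW x = (f : G × G → W) := hxf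
    show dd1 ρZ (cup01 β (m : V) x) = cup02 β (m : V) (f : G × G → W)
    rw [dd1_cup01 P.equiv, hm, hxf', map_zero, LinearMap.zero_apply, zero_add])).flip

theorem cupH02_mk (m : ↥(smH0 ρV)) (f : ↥(smZ2 𝓛 ρW))
    (h : cup02 β (m : V) (f : G × G → W) ∈ smZ2 𝓛 ρZ) :
    cupH02 P m (smH2π 𝓛 ρW f) = smH2π 𝓛 ρZ ⟨_, h⟩ := rfl

end CupH
variable {𝓛 : Levels G} {ι : Type*} {Γ : ι → Type*} [∀ v, Group (Γ v)] (D : LocSys 𝓛 ι Γ)
  (P : PairingData 𝓛 ρV ρW ρZ β)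

/-- the pairing data restricted to the local group at `v` -/
theorem PairingData.loc (P : PairingData 𝓛 ρV ρW ρZ β) (D : LocSys 𝓛 ι Γ) (v : ι) :
    PairingData (D.lev v) (D.rep ρV v) (D.rep ρW v) (D.rep ρZ v) β :=
  ⟨IsSmoothRep.comp_hom (D.cont v) P.smV, IsSmoothRep.comp_hom (D.cont v) P.smW,
    IsSmoothRep.comp_hom (D.cont v) P.smZ, fun g v w => P.equiv (D.r _ g) v w⟩

variable (tr : smHc3 D ρZ →ₗ[k] k)

/-- the local trace `tr ∘ ∂ : ∏_v H²(Γ_v, Z) → k` (`= Σ_v inv_v` in the application) -/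
noncomputable def trLoc : (∀ v, smH2 (D.lev v) (D.rep ρZ v)) →ₗ[k] k :=
  tr.comp (bdry3 D (ρ := ρZ))

/-- local pairing `P²(V) × P⁰(W) → k` -/
noncomputable def pair20 : (∀ v, smH2 (D.lev v) (D.rep ρV v)) →ₗ[k]
    (∀ v, ↥(smH0 (D.rep ρW v))) →ₗ[k] k :=
  LinearMap.mk₂ k (fun b c => trLoc D tr (fun v => cupH20 (P.loc D v) (b v) (c v)))
    (fun _ _ _ => by rw [← map_add]; congr 1; ext v; simp)
    (fun _ _ _ => by rw [← map_smul]; congr 1; ext v; simp)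
    (fun _ _ _ => by rw [← map_add]; congr 1; ext v; simp)
    (fun _ _ _ => by rw [← map_smul]; congr 1; ext v; simp)

/-- local pairing `P¹(V) × P¹(W) → k` -/
noncomputable def pair11 : (∀ v, smH1 (D.lev v) (D.rep ρV v)) →ₗ[k]
    (∀ v, smH1 (D.lev v) (D.rep ρW v)) →ₗ[k] k :=
  LinearMap.mk₂ k (fun b c => trLoc D tr (fun v => cupH11 (P.loc D v) (b v) (c v)))
    (fun _ _ _ => by rw [← map_add]; congr 1; ext v; simp)
    (fun _ _ _ => by rw [← map_smul]; congr 1; ext v; simp)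
    (fun _ _ _ => by rw [← map_add]; congr 1; ext v; simp)
    (fun _ _ _ => by rw [← map_smul]; congr 1; ext v; simp)

/-- local pairing `P⁰(V) × P²(W) → k` -/
noncomputable def pair02 : (∀ v, ↥(smH0 (D.rep ρV v))) →ₗ[k]
    (∀ v, smH2 (D.lev v) (D.rep ρW v)) →ₗ[k] k :=
  LinearMap.mk₂ k (fun b c => trLoc D tr (fun v => cupH02 (P.loc D v) (b v) (c v)))
    (fun _ _ _ => by rw [← map_add]; congr 1; ext v; simp)
    (fun _ _ _ => by rw [← map_smul]; congr 1; ext v; simp)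
    (fun _ _ _ => by rw [← map_add]; congr 1; ext v; simp)
    (fun _ _ _ => by rw [← map_smul]; congr 1; ext v; simp)

section Bdry

/-- representatives for a family of local classes -/
theorem crita_exists_rep2 {U : Type*} [AddCommGroup U] [Module k U] {ρ : Representation k G U}
    (b : ∀ v, smH2 (D.lev v) (D.rep ρ v)) :
    ∃ b₀ : ∀ v, ↥(smZ2 (D.lev v) (D.rep ρ v)), b = fun v => smH2π (D.lev v) (D.rep ρ v) (b₀ v) := by
  choose b₀ hb₀ using fun v => Submodule.Quotient.mk_surjective _ (b v)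
  exact ⟨b₀, funext fun v => (hb₀ v).symm⟩

theorem crita_exists_rep1 {U : Type*} [AddCommGroup U] [Module k U] {ρ : Representation k G U}
    (b : ∀ v, smH1 (D.lev v) (D.rep ρ v)) :
    ∃ b₀ : ∀ v, ↥(smZ1 (D.lev v) (D.rep ρ v)), b = fun v => smH1π (D.lev v) (D.rep ρ v) (b₀ v) := by
  choose b₀ hb₀ using fun v => Submodule.Quotient.mk_surjective _ (b v)
  exact ⟨b₀, funext fun v => (hb₀ v).symm⟩

/-- `(0, (b_v)_v)` is a smooth cone `3`-cocycle for local smooth `2`-cocycles `b_v` -/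
theorem crita_zero_mem_smZc3 {U : Type*} [AddCommGroup U] [Module k U] {ρ : Representation k G U}
    (b : ∀ v, ↥(smZ2 (D.lev v) (D.rep ρ v))) :
    ((0 : G × G × G → U), fun v => ((b v : ↥(smZ2 (D.lev v) (D.rep ρ v))) : Γ v × Γ v → U))
      ∈ smZc3 D ρ := by
  rw [mem_smZc3]
  refine ⟨⟨map_zero _, fun v => ?_⟩, isLC₃_const 𝓛 (0 : U), fun v => (b v).2.2⟩
  rw [map_zero]
  exact (LinearMap.mem_ker.1 (b v).2.1).symm
/-- `θ³ (∂ b) (w) = ⟨b, loc w⟩` -/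
theorem theta3_bdry3 (b : ∀ v, smH2 (D.lev v) (D.rep ρV v)) (w : ↥(smH0 ρW)) :
    theta3 D P tr (bdry3 D (ρ := ρV) b) w = pair20 D P tr b (locP0 D (ρ := ρW) w) := by
  obtain ⟨b₀, rfl⟩ := crita_exists_rep2 D b
  rw [bdry3_mk D b₀ (crita_zero_mem_smZc3 D b₀), theta3_mk]
  show tr _ = tr (bdry3 D (ρ := ρZ) (fun v => cupH20 (P.loc D v)
    (smH2π (D.lev v) (D.rep ρV v) (b₀ v)) (locP0 D (ρ := ρW) w v)))
  have h1 : (fun v => cupH20 (P.loc D v) (smH2π (D.lev v) (D.rep ρV v) (b₀ v))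
      (locP0 D (ρ := ρW) w v)) = fun v => smH2π (D.lev v) (D.rep ρZ v)
        ⟨cup20 β (D.rep ρW v) (b₀ v : Γ v × Γ v → V) (w : W),
          crita_cup20_mem (P.loc D v) (b₀ v) (locP0 D (ρ := ρW) w v)⟩ := by
    funext v
    exact cupH20_mk (P.loc D v) (b₀ v) (locP0 D (ρ := ρW) w v) _
  rw [h1, bdry3_mk D (fun v => ⟨cup20 β (D.rep ρW v) (b₀ v : Γ v × Γ v → V) (w : W),
    crita_cup20_mem (P.loc D v) (b₀ v) (locP0 D (ρ := ρW) w v)⟩)
    (crita_zero_mem_smZc3 D _)]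
  congr 2
  apply Subtype.ext
  show cupc3 β ρW D ((0 : G × G × G → V), fun v => (b₀ v : Γ v × Γ v → V)) (w : W) = _
  rw [cupc3_apply]
  refine Prod.ext ?_ rfl
  show cup30 β ρW 0 (w : W) = 0
  rw [map_zero, LinearMap.zero_apply]
/-- `(0, (b_v)_v)` is a smooth cone `2`-cocycle for local smooth `1`-cocycles `b_v` -/
theorem crita_zero_mem_smZc2 {U : Type*} [AddCommGroup U] [Module k U] {ρ : Representation k G U}
    (b : ∀ v, ↥(smZ1 (D.lev v) (D.rep ρ v))) :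
    ((0 : G × G → U), fun v => ((b v : ↥(smZ1 (D.lev v) (D.rep ρ v))) : Γ v → U))
      ∈ smZc2 D ρ := by
  rw [mem_smZc2]
  refine ⟨⟨map_zero _, fun v => ?_⟩, isLC₂_const 𝓛 (0 : U), fun v => (b v).2.2⟩
  rw [map_zero]
  exact (LinearMap.mem_ker.1 (b v).2.1).symm

/-- `θ² (∂ b) (y) = ⟨b, loc y⟩` -/
theorem theta2_bdry2 (b : ∀ v, smH1 (D.lev v) (D.rep ρV v)) (y : smH1 𝓛 ρW) :
    theta2 D P tr (bdry2 D (ρ := ρV) b) y = pair11 D P tr b (locP1 D (ρ := ρW) y) := by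
  obtain ⟨b₀, rfl⟩ := crita_exists_rep1 D b
  induction y using Submodule.Quotient.induction_on with | _ f =>
  rw [bdry2_mk D b₀ (crita_zero_mem_smZc2 D b₀)]
  show theta2 D P tr (smHc2π D ρV _) (smH1π 𝓛 ρW f) = _
  rw [theta2_mk]
  show tr _ = tr (bdry3 D (ρ := ρZ) (fun v => cupH11 (P.loc D v)
    (smH1π (D.lev v) (D.rep ρV v) (b₀ v)) (locP1 D (ρ := ρW) (smH1π 𝓛 ρW f) v)))
  have h1 : (fun v => cupH11 (P.loc D v) (smH1π (D.lev v) (D.rep ρV v) (b₀ v))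
      (locP1 D (ρ := ρW) (smH1π 𝓛 ρW f) v)) = fun v => smH2π (D.lev v) (D.rep ρZ v)
        ⟨cup11 β (D.rep ρW v) (b₀ v : Γ v → V) (res1 k (D.r v) (f : G → W)),
          crita_cup11_mem (P.loc D v) (b₀ v) (smZ1res ρW (D.cont v) f)⟩ := by
    funext v
    exact cupH11_mk (P.loc D v) (b₀ v) (smZ1res ρW (D.cont v) f) _
  rw [h1, bdry3_mk D (fun v => ⟨cup11 β (D.rep ρW v) (b₀ v : Γ v → V)
      (res1 k (D.r v) (f : G → W)),
    crita_cup11_mem (P.loc D v) (b₀ v) (smZ1res ρW (D.cont v) f)⟩)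
    (crita_zero_mem_smZc3 D _)]
  congr 2
  apply Subtype.ext
  show cupc2 β ρW D ((0 : G × G → V), fun v => (b₀ v : Γ v → V)) (f : G → W) = _
  rw [cupc2_apply]
  refine Prod.ext ?_ rfl
  show cup21 β ρW 0 (f : G → W) = 0
  rw [map_zero, LinearMap.zero_apply]

/-- `θ¹ (∂ b) (y) = ⟨b, loc y⟩` -/
theorem theta1_bdry1 (b : ∀ v, ↥(smH0 (D.rep ρV v))) (y : smH2 𝓛 ρW) :
    theta1 D P tr (bdry1 D (ρ := ρV) b) y = pair02 D P tr b (locP2 D (ρ := ρW) y) := by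
  induction y using Submodule.Quotient.induction_on with | _ f =>
  show theta1 D P tr (smHc1π D ρV _) (smH2π 𝓛 ρW f) = _
  rw [theta1_mk]
  show tr _ = tr (bdry3 D (ρ := ρZ) (fun v => cupH02 (P.loc D v) (b v)
    (locP2 D (ρ := ρW) (smH2π 𝓛 ρW f) v)))
  have h1 : (fun v => cupH02 (P.loc D v) (b v) (locP2 D (ρ := ρW) (smH2π 𝓛 ρW f) v))
      = fun v => smH2π (D.lev v) (D.rep ρZ v)
        ⟨cup02 β ((b v : ↥(smH0 (D.rep ρV v))) : V) (res2 k (D.r v) (f : G × G → W)),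
          crita_cup02_mem (P.loc D v) (b v) (smZ2res ρW (D.cont v) f)⟩ := by
    funext v
    exact cupH02_mk (P.loc D v) (b v) (smZ2res ρW (D.cont v) f) _
  rw [h1, bdry3_mk D (fun v => ⟨cup02 β ((b v : ↥(smH0 (D.rep ρV v))) : V)
      (res2 k (D.r v) (f : G × G → W)),
    crita_cup02_mem (P.loc D v) (b v) (smZ2res ρW (D.cont v) f)⟩)
    (crita_zero_mem_smZc3 D _)]
  congr 2
  apply Subtype.ext
  show cupc1 β ρW D ((0 : G → V), fun v => ((b v : ↥(smH0 (D.rep ρV v))) : V))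
    (f : G × G → W) = _
  rw [cupc1_apply]
  refine Prod.ext ?_ rfl
  show cup12 β ρW 0 (f : G × G → W) = 0
  rw [map_zero, LinearMap.zero_apply]
end Bdry

section Sum

/-- for a finite index set the local pairings are sums of the local terms -/
theorem pair20_eq_sum [Fintype ι] [DecidableEq ι] (b : ∀ v, smH2 (D.lev v) (D.rep ρV v))
    (c : ∀ v, ↥(smH0 (D.rep ρW v))) :
    pair20 D P tr b c
      = ∑ v, trLoc D tr (Pi.single v (cupH20 (P.loc D v) (b v) (c v))) := by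
  show trLoc D tr (fun v => cupH20 (P.loc D v) (b v) (c v)) = _
  rw [← map_sum]
  congr 1
  exact (Finset.univ_sum_single (fun v => cupH20 (P.loc D v) (b v) (c v))).symm

theorem pair11_eq_sum [Fintype ι] [DecidableEq ι] (b : ∀ v, smH1 (D.lev v) (D.rep ρV v))
    (c : ∀ v, smH1 (D.lev v) (D.rep ρW v)) :
    pair11 D P tr b c
      = ∑ v, trLoc D tr (Pi.single v (cupH11 (P.loc D v) (b v) (c v))) := by
  show trLoc D tr (fun v => cupH11 (P.loc D v) (b v) (c v)) = _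
  rw [← map_sum]
  congr 1
  exact (Finset.univ_sum_single (fun v => cupH11 (P.loc D v) (b v) (c v))).symm

theorem pair02_eq_sum [Fintype ι] [DecidableEq ι] (b : ∀ v, ↥(smH0 (D.rep ρV v)))
    (c : ∀ v, smH2 (D.lev v) (D.rep ρW v)) :
    pair02 D P tr b c
      = ∑ v, trLoc D tr (Pi.single v (cupH02 (P.loc D v) (b v) (c v))) := by
  show trLoc D tr (fun v => cupH02 (P.loc D v) (b v) (c v)) = _
  rw [← map_sum]
  congr 1
  exact (Finset.univ_sum_single (fun v => cupH02 (P.loc D v) (b v) (c v))).symm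

end Sum

end Fermat.Agent.S55
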