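import Fermat.Agent.S55.Top.ThetaSpec

/-!
# S55 top layer, leaf T-FINAL: the non-degenerate pairing `Ш¹(W) × Ш²(V) → k`.

`fin_exists_pairing` is the underlying linear algebra: two maps `j₁ : B → X`, `j₂ : A → Y`,
two surjections `θ₂ : A → X*`, `θ₁ : B → Y*` which are adjoint with respect to `j₁`, `j₂` induce a
perfect pairing `range j₁ × range j₂ → k`.
-/

set_option autoImplicit false

namespace Fermat.Agent.S55

section LinearAlgebra

variable {k : Type*} [Field k] {A B X Y : Type*} [AddCommGroup A] [Module k A] [AddCommGroup B]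
  [Module k B] [AddCommGroup X] [Module k X] [AddCommGroup Y] [Module k Y]

/-- the abstract pairing lemma behind T-FINAL -/
theorem fin_exists_pairing (j₁ : B →ₗ[k] X) (j₂ : A →ₗ[k] Y)
    (θ₂ : A →ₗ[k] Module.Dual k X) (θ₁ : B →ₗ[k] Module.Dual k Y)
    (hadj : ∀ a b, θ₂ a (j₁ b) = θ₁ b (j₂ a))
    (h2 : Function.Surjective θ₂) (h1 : Function.Surjective θ₁)
    (S₁ : Submodule k X) (S₂ : Submodule k Y)
    (hS₁ : S₁ = LinearMap.range j₁) (hS₂ : S₂ = LinearMap.range j₂) :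
    ∃ Bp : ↥S₁ →ₗ[k] ↥S₂ →ₗ[k] k,
      (∀ y, (∀ x, Bp y x = 0) → y = 0) ∧ (∀ x, (∀ y, Bp y x = 0) → x = 0) := by
  subst hS₁ hS₂
  -- `T b = θ₁ b` restricted to `range j₂`
  let T : B →ₗ[k] Module.Dual k ↥(LinearMap.range j₂) :=
    (LinearMap.range j₂).subtype.dualMap.comp θ₁
  have hT : LinearMap.ker j₁ ≤ LinearMap.ker T := by
    intro b hb
    rw [LinearMap.mem_ker] at hb ⊢
    refine LinearMap.ext fun x => ?_
    obtain ⟨x, a, rfl⟩ := x
    show θ₁ b (j₂ a) = 0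
    rw [← hadj, hb, map_zero]
  let Bp : ↥(LinearMap.range j₁) →ₗ[k] ↥(LinearMap.range j₂) →ₗ[k] k :=
    ((LinearMap.ker j₁).liftQ T hT).comp (LinearMap.quotKerEquivRange j₁).symm.toLinearMap
  have hBp : ∀ (b : B) (a : A), Bp ⟨j₁ b, b, rfl⟩ ⟨j₂ a, a, rfl⟩ = θ₁ b (j₂ a) := by
    intro b a
    have hsymm : (LinearMap.quotKerEquivRange j₁).symm ⟨j₁ b, b, rfl⟩
        = (LinearMap.ker j₁).mkQ b := by
      rw [LinearEquiv.symm_apply_eq]
      exact Subtype.ext (LinearMap.quotKerEquivRange_apply_mk j₁ b).symm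
    show ((LinearMap.ker j₁).liftQ T hT) ((LinearMap.quotKerEquivRange j₁).symm ⟨j₁ b, b, rfl⟩)
      ⟨j₂ a, a, rfl⟩ = θ₁ b (j₂ a)
    rw [hsymm]
    rfl
  refine ⟨Bp, ?_, ?_⟩
  · rintro ⟨y, b, rfl⟩ hy
    apply Subtype.ext
    show j₁ b = 0
    rw [← Module.forall_dual_apply_eq_zero_iff k]
    intro φ
    obtain ⟨a, rfl⟩ := h2 φ
    rw [hadj, ← hBp b a]
    exact hy _
  · rintro ⟨x, a, rfl⟩ hx
    apply Subtype.ext
    show j₂ a = 0
    rw [← Module.forall_dual_apply_eq_zero_iff k]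
    intro φ
    obtain ⟨b, rfl⟩ := h1 φ
    rw [← hBp b a]
    exact hx _

end LinearAlgebra

variable {k : Type*} [Field k] {G : Type*} [Group G] {𝓛 : Levels G}
  {ι : Type*} {Γ : ι → Type*} [∀ v, Group (Γ v)] (D : LocSys 𝓛 ι Γ)

section Final

variable {V W Z : Type*} [AddCommGroup V] [Module k V] [AddCommGroup W] [Module k W]
  [AddCommGroup Z] [Module k Z]
  {ρV : Representation k G V} {ρW : Representation k G W} {ρZ : Representation k G Z}
  {β : V →ₗ[k] W →ₗ[k] Z}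

/-- `Ш¹ = ker (H¹(G) → ∏_v H¹(Γ v))` -/
def sha1 (ρ : Representation k G W) : Submodule k (smH1 𝓛 ρ) := LinearMap.ker (locP1 D (ρ := ρ))
/-- `Ш² = ker (H²(G) → ∏_v H²(Γ v))` -/
def sha2 (ρ : Representation k G V) : Submodule k (smH2 𝓛 ρ) := LinearMap.ker (locP2 D (ρ := ρ))

/-- T-FINAL: if `θ²_V` and `θ¹_W` (flipped pairing) are surjective then there is a bilinear
pairing `Ш¹(W) × Ш²(V) → k`, non-degenerate on both sides. -/
theorem exists_sha_pairing (P : PairingData 𝓛 ρV ρW ρZ β) (P' : PairingData 𝓛 ρW ρV ρZ β.flip)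
    (tr : smHc3 D ρZ →ₗ[k] k)
    (h2 : Function.Surjective (theta2 D P tr)) (h1 : Function.Surjective (theta1 D P' tr)) :
    ∃ B : ↥(sha1 D ρW) →ₗ[k] ↥(sha2 D ρV) →ₗ[k] k,
      (∀ y, (∀ x, B y x = 0) → y = 0) ∧ (∀ x, (∀ y, B y x = 0) → x = 0) :=
  fin_exists_pairing (jc1 D (ρ := ρW)) (jc2 D (ρ := ρV)) (theta2 D P tr) (theta1 D P' tr)
    (theta2_jc1_eq_theta1_jc2 D P P' tr) h2 h1 (sha1 D ρW) (sha2 D ρV)
    (LinearMap.exact_iff.mp (exact_jc1_locP1 D P.smW))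
    (LinearMap.exact_iff.mp (exact_jc2_locP2 D P.smV))

end Final

end Fermat.Agent.S55
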