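import Fermat.Agent.S55.Top.PkgDefs

/-!
# S55 top layer, leaf T-SUMMAND: the duality package passes to direct summands.

Helper lemmas (prefix `sum_`): functoriality of `smH1map`, `smH2map`, `smHc2map`, `smHc3map` for a
composite which is a scalar.
-/

set_option autoImplicit false

namespace Fermat.Agent.S55

variable {k : Type*} [Field k] {G : Type*} [Group G] {𝓛 : Levels G}
  {ι : Type*} {Γ : ι → Type*} [∀ v, Group (Γ v)] (D : LocSys 𝓛 ι Γ)

section Functoriality

variable {V V' : Type*} [AddCommGroup V] [Module k V] [AddCommGroup V'] [Module k V']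
  {ρ : Representation k G V} {ρ' : Representation k G V'}
  (φ : V →ₗ[k] V') (ψ : V' →ₗ[k] V) (hφ : IsEquivariant ρ ρ' φ) (hψ : IsEquivariant ρ' ρ ψ)
  (c : k) (h : ∀ v, ψ (φ v) = c • v)

include h in
theorem sum_smH1map_smH1map (u : smH1 𝓛 ρ) :
    smH1map 𝓛 ψ hψ (smH1map 𝓛 φ hφ u) = c • u := by
  obtain ⟨z, rfl⟩ := Submodule.mkQ_surjective _ u
  rw [smH1map_mk, smH1map_mk, ← map_smul]
  congr 1
  apply Subtype.ext
  funext g
  exact h _

include h in
theorem sum_smH2map_smH2map (u : smH2 𝓛 ρ) :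
    smH2map 𝓛 ψ hψ (smH2map 𝓛 φ hφ u) = c • u := by
  obtain ⟨z, rfl⟩ := Submodule.mkQ_surjective _ u
  rw [smH2map_mk, smH2map_mk, ← map_smul]
  congr 1
  apply Subtype.ext
  funext g
  exact h _

include h in
theorem sum_smHc2map_smHc2map (u : smHc2 D ρ) :
    smHc2map D ψ hψ (smHc2map D φ hφ u) = c • u := by
  obtain ⟨z, rfl⟩ := Submodule.mkQ_surjective _ u
  rw [smHc2map_mk, smHc2map_mk, ← map_smul]
  congr 1
  apply Subtype.ext
  refine Prod.ext (funext fun p => h _) (funext fun v => funext fun g => h _)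

include h in
theorem sum_smHc3map_smHc3map (u : smHc3 D ρ) :
    smHc3map D ψ hψ (smHc3map D φ hφ u) = c • u := by
  obtain ⟨z, rfl⟩ := Submodule.mkQ_surjective _ u
  rw [smHc3map_mk, smHc3map_mk, ← map_smul]
  congr 1
  apply Subtype.ext
  refine Prod.ext (funext fun p => h _) (funext fun v => funext fun g => h _)

end Functoriality

section Summand

variable {V W V' W' Z : Type*} [AddCommGroup V] [Module k V] [AddCommGroup W] [Module k W]
  [AddCommGroup V'] [Module k V'] [AddCommGroup W'] [Module k W'] [AddCommGroup Z] [Module k Z]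
  {ρV : Representation k G V} {ρW : Representation k G W}
  {ρV' : Representation k G V'} {ρW' : Representation k G W'} {ρZ : Representation k G Z}
  {β : V →ₗ[k] W →ₗ[k] Z} {β' : V' →ₗ[k] W' →ₗ[k] Z}

/-- T-SUMMAND: `(V, W, β)` is a "summand up to the units `c, c'`" of `(V', W', β')`:
`iV : V → V'`, `pV : V' → V`, `iW : W → W'`, `pW : W' → W` equivariant with
`pV ∘ iV = c`, `pW ∘ iW = c'`, `β' (iV v) w' = β v (pW w')`, `β' v' (iW w) = β (pV v') w`. -/
theorem DualityPkg.of_summand (P : PairingData 𝓛 ρV ρW ρZ β) (P' : PairingData 𝓛 ρV' ρW' ρZ β')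
    (tr : smHc3 D ρZ →ₗ[k] k)
    (iV : V →ₗ[k] V') (pV : V' →ₗ[k] V) (iW : W →ₗ[k] W') (pW : W' →ₗ[k] W)
    (hiV : IsEquivariant ρV ρV' iV) (hpV : IsEquivariant ρV' ρV pV)
    (hiW : IsEquivariant ρW ρW' iW) (hpW : IsEquivariant ρW' ρW pW)
    (c c' : k) (hc : c ≠ 0) (hc' : c' ≠ 0)
    (hV : ∀ v, pV (iV v) = c • v) (hW : ∀ w, pW (iW w) = c' • w)
    (hadj₁ : ∀ v w', β' (iV v) w' = β v (pW w')) (hadj₂ : ∀ v' w, β' v' (iW w) = β (pV v') w)
    (h : DualityPkg D P' tr) : DualityPkg D P tr := by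
  have hadj₂' : ∀ v' w, β (pV v') w = β' v' (iW w) := fun v' w => (hadj₂ v' w).symm
  refine ⟨?_, ?_, ?_, ?_⟩
  · -- θ¹ surjective
    intro lam
    obtain ⟨u', hu'⟩ := h.surj1 (lam.comp (smH2map 𝓛 pW hpW))
    refine ⟨c'⁻¹ • smHc1map D pV hpV u', ?_⟩
    refine LinearMap.ext fun y => ?_
    rw [map_smul, LinearMap.smul_apply, theta1_natural D P' P tr pV iW hpV hiW hadj₂' u' y, hu',
      LinearMap.comp_apply, sum_smH2map_smH2map iW pW hiW hpW c' hW y, map_smul, smul_smul,
      inv_mul_cancel₀ hc', one_smul]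
  · -- θ² injective
    rw [injective_iff_map_eq_zero]
    intro u hu
    have h1 : theta2 D P' tr (smHc2map D iV hiV u) = 0 := by
      refine LinearMap.ext fun y => ?_
      rw [theta2_natural D P P' tr iV pW hiV hpW hadj₁ u y, hu]
      rfl
    have h2 : smHc2map D iV hiV u = 0 := h.inj2 (h1.trans (map_zero _).symm)
    have h3 := sum_smHc2map_smHc2map D iV pV hiV hpV c hV u
    rw [h2, map_zero] at h3
    exact (smul_eq_zero.mp h3.symm).resolve_left hc
  · -- θ² surjective
    intro lam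
    obtain ⟨u', hu'⟩ := h.surj2 (lam.comp (smH1map 𝓛 pW hpW))
    refine ⟨c'⁻¹ • smHc2map D pV hpV u', ?_⟩
    refine LinearMap.ext fun y => ?_
    rw [map_smul, LinearMap.smul_apply, theta2_natural D P' P tr pV iW hpV hiW hadj₂' u' y, hu',
      LinearMap.comp_apply, sum_smH1map_smH1map iW pW hiW hpW c' hW y, map_smul, smul_smul,
      inv_mul_cancel₀ hc', one_smul]
  · -- θ³ injective
    rw [injective_iff_map_eq_zero]
    intro u hu
    have h1 : theta3 D P' tr (smHc3map D iV hiV u) = 0 := by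
      refine LinearMap.ext fun y => ?_
      rw [theta3_natural D P P' tr iV pW hiV hpW hadj₁ u y, hu]
      rfl
    have h2 : smHc3map D iV hiV u = 0 := h.inj3 (h1.trans (map_zero _).symm)
    have h3 := sum_smHc3map_smHc3map D iV pV hiV hpV c hV u
    rw [h2, map_zero] at h3
    exact (smul_eq_zero.mp h3.symm).resolve_left hc

/-- invariance under isomorphism (special case of `of_summand` with `c = c' = 1`) -/
theorem DualityPkg.of_equiv (P : PairingData 𝓛 ρV ρW ρZ β) (P' : PairingData 𝓛 ρV' ρW' ρZ β')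
    (tr : smHc3 D ρZ →ₗ[k] k) (eV : V ≃ₗ[k] V') (eW : W ≃ₗ[k] W')
    (heV : IsEquivariant ρV ρV' eV.toLinearMap) (heW : IsEquivariant ρW ρW' eW.toLinearMap)
    (hβ : ∀ v w, β' (eV v) (eW w) = β v w)
    (h : DualityPkg D P' tr) : DualityPkg D P tr := by
  have heV' : IsEquivariant ρV' ρV eV.symm.toLinearMap := by
    intro g v'
    apply eV.injective
    have := heV g (eV.symm v')
    simp only [LinearEquiv.coe_coe, LinearEquiv.apply_symm_apply] at this ⊢
    exact this.symm
  have heW' : IsEquivariant ρW' ρW eW.symm.toLinearMap := by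
    intro g w'
    apply eW.injective
    have := heW g (eW.symm w')
    simp only [LinearEquiv.coe_coe, LinearEquiv.apply_symm_apply] at this ⊢
    exact this.symm
  refine DualityPkg.of_summand D P P' tr eV.toLinearMap eV.symm.toLinearMap eW.toLinearMap
    eW.symm.toLinearMap heV heV' heW heW' 1 1 one_ne_zero one_ne_zero ?_ ?_ ?_ ?_ h
  · intro v; simp
  · intro w; simp
  · intro v w'
    have := hβ v (eW.symm w')
    simpa using this
  · intro v' w
    have := hβ (eV.symm v') w
    simpa using this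

end Summand

end Fermat.Agent.S55
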