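import Fermat.Agent.S55.Top.Ext
import Fermat.Agent.S55.Top.Summand
import Fermat.Agent.S55.Top.Final

/-! shim: the former spec file; its content now lives in the imported real files. -/
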