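import Fermat.Agent.S55.Top.Ind
import Fermat.Agent.S55.Top.ExtSpec

/-!
# S55 top layer, leaf T-DEV: the base pairs are perfect pairs, and the dévissage.

Helper lemmas are prefixed `dev_`.
-/

set_option autoImplicit false

namespace Fermat.Agent.S55

/-! ### group-theoretic and linear-algebraic preliminaries -/

section Prelim

variable {G : Type*} [Group G] (𝓛 : Levels G)

/-- finitely many levels have a common lower bound -/
theorem dev_exists_level_le_finset {ι : Type*} (s : Finset ι) (U : ι → Subgroup G)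
    (hU : ∀ i ∈ s, 𝓛.IsLevel (U i)) : ∃ W, 𝓛.IsLevel W ∧ ∀ i ∈ s, W ≤ U i := by
  classical
  induction s using Finset.induction_on with
  | empty =>
    obtain ⟨W, hW⟩ := 𝓛.exists_level
    exact ⟨W, hW, fun i hi => absurd hi (Finset.notMem_empty i)⟩
  | insert j s hj ih =>
    obtain ⟨W, hW, hle⟩ := ih fun i hi => hU i (Finset.mem_insert_of_mem hi)
    obtain ⟨W', hW', hle'⟩ := 𝓛.exists_le_inf W (U j) hW (hU j (Finset.mem_insert_self j s))
    refine ⟨W', hW', fun i hi => ?_⟩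
    rcases Finset.mem_insert.mp hi with rfl | hi
    · exact hle'.trans inf_le_right
    · exact (hle'.trans inf_le_left).trans (hle i hi)

/-- a finite-dimensional smooth representation is fixed by one level -/
theorem dev_exists_level_fix {k : Type*} [Field k] {V : Type*} [AddCommGroup V] [Module k V]
    [FiniteDimensional k V] (ρ : Representation k G V) (hρ : IsSmoothRep 𝓛 ρ) :
    ∃ U, 𝓛.IsLevel U ∧ ∀ s ∈ U, ∀ v, ρ s v = v := by
  classical
  let bs := Module.finBasis k V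
  choose U hU hfix using fun i => hρ (bs i)
  obtain ⟨W, hW, hle⟩ := dev_exists_level_le_finset 𝓛 Finset.univ U fun i _ => hU i
  refine ⟨W, hW, fun s hs v => ?_⟩
  have h1 : ρ s = LinearMap.id := by
    apply bs.ext
    intro i
    rw [LinearMap.id_apply]
    exact hfix i s (hle i (Finset.mem_univ i) hs)
  rw [h1, LinearMap.id_apply]

/-- the preimage of a Sylow `p`-subgroup of `G ⧸ U` -/
theorem dev_exists_sylow_preimage (p : ℕ) [Fact p.Prime] (U : Subgroup G) [U.Normal]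
    [U.FiniteIndex] :
    ∃ H : Subgroup G, U ≤ H ∧ H.FiniteIndex ∧ ¬ p ∣ H.index ∧
      ∀ h ∈ H, ∃ m : ℕ, h ^ (p ^ m) ∈ U := by
  have : Finite (G ⧸ U) := Subgroup.finite_quotient_of_finiteIndex
  obtain ⟨P⟩ : Nonempty (Sylow p (G ⧸ U)) := inferInstance
  refine ⟨(P : Subgroup (G ⧸ U)).comap (QuotientGroup.mk' U), ?_, ?_, ?_, ?_⟩
  · intro u hu
    rw [Subgroup.mem_comap, QuotientGroup.mk'_apply, (QuotientGroup.eq_one_iff u).mpr hu]
    exact Subgroup.one_mem _
  · refine ⟨?_⟩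
    rw [Subgroup.index_comap_of_surjective _ (QuotientGroup.mk'_surjective U)]
    exact Subgroup.FiniteIndex.index_ne_zero
  · rw [Subgroup.index_comap_of_surjective _ (QuotientGroup.mk'_surjective U)]
    exact P.not_dvd_index
  · intro h hh
    rw [Subgroup.mem_comap] at hh
    obtain ⟨m, hm⟩ := P.isPGroup' ⟨_, hh⟩
    refine ⟨m, ?_⟩
    have h2 := congrArg Subtype.val hm
    rw [Subgroup.coe_pow, Subgroup.coe_one] at h2
    rw [← QuotientGroup.eq_one_iff, QuotientGroup.mk_pow]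
    exact h2

/-- in characteristic `p` the only `p`-power root of unity is `1` -/
theorem dev_eq_one_of_pow_char_pow {k : Type*} [Field k] (p : ℕ) [Fact p.Prime] [CharP k p]
    (x : kˣ) (m : ℕ) (h : x ^ (p ^ m) = 1) : x = 1 := by
  have h1 : ((x : k) - 1) ^ (p ^ m) = 0 := by
    rw [sub_pow_char_pow, one_pow, ← Units.val_pow_eq_pow_val, h, Units.val_one, sub_self]
  have h2 : (x : k) - 1 = 0 := pow_eq_zero_iff (pow_ne_zero m (Fact.out : p.Prime).ne_zero) |>.mp h1
  exact Units.ext (sub_eq_zero.mp h2)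

/-- a nonzero finite-dimensional representation over a finite field of characteristic `p` in
which every group element acts with `p`-power order has a nonzero fixed vector -/
theorem dev_exists_fixed {k : Type*} [Field k] [Finite k] (p : ℕ) [Fact p.Prime] [CharP k p]
    {H : Type*} [Group H] {A : Type*} [AddCommGroup A] [Module k A] [FiniteDimensional k A]
    [Nontrivial A] (ρ : Representation k H A) (hp : ∀ h : H, ∃ m : ℕ, ρ (h ^ (p ^ m)) = 1) :
    ∃ a : A, a ≠ 0 ∧ ∀ h, ρ h a = a := by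
  classical
  have hfinA : Finite A := Module.finite_of_finite k
  -- the image of `H` in the units of `End A`
  let R : Subgroup (Module.End k A)ˣ := (ρ.asGroupHom).range
  have hR : IsPGroup p R := by
    rintro ⟨g, h, rfl⟩
    obtain ⟨m, hm⟩ := hp h
    refine ⟨m, ?_⟩
    apply Subtype.ext
    rw [Subgroup.coe_pow, Subgroup.coe_one, ← map_pow]
    apply Units.ext
    rw [Representation.asGroupHom_apply, hm, Units.val_one]
  have hcard := hR.card_modEq_card_fixedPoints A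
  -- `p` divides the cardinality of `A`
  have hpA : p ∣ Nat.card A := by
    obtain ⟨a, ha⟩ := exists_ne (0 : A)
    have h1 : addOrderOf a ∣ p := by
      apply addOrderOf_dvd_of_nsmul_eq_zero
      rw [← Nat.cast_smul_eq_nsmul k, CharP.cast_eq_zero, zero_smul]
    have h2 : addOrderOf a = p := by
      rcases (Nat.dvd_prime (Fact.out : p.Prime)).mp h1 with h | h
      · exact absurd (AddMonoid.addOrderOf_eq_one_iff.mp h) ha
      · exact h
    rw [← h2]
    exact addOrderOf_dvd_natCard a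
  have hpF : p ∣ Nat.card (MulAction.fixedPoints R A) := by
    rw [← Nat.modEq_zero_iff_dvd]
    exact hcard.symm.trans (Nat.modEq_zero_iff_dvd.mpr hpA)
  have h0 : (0 : A) ∈ MulAction.fixedPoints R A := by
    intro g
    show ((g : (Module.End k A)ˣ) : Module.End k A) 0 = 0
    exact map_zero _
  have hnt : Nontrivial (MulAction.fixedPoints R A) := by
    rw [← Finite.one_lt_card_iff_nontrivial]
    have hpos : 0 < Nat.card (MulAction.fixedPoints R A) := by
      have : Nonempty (MulAction.fixedPoints R A) := ⟨⟨0, h0⟩⟩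
      exact Nat.card_pos
    exact lt_of_lt_of_le (Fact.out : p.Prime).one_lt (Nat.le_of_dvd hpos hpF)
  obtain ⟨⟨a, ha⟩, hne⟩ := exists_ne (⟨0, h0⟩ : MulAction.fixedPoints R A)
  refine ⟨a, fun h => hne (Subtype.ext h), fun h => ?_⟩
  have h1 := ha ⟨ρ.asGroupHom h, ⟨h, rfl⟩⟩
  exact h1

end Prelim

/-! ### one step of the filtration: `0 → k a₀ → A → A ⧸ k a₀ → 0` and its dual -/

section Step

variable {k : Type*} [Field k] {H : Type*} [Group H] {A A' : Type*} [AddCommGroup A]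
  [Module k A] [AddCommGroup A'] [Module k A'] (ρA : Representation k H A)
  (ρA' : Representation k H A') (b : A →ₗ[k] A' →ₗ[k] k) (a₀ : A)

/-- the quotient representation on `A ⧸ k a₀` for a fixed vector `a₀` -/
def devQuotRep (ha₀ : ∀ h, ρA h a₀ = a₀) : Representation k H (A ⧸ Submodule.span k {a₀}) :=
  ρA.quotient (Submodule.span k {a₀}) (fun g x hx => by
    rw [Submodule.mem_comap]
    obtain ⟨c, rfl⟩ := Submodule.mem_span_singleton.mp hx
    rw [map_smul, ha₀]
    exact Submodule.smul_mem _ _ (Submodule.mem_span_singleton_self a₀))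

theorem devQuotRep_mk (ha₀ : ∀ h, ρA h a₀ = a₀) (h : H) (a : A) :
    devQuotRep ρA a₀ ha₀ h ((Submodule.span k {a₀}).mkQ a) = (Submodule.span k {a₀}).mkQ (ρA h a) :=
  rfl

/-- the representation on the orthogonal complement `ker (b a₀ ·)` of a fixed vector -/
def devKerRep (hb : ∀ (h : H) a a', b (ρA h a) (ρA' h a') = b a a') (ha₀ : ∀ h, ρA h a₀ = a₀) :
    Representation k H ↥(LinearMap.ker (b a₀)) :=
  ρA'.subrepresentation (LinearMap.ker (b a₀)) (fun g x hx => by
    rw [Submodule.mem_comap, LinearMap.mem_ker]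
    have h1 := hb g a₀ x
    rw [ha₀] at h1
    rw [h1]
    exact hx)

theorem devKerRep_coe (hb : ∀ (h : H) a a', b (ρA h a) (ρA' h a') = b a a')
    (ha₀ : ∀ h, ρA h a₀ = a₀) (h : H) (x : ↥(LinearMap.ker (b a₀))) :
    ((devKerRep ρA ρA' b a₀ hb ha₀ h x : ↥(LinearMap.ker (b a₀))) : A') = ρA' h (x : A') :=
  rfl

/-- the induced pairing `A ⧸ k a₀ × ker (b a₀ ·) → k` -/
def devPair₂ : (A ⧸ Submodule.span k {a₀}) →ₗ[k] ↥(LinearMap.ker (b a₀)) →ₗ[k] k :=
  (Submodule.span k {a₀}).liftQ (b.compl₂ (LinearMap.ker (b a₀)).subtype) (by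
    intro x hx
    obtain ⟨c, rfl⟩ := Submodule.mem_span_singleton.mp hx
    rw [LinearMap.mem_ker]
    ext ⟨a', ha'⟩
    rw [LinearMap.compl₂_apply, Submodule.subtype_apply, map_smul, LinearMap.smul_apply,
      LinearMap.mem_ker.mp ha', smul_zero, LinearMap.zero_apply])

theorem devPair₂_mk (a : A) (x : ↥(LinearMap.ker (b a₀))) :
    devPair₂ b a₀ ((Submodule.span k {a₀}).mkQ a) x = b a (x : A') :=
  rfl

theorem devPair₂_invariant (hb : ∀ (h : H) a a', b (ρA h a) (ρA' h a') = b a a')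
    (ha₀ : ∀ h, ρA h a₀ = a₀) (h : H) (y : A ⧸ Submodule.span k {a₀})
    (x : ↥(LinearMap.ker (b a₀))) :
    devPair₂ b a₀ (devQuotRep ρA a₀ ha₀ h y) (devKerRep ρA ρA' b a₀ hb ha₀ h x)
      = devPair₂ b a₀ y x := by
  obtain ⟨a, rfl⟩ := Submodule.mkQ_surjective _ y
  rw [devQuotRep_mk, devPair₂_mk, devPair₂_mk, devKerRep_coe, hb]

theorem devPair₂_nondeg_left (hndl : ∀ a, (∀ a', b a a' = 0) → a = 0) (ha₀ : a₀ ≠ 0)
    (y : A ⧸ Submodule.span k {a₀}) (hy : ∀ x, devPair₂ b a₀ y x = 0) : y = 0 := by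
  obtain ⟨a, rfl⟩ := Submodule.mkQ_surjective _ y
  -- choose `a'₁` with `b a₀ a'₁ = 1`
  have h1 : b a₀ ≠ 0 := fun h0 => ha₀ (hndl a₀ fun a' => by rw [h0, LinearMap.zero_apply])
  obtain ⟨a'₀, ha'₀⟩ : ∃ a', b a₀ a' ≠ 0 := by
    by_contra hcon
    exact h1 (LinearMap.ext fun a' => not_not.mp fun h => hcon ⟨a', h⟩)
  set a'₁ : A' := (b a₀ a'₀)⁻¹ • a'₀ with ha'₁
  have h2 : b a₀ a'₁ = 1 := by
    rw [ha'₁, map_smul, smul_eq_mul, inv_mul_cancel₀ ha'₀]
  have h3 : a - (b a a'₁) • a₀ = 0 := by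
    apply hndl
    intro a'
    have hmem : a' - (b a₀ a') • a'₁ ∈ LinearMap.ker (b a₀) := by
      rw [LinearMap.mem_ker, map_sub, map_smul, h2, smul_eq_mul, mul_one, sub_self]
    have h4 := hy ⟨_, hmem⟩
    rw [devPair₂_mk] at h4
    simp only [map_sub, map_smul, smul_eq_mul] at h4
    rw [map_sub, LinearMap.sub_apply, map_smul, LinearMap.smul_apply, smul_eq_mul]
    rw [sub_eq_zero] at h4 ⊢
    rw [h4, mul_comm]
  rw [Submodule.mkQ_apply, Submodule.Quotient.mk_eq_zero, Submodule.mem_span_singleton]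
  exact ⟨b a a'₁, (sub_eq_zero.mp h3).symm⟩

theorem devPair₂_nondeg_right (hndr : ∀ a', (∀ a, b a a' = 0) → a' = 0)
    (x : ↥(LinearMap.ker (b a₀))) (hx : ∀ y, devPair₂ b a₀ y x = 0) : x = 0 := by
  apply Subtype.ext
  apply hndr
  intro a
  exact hx ((Submodule.span k {a₀}).mkQ a)

theorem dev_finrank_quot [FiniteDimensional k A] (ha₀ : a₀ ≠ 0) (n : ℕ)
    (hn : Module.finrank k A = n + 1) : Module.finrank k (A ⧸ Submodule.span k {a₀}) = n := by
  have h1 := Submodule.finrank_quotient_add_finrank (Submodule.span k {a₀})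
  rw [finrank_span_singleton ha₀, hn] at h1
  exact Nat.add_right_cancel h1

end Step

section Dev

universe u

variable {k : Type u} [Field k] [Finite k] {G : Type u} [Group G] (𝓛 : Levels G)
  (χ : G →* kˣ)

/-- a perfect pair of finite-dimensional smooth representations with values in `k(χ)` -/
structure PerfPair {V W : Type u} [AddCommGroup V] [Module k V] [AddCommGroup W] [Module k W]
    (ρV : Representation k G V) (ρW : Representation k G W) (β : V →ₗ[k] W →ₗ[k] k) : Prop where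
  finV : FiniteDimensional k V
  finW : FiniteDimensional k W
  pd : PairingData 𝓛 ρV ρW (chiRep χ) β
  nondeg_left : ∀ v, (∀ w, β v w = 0) → v = 0
  nondeg_right : ∀ w, (∀ v, β v w = 0) → w = 0

/-- the trivial representation of a subgroup on `k` -/
abbrev trivRep (H : Subgroup G) : Representation k H k := 1

/-- the base pair attached to an open subgroup `H ≤ ker χ`:
`(Ind_H^G k, Ind_H^G k, Σ_{Hg} χ(g)⁻¹ F(g) F'(g))` -/
noncomputable abbrev basePairing (H : Subgroup G) :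
    ↥(indSpace H (trivRep (k := k) H)) →ₗ[k] ↥(indSpace H (trivRep (k := k) H)) →ₗ[k] k :=
  indPairing H (trivRep H) (trivRep H) χ (LinearMap.mul k k)

omit [Finite k] in
/-- the character `χ` is smooth -/
theorem dev_chiRep_isSmooth (hχ : ∃ U, 𝓛.IsLevel U ∧ U ≤ χ.ker) : IsSmoothRep 𝓛 (chiRep χ) := by
  obtain ⟨U, hU, hle⟩ := hχ
  intro v
  refine ⟨U, hU, fun s hs => ?_⟩
  rw [chiRep_apply, MonoidHom.mem_ker.mp (hle hs), Units.val_one, one_mul]

omit [Finite k] in
theorem dev_finiteIndex_of_isOpen (H : Subgroup G) (hH : 𝓛.IsOpen H) : H.FiniteIndex := by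
  obtain ⟨U, hU, hle⟩ := hH
  have := 𝓛.finiteIndex U hU
  exact Subgroup.finiteIndex_of_le hle

omit [Finite k] in
/-- `Ind` of a perfect `H`-invariant pairing of finite-dimensional smooth representations of an
open subgroup `H ≤ ker χ` is a perfect pair -/
theorem dev_perfPair_ind (hχ : ∃ U, 𝓛.IsLevel U ∧ U ≤ χ.ker) (H : Subgroup G)
    (hH : 𝓛.IsOpen H) (hHχ : H ≤ χ.ker)
    {A A' : Type u} [AddCommGroup A] [Module k A] [AddCommGroup A'] [Module k A']
    [FiniteDimensional k A] [FiniteDimensional k A']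
    (ρA : Representation k H A) (ρA' : Representation k H A')
    (hA : IsSmoothRep (𝓛.sub H) ρA) (hA' : IsSmoothRep (𝓛.sub H) ρA')
    (b : A →ₗ[k] A' →ₗ[k] k) (hb : ∀ (h : H) a a', b (ρA h a) (ρA' h a') = b a a')
    (hndl : ∀ a, (∀ a', b a a' = 0) → a = 0) (hndr : ∀ a', (∀ a, b a a' = 0) → a' = 0) :
    PerfPair 𝓛 χ (indRep H ρA) (indRep H ρA') (indPairing H ρA ρA' χ b) := by
  have hfi : H.FiniteIndex := dev_finiteIndex_of_isOpen 𝓛 H hH
  exact
    { finV := indSpace_finiteDimensional H ρA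
      finW := indSpace_finiteDimensional H ρA'
      pd :=
        { smV := indRep_isSmooth H ρA 𝓛 hH hA
          smW := indRep_isSmooth H ρA' 𝓛 hH hA'
          smZ := dev_chiRep_isSmooth 𝓛 χ hχ
          equiv := indPairing_equivariant H ρA ρA' χ hHχ b hb }
      nondeg_left := fun F hF => indPairing_nondeg_left H ρA ρA' χ hHχ b hb hndl F hF
      nondeg_right := fun F' hF' => indPairing_nondeg_right H ρA ρA' χ hHχ b hb hndr F' hF' }

/-- the base pairs are perfect pairs -/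
theorem basePairing_perfPair (hχ : ∃ U, 𝓛.IsLevel U ∧ U ≤ χ.ker) (H : Subgroup G)
    (hH : 𝓛.IsOpen H) (hHχ : H ≤ χ.ker) :
    PerfPair 𝓛 χ (indRep H (trivRep (k := k) H)) (indRep H (trivRep (k := k) H))
      (basePairing χ H) := by
  refine dev_perfPair_ind 𝓛 χ hχ H hH hHχ (trivRep H) (trivRep H) ?_ ?_ (LinearMap.mul k k)
    ?_ ?_ ?_
  · intro v
    obtain ⟨U, hU⟩ := (𝓛.sub H).exists_level
    exact ⟨U, hU, fun s _ => rfl⟩
  · intro v
    obtain ⟨U, hU⟩ := (𝓛.sub H).exists_level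
    exact ⟨U, hU, fun s _ => rfl⟩
  · intro h a a'
    rfl
  · intro a ha
    have := ha 1
    rwa [LinearMap.mul_apply', mul_one] at this
  · intro a' ha'
    have := ha' 1
    rwa [LinearMap.mul_apply', one_mul] at this

omit [Finite k] in
theorem dev_subsingleton_indSpace (H : Subgroup G) {A : Type*} [AddCommGroup A] [Module k A]
    [Subsingleton A] (ρA : Representation k H A) : Subsingleton ↥(indSpace H ρA) :=
  ⟨fun _ _ => Subtype.ext (funext fun _ => Subsingleton.elim _ _)⟩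

/-- the core of the dévissage: `𝒬` holds for `Ind_H^G` of every perfect pair of `H`-representations
on which `H` acts through a `p`-group, by induction on the dimension -/
theorem dev_core (p : ℕ) [Fact p.Prime] [CharP k p] (hχ : ∃ U, 𝓛.IsLevel U ∧ U ≤ χ.ker)
    (𝒬 : ∀ {V W : Type u} [AddCommGroup V] [Module k V] [AddCommGroup W] [Module k W]
      (ρV : Representation k G V) (ρW : Representation k G W) (_β : V →ₗ[k] W →ₗ[k] k), Prop)
    (h_summand : ∀ {V W V' W' : Type u} [AddCommGroup V] [Module k V] [AddCommGroup W]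
      [Module k W] [AddCommGroup V'] [Module k V'] [AddCommGroup W'] [Module k W']
      (ρV : Representation k G V) (ρW : Representation k G W)
      (ρV' : Representation k G V') (ρW' : Representation k G W')
      (β : V →ₗ[k] W →ₗ[k] k) (β' : V' →ₗ[k] W' →ₗ[k] k),
      PerfPair 𝓛 χ ρV ρW β → PerfPair 𝓛 χ ρV' ρW' β' →
      ∀ (iV : V →ₗ[k] V') (pV : V' →ₗ[k] V) (iW : W →ₗ[k] W') (pW : W' →ₗ[k] W),
      IsEquivariant ρV ρV' iV → IsEquivariant ρV' ρV pV →
      IsEquivariant ρW ρW' iW → IsEquivariant ρW' ρW pW →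
      ∀ c c' : k, c ≠ 0 → c' ≠ 0 → (∀ v, pV (iV v) = c • v) → (∀ w, pW (iW w) = c' • w) →
      (∀ v w', β' (iV v) w' = β v (pW w')) → (∀ v' w, β' v' (iW w) = β (pV v') w) →
      𝒬 ρV' ρW' β' → 𝒬 ρV ρW β)
    (h_ext : ∀ {V₁ V V₂ W₁ W W₂ : Type u} [AddCommGroup V₁] [Module k V₁] [AddCommGroup V]
      [Module k V] [AddCommGroup V₂] [Module k V₂] [AddCommGroup W₁] [Module k W₁]
      [AddCommGroup W] [Module k W] [AddCommGroup W₂] [Module k W₂]
      (ρ₁ : Representation k G V₁) (ρ : Representation k G V) (ρ₂ : Representation k G V₂)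
      (σ₁ : Representation k G W₁) (σ : Representation k G W) (σ₂ : Representation k G W₂)
      (β₁ : V₁ →ₗ[k] W₁ →ₗ[k] k) (β : V →ₗ[k] W →ₗ[k] k) (β₂ : V₂ →ₗ[k] W₂ →ₗ[k] k)
      (_S : ShortExactPairing 𝓛 ρ₁ ρ ρ₂ σ₁ σ σ₂ (chiRep χ) β₁ β β₂),
      PerfPair 𝓛 χ ρ₁ σ₁ β₁ → PerfPair 𝓛 χ ρ₂ σ₂ β₂ → 𝒬 ρ₁ σ₁ β₁ → 𝒬 ρ₂ σ₂ β₂ → 𝒬 ρ σ β)
    (h_base : ∀ H : Subgroup G, 𝓛.IsOpen H → H ≤ χ.ker →
      𝒬 (indRep H (trivRep (k := k) H)) (indRep H (trivRep (k := k) H)) (basePairing χ H))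
    (H : Subgroup G) (hH : 𝓛.IsOpen H) (hHχ : H ≤ χ.ker) (n : ℕ) :
    ∀ {A A' : Type u} [AddCommGroup A] [Module k A] [AddCommGroup A'] [Module k A']
      [FiniteDimensional k A] [FiniteDimensional k A']
      (ρA : Representation k H A) (ρA' : Representation k H A'),
      Module.finrank k A = n → IsSmoothRep (𝓛.sub H) ρA → IsSmoothRep (𝓛.sub H) ρA' →
      (∀ h : H, ∃ m : ℕ, ρA (h ^ (p ^ m)) = 1) →
      ∀ (b : A →ₗ[k] A' →ₗ[k] k), (∀ (h : H) a a', b (ρA h a) (ρA' h a') = b a a') →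
      (∀ a, (∀ a', b a a' = 0) → a = 0) → (∀ a', (∀ a, b a a' = 0) → a' = 0) →
      𝒬 (indRep H ρA) (indRep H ρA') (indPairing H ρA ρA' χ b) := by
  have hfi : H.FiniteIndex := dev_finiteIndex_of_isOpen 𝓛 H hH
  induction n with
  | zero =>
    intro A A' _ _ _ _ _ _ ρA ρA' hn hA hA' _ b hb hndl hndr
    have hsA : Subsingleton A := Module.finrank_zero_iff.mp hn
    have hsA' : Subsingleton A' := by
      have h0 : ∀ a' : A', a' = 0 := fun a' => hndr a' fun a => by
        rw [Subsingleton.elim a 0, map_zero, LinearMap.zero_apply]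
      exact ⟨fun x y => by rw [h0 x, h0 y]⟩
    have hsI : Subsingleton ↥(indSpace H ρA) := dev_subsingleton_indSpace H ρA
    have hsI' : Subsingleton ↥(indSpace H ρA') := dev_subsingleton_indSpace H ρA'
    refine h_summand (indRep H ρA) (indRep H ρA') (indRep H (trivRep (k := k) H))
      (indRep H (trivRep (k := k) H)) (indPairing H ρA ρA' χ b) (basePairing χ H)
      (dev_perfPair_ind 𝓛 χ hχ H hH hHχ ρA ρA' hA hA' b hb hndl hndr)
      (basePairing_perfPair 𝓛 χ hχ H hH hHχ) 0 0 0 0 ?_ ?_ ?_ ?_ 1 1 one_ne_zero one_ne_zero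
      ?_ ?_ ?_ ?_ (h_base H hH hHχ)
    · intro g v
      rw [LinearMap.zero_apply, LinearMap.zero_apply, map_zero]
    · intro g v
      exact Subsingleton.elim _ _
    · intro g v
      rw [LinearMap.zero_apply, LinearMap.zero_apply, map_zero]
    · intro g v
      exact Subsingleton.elim _ _
    · intro v
      exact Subsingleton.elim _ _
    · intro w
      exact Subsingleton.elim _ _
    · intro v w'
      rw [LinearMap.zero_apply, LinearMap.zero_apply, map_zero, map_zero, LinearMap.zero_apply]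
    · intro v' w
      rw [LinearMap.zero_apply, LinearMap.zero_apply, map_zero, map_zero, LinearMap.zero_apply]
  | succ n ih =>
    intro A A' _ _ _ _ _ _ ρA ρA' hn hA hA' hp b hb hndl hndr
    have hntA : Nontrivial A := by
      apply Module.nontrivial_of_finrank_pos (R := k)
      omega
    obtain ⟨a₀, ha₀ne, ha₀fix⟩ := dev_exists_fixed p ρA hp
    -- the `H`-level data
    let ρ₂ := devQuotRep ρA a₀ ha₀fix
    let ρK := devKerRep ρA ρA' b a₀ hb ha₀fix
    let β₂ := devPair₂ b a₀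
    let i₁ : k →ₗ[k] A := LinearMap.toSpanSingleton k A a₀
    have hi₁ : IsEquivariant (trivRep (k := k) H) ρA i₁ := by
      intro g c
      show (c • a₀ : A) = ρA g (c • a₀)
      rw [map_smul, ha₀fix]
    have hi₁inj : Function.Injective i₁ := by
      intro c c' hcc
      have h1 : (c - c') • a₀ = 0 := by
        rw [sub_smul, sub_eq_zero]
        exact hcc
      rcases smul_eq_zero.mp h1 with h | h
      · exact sub_eq_zero.mp h
      · exact absurd h ha₀ne
    let q : A →ₗ[k] A ⧸ Submodule.span k {a₀} := (Submodule.span k {a₀}).mkQ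
    have hq : IsEquivariant ρA ρ₂ q := fun g a => (devQuotRep_mk ρA a₀ ha₀fix g a).symm
    have hqsurj : Function.Surjective q := Submodule.mkQ_surjective _
    have hex₁ : Function.Exact i₁ q := by
      intro a
      show (Submodule.span k {a₀}).mkQ a = 0 ↔ a ∈ Set.range i₁
      rw [Submodule.mkQ_apply, Submodule.Quotient.mk_eq_zero, Submodule.mem_span_singleton]
      rfl
    let p' : A' →ₗ[k] k := b a₀
    have hp' : IsEquivariant ρA' (trivRep (k := k) H) p' := by
      intro g a'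
      show b a₀ (ρA' g a') = b a₀ a'
      have h1 := hb g a₀ a'
      rwa [ha₀fix] at h1
    have hp'surj : Function.Surjective p' :=
      LinearMap.surjective fun h0 => ha₀ne (hndl a₀ fun a' => by
        show p' a' = 0
        rw [h0, LinearMap.zero_apply])
    let i' : ↥(LinearMap.ker (b a₀)) →ₗ[k] A' := (LinearMap.ker (b a₀)).subtype
    have hi' : IsEquivariant ρK ρA' i' := fun g x => rfl
    have hi'inj : Function.Injective i' := Subtype.val_injective
    have hex₂ : Function.Exact i' p' := LinearMap.exact_subtype_ker_map (b a₀)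
    have hρ₂ : IsSmoothRep (𝓛.sub H) ρ₂ := by
      intro y
      obtain ⟨a, rfl⟩ := Submodule.mkQ_surjective _ y
      obtain ⟨U, hU, hfix⟩ := hA a
      refine ⟨U, hU, fun s hs => ?_⟩
      show devQuotRep ρA a₀ ha₀fix s ((Submodule.span k {a₀}).mkQ a) = _
      rw [devQuotRep_mk, hfix s hs]
    have hρK : IsSmoothRep (𝓛.sub H) ρK := by
      intro x
      obtain ⟨U, hU, hfix⟩ := hA' (x : A')
      refine ⟨U, hU, fun s hs => ?_⟩
      apply Subtype.ext
      show ρA' s (x : A') = x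
      exact hfix s hs
    have hp₂ : ∀ h : H, ∃ m : ℕ, ρ₂ (h ^ (p ^ m)) = 1 := by
      intro h
      obtain ⟨m, hm⟩ := hp h
      refine ⟨m, ?_⟩
      apply LinearMap.ext
      intro y
      obtain ⟨a, rfl⟩ := Submodule.mkQ_surjective _ y
      show devQuotRep ρA a₀ ha₀fix (h ^ (p ^ m)) ((Submodule.span k {a₀}).mkQ a) = _
      rw [devQuotRep_mk, hm]
      rfl
    have hβ₂inv : ∀ (h : H) y x, β₂ (ρ₂ h y) (ρK h x) = β₂ y x :=
      devPair₂_invariant ρA ρA' b a₀ hb ha₀fix
    have hβ₂l : ∀ y, (∀ x, β₂ y x = 0) → y = 0 := devPair₂_nondeg_left b a₀ hndl ha₀ne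
    have hβ₂r : ∀ x, (∀ y, β₂ y x = 0) → x = 0 := devPair₂_nondeg_right b a₀ hndr
    have hrk : Module.finrank k (A ⧸ Submodule.span k {a₀}) = n := dev_finrank_quot a₀ ha₀ne n hn
    -- the induction hypothesis
    have hQ₂ : 𝒬 (indRep H ρ₂) (indRep H ρK) (indPairing H ρ₂ ρK χ β₂) :=
      ih ρ₂ ρK hrk hρ₂ hρK hp₂ β₂ hβ₂inv hβ₂l hβ₂r
    -- the perfect pairs
    have hPP₁ := basePairing_perfPair (k := k) 𝓛 χ hχ H hH hHχ
    have hPP := dev_perfPair_ind 𝓛 χ hχ H hH hHχ ρA ρA' hA hA' b hb hndl hndr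
    have hPP₂ := dev_perfPair_ind 𝓛 χ hχ H hH hHχ ρ₂ ρK hρ₂ hρK β₂ hβ₂inv hβ₂l hβ₂r
    -- the short exact sequences of induced representations
    obtain ⟨EV, hEVi, hEVp⟩ := ShortExactRep.exists_of_exact
      (indMap H (trivRep (k := k) H) ρA i₁ hi₁) (indMap H ρA ρ₂ q hq)
      (indMap_equivariant H _ _ i₁ hi₁) (indMap_equivariant H _ _ q hq)
      (indMap_injective H _ _ i₁ hi₁ hi₁inj) (indMap_surjective H _ _ q hq hqsurj)
      (indMap_exact H _ _ _ i₁ hi₁ q hq hex₁)
    obtain ⟨EW, hEWi, hEWp⟩ := ShortExactRep.exists_of_exact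
      (indMap H ρK ρA' i' hi') (indMap H ρA' (trivRep (k := k) H) p' hp')
      (indMap_equivariant H _ _ i' hi') (indMap_equivariant H _ _ p' hp')
      (indMap_injective H _ _ i' hi' hi'inj) (indMap_surjective H _ _ p' hp' hp'surj)
      (indMap_exact H _ _ _ i' hi' p' hp' hex₂)
    have S : ShortExactPairing 𝓛 (indRep H (trivRep (k := k) H)) (indRep H ρA) (indRep H ρ₂)
        (indRep H (trivRep (k := k) H)) (indRep H ρA') (indRep H ρK) (chiRep χ)
        (basePairing χ H) (indPairing H ρA ρA' χ b) (indPairing H ρ₂ ρK χ β₂) :=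
      { EV := EV
        EW := EW
        P₁ := hPP₁.pd
        P := hPP.pd
        P₂ := hPP₂.pd
        adj₁ := by
          intro v₁ w
          rw [hEVi, hEWp]
          exact indPairing_natural H (trivRep (k := k) H) (trivRep (k := k) H) χ ρA ρA'
            (LinearMap.mul k k) b i₁ hi₁ p' hp' (fun c a' => by
              show b (c • a₀) a' = c * b a₀ a'
              rw [map_smul, LinearMap.smul_apply, smul_eq_mul]) v₁ w
        adj₂ := by
          intro v w₂
          rw [hEVp, hEWi]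
          exact (indPairing_natural H ρA ρA' χ ρ₂ ρK b β₂ q hq i' hi'
            (fun a x => rfl) v w₂).symm }
    exact h_ext _ _ _ _ _ _ _ _ _ S hPP₁ hPP₂ (h_base H hH hHχ) hQ₂

/-- T-DEV, the dévissage.  `p = char k`.  -/
theorem devissage (p : ℕ) [Fact p.Prime] [CharP k p] (hχ : ∃ U, 𝓛.IsLevel U ∧ U ≤ χ.ker)
    (𝒬 : ∀ {V W : Type u} [AddCommGroup V] [Module k V] [AddCommGroup W] [Module k W]
      (ρV : Representation k G V) (ρW : Representation k G W) (_β : V →ₗ[k] W →ₗ[k] k), Prop)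
    (h_summand : ∀ {V W V' W' : Type u} [AddCommGroup V] [Module k V] [AddCommGroup W]
      [Module k W] [AddCommGroup V'] [Module k V'] [AddCommGroup W'] [Module k W']
      (ρV : Representation k G V) (ρW : Representation k G W)
      (ρV' : Representation k G V') (ρW' : Representation k G W')
      (β : V →ₗ[k] W →ₗ[k] k) (β' : V' →ₗ[k] W' →ₗ[k] k),
      PerfPair 𝓛 χ ρV ρW β → PerfPair 𝓛 χ ρV' ρW' β' →
      ∀ (iV : V →ₗ[k] V') (pV : V' →ₗ[k] V) (iW : W →ₗ[k] W') (pW : W' →ₗ[k] W),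
      IsEquivariant ρV ρV' iV → IsEquivariant ρV' ρV pV →
      IsEquivariant ρW ρW' iW → IsEquivariant ρW' ρW pW →
      ∀ c c' : k, c ≠ 0 → c' ≠ 0 → (∀ v, pV (iV v) = c • v) → (∀ w, pW (iW w) = c' • w) →
      (∀ v w', β' (iV v) w' = β v (pW w')) → (∀ v' w, β' v' (iW w) = β (pV v') w) →
      𝒬 ρV' ρW' β' → 𝒬 ρV ρW β)
    (h_ext : ∀ {V₁ V V₂ W₁ W W₂ : Type u} [AddCommGroup V₁] [Module k V₁] [AddCommGroup V]
      [Module k V] [AddCommGroup V₂] [Module k V₂] [AddCommGroup W₁] [Module k W₁]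
      [AddCommGroup W] [Module k W] [AddCommGroup W₂] [Module k W₂]
      (ρ₁ : Representation k G V₁) (ρ : Representation k G V) (ρ₂ : Representation k G V₂)
      (σ₁ : Representation k G W₁) (σ : Representation k G W) (σ₂ : Representation k G W₂)
      (β₁ : V₁ →ₗ[k] W₁ →ₗ[k] k) (β : V →ₗ[k] W →ₗ[k] k) (β₂ : V₂ →ₗ[k] W₂ →ₗ[k] k)
      (_S : ShortExactPairing 𝓛 ρ₁ ρ ρ₂ σ₁ σ σ₂ (chiRep χ) β₁ β β₂),
      PerfPair 𝓛 χ ρ₁ σ₁ β₁ → PerfPair 𝓛 χ ρ₂ σ₂ β₂ → 𝒬 ρ₁ σ₁ β₁ → 𝒬 ρ₂ σ₂ β₂ → 𝒬 ρ σ β)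
    (h_base : ∀ H : Subgroup G, 𝓛.IsOpen H → H ≤ χ.ker →
      𝒬 (indRep H (trivRep (k := k) H)) (indRep H (trivRep (k := k) H)) (basePairing χ H))
    {V W : Type u} [AddCommGroup V] [Module k V] [AddCommGroup W] [Module k W]
    (ρV : Representation k G V) (ρW : Representation k G W) (β : V →ₗ[k] W →ₗ[k] k)
    (hP : PerfPair 𝓛 χ ρV ρW β) : 𝒬 ρV ρW β := by
  have hfV := hP.finV
  have hfW := hP.finW
  -- a normal level `U` acting trivially on `V`, `W` and `k(χ)`
  obtain ⟨U₁, hU₁, hfix₁⟩ := dev_exists_level_fix 𝓛 ρV hP.pd.smV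
  obtain ⟨U₂, hU₂, hfix₂⟩ := dev_exists_level_fix 𝓛 ρW hP.pd.smW
  have hχ₀ := hχ
  obtain ⟨U₃, hU₃, hle₃⟩ := hχ
  obtain ⟨U₁₂, hU₁₂, hle₁₂⟩ := 𝓛.exists_le_inf U₁ U₂ hU₁ hU₂
  obtain ⟨U, hU, hUn, hleU₁₂, hleU₃⟩ := 𝓛.exists_normal_le_inf U₁₂ U₃ hU₁₂ hU₃
  have hUfi : U.FiniteIndex := 𝓛.finiteIndex U hU
  -- `H ⊇ U` with `H / U` a Sylow `p`-subgroup of `G / U`
  obtain ⟨H, hUH, hfi, hndvd, hpow⟩ := dev_exists_sylow_preimage p U
  have hH : 𝓛.IsOpen H := ⟨U, hU, hUH⟩
  have hHχ : H ≤ χ.ker := by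
    intro h hh
    obtain ⟨m, hm⟩ := hpow h hh
    rw [MonoidHom.mem_ker]
    apply dev_eq_one_of_pow_char_pow p (χ h) m
    rw [← map_pow]
    exact MonoidHom.mem_ker.mp (hle₃ (hleU₃ hm))
  have hc : ((H.index : ℕ) : k) ≠ 0 := fun h0 => hndvd ((CharP.cast_eq_zero_iff k p H.index).mp h0)
  -- the restrictions to `H`
  have hcont : (𝓛.sub H).Continuous 𝓛 H.subtype := 𝓛.continuous_comap H.subtype
  have hA : IsSmoothRep (𝓛.sub H) (ρV.comp H.subtype) := hP.pd.smV.comp_hom hcont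
  have hA' : IsSmoothRep (𝓛.sub H) (ρW.comp H.subtype) := hP.pd.smW.comp_hom hcont
  have hp : ∀ h : H, ∃ m : ℕ, (ρV.comp H.subtype) (h ^ (p ^ m)) = 1 := by
    intro h
    obtain ⟨m, hm⟩ := hpow h h.2
    refine ⟨m, ?_⟩
    apply LinearMap.ext
    intro v
    show ρV ((h ^ (p ^ m) : H) : G) v = v
    rw [Subgroup.coe_pow]
    exact hfix₁ _ (hle₁₂ (hleU₁₂ hm)).1 v
  have hb : ∀ (h : H) v w, β ((ρV.comp H.subtype) h v) ((ρW.comp H.subtype) h w) = β v w := by
    intro h v w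
    show β (ρV (h : G) v) (ρW (h : G) w) = β v w
    rw [hP.pd.equiv, chiRep_apply, MonoidHom.mem_ker.mp (hHχ h.2), Units.val_one, one_mul]
  have hQ := dev_core 𝓛 χ p hχ₀ 𝒬 h_summand h_ext h_base H hH hHχ (Module.finrank k V)
    (ρV.comp H.subtype) (ρW.comp H.subtype) rfl hA hA' hp β hb hP.nondeg_left hP.nondeg_right
  have hPP := dev_perfPair_ind 𝓛 χ hχ₀ H hH hHχ (ρV.comp H.subtype)
    (ρW.comp H.subtype) hA hA' β hb hP.nondeg_left hP.nondeg_right
  exact h_summand ρV ρW (indRep H (ρV.comp H.subtype)) (indRep H (ρW.comp H.subtype)) β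
    (indPairing H (ρV.comp H.subtype) (ρW.comp H.subtype) χ β) hP hPP
    (indUnit H ρV) (indCounit H ρV) (indUnit H ρW) (indCounit H ρW)
    (indUnit_equivariant H ρV) (indCounit_equivariant H ρV)
    (indUnit_equivariant H ρW) (indCounit_equivariant H ρW)
    (H.index : k) (H.index : k) hc hc
    (indCounit_indUnit H ρV) (indCounit_indUnit H ρW)
    (fun v w' => indPairing_indUnit_left H ρV χ hHχ ρW β hP.pd.equiv v w')
    (fun v' w => indPairing_indUnit_right H ρV χ hHχ ρW β hP.pd.equiv v' w)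
    hQ

end Dev

end Fermat.Agent.S55
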