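import Fermat.Agent.S55.Top.LesG

/-!
# S55 top layer, leaf T-CD-A: exactness at `H³(V)` of the long exact sequence of a linearly split
short exact sequence of smooth representations, and right exactness of `H²` when `H³` of the
kernel vanishes.

(section `CdA` of `Top/CdSpec.lean`; same pattern as `exact_smH2map_smH2map` of `Top/LesG.lean`,
one degree up.)
-/

set_option autoImplicit false

namespace Fermat.Agent.S55

section CdA

variable {k : Type*} [Field k] {G : Type*} [Group G] {𝓛 : Levels G}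
  {V₁ V V₂ : Type*} [AddCommGroup V₁] [Module k V₁] [AddCommGroup V] [Module k V]
  [AddCommGroup V₂] [Module k V₂]
  {ρ₁ : Representation k G V₁} {ρ : Representation k G V} {ρ₂ : Representation k G V₂}

/-- exactness of `H³(V₁) → H³(V) → H³(V₂)` -/
theorem exact_smH3map_smH3map (E : ShortExactRep ρ₁ ρ ρ₂) (h₁ : IsSmoothRep 𝓛 ρ₁)
    (h : IsSmoothRep 𝓛 ρ) :
    Function.Exact (smH3map 𝓛 E.i E.i_equiv) (smH3map 𝓛 E.p E.p_equiv) := by
  have _h₁ := h₁
  intro c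
  obtain ⟨f, rfl⟩ := Submodule.mkQ_surjective _ c
  constructor
  · intro hc
    have hc' : ((smZ3map 𝓛 E.p E.p_equiv f : ↥(smZ3 𝓛 ρ₂)) : G × G × G → V₂) ∈ smB3 𝓛 ρ₂ :=
      (smH3π_eq_zero_iff 𝓛 ρ₂ _).mp hc
    obtain ⟨z, hz, hzf⟩ := (mem_smB3 𝓛 ρ₂ _).mp hc'
    have hzf' : dd2 ρ₂ z = postComp E.p (G × G × G) (f : G × G × G → V) := hzf
    have hf1 : dd3 ρ (f : G × G × G → V) = 0 := f.2.1
    have hp : postComp E.p (G × G × G)
        ((f : G × G × G → V) - dd2 ρ (postComp E.s (G × G) z)) = 0 := by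
      rw [map_sub, ← dd2_postComp E.p E.p_equiv, E.lesg_postComp_p_s, hzf', sub_self]
    have hd : dd3 ρ ((f : G × G × G → V) - dd2 ρ (postComp E.s (G × G) z)) = 0 := by
      rw [map_sub, hf1, dd3_dd2, sub_zero]
    have hlc : IsLC₃ 𝓛 ((f : G × G × G → V) - dd2 ρ (postComp E.s (G × G) z)) :=
      f.2.2.map₂ (dd2_isLC h (hz.comp E.s)) (· - ·)
    refine ⟨smH3π 𝓛 ρ₁ ⟨postComp E.t (G × G × G)
      ((f : G × G × G → V) - dd2 ρ (postComp E.s (G × G) z)),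
      LinearMap.mem_ker.2 (lesg_dd3_t E hp hd), hlc.comp E.t⟩, ?_⟩
    show smH3π 𝓛 ρ (smZ3map 𝓛 E.i E.i_equiv _) = smH3π 𝓛 ρ f
    rw [← sub_eq_zero, ← map_sub]
    apply (smH3π_eq_zero_iff 𝓛 ρ _).mpr
    rw [mem_smB3]
    refine ⟨-postComp E.s (G × G) z, (hz.comp E.s).comp (fun v => -v), ?_⟩
    show dd2 ρ (-postComp E.s (G × G) z) =
      postComp E.i (G × G × G) (postComp E.t (G × G × G)
        ((f : G × G × G → V) - dd2 ρ (postComp E.s (G × G) z))) - (f : G × G × G → V)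
    rw [E.lesg_postComp_i_t (G × G × G) hp, map_neg]
    abel
  · rintro ⟨c₁, hc₁⟩
    rw [← hc₁]
    obtain ⟨x, rfl⟩ := Submodule.mkQ_surjective _ c₁
    show smH3π 𝓛 ρ₂ (smZ3map 𝓛 E.p E.p_equiv (smZ3map 𝓛 E.i E.i_equiv x)) = 0
    apply (smH3π_eq_zero_iff 𝓛 ρ₂ _).mpr
    rw [mem_smB3]
    refine ⟨0, isLC₂_const 𝓛 (0 : V₂), ?_⟩
    show dd2 ρ₂ 0 = postComp E.p (G × G × G) (postComp E.i (G × G × G) (x : G × G × G → V₁))
    rw [E.lesg_postComp_p_i, map_zero]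

/-- if `H³` vanishes on the kernel, a surjection of smooth representations is onto on `H²` -/
theorem smH2map_surjective_of_cd2 (E : ShortExactRep ρ₁ ρ ρ₂) (h₁ : IsSmoothRep 𝓛 ρ₁)
    (h : IsSmoothRep 𝓛 ρ) (h3 : ∀ x : smH3 𝓛 ρ₁, x = 0) :
    Function.Surjective (smH2map 𝓛 E.p E.p_equiv) := by
  intro c
  exact (exact_smH2map_conn2 E h₁ h c).mp (h3 _)

end CdA

end Fermat.Agent.S55
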