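import Fermat.Agent.S55.Top.CoreCritSpec
import Fermat.Agent.S55.SM.ShapiroIso
import Fermat.Agent.S55.Top.CdA
import Fermat.Agent.S55.Top.Dev

/-!
# S55 top layer, leaf T-CD-B: `cd ≤ 2` by dévissage from the trivial module on open subgroups.

`smH3_subsingleton_of_base` (statement of section CdB of `Top/CdSpec.lean`).  Black box:
`exact_smH3map_smH3map` (row 307, `Top/CdA.lean`).  Route: a finite-dimensional smooth `N` is a
summand up to the unit `[Γ : P]` of `Ind_P Res N` (`P` the preimage of a Sylow `p`-subgroup of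
`Γ / U`, `U` a normal level acting trivially on `N` and contained in `ker χ`); `Res_P N` is a
successive extension of trivial modules (fixed vector of a `p`-group in characteristic `p`);
`Ind` is exact; `H³(Γ, Ind_P k) = H³(P, k) = 0` by Shapiro and the hypothesis.

Helper lemmas are prefixed `cdb_`.
-/

set_option autoImplicit false

namespace Fermat.Agent.S55

section Functoriality

variable {k : Type*} [CommRing k] {G : Type*} [Group G] (𝓛 : Levels G)
  {V : Type*} [AddCommGroup V] [Module k V] {ρ : Representation k G V}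
  {V' : Type*} [AddCommGroup V'] [Module k V'] {ρ' : Representation k G V'}

/-- `p ∘ i = c • id` on coefficients induces `c • id` on `H³` -/
theorem cdb_smH3map_smH3map_of_comp_eq_smul (i : V →ₗ[k] V') (hi : IsEquivariant ρ ρ' i)
    (p : V' →ₗ[k] V) (hp : IsEquivariant ρ' ρ p) (c : k) (hpi : ∀ v, p (i v) = c • v)
    (x : smH3 𝓛 ρ) : smH3map 𝓛 p hp (smH3map 𝓛 i hi x) = c • x := by
  obtain ⟨f, rfl⟩ := Submodule.mkQ_surjective _ x
  show smH3map 𝓛 p hp (smH3map 𝓛 i hi (smH3π 𝓛 ρ f)) = c • smH3π 𝓛 ρ f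
  rw [smH3map_mk, smH3map_mk, ← map_smul]
  congr 1
  apply Subtype.ext
  funext g
  show p (i ((f : G × G × G → V) g)) = c • (f : G × G × G → V) g
  exact hpi _

/-- `H³` with coefficients in the zero module vanishes -/
theorem cdb_smH3_eq_zero_of_subsingleton [Subsingleton V] (x : smH3 𝓛 ρ) : x = 0 := by
  obtain ⟨f, rfl⟩ := Submodule.mkQ_surjective _ x
  have hf : f = 0 := Subtype.ext (funext fun _ => Subsingleton.elim _ _)
  rw [hf, map_zero]

end Functoriality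

section CdB

universe u

variable {k : Type u} [Field k] [Finite k] {Γ : Type u} [Group Γ] (𝓛Γ : Levels Γ) (χ : Γ →* kˣ)

omit [Finite k] in
/-- the base case: `H³(Γ, Ind_H k) = H³(H, k) = 0` -/
theorem cdb_base (hbase : ∀ Γ' : Subgroup Γ, 𝓛Γ.IsOpen Γ' → Γ' ≤ χ.ker →
      ∀ x : smH3 (𝓛Γ.sub Γ') (trivRep (k := k) Γ'), x = 0)
    (H : Subgroup Γ) (hH : 𝓛Γ.IsOpen H) (hHχ : H ≤ χ.ker)
    (x : smH3 𝓛Γ (indRep H (trivRep (k := k) H))) : x = 0 := by
  have h1 := hbase H hH hHχ (smShapiro3 𝓛Γ (trivRep (k := k) H) hH x)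
  exact (LinearEquiv.map_eq_zero_iff _).mp h1

/-- the core of the dévissage: `H³(Γ, Ind_H A) = 0` for every finite-dimensional smooth
representation `A` of `H` on which `H` acts through a `p`-group, by induction on the dimension -/
theorem cdb_core (p : ℕ) [Fact p.Prime] [CharP k p]
    (hbase : ∀ Γ' : Subgroup Γ, 𝓛Γ.IsOpen Γ' → Γ' ≤ χ.ker →
      ∀ x : smH3 (𝓛Γ.sub Γ') (trivRep (k := k) Γ'), x = 0)
    (H : Subgroup Γ) (hH : 𝓛Γ.IsOpen H) (hHχ : H ≤ χ.ker) (n : ℕ) :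
    ∀ {A : Type u} [AddCommGroup A] [Module k A] [FiniteDimensional k A]
      (ρA : Representation k H A),
      Module.finrank k A = n → IsSmoothRep (𝓛Γ.sub H) ρA →
      (∀ h : H, ∃ m : ℕ, ρA (h ^ (p ^ m)) = 1) →
      ∀ x : smH3 𝓛Γ (indRep H ρA), x = 0 := by
  induction n with
  | zero =>
    intro A _ _ _ ρA hn _ _ x
    have hsA : Subsingleton A := Module.finrank_zero_iff.mp hn
    have hsI : Subsingleton ↥(indSpace H ρA) := dev_subsingleton_indSpace H ρA
    exact cdb_smH3_eq_zero_of_subsingleton 𝓛Γ x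
  | succ n ih =>
    intro A _ _ _ ρA hn hA hp x
    have hntA : Nontrivial A := by
      apply Module.nontrivial_of_finrank_pos (R := k)
      omega
    obtain ⟨a₀, ha₀ne, ha₀fix⟩ := dev_exists_fixed p ρA hp
    let ρ₂ := devQuotRep ρA a₀ ha₀fix
    let i₁ : k →ₗ[k] A := LinearMap.toSpanSingleton k A a₀
    have hi₁ : IsEquivariant (trivRep (k := k) H) ρA i₁ := by
      intro g c
      show (c • a₀ : A) = ρA g (c • a₀)
      rw [map_smul, ha₀fix]
    have hi₁inj : Function.Injective i₁ := by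
      intro c c' hcc
      have h1 : (c - c') • a₀ = 0 := by
        rw [sub_smul, sub_eq_zero]
        exact hcc
      rcases smul_eq_zero.mp h1 with h | h
      · exact sub_eq_zero.mp h
      · exact absurd h ha₀ne
    let q : A →ₗ[k] A ⧸ Submodule.span k {a₀} := (Submodule.span k {a₀}).mkQ
    have hq : IsEquivariant ρA ρ₂ q := fun g a => (devQuotRep_mk ρA a₀ ha₀fix g a).symm
    have hqsurj : Function.Surjective q := Submodule.mkQ_surjective _
    have hex₁ : Function.Exact i₁ q := by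
      intro a
      show (Submodule.span k {a₀}).mkQ a = 0 ↔ a ∈ Set.range i₁
      rw [Submodule.mkQ_apply, Submodule.Quotient.mk_eq_zero, Submodule.mem_span_singleton]
      rfl
    have hρ₂ : IsSmoothRep (𝓛Γ.sub H) ρ₂ := by
      intro y
      obtain ⟨a, rfl⟩ := Submodule.mkQ_surjective _ y
      obtain ⟨U, hU, hfix⟩ := hA a
      refine ⟨U, hU, fun s hs => ?_⟩
      show devQuotRep ρA a₀ ha₀fix s ((Submodule.span k {a₀}).mkQ a) = _
      rw [devQuotRep_mk, hfix s hs]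
    have hp₂ : ∀ h : H, ∃ m : ℕ, ρ₂ (h ^ (p ^ m)) = 1 := by
      intro h
      obtain ⟨m, hm⟩ := hp h
      refine ⟨m, ?_⟩
      apply LinearMap.ext
      intro y
      obtain ⟨a, rfl⟩ := Submodule.mkQ_surjective _ y
      show devQuotRep ρA a₀ ha₀fix (h ^ (p ^ m)) ((Submodule.span k {a₀}).mkQ a) = _
      rw [devQuotRep_mk, hm]
      rfl
    have hrk : Module.finrank k (A ⧸ Submodule.span k {a₀}) = n := dev_finrank_quot a₀ ha₀ne n hn
    have htriv : IsSmoothRep (𝓛Γ.sub H) (trivRep (k := k) H) := by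
      intro v
      obtain ⟨U, hU⟩ := (𝓛Γ.sub H).exists_level
      exact ⟨U, hU, fun s _ => rfl⟩
    obtain ⟨E, hEi, hEp⟩ := ShortExactRep.exists_of_exact
      (indMap H (trivRep (k := k) H) ρA i₁ hi₁) (indMap H ρA ρ₂ q hq)
      (indMap_equivariant H _ _ i₁ hi₁) (indMap_equivariant H _ _ q hq)
      (indMap_injective H _ _ i₁ hi₁ hi₁inj) (indMap_surjective H _ _ q hq hqsurj)
      (indMap_exact H _ _ _ i₁ hi₁ q hq hex₁)
    have hex := exact_smH3map_smH3map (𝓛 := 𝓛Γ) E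
      (indRep_isSmooth H (trivRep (k := k) H) 𝓛Γ hH htriv) (indRep_isSmooth H ρA 𝓛Γ hH hA)
    have h2 : smH3map 𝓛Γ E.p E.p_equiv x = 0 := ih ρ₂ hrk hρ₂ hp₂ _
    obtain ⟨y, rfl⟩ := (hex x).mp h2
    rw [cdb_base 𝓛Γ χ hbase H hH hHχ y, map_zero]

/-- T-CD-B: `cd ≤ 2` by dévissage from the trivial module on open subgroups. -/
theorem smH3_subsingleton_of_base (p : ℕ) [Fact p.Prime] [CharP k p]
    (hχ : ∃ U, 𝓛Γ.IsLevel U ∧ U ≤ χ.ker)
    (hbase : ∀ Γ' : Subgroup Γ, 𝓛Γ.IsOpen Γ' → Γ' ≤ χ.ker →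
      ∀ x : smH3 (𝓛Γ.sub Γ') (trivRep (k := k) Γ'), x = 0)
    {N : Type u} [AddCommGroup N] [Module k N] [FiniteDimensional k N]
    (ρN : Representation k Γ N) (hN : IsSmoothRep 𝓛Γ ρN) (x : smH3 𝓛Γ ρN) : x = 0 := by
  -- a normal level `U` acting trivially on `N` and `k(χ)`
  obtain ⟨U₁, hU₁, hfix₁⟩ := dev_exists_level_fix 𝓛Γ ρN hN
  obtain ⟨U₃, hU₃, hle₃⟩ := hχ
  obtain ⟨U, hU, hUn, hleU₁, hleU₃⟩ := 𝓛Γ.exists_normal_le_inf U₁ U₃ hU₁ hU₃
  have hUfi : U.FiniteIndex := 𝓛Γ.finiteIndex U hU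
  -- `H ⊇ U` with `H / U` a Sylow `p`-subgroup of `Γ / U`
  obtain ⟨H, hUH, hfi, hndvd, hpow⟩ := dev_exists_sylow_preimage p U
  have hH : 𝓛Γ.IsOpen H := ⟨U, hU, hUH⟩
  have hHχ : H ≤ χ.ker := by
    intro h hh
    obtain ⟨m, hm⟩ := hpow h hh
    rw [MonoidHom.mem_ker]
    apply dev_eq_one_of_pow_char_pow p (χ h) m
    rw [← map_pow]
    exact MonoidHom.mem_ker.mp (hle₃ (hleU₃ hm))
  have hc : ((H.index : ℕ) : k) ≠ 0 := fun h0 => hndvd ((CharP.cast_eq_zero_iff k p H.index).mp h0)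
  -- the restriction to `H`
  have hcont : (𝓛Γ.sub H).Continuous 𝓛Γ H.subtype := 𝓛Γ.continuous_comap H.subtype
  have hA : IsSmoothRep (𝓛Γ.sub H) (ρN.comp H.subtype) := hN.comp_hom hcont
  have hp : ∀ h : H, ∃ m : ℕ, (ρN.comp H.subtype) (h ^ (p ^ m)) = 1 := by
    intro h
    obtain ⟨m, hm⟩ := hpow h h.2
    refine ⟨m, ?_⟩
    apply LinearMap.ext
    intro v
    show ρN ((h ^ (p ^ m) : H) : Γ) v = v
    rw [Subgroup.coe_pow]
    exact hfix₁ _ (hleU₁ hm) v
  have h0 : smH3map 𝓛Γ (indUnit H ρN) (indUnit_equivariant H ρN) x = 0 :=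
    cdb_core 𝓛Γ χ p hbase H hH hHχ (Module.finrank k N) (ρN.comp H.subtype) rfl hA hp _
  have h1 := cdb_smH3map_smH3map_of_comp_eq_smul 𝓛Γ (indUnit H ρN) (indUnit_equivariant H ρN)
    (indCounit H ρN) (indCounit_equivariant H ρN) (H.index : k) (indCounit_indUnit H ρN) x
  rw [h0, map_zero] at h1
  exact (smul_eq_zero.mp h1.symm).resolve_left hc

end CdB

end Fermat.Agent.S55
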