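import Fermat.Agent.S55.Top.CdA
import Fermat.Agent.S55.Top.CdB
import Fermat.Agent.S55.Top.CritA
import Fermat.Agent.S55.Top.Dev

/-!
# S55 top layer, leaf T-CD-C: LEFT non-degeneracy of `pair02` from `cd ≤ 2` of the local groups.

Section CdC of `Top/CdSpec.lean`, verbatim statements: `pair02_nondeg_left_of_cd2` and
`hN_of_local_h3`.

Route: if `b ≠ 0` pick `v` with `b v ≠ 0`; `φ = β (b v) : W → k(χ)` is a nonzero, hence
surjective, `Γ_v`-equivariant map; its kernel `N` is a finite-dimensional smooth representation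
of `Γ_v`, so `H³(Γ_v, N) = 0` and `φ_* : H²(Γ_v, W) → H²(Γ_v, k(χ))` is onto (T-CD-A).  As
`b v ∪ c = φ_* c`, a class `c` supported at `v` with `φ_* c_v = z_v` gives
`pair02 b c = trLoc z ≠ 0`.

Auxiliary names have the prefix `cdc`.
-/

set_option autoImplicit false

namespace Fermat.Agent.S55

section CdCAux

variable {k : Type*} [Field k] {G : Type*} [Group G] {𝓛 : Levels G}
  {V W Z : Type*} [AddCommGroup V] [Module k V] [AddCommGroup W] [Module k W]
  [AddCommGroup Z] [Module k Z]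
  {ρV : Representation k G V} {ρW : Representation k G W} {ρZ : Representation k G Z}
  {β : V →ₗ[k] W →ₗ[k] Z}

/-- pairing against an invariant vector is equivariant -/
theorem cdc_isEquivariant (hβ : IsEquivariant₂ ρV ρW ρZ β) (m : ↥(smH0 ρV)) :
    IsEquivariant ρW ρZ (β (m : V)) := by
  intro g w
  have hm : dd0 ρV (m : V) = 0 := LinearMap.mem_ker.1 m.2
  have hg : ρV g (m : V) = (m : V) := by
    have := congrFun hm g
    rw [dd0_apply, Pi.zero_apply, sub_eq_zero] at this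
    exact this
  rw [← hβ g (m : V) w, hg]

/-- cup product with a class of degree `0` is the map induced on `H²` by `β m` -/
theorem cdc_cupH02_eq_smH2map (P : PairingData 𝓛 ρV ρW ρZ β) (m : ↥(smH0 ρV))
    (x : smH2 𝓛 ρW) :
    cupH02 P m x = smH2map 𝓛 (β (m : V)) (cdc_isEquivariant P.equiv m) x := by
  obtain ⟨f, rfl⟩ := Submodule.mkQ_surjective _ x
  rfl

theorem cdc_isSmoothRep_sub {ρ : Representation k G V} (h : IsSmoothRep 𝓛 ρ) (p : Submodule k V)
    (hp : ∀ g, p ≤ p.comap (ρ g)) : IsSmoothRep 𝓛 (ρ.subrepresentation p hp) := by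
  intro v
  obtain ⟨U, hU, hfix⟩ := h (v : V)
  exact ⟨U, hU, fun s hs => Subtype.ext (hfix s hs)⟩

/-- a nonzero linear functional is onto -/
theorem cdc_surjective_of_ne_zero (φ : W →ₗ[k] k) (hφ : φ ≠ 0) : Function.Surjective φ := by
  obtain ⟨w, hw⟩ : ∃ w, φ w ≠ 0 := by
    by_contra h
    refine hφ (LinearMap.ext fun w => ?_)
    by_contra hw
    exact h ⟨w, hw⟩
  intro c
  refine ⟨(c / φ w) • w, ?_⟩
  rw [map_smul, smul_eq_mul, div_mul_cancel₀ _ hw]

end CdCAux

section CdCLocal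

universe u

variable {k : Type u} [Field k] {Γ : Type u} [Group Γ] {𝓛Γ : Levels Γ}
  {V W : Type u} [AddCommGroup V] [Module k V] [AddCommGroup W] [Module k W]
  [FiniteDimensional k W]
  {ρV : Representation k Γ V} {ρW : Representation k Γ W} {ρZ : Representation k Γ k}
  {β : V →ₗ[k] W →ₗ[k] k}

/-- the local statement: for `m ∈ H⁰(Γ, V)` with `β m ≠ 0`, cup product with `m` is onto
`H²(Γ, W) → H²(Γ, k(χ))` when `H³(Γ, ·)` vanishes on finite-dimensional smooth modules -/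
theorem cdc_cupH02_surjective (P : PairingData 𝓛Γ ρV ρW ρZ β)
    (hcd : ∀ {N : Type u} [AddCommGroup N] [Module k N] [FiniteDimensional k N]
      (ρN : Representation k Γ N), IsSmoothRep 𝓛Γ ρN → ∀ x : smH3 𝓛Γ ρN, x = 0)
    (m : ↥(smH0 ρV)) (hm : β (m : V) ≠ 0) :
    Function.Surjective (cupH02 P m) := by
  have hφ : IsEquivariant ρW ρZ (β (m : V)) := cdc_isEquivariant P.equiv m
  have hsurj : Function.Surjective (β (m : V)) := cdc_surjective_of_ne_zero _ hm
  -- the kernel as a subrepresentation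
  have hp : ∀ g, LinearMap.ker (β (m : V)) ≤ (LinearMap.ker (β (m : V))).comap (ρW g) := by
    intro g w hw
    rw [Submodule.mem_comap, LinearMap.mem_ker, hφ g w, LinearMap.mem_ker.1 hw, map_zero]
  have hsmN : IsSmoothRep 𝓛Γ (ρW.subrepresentation _ hp) := cdc_isSmoothRep_sub P.smW _ hp
  have hi : IsEquivariant (ρW.subrepresentation _ hp) ρW (LinearMap.ker (β (m : V))).subtype :=
    fun g w => rfl
  have hex : Function.Exact (LinearMap.ker (β (m : V))).subtype (β (m : V)) := by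
    intro w
    constructor
    · intro hw
      exact ⟨⟨w, LinearMap.mem_ker.2 hw⟩, rfl⟩
    · rintro ⟨n, rfl⟩
      exact LinearMap.mem_ker.1 n.2
  obtain ⟨E, -, hEp⟩ := ShortExactRep.exists_of_exact (ρ₁ := ρW.subrepresentation _ hp)
    (ρ := ρW) (ρ₂ := ρZ) (LinearMap.ker (β (m : V))).subtype (β (m : V)) hi hφ
    (Submodule.injective_subtype _) hsurj hex
  have key := smH2map_surjective_of_cd2 (𝓛 := 𝓛Γ) E hsmN P.smW
    (hcd (ρW.subrepresentation _ hp) hsmN)
  have key' : ∀ (ψ : W →ₗ[k] k) (hψ : IsEquivariant ρW ρZ ψ), ψ = β (m : V) →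
      Function.Surjective (smH2map 𝓛Γ ψ hψ) → Function.Surjective (smH2map 𝓛Γ (β (m : V)) hφ) := by
    intro ψ hψ h
    subst h
    exact id
  intro y
  obtain ⟨x, hx⟩ := key' E.p E.p_equiv hEp key y
  exact ⟨x, by rw [cdc_cupH02_eq_smH2map P m x, hx]⟩

end CdCLocal

section CdC

universe u

variable {k : Type u} [Field k] [Finite k] {G : Type u} [Group G] {𝓛 : Levels G}
  {ι : Type*} [Finite ι] {Γ : ι → Type u} [∀ v, Group (Γ v)] (D : LocSys 𝓛 ι Γ) (χ : G →* kˣ)

set_option maxSynthPendingDepth 3 in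
/-- T-CD-C: left non-degeneracy of `pair02 : P⁰(V) × P²(W) → k` for a perfect pair, from
`cd ≤ 2` of the local groups and non-vanishing of the local traces. -/
theorem pair02_nondeg_left_of_cd2 (tr : smHc3 D (chiRep χ) →ₗ[k] k)
    (hcd : ∀ v, ∀ {N : Type u} [AddCommGroup N] [Module k N] [FiniteDimensional k N]
      (ρN : Representation k (Γ v) N), IsSmoothRep (D.lev v) ρN → ∀ x : smH3 (D.lev v) ρN, x = 0)
    (hlam : ∀ v, ∃ z : ∀ v, smH2 (D.lev v) (D.rep (chiRep χ) v),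
      (∀ v', v' ≠ v → z v' = 0) ∧ trLoc D tr z ≠ 0)
    {V W : Type u} [AddCommGroup V] [Module k V] [AddCommGroup W] [Module k W]
    (ρV : Representation k G V) (ρW : Representation k G W) (β : V →ₗ[k] W →ₗ[k] k)
    (hP : PerfPair 𝓛 χ ρV ρW β) (b : ∀ v, ↥(smH0 (D.rep ρV v)))
    (hb : ∀ c, pair02 D hP.pd tr b c = 0) : b = 0 := by
  classical
  by_contra hne
  obtain ⟨v, hv⟩ := Function.ne_iff.1 hne
  have := hP.finW
  have hm : β ((b v : ↥(smH0 (D.rep ρV v))) : V) ≠ 0 := by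
    intro h0
    apply hv
    apply Subtype.ext
    exact hP.nondeg_left _ (fun w => by rw [h0, LinearMap.zero_apply])
  obtain ⟨z, hz0, hz⟩ := hlam v
  obtain ⟨cv, hcv⟩ := cdc_cupH02_surjective (hP.pd.loc D v) (hcd v) (b v) hm (z v)
  apply hz
  rw [← hb (Function.update 0 v cv)]
  show trLoc D tr z = trLoc D tr (fun v' => cupH02 (hP.pd.loc D v') (b v')
    ((Function.update (0 : ∀ v, smH2 (D.lev v) (D.rep ρW v)) v cv) v'))
  congr 1
  funext v'
  rcases eq_or_ne v' v with rfl | hv'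
  · rw [Function.update_self, hcv]
  · rw [Function.update_of_ne hv', Pi.zero_apply, map_zero, hz0 v' hv']

set_option maxSynthPendingDepth 3 in
/-- hypothesis `hN` of ASM-MAIN from: `H³(Γ', k) = 0` for the open subgroups `Γ' ≤ ker χ` of the
local groups, and non-vanishing of the local traces. -/
theorem hN_of_local_h3 (p : ℕ) [Fact p.Prime] [CharP k p]
    (hχ : ∃ U, 𝓛.IsLevel U ∧ U ≤ χ.ker) (tr : smHc3 D (chiRep χ) →ₗ[k] k)
    (h3 : ∀ v, ∀ Γ' : Subgroup (Γ v), (D.lev v).IsOpen Γ' → Γ' ≤ (χ.comp (D.r v)).ker →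
      ∀ x : smH3 ((D.lev v).sub Γ') (trivRep (k := k) Γ'), x = 0)
    (hlam : ∀ v, ∃ z : ∀ v, smH2 (D.lev v) (D.rep (chiRep χ) v),
      (∀ v', v' ≠ v → z v' = 0) ∧ trLoc D tr z ≠ 0) :
    ∀ H : Subgroup G, 𝓛.IsOpen H → H ≤ χ.ker →
      ∀ P : PairingData 𝓛 (indRep H (trivRep (k := k) H)) (indRep H (trivRep (k := k) H))
        (chiRep χ) (basePairing χ H),
      ∀ b : ∀ v, ↥(smH0 (D.rep (indRep H (trivRep (k := k) H)) v)),
        (∀ c, pair02 D P tr b c = 0) → b = 0 := by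
  intro H hH hHχ P b hb
  have hPP := basePairing_perfPair 𝓛 χ hχ H hH hHχ
  refine pair02_nondeg_left_of_cd2 D χ tr ?_ hlam _ _ _ hPP b hb
  intro v N _ _ _ ρN hN x
  have hχv : ∃ U, (D.lev v).IsLevel U ∧ U ≤ (χ.comp (D.r v)).ker := by
    obtain ⟨U, hU, hle⟩ := hχ
    obtain ⟨W, hW, hWU⟩ := D.cont v U hU
    exact ⟨W, hW, fun γ hγ => hle (hWU hγ)⟩
  exact smH3_subsingleton_of_base (D.lev v) (χ.comp (D.r v)) p hχv (h3 v) ρN hN x

end CdC

end Fermat.Agent.S55
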