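import Fermat.Agent.S55.Top.CritA

/-!
# S55 top layer, leaf T-CRIT-B: the cohomology-level criterion for the duality package
(diagram chases and linear algebra).

`DualityPkg.of_criterion`, `exists_tr_of_reciprocity`, `jc3_eq_zero_of_res3`,
`exists_rep_of_nondeg_right`, `DualityPkg.of_criterion_dim`.
Helper lemmas are prefixed `critb_`.
-/

set_option autoImplicit false

namespace Fermat.Agent.S55

variable {k : Type*} [Field k] {G : Type*} [Group G]
  {V W Z : Type*} [AddCommGroup V] [Module k V] [AddCommGroup W] [Module k W]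
  [AddCommGroup Z] [Module k Z]
  {ρV : Representation k G V} {ρW : Representation k G W} {ρZ : Representation k G Z}
  {β : V →ₗ[k] W →ₗ[k] Z}

section LinAlg

variable {M N : Type*} [AddCommGroup M] [Module k M] [AddCommGroup N] [Module k N]

/-- a functional vanishing on `ker f` factors through `f` -/
theorem critb_exists_factor (f : M →ₗ[k] N) (l : Module.Dual k M)
    (h : ∀ x, f x = 0 → l x = 0) : ∃ m : Module.Dual k N, ∀ x, m (f x) = l x := by
  have hl : l ∈ LinearMap.range f.dualMap := by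
    rw [LinearMap.range_dualMap_eq_dualAnnihilator_ker, Submodule.mem_dualAnnihilator]
    intro x hx
    exact h x hx
  obtain ⟨m, hm⟩ := hl
  exact ⟨m, fun x => by rw [← hm]; rfl⟩

/-- a pairing with trivial right kernel and finite-dimensional right factor represents every
functional on the right factor -/
theorem critb_surjective_of_nondeg [FiniteDimensional k N] (B : M →ₗ[k] N →ₗ[k] k)
    (h : ∀ c, (∀ b, B b c = 0) → c = 0) : Function.Surjective B := by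
  rw [← LinearMap.range_eq_top]
  have h0 : (LinearMap.range B).dualCoannihilator = ⊥ := by
    rw [eq_bot_iff]
    intro c hc
    rw [Submodule.mem_dualCoannihilator] at hc
    rw [Submodule.mem_bot]
    exact h c fun b => hc (B b) ⟨b, rfl⟩
  rw [← Subspace.dualCoannihilator_dualAnnihilator_eq (W := LinearMap.range B), h0,
    Submodule.dualAnnihilator_bot]

/-- linear algebra: a pairing with trivial right kernel and finite-dimensional left factor
represents every functional on the right factor -/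
theorem exists_rep_of_nondeg_right {M N : Type*} [AddCommGroup M] [Module k M] [AddCommGroup N]
    [Module k N] [FiniteDimensional k M] (B : M →ₗ[k] N →ₗ[k] k)
    (h : ∀ c, (∀ b, B b c = 0) → c = 0) (m : Module.Dual k N) : ∃ b, ∀ c, B b c = m c := by
  have hinj : Function.Injective B.flip := by
    rw [injective_iff_map_eq_zero]
    intro c hc
    exact h c fun b => by rw [← LinearMap.flip_apply, hc, LinearMap.zero_apply]
  have : FiniteDimensional k N := FiniteDimensional.of_injective B.flip hinj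
  obtain ⟨b, hb⟩ := critb_surjective_of_nondeg B h m
  exact ⟨b, fun c => by rw [hb]⟩

end LinAlg

variable {𝓛 : Levels G} {ι : Type*} {Γ : ι → Type*} [∀ v, Group (Γ v)] (D : LocSys 𝓛 ι Γ)
  (P : PairingData 𝓛 ρV ρW ρZ β)

variable (tr : smHc3 D ρZ →ₗ[k] k)

/-- THE CRITERION.
* `h3a` [c1]: `H_c³(V) → H³(V)` is zero (e.g. `H³(G,V) = 0` or `Ш³(V) = 0`);
* `h3b` [c2]: `b ∈ P²(V)` orthogonal to `loc H⁰(W)` is global;
* `h2a`: if `θ²(u)` vanishes on `Ш¹(W) = im j¹` then `j² u = 0`  (Ш-pairing, Ш² side);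
* `h2b` [b1]: `b ∈ P¹(V)` orthogonal to `loc H¹(W)` is global;
* `h2c`: every functional on `H¹(W)` agrees on `Ш¹(W)` with some `θ²(u)` (Ш-pairing, Ш¹ side);
* `h2d`: local duality `P¹(V) → P¹(W)^∨` surjective;
* `h1a`: every functional on `H²(W)` agrees on `Ш²(W) = im j²` with some `θ¹(u)`;
* `h1b` [a1]: local duality `P⁰(V) → P²(W)^∨` surjective. -/
theorem DualityPkg.of_criterion
    (h3a : ∀ x : smHc3 D ρV, jc3 D (ρ := ρV) x = 0)
    (h3b : ∀ b : ∀ v, smH2 (D.lev v) (D.rep ρV v),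
      (∀ w : ↥(smH0 ρW), pair20 D P tr b (locP0 D (ρ := ρW) w) = 0) → ∃ x, locP2 D (ρ := ρV) x = b)
    (h2a : ∀ u : smHc2 D ρV,
      (∀ v' : smHc1 D ρW, theta2 D P tr u (jc1 D (ρ := ρW) v') = 0) → jc2 D (ρ := ρV) u = 0)
    (h2b : ∀ b : ∀ v, smH1 (D.lev v) (D.rep ρV v),
      (∀ y : smH1 𝓛 ρW, pair11 D P tr b (locP1 D (ρ := ρW) y) = 0) → ∃ x, locP1 D (ρ := ρV) x = b)
    (h2c : ∀ l : Module.Dual k (smH1 𝓛 ρW), ∃ u : smHc2 D ρV,
      ∀ v' : smHc1 D ρW, theta2 D P tr u (jc1 D (ρ := ρW) v') = l (jc1 D (ρ := ρW) v'))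
    (h2d : ∀ m : Module.Dual k (∀ v, smH1 (D.lev v) (D.rep ρW v)),
      ∃ b, ∀ c, pair11 D P tr b c = m c)
    (h1a : ∀ l : Module.Dual k (smH2 𝓛 ρW), ∃ u : smHc1 D ρV,
      ∀ x' : smHc2 D ρW, theta1 D P tr u (jc2 D (ρ := ρW) x') = l (jc2 D (ρ := ρW) x'))
    (h1b : ∀ m : Module.Dual k (∀ v, smH2 (D.lev v) (D.rep ρW v)),
      ∃ b, ∀ c, pair02 D P tr b c = m c) :
    DualityPkg D P tr := by
  set_option maxSynthPendingDepth 3 in
  refine ⟨?_, ?_, ?_, ?_⟩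
  · -- `θ¹` surjective
    intro l
    obtain ⟨u, hu⟩ := h1a l
    have hker : ∀ y : smH2 𝓛 ρW, locP2 D (ρ := ρW) y = 0 → (l - theta1 D P tr u) y = 0 := by
      intro y hy
      obtain ⟨x', rfl⟩ := (exact_jc2_locP2 D P.smW y).1 hy
      rw [LinearMap.sub_apply, hu x', sub_self]
    obtain ⟨m, hm⟩ := critb_exists_factor (locP2 D (ρ := ρW)) (l - theta1 D P tr u) hker
    obtain ⟨b, hb⟩ := h1b m
    refine ⟨u + bdry1 D (ρ := ρV) b, LinearMap.ext fun y => ?_⟩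
    rw [map_add, LinearMap.add_apply, theta1_bdry1, hb, hm, LinearMap.sub_apply]
    abel
  · -- `θ²` injective
    rw [injective_iff_map_eq_zero]
    intro u hu
    have h1 : jc2 D (ρ := ρV) u = 0 := h2a u fun v' => by rw [hu, LinearMap.zero_apply]
    obtain ⟨b, rfl⟩ := (exact_bdry2_jc2 D P.smV u).1 h1
    obtain ⟨x, rfl⟩ := h2b b fun y => by
      rw [← theta2_bdry2, hu, LinearMap.zero_apply]
    exact (exact_locP1_bdry2 D P.smV _).2 ⟨x, rfl⟩
  · -- `θ²` surjective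
    intro l
    obtain ⟨u, hu⟩ := h2c l
    have hker : ∀ y : smH1 𝓛 ρW, locP1 D (ρ := ρW) y = 0 → (l - theta2 D P tr u) y = 0 := by
      intro y hy
      obtain ⟨v', rfl⟩ := (exact_jc1_locP1 D P.smW y).1 hy
      rw [LinearMap.sub_apply, hu v', sub_self]
    obtain ⟨m, hm⟩ := critb_exists_factor (locP1 D (ρ := ρW)) (l - theta2 D P tr u) hker
    obtain ⟨b, hb⟩ := h2d m
    refine ⟨u + bdry2 D (ρ := ρV) b, LinearMap.ext fun y => ?_⟩
    rw [map_add, LinearMap.add_apply, theta2_bdry2, hb, hm, LinearMap.sub_apply]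
    abel
  · -- `θ³` injective
    rw [injective_iff_map_eq_zero]
    intro x hx
    obtain ⟨b, rfl⟩ := (exact_bdry3_jc3 D P.smV x).1 (h3a x)
    obtain ⟨x', rfl⟩ := h3b b fun w => by
      rw [← theta3_bdry3, hx, LinearMap.zero_apply]
    exact (exact_locP2_bdry3 D P.smV _).2 ⟨x', rfl⟩

/-- a functional on `P²(Z)` that kills the global classes extends to a trace on `H_c³(Z)` -/
theorem exists_tr_of_reciprocity (hZ : IsSmoothRep 𝓛 ρZ)
    (inv : (∀ v, smH2 (D.lev v) (D.rep ρZ v)) →ₗ[k] k)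
    (hrec : ∀ x : smH2 𝓛 ρZ, inv (locP2 D (ρ := ρZ) x) = 0) :
    ∃ tr : smHc3 D ρZ →ₗ[k] k, ∀ b, tr (bdry3 D (ρ := ρZ) b) = inv b := by
  set_option maxSynthPendingDepth 3 in
  refine critb_exists_factor (bdry3 D (ρ := ρZ)) inv ?_
  intro b hb
  obtain ⟨x, rfl⟩ := (exact_locP2_bdry3 D hZ b).1 hb
  exact hrec x

set_option linter.unusedVariables false in
/-- [c1] in elementwise form: if every smooth global 3-cocycle which is locally a coboundary
at all `v` is a coboundary, then `j³ = 0`.  (In particular if `H³(G, V) = 0`.) -/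
theorem jc3_eq_zero_of_res3 (hV : IsSmoothRep 𝓛 ρV)
    (h : ∀ a : G × G × G → V, a ∈ smZ3 𝓛 ρV →
      (∀ v, res3 k (D.r v) a ∈ smB3 (D.lev v) (D.rep ρV v)) → a ∈ smB3 𝓛 ρV)
    (x : smHc3 D ρV) : jc3 D (ρ := ρV) x = 0 := by
  obtain ⟨⟨⟨a, b⟩, hab⟩, rfl⟩ := Submodule.mkQ_surjective _ x
  have hab' := (mem_smZc3 D ρV (a, b)).1 hab
  have ha : a ∈ smZ3 𝓛 ρV := (mem_smZ3 𝓛 ρV a).2 ⟨hab'.1.1, hab'.2.1⟩
  have hB : a ∈ smB3 𝓛 ρV := by
    refine h a ha fun v => ?_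
    rw [hab'.1.2 v]
    exact (mem_smB3 (D.lev v) (D.rep ρV v) _).2 ⟨b v, hab'.2.2 v, rfl⟩
  have hjc : jc3 D (ρ := ρV) (Submodule.mkQ _ ⟨(a, b), hab⟩) = smH3π 𝓛 ρV ⟨a, ha⟩ := rfl
  rw [hjc, smH3π_eq_zero_iff]
  exact hB

set_option maxSynthPendingDepth 3 in
/-- the Ш-pairing as a bijection `Ш²(V) → Dual Ш¹(W)` induced by `θ²`, under the hypotheses of the
dimension form of the criterion -/
theorem critb_exists_shaMap
    (hnd : ∀ y : smH1 𝓛 ρW, locP1 D (ρ := ρW) y = 0 → y ≠ 0 →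
      ∃ u : smHc2 D ρV, theta2 D P tr u y ≠ 0)
    (hfin : FiniteDimensional k ↥(sha1 D ρW))
    (hdim : Module.finrank k ↥(sha2 D ρV) ≤ Module.finrank k ↥(sha1 D ρW))
    (hfin2 : FiniteDimensional k ↥(sha2 D ρV)) :
    ∃ Φ : ↥(sha2 D ρV) →ₗ[k] Module.Dual k ↥(sha1 D ρW),
      Function.Bijective Φ ∧
      ∀ (u : smHc2 D ρV) (hu : jc2 D (ρ := ρV) u ∈ sha2 D ρV) (y : ↥(sha1 D ρW)),
        Φ ⟨jc2 D (ρ := ρV) u, hu⟩ y = theta2 D P tr u (y : smH1 𝓛 ρW) := by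
  -- the pairing `H_c²(V) × Ш¹(W) → k`
  let B : smHc2 D ρV →ₗ[k] ↥(sha1 D ρW) →ₗ[k] k :=
    ((sha1 D ρW).subtype.dualMap).comp (theta2 D P tr)
  have hB : ∀ u y, B u y = theta2 D P tr u (y : smH1 𝓛 ρW) := fun u y => rfl
  have hBsurj : Function.Surjective B := by
    refine critb_surjective_of_nondeg B ?_
    intro c hc
    by_contra hne
    have hc0 : (c : smH1 𝓛 ρW) ≠ 0 := fun h0 => hne (Subtype.ext h0)
    obtain ⟨u, hu⟩ := hnd c c.2 hc0
    exact hu (hc u)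
  -- `j² : H_c²(V) → Ш²(V)`
  have hjmem : ∀ u : smHc2 D ρV, jc2 D (ρ := ρV) u ∈ sha2 D ρV := fun u =>
    (exact_jc2_locP2 D P.smV _).2 ⟨u, rfl⟩
  let j : smHc2 D ρV →ₗ[k] ↥(sha2 D ρV) := (jc2 D (ρ := ρV)).codRestrict (sha2 D ρV) hjmem
  have hjsurj : Function.Surjective j := by
    rintro ⟨x, hx⟩
    obtain ⟨u, rfl⟩ := (exact_jc2_locP2 D P.smV x).1 hx
    exact ⟨u, rfl⟩
  have hjker : ∀ u : smHc2 D ρV, j u = 0 → B u = 0 := by
    intro u hu
    have hu' : jc2 D (ρ := ρV) u = 0 := congrArg Subtype.val hu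
    obtain ⟨b, rfl⟩ := (exact_bdry2_jc2 D P.smV u).1 hu'
    refine LinearMap.ext fun y => ?_
    rw [hB, theta2_bdry2, show locP1 D (ρ := ρW) (y : smH1 𝓛 ρW) = 0 from y.2, map_zero,
      LinearMap.zero_apply]
  obtain ⟨s, hs⟩ := j.exists_rightInverse_of_surjective (LinearMap.range_eq_top.2 hjsurj)
  have hs' : ∀ x, j (s x) = x := fun x => LinearMap.congr_fun hs x
  have hΦ : ∀ u, (B.comp s) (j u) = B u := by
    intro u
    have h0 : B (s (j u) - u) = 0 := hjker _ (by rw [map_sub, hs', sub_self])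
    rw [map_sub, sub_eq_zero] at h0
    exact h0
  have hΦsurj : Function.Surjective (B.comp s) := by
    intro l
    obtain ⟨u, rfl⟩ := hBsurj l
    exact ⟨j u, hΦ u⟩
  have hfinD : FiniteDimensional k (Module.Dual k ↥(sha1 D ρW)) := inferInstance
  have hrank : Module.finrank k ↥(sha2 D ρV) = Module.finrank k (Module.Dual k ↥(sha1 D ρW)) := by
    refine le_antisymm (by rw [Subspace.dual_finrank_eq]; exact hdim) ?_
    have h1 := LinearMap.finrank_range_le (B.comp s)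
    rw [LinearMap.range_eq_top.2 hΦsurj, finrank_top] at h1
    exact h1
  refine ⟨B.comp s, ⟨(LinearMap.injective_iff_surjective_of_finrank_eq_finrank hrank).2 hΦsurj,
    hΦsurj⟩, ?_⟩
  intro u hu y
  have : (⟨jc2 D (ρ := ρV) u, hu⟩ : ↥(sha2 D ρV)) = j u := rfl
  rw [this, hΦ, hB]

/-- THE CRITERION, dimension form: the three hypotheses `h2a, h2c, h1a` on the Ш-pairing are
replaced by: `θ²` separates the points of `Ш¹` (for the pair and its flip; this is FORMAL for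
base pairs, see `ShaSpec`), finiteness of `Ш¹` and `Ш²`, and `dim Ш² ≤ dim Ш¹`.
(`hfin2`, `hfin2'` are NECESSARY: `Module.finrank` of an infinite-dimensional space is `0`.) -/
theorem DualityPkg.of_criterion_dim (P' : PairingData 𝓛 ρW ρV ρZ β.flip)
    (h3a : ∀ x : smHc3 D ρV, jc3 D (ρ := ρV) x = 0)
    (h3b : ∀ b : ∀ v, smH2 (D.lev v) (D.rep ρV v),
      (∀ w : ↥(smH0 ρW), pair20 D P tr b (locP0 D (ρ := ρW) w) = 0) →
        ∃ x, locP2 D (ρ := ρV) x = b)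
    (h2b : ∀ b : ∀ v, smH1 (D.lev v) (D.rep ρV v),
      (∀ y : smH1 𝓛 ρW, pair11 D P tr b (locP1 D (ρ := ρW) y) = 0) →
        ∃ x, locP1 D (ρ := ρV) x = b)
    (h2d : ∀ m : Module.Dual k (∀ v, smH1 (D.lev v) (D.rep ρW v)),
      ∃ b, ∀ c, pair11 D P tr b c = m c)
    (h1b : ∀ m : Module.Dual k (∀ v, smH2 (D.lev v) (D.rep ρW v)),
      ∃ b, ∀ c, pair02 D P tr b c = m c)
    (hnd : ∀ y : smH1 𝓛 ρW, locP1 D (ρ := ρW) y = 0 → y ≠ 0 →
      ∃ u : smHc2 D ρV, theta2 D P tr u y ≠ 0)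
    (hfin : FiniteDimensional k ↥(sha1 D ρW))
    (hdim : Module.finrank k ↥(sha2 D ρV) ≤ Module.finrank k ↥(sha1 D ρW))
    (hfin2 : FiniteDimensional k ↥(sha2 D ρV))
    (hnd' : ∀ y : smH1 𝓛 ρV, locP1 D (ρ := ρV) y = 0 → y ≠ 0 →
      ∃ u : smHc2 D ρW, theta2 D P' tr u y ≠ 0)
    (hfin' : FiniteDimensional k ↥(sha1 D ρV))
    (hdim' : Module.finrank k ↥(sha2 D ρW) ≤ Module.finrank k ↥(sha1 D ρV))
    (hfin2' : FiniteDimensional k ↥(sha2 D ρW)) :
    DualityPkg D P tr := by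
  set_option maxSynthPendingDepth 3 in
  obtain ⟨Φ, ⟨hΦinj, hΦsurj⟩, hΦ⟩ := critb_exists_shaMap D P tr hnd hfin hdim hfin2
  obtain ⟨Φ', ⟨hΦ'inj, _⟩, hΦ'⟩ := critb_exists_shaMap D P' tr hnd' hfin' hdim' hfin2'
  have hj1W : ∀ v' : smHc1 D ρW, jc1 D (ρ := ρW) v' ∈ sha1 D ρW := fun v' =>
    (exact_jc1_locP1 D P.smW _).2 ⟨v', rfl⟩
  have hj1V : ∀ v' : smHc1 D ρV, jc1 D (ρ := ρV) v' ∈ sha1 D ρV := fun v' =>
    (exact_jc1_locP1 D P.smV _).2 ⟨v', rfl⟩
  have hj2V : ∀ u : smHc2 D ρV, jc2 D (ρ := ρV) u ∈ sha2 D ρV := fun u =>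
    (exact_jc2_locP2 D P.smV _).2 ⟨u, rfl⟩
  have hj2W : ∀ u : smHc2 D ρW, jc2 D (ρ := ρW) u ∈ sha2 D ρW := fun u =>
    (exact_jc2_locP2 D P.smW _).2 ⟨u, rfl⟩
  refine DualityPkg.of_criterion D P tr h3a h3b ?_ h2b ?_ h2d ?_ h1b
  · -- `h2a`
    intro u hu
    have h0 : Φ ⟨jc2 D (ρ := ρV) u, hj2V u⟩ = 0 := by
      refine LinearMap.ext fun y => ?_
      obtain ⟨v', hv'⟩ := (exact_jc1_locP1 D P.smW (y : smH1 𝓛 ρW)).1 y.2
      rw [hΦ, ← hv', hu v', LinearMap.zero_apply]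
    have h1 := hΦinj (h0.trans (map_zero Φ).symm)
    exact congrArg Subtype.val h1
  · -- `h2c`
    intro l
    obtain ⟨x, hx⟩ := hΦsurj (l.comp (sha1 D ρW).subtype)
    obtain ⟨u, hu⟩ := (exact_jc2_locP2 D P.smV (x : smH2 𝓛 ρV)).1 x.2
    refine ⟨u, fun v' => ?_⟩
    have hxu : x = ⟨jc2 D (ρ := ρV) u, hj2V u⟩ := Subtype.ext hu.symm
    have := hΦ u (hj2V u) ⟨jc1 D (ρ := ρW) v', hj1W v'⟩
    rw [← hxu, hx] at this
    exact this.symm
  · -- `h1a`
    intro l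
    have hsurj : Function.Surjective Φ'.flip := by
      refine critb_surjective_of_nondeg Φ'.flip ?_
      intro c hc
      refine hΦ'inj ((LinearMap.ext fun y => ?_).trans (map_zero Φ').symm)
      rw [LinearMap.zero_apply, ← LinearMap.flip_apply, hc y]
    obtain ⟨y, hy⟩ := hsurj (l.comp (sha2 D ρW).subtype)
    obtain ⟨v, hv⟩ := (exact_jc1_locP1 D P.smV (y : smH1 𝓛 ρV)).1 y.2
    refine ⟨v, fun x' => ?_⟩
    have hyv : y = ⟨jc1 D (ρ := ρV) v, hj1V v⟩ := Subtype.ext hv.symm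
    have h1 := hΦ' x' (hj2W x') ⟨jc1 D (ρ := ρV) v, hj1V v⟩
    have h2 : theta2 D P' tr x' (jc1 D (ρ := ρV) v) = theta1 D P tr v (jc2 D (ρ := ρW) x') :=
      theta2_jc1_eq_theta1_jc2 D P' P tr x' v
    have h3 : Φ'.flip y ⟨jc2 D (ρ := ρW) x', hj2W x'⟩ = l (jc2 D (ρ := ρW) x') := by
      rw [hy]; rfl
    rw [← h2, ← h3, hyv, LinearMap.flip_apply]
    exact h1.symm

end Fermat.Agent.S55
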