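import Fermat.Agent.S55.Top.CdA
import Fermat.Agent.S55.Top.CdB
import Fermat.Agent.S55.Top.CdC

/-!
# S55 top layer, leaves T-CD-A, T-CD-B, T-CD-C: SHIM (all delivered, sorry-free).

* `Top/CdA.lean` (helper8): `exact_smH3map_smH3map`, `smH2map_surjective_of_cd2`
* `Top/CdB.lean` (helper16): `smH3_subsingleton_of_base` (`cd ≤ 2` by dévissage)
* `Top/CdC.lean` (helper17): `pair02_nondeg_left_of_cd2`, `hN_of_local_h3`
("route B" for hypothesis `hN` of ASM-MAIN).
-/
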