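import Fermat.Agent.S55.Top.ShaSpec
import Fermat.Agent.S55.SM.IndFunctor

/-!
# S55 top layer: the duality package for the base pairs from the cohomology-level criterion.

`dualityPkg_base_of_criterion` is the theorem the class-field-theory core applies: its hypotheses
`hc1 … hb2` are statements about the smooth cohomology groups of `G` and of the local groups
`Γ v` with coefficients in `B_H = Ind_H^G k`, about the localisation maps, and about the local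
pairings `pair20 / pair11 / pair02` (which are `Σ_v λ_v (b_v ∪ c_v)` once `tr` comes from
`exists_tr_of_reciprocity`).  Its conclusion is the hypothesis `h_base` of `top_sha_pairing`.

This file is sorry-free given the spec files.
-/

set_option autoImplicit false

namespace Fermat.Agent.S55

universe u

variable {k : Type u} [Field k] [Finite k] {G : Type u} [Group G] {𝓛 : Levels G}
  {ι : Type*} [Finite ι] {Γ : ι → Type*} [∀ v, Group (Γ v)] (D : LocSys 𝓛 ι Γ) (χ : G →* kˣ)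

local notation "𝔅[" H "]" => indRep H (trivRep (k := k) H)

omit [Finite k] [Finite ι] in
/-- transport of a statement about `theta2` along an equality of pairings -/
theorem theta2_ne_zero_congr {V W Z : Type*} [AddCommGroup V] [Module k V] [AddCommGroup W]
    [Module k W] [AddCommGroup Z] [Module k Z] {ρV : Representation k G V}
    {ρW : Representation k G W} {ρZ : Representation k G Z} {β β' : V →ₗ[k] W →ₗ[k] Z}
    (hβ : β' = β) (P : PairingData 𝓛 ρV ρW ρZ β) (P' : PairingData 𝓛 ρV ρW ρZ β')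
    (tr : smHc3 D ρZ →ₗ[k] k) (y : smH1 𝓛 ρW)
    (h : ∃ u : smHc2 D ρV, theta2 D P tr u y ≠ 0) :
    ∃ u : smHc2 D ρV, theta2 D P' tr u y ≠ 0 := by
  subst hβ
  exact h

set_option maxSynthPendingDepth 3 in
/-- THE LIST OF STATEMENTS THE CORE PROVES (for one trace `tr`, all open `H ≤ ker χ`,
`B = Ind_H^G k` with the base pairing):
* `c1`: `H_c³(B) → H³(B)` is zero (see `jc3_eq_zero_of_res3`);
* `c2`: `b ∈ P²(B)` with `⟨b, loc 1⟩ = 0` is global;
* `c3`: `⟨b, loc 1⟩ ≠ 0` for some `b ∈ P²(B)` (the trace is nonzero);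
* `a1`: the local pairing `P⁰(B) × P²(B) → k` has trivial right kernel;
* `b1`: `b ∈ P¹(B)` orthogonal to `loc H¹(B)` is global;
* `b1f`, `b1'`: `P¹(B)` is finite-dimensional and `P¹(B) × P¹(B) → k` has trivial right kernel;
* `b2f`, `b2f2`, `b2`: `Ш¹(B)`, `Ш²(B)` are finite-dimensional and `dim Ш²(B) ≤ dim Ш¹(B)`. -/
structure CoreCrit (tr : smHc3 D (chiRep χ) →ₗ[k] k) : Prop where
  c1 : ∀ H : Subgroup G, 𝓛.IsOpen H → H ≤ χ.ker →
      ∀ x : smHc3 D 𝔅[H], jc3 D (ρ := 𝔅[H]) x = 0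
  c2 : ∀ H : Subgroup G, 𝓛.IsOpen H → H ≤ χ.ker →
      ∀ P : PairingData 𝓛 𝔅[H] 𝔅[H] (chiRep χ) (basePairing χ H),
      ∀ b : ∀ v, smH2 (D.lev v) (D.rep 𝔅[H] v),
        pair20 D P tr b (locP0 D (ρ := 𝔅[H]) (baseOne H)) = 0 →
          ∃ x, locP2 D (ρ := 𝔅[H]) x = b
  c3 : ∀ H : Subgroup G, 𝓛.IsOpen H → H ≤ χ.ker →
      ∀ P : PairingData 𝓛 𝔅[H] 𝔅[H] (chiRep χ) (basePairing χ H),
      ∃ b : ∀ v, smH2 (D.lev v) (D.rep 𝔅[H] v),
        pair20 D P tr b (locP0 D (ρ := 𝔅[H]) (baseOne H)) ≠ 0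
  a1 : ∀ H : Subgroup G, 𝓛.IsOpen H → H ≤ χ.ker →
      ∀ P : PairingData 𝓛 𝔅[H] 𝔅[H] (chiRep χ) (basePairing χ H),
      ∀ c : ∀ v, smH2 (D.lev v) (D.rep 𝔅[H] v),
        (∀ b, pair02 D P tr b c = 0) → c = 0
  b1 : ∀ H : Subgroup G, 𝓛.IsOpen H → H ≤ χ.ker →
      ∀ P : PairingData 𝓛 𝔅[H] 𝔅[H] (chiRep χ) (basePairing χ H),
      ∀ b : ∀ v, smH1 (D.lev v) (D.rep 𝔅[H] v),
        (∀ y, pair11 D P tr b (locP1 D (ρ := 𝔅[H]) y) = 0) →
          ∃ x, locP1 D (ρ := 𝔅[H]) x = b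
  b1f : ∀ H : Subgroup G, 𝓛.IsOpen H → H ≤ χ.ker →
      FiniteDimensional k (∀ v, smH1 (D.lev v) (D.rep 𝔅[H] v))
  b1' : ∀ H : Subgroup G, 𝓛.IsOpen H → H ≤ χ.ker →
      ∀ P : PairingData 𝓛 𝔅[H] 𝔅[H] (chiRep χ) (basePairing χ H),
      ∀ c : ∀ v, smH1 (D.lev v) (D.rep 𝔅[H] v),
        (∀ b, pair11 D P tr b c = 0) → c = 0
  b2f : ∀ H : Subgroup G, 𝓛.IsOpen H → H ≤ χ.ker →
      FiniteDimensional k ↥(sha1 D 𝔅[H])
  b2f2 : ∀ H : Subgroup G, 𝓛.IsOpen H → H ≤ χ.ker →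
      FiniteDimensional k ↥(sha2 D 𝔅[H])
  b2 : ∀ H : Subgroup G, 𝓛.IsOpen H → H ≤ χ.ker →
      Module.finrank k ↥(sha2 D 𝔅[H]) ≤ Module.finrank k ↥(sha1 D 𝔅[H])

set_option maxSynthPendingDepth 3 in
/-- THE THEOREM FOR THE CORE: the criterion implies the duality package for all base pairs. -/
theorem dualityPkg_base_of_criterion (hχ : ∃ U, 𝓛.IsLevel U ∧ U ≤ χ.ker)
    (tr : smHc3 D (chiRep χ) →ₗ[k] k) (hC : CoreCrit D χ tr) :
    ∀ H : Subgroup G, 𝓛.IsOpen H → H ≤ χ.ker →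
      ∀ P : PairingData 𝓛 𝔅[H] 𝔅[H] (chiRep χ) (basePairing χ H), DualityPkg D P tr := by
  obtain ⟨hc1, hc2, hc3, ha1, hb1, hb1f, hb1', hb2f, hb2f2, hb2⟩ := hC
  intro H hH hHχ P
  have hflip : (basePairing χ H).flip = basePairing (k := k) χ H := basePairing_flip χ H
  have P' : PairingData 𝓛 (𝔅[H]) (𝔅[H])
      (chiRep χ) (basePairing χ H).flip := by
    rw [hflip]; exact P
  -- `θ³` is injective and nonzero for all base pairs
  have h3 : ∀ H' : Subgroup G, 𝓛.IsOpen H' → H' ≤ χ.ker →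
      ∀ Q : PairingData 𝓛 (𝔅[H']) (𝔅[H'])
        (chiRep χ) (basePairing χ H'),
      Function.Injective (theta3 D Q tr) ∧ ∃ x, theta3 D Q tr x (baseOne H') ≠ 0 := by
    intro H' hH' hH'χ Q
    constructor
    · rw [injective_iff_map_eq_zero]
      intro x hx
      obtain ⟨b, rfl⟩ := (exact_bdry3_jc3 D Q.smV x).1 (hc1 H' hH' hH'χ x)
      obtain ⟨x', rfl⟩ := hc2 H' hH' hH'χ Q b (by
        rw [← theta3_bdry3 D Q tr b (baseOne H'), hx]; rfl)
      exact (exact_locP2_bdry3 D Q.smV _).2 ⟨x', rfl⟩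
    · obtain ⟨b, hb⟩ := hc3 H' hH' hH'χ Q
      exact ⟨bdry3 D (ρ := 𝔅[H']) b, by rwa [theta3_bdry3]⟩
  have hnd : ∀ y : smH1 𝓛 (𝔅[H]), locP1 D (ρ := 𝔅[H]) y = 0 → y ≠ 0 →
      ∃ u : smHc2 D (𝔅[H]), theta2 D P tr u y ≠ 0 :=
    fun y _ hy => theta2_base_ne_zero D χ hχ tr h3 H hH hHχ P y hy
  have : H.FiniteIndex := hH.finiteIndex
  have : FiniteDimensional k ↥(indSpace H (trivRep (k := k) H)) :=
    indSpace_finiteDimensional (k := k) (A := k) H (trivRep (k := k) H)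
  have hfin0 : FiniteDimensional k
      (∀ v, ↥(smH0 (D.rep (𝔅[H]) v))) := by
    have := Fintype.ofFinite ι
    infer_instance
  have := hb1f H hH hHχ
  refine DualityPkg.of_criterion_dim D P tr P' (hc1 H hH hHχ)
    (fun b hb => hc2 H hH hHχ P b (hb _)) (hb1 H hH hHχ P)
    (fun m => exists_rep_of_nondeg_right _ (hb1' H hH hHχ P) m)
    (fun m => exists_rep_of_nondeg_right _ (ha1 H hH hHχ P) m)
    hnd (hb2f H hH hHχ) (hb2 H hH hHχ) (hb2f2 H hH hHχ)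
    (fun y hy0 hy => theta2_ne_zero_congr D hflip P P' tr y (hnd y hy0 hy))
    (hb2f H hH hHχ) (hb2 H hH hHχ) (hb2f2 H hH hHχ)

end Fermat.Agent.S55
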