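import Fermat.Agent.S55.Top.DevSpec

/-!
# S55 top layer: assembly of the top layer (sorry-free given the spec files).

`top_sha_pairing`: if the duality package holds for the base pairs `Ind_H^G k`
(all open `H ≤ ker χ`), then for every perfect pair `(V, W, β)` there is a pairing
`Ш¹(W) × Ш²(V) → k` that is non-degenerate on both sides.
-/

set_option autoImplicit false

namespace Fermat.Agent.S55

universe u

variable {k : Type u} [Field k] [Finite k] {G : Type u} [Group G] {𝓛 : Levels G}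
  {ι : Type*} {Γ : ι → Type*} [∀ v, Group (Γ v)] (D : LocSys 𝓛 ι Γ) (χ : G →* kˣ)

/-- the dévissage applied to the duality package -/
theorem dualityPkg_of_base (p : ℕ) [Fact p.Prime] [CharP k p]
    (hχ : ∃ U, 𝓛.IsLevel U ∧ U ≤ χ.ker) (tr : smHc3 D (chiRep χ) →ₗ[k] k)
    (h_base : ∀ H : Subgroup G, 𝓛.IsOpen H → H ≤ χ.ker →
      ∀ P : PairingData 𝓛 (indRep H (trivRep (k := k) H)) (indRep H (trivRep (k := k) H))
        (chiRep χ) (basePairing χ H), DualityPkg D P tr)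
    {V W : Type u} [AddCommGroup V] [Module k V] [AddCommGroup W] [Module k W]
    (ρV : Representation k G V) (ρW : Representation k G W) (β : V →ₗ[k] W →ₗ[k] k)
    (hP : PerfPair 𝓛 χ ρV ρW β) : DualityPkg D hP.pd tr := by
  have key := devissage 𝓛 χ p hχ
    (fun {V W} _ _ _ _ ρV ρW β => ∀ P : PairingData 𝓛 ρV ρW (chiRep χ) β, DualityPkg D P tr)
    (by
      intro V W V' W' _ _ _ _ _ _ _ _ ρV ρW ρV' ρW' β β' hP hP' iV pV iW pW hiV hpV hiW hpW
        c c' hc hc' hV hW hadj₁ hadj₂ h P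
      exact DualityPkg.of_summand D P hP'.pd tr iV pV iW pW hiV hpV hiW hpW c c' hc hc' hV hW
        hadj₁ hadj₂ (h hP'.pd))
    (by
      intro V₁ V V₂ W₁ W W₂ _ _ _ _ _ _ _ _ _ _ _ _ ρ₁ ρ ρ₂ σ₁ σ σ₂ β₁ β β₂ S _ _ h₁ h₂ P
      exact DualityPkg.of_shortExact D S tr (h₁ S.P₁) (h₂ S.P₂))
    (by
      intro H hH hHχ P
      exact h_base H hH hHχ P)
    ρV ρW β hP
  exact key hP.pd

/-- main theorem of the top layer -/
theorem top_sha_pairing (p : ℕ) [Fact p.Prime] [CharP k p]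
    (hχ : ∃ U, 𝓛.IsLevel U ∧ U ≤ χ.ker) (tr : smHc3 D (chiRep χ) →ₗ[k] k)
    (h_base : ∀ H : Subgroup G, 𝓛.IsOpen H → H ≤ χ.ker →
      ∀ P : PairingData 𝓛 (indRep H (trivRep (k := k) H)) (indRep H (trivRep (k := k) H))
        (chiRep χ) (basePairing χ H), DualityPkg D P tr)
    {V W : Type u} [AddCommGroup V] [Module k V] [AddCommGroup W] [Module k W]
    (ρV : Representation k G V) (ρW : Representation k G W) (β : V →ₗ[k] W →ₗ[k] k)
    (hP : PerfPair 𝓛 χ ρV ρW β) (hP' : PerfPair 𝓛 χ ρW ρV β.flip) :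
    ∃ B : ↥(sha1 D ρW) →ₗ[k] ↥(sha2 D ρV) →ₗ[k] k,
      (∀ y, (∀ x, B y x = 0) → y = 0) ∧ (∀ x, (∀ y, B y x = 0) → x = 0) :=
  exists_sha_pairing D hP.pd hP'.pd tr
    (dualityPkg_of_base D χ p hχ tr h_base ρV ρW β hP).surj2
    (dualityPkg_of_base D χ p hχ tr h_base ρW ρV β.flip hP').surj1

end Fermat.Agent.S55
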