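import Fermat.Agent.S55.Top.CupSpec

/-!
# S55 top layer, leaf T-CONE: the cone sequence `P^(n-1) → H_c^n → H^n → P^n`.

This is section `ConeSeq` of `LesSpec.lean` with every `sorry` replaced (same names, same
statements, definitions verbatim).  Helper lemmas are prefixed `cone_`.
-/

set_option autoImplicit false
set_option linter.unusedSectionVars false

namespace Fermat.Agent.S55

variable {k : Type*} [CommRing k] {G : Type*} [Group G] {𝓛 : Levels G}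
  {V₁ V V₂ : Type*} [AddCommGroup V₁] [Module k V₁] [AddCommGroup V] [Module k V]
  [AddCommGroup V₂] [Module k V₂]

/-! ## the cone: functoriality, the maps `P^(n-1) → H_c^n → H^n → P^n` (T-CONE) -/

section ConeSeq

variable {ι : Type*} {Γ : ι → Type*} [∀ v, Group (Γ v)] (D : LocSys 𝓛 ι Γ)
  {ρ : Representation k G V} (h : IsSmoothRep 𝓛 ρ)

theorem dc1_dc0 (m : V) : dc1 D ρ (dc0 (ι := ι) ρ m) = 0 := by
  rw [dc0_apply, dc1_apply, dd1_dd0]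
  refine Prod.ext rfl ?_
  funext v
  simp only [Prod.snd_zero, Pi.zero_apply, dd0_res, sub_self]

theorem dc2_dc1 (x : CC1 G ι V) : dc2 D ρ (dc1 D ρ x) = 0 := by
  obtain ⟨a, b⟩ := x
  rw [dc1_apply, dc2_apply, dd2_dd1]
  refine Prod.ext rfl ?_
  funext v
  simp only [Prod.snd_zero, Pi.zero_apply, map_sub, dd1_dd0, sub_zero, dd1_res, sub_self]

theorem dc3_dc2 (x : CC2 G Γ V) : dc3 D ρ (dc2 D ρ x) = 0 := by
  obtain ⟨a, b⟩ := x
  rw [dc2_apply, dc3_apply, dd3_dd2]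
  refine Prod.ext rfl ?_
  funext v
  simp only [Prod.snd_zero, Pi.zero_apply, map_sub, dd2_dd1, sub_zero, dd2_res, sub_self]

/-- the local representations are smooth -/
theorem cone_isSmoothRep_loc (h : IsSmoothRep 𝓛 ρ) (v : ι) :
    IsSmoothRep (D.lev v) (D.rep ρ v) :=
  IsSmoothRep.comp_hom (D.cont v) h

theorem cone_res1_isLC {a : G → V} (ha : IsLC₁ 𝓛 a) (v : ι) :
    IsLC₁ (D.lev v) (res1 k (D.r v) a) :=
  IsLC₁.comp_hom 𝓛 (D.cont v) ha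

theorem cone_res2_isLC {a : G × G → V} (ha : IsLC₂ 𝓛 a) (v : ι) :
    IsLC₂ (D.lev v) (res2 k (D.r v) a) :=
  IsLC₂.comp_hom 𝓛 (D.cont v) ha

theorem cone_res3_isLC {a : G × G × G → V} (ha : IsLC₃ 𝓛 a) (v : ι) :
    IsLC₃ (D.lev v) (res3 k (D.r v) a) :=
  IsLC₃.comp_hom 𝓛 (D.cont v) ha

include h in
theorem dc1_mem_smCC2 {x : CC1 G ι V} (hx : x ∈ smCC1 k 𝓛 ι V) : dc1 D ρ x ∈ smCC2 D k V := by
  obtain ⟨a, b⟩ := x
  rw [mem_smCC1] at hx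
  rw [dc1_apply, mem_smCC2]
  refine ⟨dd1_isLC h hx, fun v => ?_⟩
  exact (cone_res1_isLC D hx v).map₂ (dd0_isLC (cone_isSmoothRep_loc D h v) (b v)) (· - ·)

include h in
theorem dc2_mem_smCC3 {x : CC2 G Γ V} (hx : x ∈ smCC2 D k V) : dc2 D ρ x ∈ smCC3 D k V := by
  obtain ⟨a, b⟩ := x
  rw [mem_smCC2] at hx
  rw [dc2_apply, mem_smCC3]
  refine ⟨dd2_isLC h hx.1, fun v => ?_⟩
  exact (cone_res2_isLC D hx.1 v).map₂ (dd1_isLC (cone_isSmoothRep_loc D h v) (hx.2 v)) (· - ·)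

include h in
theorem smBc1_le_smZc1 : smBc1 (ι := ι) ρ ≤ smZc1 D ρ := by
  rintro _ ⟨m, rfl⟩
  refine ⟨LinearMap.mem_ker.2 (dc1_dc0 D m), ?_⟩
  exact (mem_smCC1 _).2 (dd0_isLC h m)

include h in
theorem smBc2_le_smZc2 : smBc2 D ρ ≤ smZc2 D ρ := by
  rintro _ ⟨x, hx, rfl⟩
  exact ⟨LinearMap.mem_ker.2 (dc2_dc1 D x), dc1_mem_smCC2 D h hx⟩

include h in
theorem smBc3_le_smZc3 : smBc3 D ρ ≤ smZc3 D ρ := by
  rintro _ ⟨x, hx, rfl⟩
  exact ⟨LinearMap.mem_ker.2 (dc3_dc2 D x), dc2_mem_smCC3 D h hx⟩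

/-- `j¹ : H_c¹ → H¹`, first projection -/
def jc1 : smHc1 D ρ →ₗ[k] smH1 𝓛 ρ :=
  Submodule.mapQ _ _
    (((LinearMap.fst k _ _).comp (smZc1 D ρ).subtype).codRestrict (smZ1 𝓛 ρ) (by
      intro c
      have hc := (mem_smZc1 D ρ _).1 c.2
      exact ⟨LinearMap.mem_ker.2 hc.1.1, hc.2⟩))
    (by
      rintro c ⟨m, hm⟩
      exact ⟨m, congrArg Prod.fst hm⟩)

/-- `j² : H_c² → H²` -/
def jc2 : smHc2 D ρ →ₗ[k] smH2 𝓛 ρ :=
  Submodule.mapQ _ _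
    (((LinearMap.fst k _ _).comp (smZc2 D ρ).subtype).codRestrict (smZ2 𝓛 ρ) (by
      intro c
      have hc := (mem_smZc2 D ρ _).1 c.2
      exact ⟨LinearMap.mem_ker.2 hc.1.1, hc.2.1⟩))
    (by
      rintro c ⟨x, hx, hxc⟩
      exact ⟨x.1, (mem_smCC1 _).1 hx, congrArg Prod.fst hxc⟩)

/-- `j³ : H_c³ → H³` -/
def jc3 : smHc3 D ρ →ₗ[k] smH3 𝓛 ρ :=
  Submodule.mapQ _ _
    (((LinearMap.fst k _ _).comp (smZc3 D ρ).subtype).codRestrict (smZ3 𝓛 ρ) (by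
      intro c
      have hc := (mem_smZc3 D ρ _).1 c.2
      exact ⟨LinearMap.mem_ker.2 hc.1.1, hc.2.1⟩))
    (by
      rintro c ⟨x, hx, hxc⟩
      exact ⟨x.1, ((mem_smCC2 D _).1 hx).1, congrArg Prod.fst hxc⟩)

/-- total localisation `H⁰(G) → ∏_v H⁰(Γ v)` -/
def locP0 : ↥(smH0 ρ) →ₗ[k] ∀ v, ↥(smH0 (D.rep ρ v)) :=
  LinearMap.pi fun v => smH0res (r := D.r v) ρ
/-- total localisation `H¹(G) → ∏_v H¹(Γ v)` -/
def locP1 : smH1 𝓛 ρ →ₗ[k] ∀ v, smH1 (D.lev v) (D.rep ρ v) :=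
  LinearMap.pi fun v => smH1res ρ (D.cont v)
/-- total localisation `H²(G) → ∏_v H²(Γ v)` -/
def locP2 : smH2 𝓛 ρ →ₗ[k] ∀ v, smH2 (D.lev v) (D.rep ρ v) :=
  LinearMap.pi fun v => smH2res ρ (D.cont v)

/-- `∂ : ∏_v H⁰(Γ v) → H_c¹`, `(m_v) ↦ [(0, (m_v))]` -/
def bdry1 : (∀ v, ↥(smH0 (D.rep ρ v))) →ₗ[k] smHc1 D ρ :=
  (smHc1π D ρ).comp
    (((LinearMap.inr k (G → V) (ι → V)).comp
      (LinearMap.pi fun v => (smH0 (D.rep ρ v)).subtype.comp (LinearMap.proj v))).codRestrict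
      (smZc1 D ρ) (by
        intro m
        rw [mem_smZc1]
        refine ⟨⟨map_zero _, fun v => ?_⟩, isLC₁_const 𝓛 (0 : V)⟩
        have hm : dd0 (D.rep ρ v) ((m v : ↥(smH0 (D.rep ρ v))) : V) = 0 := (m v).2
        simp only [LinearMap.coe_comp, Function.comp_apply, LinearMap.inr_apply, map_zero,
          LinearMap.pi_apply, LinearMap.coe_proj, Function.eval, Submodule.coe_subtype]
        exact hm.symm))

/-- cochain-level boundary `∏_v Z¹(Γ v) → Z_c²`, `b ↦ (0, b)` -/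
def cone_bdryZ2 : (∀ v, ↥(smZ1 (D.lev v) (D.rep ρ v))) →ₗ[k] ↥(smZc2 D ρ) :=
  ((LinearMap.inr k (G × G → V) (∀ v, Γ v → V)).comp
    (LinearMap.pi fun v => (smZ1 (D.lev v) (D.rep ρ v)).subtype.comp
      (LinearMap.proj v))).codRestrict (smZc2 D ρ) (by
        intro b
        rw [mem_smZc2]
        refine ⟨⟨map_zero _, fun v => ?_⟩, isLC₂_const 𝓛 (0 : V), fun v => (b v).2.2⟩
        have hb : dd1 (D.rep ρ v) ((b v : ↥(smZ1 (D.lev v) (D.rep ρ v))) : Γ v → V) = 0 :=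
          (b v).2.1
        simp only [LinearMap.coe_comp, Function.comp_apply, LinearMap.inr_apply, map_zero,
          LinearMap.pi_apply, LinearMap.coe_proj, Function.eval, Submodule.coe_subtype]
        exact hb.symm)

theorem cone_bdryZ2_coe (b : ∀ v, ↥(smZ1 (D.lev v) (D.rep ρ v))) :
    ((cone_bdryZ2 D (ρ := ρ) b : ↥(smZc2 D ρ)) : CC2 G Γ V) =
      ((0 : G × G → V), fun v => ((b v : ↥(smZ1 (D.lev v) (D.rep ρ v))) : Γ v → V)) := rfl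

/-- cochain-level boundary `∏_v Z²(Γ v) → Z_c³`, `b ↦ (0, b)` -/
def cone_bdryZ3 : (∀ v, ↥(smZ2 (D.lev v) (D.rep ρ v))) →ₗ[k] ↥(smZc3 D ρ) :=
  ((LinearMap.inr k (G × G × G → V) (∀ v, Γ v × Γ v → V)).comp
    (LinearMap.pi fun v => (smZ2 (D.lev v) (D.rep ρ v)).subtype.comp
      (LinearMap.proj v))).codRestrict (smZc3 D ρ) (by
        intro b
        rw [mem_smZc3]
        refine ⟨⟨map_zero _, fun v => ?_⟩, isLC₃_const 𝓛 (0 : V), fun v => (b v).2.2⟩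
        have hb : dd2 (D.rep ρ v) ((b v : ↥(smZ2 (D.lev v) (D.rep ρ v))) : Γ v × Γ v → V) = 0 :=
          (b v).2.1
        simp only [LinearMap.coe_comp, Function.comp_apply, LinearMap.inr_apply, map_zero,
          LinearMap.pi_apply, LinearMap.coe_proj, Function.eval, Submodule.coe_subtype]
        exact hb.symm)

theorem cone_bdryZ3_coe (b : ∀ v, ↥(smZ2 (D.lev v) (D.rep ρ v))) :
    ((cone_bdryZ3 D (ρ := ρ) b : ↥(smZc3 D ρ)) : CC3 G Γ V) =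
      ((0 : G × G × G → V),
        fun v => ((b v : ↥(smZ2 (D.lev v) (D.rep ρ v))) : Γ v × Γ v → V)) := rfl

/-- the projection `∏_v Z¹(Γ v) → ∏_v H¹(Γ v)` -/
def cone_piπ1 : (∀ v, ↥(smZ1 (D.lev v) (D.rep ρ v))) →ₗ[k] ∀ v, smH1 (D.lev v) (D.rep ρ v) :=
  LinearMap.pi fun v => (smH1π (D.lev v) (D.rep ρ v)).comp (LinearMap.proj v)

/-- the projection `∏_v Z²(Γ v) → ∏_v H²(Γ v)` -/
def cone_piπ2 : (∀ v, ↥(smZ2 (D.lev v) (D.rep ρ v))) →ₗ[k] ∀ v, smH2 (D.lev v) (D.rep ρ v) :=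
  LinearMap.pi fun v => (smH2π (D.lev v) (D.rep ρ v)).comp (LinearMap.proj v)

theorem cone_piπ1_surjective : Function.Surjective (cone_piπ1 D (ρ := ρ)) := by
  intro β
  choose b hb using fun v => Submodule.mkQ_surjective _ (β v)
  exact ⟨b, funext hb⟩

theorem cone_piπ2_surjective : Function.Surjective (cone_piπ2 D (ρ := ρ)) := by
  intro β
  choose b hb using fun v => Submodule.mkQ_surjective _ (β v)
  exact ⟨b, funext hb⟩

theorem cone_ker_piπ1_le : LinearMap.ker (cone_piπ1 D (ρ := ρ)) ≤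
    LinearMap.ker ((smHc2π D ρ).comp (cone_bdryZ2 D)) := by
  intro b hb
  rw [LinearMap.mem_ker] at hb ⊢
  rw [LinearMap.comp_apply, smHc2π_eq_zero_iff, cone_bdryZ2_coe, mem_smBc2]
  have hb' : ∀ v, ∃ m : V, dd0 (D.rep ρ v) m =
      ((b v : ↥(smZ1 (D.lev v) (D.rep ρ v))) : Γ v → V) := by
    intro v
    have := congrFun hb v
    exact (mem_smB1 _ _).1 ((smH1π_eq_zero_iff _ _ _).1 this)
  choose m hm using hb'
  refine ⟨((0 : G → V), fun v => - m v), isLC₁_const 𝓛 (0 : V), ?_⟩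
  rw [dc1_apply, map_zero]
  refine Prod.ext rfl ?_
  funext v
  simp only [map_zero, map_neg, zero_sub, neg_neg, hm v]

theorem cone_ker_piπ2_le : LinearMap.ker (cone_piπ2 D (ρ := ρ)) ≤
    LinearMap.ker ((smHc3π D ρ).comp (cone_bdryZ3 D)) := by
  intro b hb
  rw [LinearMap.mem_ker] at hb ⊢
  rw [LinearMap.comp_apply, smHc3π_eq_zero_iff, cone_bdryZ3_coe, mem_smBc3]
  have hb' : ∀ v, ∃ x : Γ v → V, IsLC₁ (D.lev v) x ∧ dd1 (D.rep ρ v) x =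
      ((b v : ↥(smZ2 (D.lev v) (D.rep ρ v))) : Γ v × Γ v → V) := by
    intro v
    have := congrFun hb v
    exact (mem_smB2 _ _ _).1 ((smH2π_eq_zero_iff _ _ _).1 this)
  choose x hx hxb using hb'
  refine ⟨((0 : G × G → V), fun v => - x v),
    ⟨isLC₂_const 𝓛 (0 : V), fun v => (hx v).comp (fun y => - y)⟩, ?_⟩
  rw [dc2_apply, map_zero]
  refine Prod.ext rfl ?_
  funext v
  simp only [map_zero, map_neg, zero_sub, neg_neg, hxb v]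

set_option maxSynthPendingDepth 3 in
/-- `∂ : ∏_v H¹(Γ v) → H_c²`, `([b_v]) ↦ [(0, (b_v))]`.  Defined through representatives. -/
noncomputable def bdry2 : (∀ v, smH1 (D.lev v) (D.rep ρ v)) →ₗ[k] smHc2 D ρ :=
  ((LinearMap.ker (cone_piπ1 D (ρ := ρ))).liftQ ((smHc2π D ρ).comp (cone_bdryZ2 D))
      (cone_ker_piπ1_le D)).comp
    ((cone_piπ1 D (ρ := ρ)).quotKerEquivOfSurjective (cone_piπ1_surjective D (ρ := ρ))).symm.toLinearMap

set_option maxSynthPendingDepth 3 in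
/-- `∂ : ∏_v H²(Γ v) → H_c³` -/
noncomputable def bdry3 : (∀ v, smH2 (D.lev v) (D.rep ρ v)) →ₗ[k] smHc3 D ρ :=
  ((LinearMap.ker (cone_piπ2 D (ρ := ρ))).liftQ ((smHc3π D ρ).comp (cone_bdryZ3 D))
      (cone_ker_piπ2_le D)).comp
    ((cone_piπ2 D (ρ := ρ)).quotKerEquivOfSurjective (cone_piπ2_surjective D (ρ := ρ))).symm.toLinearMap

set_option maxSynthPendingDepth 3 in
theorem cone_bdry2_piπ1 (b : ∀ v, ↥(smZ1 (D.lev v) (D.rep ρ v))) :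
    bdry2 D (ρ := ρ) (cone_piπ1 D b) = smHc2π D ρ (cone_bdryZ2 D b) := by
  have h1 : ((cone_piπ1 D (ρ := ρ)).quotKerEquivOfSurjective (cone_piπ1_surjective D (ρ := ρ))).symm
      (cone_piπ1 D b) = Submodule.Quotient.mk b := by
    rw [LinearEquiv.symm_apply_eq]
    rfl
  rw [bdry2, LinearMap.comp_apply, LinearEquiv.coe_coe, h1, Submodule.liftQ_apply]
  rfl

set_option maxSynthPendingDepth 3 in
theorem cone_bdry3_piπ2 (b : ∀ v, ↥(smZ2 (D.lev v) (D.rep ρ v))) :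
    bdry3 D (ρ := ρ) (cone_piπ2 D b) = smHc3π D ρ (cone_bdryZ3 D b) := by
  have h1 : ((cone_piπ2 D (ρ := ρ)).quotKerEquivOfSurjective (cone_piπ2_surjective D (ρ := ρ))).symm
      (cone_piπ2 D b) = Submodule.Quotient.mk b := by
    rw [LinearEquiv.symm_apply_eq]
    rfl
  rw [bdry3, LinearMap.comp_apply, LinearEquiv.coe_coe, h1, Submodule.liftQ_apply]
  rfl

/-- characterisation of `bdry2` on representatives -/
theorem bdry2_mk (b : ∀ v, ↥(smZ1 (D.lev v) (D.rep ρ v))) (hb : ((0 : G × G → V),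
      fun v => ((b v : ↥(smZ1 (D.lev v) (D.rep ρ v))) : Γ v → V)) ∈ smZc2 D ρ) :
    bdry2 D (ρ := ρ) (fun v => smH1π (D.lev v) (D.rep ρ v) (b v)) = smHc2π D ρ ⟨_, hb⟩ :=
  cone_bdry2_piπ1 D b

/-- characterisation of `bdry3` on representatives -/
theorem bdry3_mk (b : ∀ v, ↥(smZ2 (D.lev v) (D.rep ρ v))) (hb : ((0 : G × G × G → V),
      fun v => ((b v : ↥(smZ2 (D.lev v) (D.rep ρ v))) : Γ v × Γ v → V)) ∈ smZc3 D ρ) :
    bdry3 D (ρ := ρ) (fun v => smH2π (D.lev v) (D.rep ρ v) (b v)) = smHc3π D ρ ⟨_, hb⟩ :=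
  cone_bdry3_piπ2 D b

theorem cone_jc1_mk (z : ↥(smZc1 D ρ)) (hz : (z : CC1 G ι V).1 ∈ smZ1 𝓛 ρ) :
    jc1 D (ρ := ρ) (smHc1π D ρ z) = smH1π 𝓛 ρ ⟨(z : CC1 G ι V).1, hz⟩ := rfl

theorem cone_jc2_mk (z : ↥(smZc2 D ρ)) (hz : (z : CC2 G Γ V).1 ∈ smZ2 𝓛 ρ) :
    jc2 D (ρ := ρ) (smHc2π D ρ z) = smH2π 𝓛 ρ ⟨(z : CC2 G Γ V).1, hz⟩ := rfl

theorem cone_jc3_mk (z : ↥(smZc3 D ρ)) (hz : (z : CC3 G Γ V).1 ∈ smZ3 𝓛 ρ) :
    jc3 D (ρ := ρ) (smHc3π D ρ z) = smH3π 𝓛 ρ ⟨(z : CC3 G Γ V).1, hz⟩ := rfl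

theorem cone_bdry1_apply (m : ∀ v, ↥(smH0 (D.rep ρ v)))
    (hm : ((0 : G → V), fun v => ((m v : ↥(smH0 (D.rep ρ v))) : V)) ∈ smZc1 D ρ) :
    bdry1 D (ρ := ρ) m = smHc1π D ρ ⟨((0 : G → V), fun v => ((m v : ↥(smH0 (D.rep ρ v))) : V)), hm⟩ := rfl

theorem cone_locP1_mk (f : ↥(smZ1 𝓛 ρ)) :
    locP1 D (ρ := ρ) (smH1π 𝓛 ρ f) = cone_piπ1 D (fun v => smZ1res ρ (D.cont v) f) := rfl

theorem cone_locP2_mk (f : ↥(smZ2 𝓛 ρ)) :
    locP2 D (ρ := ρ) (smH2π 𝓛 ρ f) = cone_piπ2 D (fun v => smZ2res ρ (D.cont v) f) := rfl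

include h in
/-- exactness of `H⁰ → P⁰ → H_c¹` -/
theorem exact_locP0_bdry1 : Function.Exact (locP0 D (ρ := ρ)) (bdry1 D (ρ := ρ)) := by
  intro m
  have hm : ((0 : G → V), fun v => ((m v : ↥(smH0 (D.rep ρ v))) : V)) ∈ smZc1 D ρ := by
    rw [mem_smZc1]
    refine ⟨⟨map_zero _, fun v => ?_⟩, isLC₁_const 𝓛 (0 : V)⟩
    have hmv : dd0 (D.rep ρ v) ((m v : ↥(smH0 (D.rep ρ v))) : V) = 0 := (m v).2
    rw [map_zero, hmv]
  rw [cone_bdry1_apply D m hm, smHc1π_eq_zero_iff]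
  constructor
  · rintro ⟨m0, hm0⟩
    rw [dc0_apply] at hm0
    have h1 : dd0 ρ m0 = 0 := congrArg Prod.fst hm0
    have h2 : ∀ v, m0 = ((m v : ↥(smH0 (D.rep ρ v))) : V) := fun v => congrFun (congrArg Prod.snd hm0) v
    refine ⟨⟨m0, h1⟩, ?_⟩
    funext v
    exact Subtype.ext (h2 v)
  · rintro ⟨x, rfl⟩
    refine ⟨(x : V), ?_⟩
    rw [dc0_apply]
    have hx : dd0 ρ (x : V) = 0 := x.2
    rw [hx]
    rfl

theorem cone_zero_mem_smZc1 (m : ∀ v, ↥(smH0 (D.rep ρ v))) :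
    ((0 : G → V), fun v => ((m v : ↥(smH0 (D.rep ρ v))) : V)) ∈ smZc1 D ρ := by
  rw [mem_smZc1]
  refine ⟨⟨map_zero _, fun v => ?_⟩, isLC₁_const 𝓛 (0 : V)⟩
  have hmv : dd0 (D.rep ρ v) ((m v : ↥(smH0 (D.rep ρ v))) : V) = 0 := (m v).2
  rw [map_zero, hmv]

include h in
/-- exactness of `P⁰ → H_c¹ → H¹` -/
theorem exact_bdry1_jc1 : Function.Exact (bdry1 D (ρ := ρ)) (jc1 D (ρ := ρ)) := by
  intro c
  constructor
  · intro hc
    obtain ⟨z, rfl⟩ := Submodule.mkQ_surjective _ c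
    have hz := (mem_smZc1 D ρ _).1 z.2
    have hz1 : (z : CC1 G ι V).1 ∈ smZ1 𝓛 ρ := ⟨LinearMap.mem_ker.2 hz.1.1, hz.2⟩
    rw [cone_jc1_mk D z hz1, smH1π_eq_zero_iff] at hc
    obtain ⟨m, hm⟩ := hc
    change dd0 ρ m = (z : CC1 G ι V).1 at hm
    have hm' : ∀ v, (z : CC1 G ι V).2 v - m ∈ smH0 (D.rep ρ v) := by
      intro v
      show dd0 (D.rep ρ v) ((z : CC1 G ι V).2 v - m) = 0
      rw [map_sub, ← hz.1.2 v, ← hm, dd0_res, sub_self]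
    refine ⟨fun v => ⟨(z : CC1 G ι V).2 v - m, hm' v⟩, ?_⟩
    rw [cone_bdry1_apply D _ (cone_zero_mem_smZc1 D _)]
    symm
    rw [smHc1π, Submodule.mkQ_apply, Submodule.mkQ_apply, Submodule.Quotient.eq]
    refine ⟨m, ?_⟩
    rw [dc0_apply, hm]
    refine Prod.ext ?_ ?_
    · simp
    · funext v
      simp
  · rintro ⟨m, rfl⟩
    have h0 : ((0 : G → V), fun v => ((m v : ↥(smH0 (D.rep ρ v))) : V)).1 ∈ smZ1 𝓛 ρ :=
      Submodule.zero_mem _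
    rw [cone_bdry1_apply D m (cone_zero_mem_smZc1 D m), cone_jc1_mk D _ h0, smH1π_eq_zero_iff]
    exact Submodule.zero_mem _

include h in
/-- exactness of `H_c¹ → H¹ → P¹`: the image of `j¹` is `Ш¹` -/
theorem exact_jc1_locP1 : Function.Exact (jc1 D (ρ := ρ)) (locP1 D (ρ := ρ)) := by
  intro x
  constructor
  · intro hx
    obtain ⟨f, rfl⟩ := Submodule.mkQ_surjective _ x
    have hf : ∀ v, ∃ m : V, dd0 (D.rep ρ v) m = res1 k (D.r v) (f : G → V) := by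
      intro v
      have := congrFun hx v
      exact (mem_smB1 _ _).1 ((smH1π_eq_zero_iff _ _ _).1 this)
    choose b hb using hf
    have hz : ((f : G → V), b) ∈ smZc1 D ρ := by
      rw [mem_smZc1]
      exact ⟨⟨f.2.1, fun v => (hb v).symm⟩, f.2.2⟩
    refine ⟨smHc1π D ρ ⟨_, hz⟩, ?_⟩
    rw [cone_jc1_mk D _ f.2]
  · rintro ⟨c, rfl⟩
    obtain ⟨z, rfl⟩ := Submodule.mkQ_surjective _ c
    have hz := (mem_smZc1 D ρ _).1 z.2
    have hz1 : (z : CC1 G ι V).1 ∈ smZ1 𝓛 ρ := ⟨LinearMap.mem_ker.2 hz.1.1, hz.2⟩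
    rw [cone_jc1_mk D z hz1]
    funext v
    show smH1π (D.lev v) (D.rep ρ v) (smZ1res ρ (D.cont v) ⟨_, hz1⟩) = 0
    rw [smH1π_eq_zero_iff]
    exact ⟨(z : CC1 G ι V).2 v, (hz.1.2 v).symm⟩

include h in
/-- exactness of `H¹ → P¹ → H_c²` -/
theorem exact_locP1_bdry2 : Function.Exact (locP1 D (ρ := ρ)) (bdry2 D (ρ := ρ)) := by
  intro β
  constructor
  · intro hβ
    obtain ⟨b, rfl⟩ := cone_piπ1_surjective D (ρ := ρ) β
    rw [cone_bdry2_piπ1, smHc2π_eq_zero_iff, cone_bdryZ2_coe, mem_smBc2] at hβ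
    obtain ⟨⟨a, m⟩, ha, hx⟩ := hβ
    rw [dc1_apply] at hx
    have h1 : dd1 ρ a = 0 := congrArg Prod.fst hx
    have h2 : ∀ v, res1 k (D.r v) a - dd0 (D.rep ρ v) (m v) =
        ((b v : ↥(smZ1 (D.lev v) (D.rep ρ v))) : Γ v → V) :=
      fun v => congrFun (congrArg Prod.snd hx) v
    have hf : a ∈ smZ1 𝓛 ρ := ⟨LinearMap.mem_ker.2 h1, ha⟩
    refine ⟨smH1π 𝓛 ρ ⟨a, hf⟩, ?_⟩
    rw [cone_locP1_mk]
    funext v
    show smH1π (D.lev v) (D.rep ρ v) (smZ1res ρ (D.cont v) ⟨a, hf⟩) =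
      smH1π (D.lev v) (D.rep ρ v) (b v)
    rw [smH1π, Submodule.mkQ_apply, Submodule.mkQ_apply, Submodule.Quotient.eq]
    refine ⟨m v, ?_⟩
    show dd0 (D.rep ρ v) (m v) = res1 k (D.r v) a - ((b v : ↥(smZ1 (D.lev v) (D.rep ρ v))) : Γ v → V)
    rw [← h2 v]
    abel
  · rintro ⟨x, rfl⟩
    obtain ⟨f, rfl⟩ := Submodule.mkQ_surjective _ x
    rw [cone_locP1_mk, cone_bdry2_piπ1, smHc2π_eq_zero_iff, cone_bdryZ2_coe, mem_smBc2]
    refine ⟨((f : G → V), fun _ => 0), f.2.2, ?_⟩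
    rw [dc1_apply]
    refine Prod.ext f.2.1 ?_
    funext v
    simp only [map_zero, sub_zero]
    rfl

include h in
/-- exactness of `P¹ → H_c² → H²` -/
theorem exact_bdry2_jc2 : Function.Exact (bdry2 D (ρ := ρ)) (jc2 D (ρ := ρ)) := by
  intro c
  constructor
  · intro hc
    obtain ⟨z, rfl⟩ := Submodule.mkQ_surjective _ c
    have hz := (mem_smZc2 D ρ _).1 z.2
    have hz1 : (z : CC2 G Γ V).1 ∈ smZ2 𝓛 ρ := ⟨LinearMap.mem_ker.2 hz.1.1, hz.2.1⟩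
    rw [cone_jc2_mk D z hz1, smH2π_eq_zero_iff, mem_smB2] at hc
    obtain ⟨x, hx, hxa⟩ := hc
    change dd1 ρ x = (z : CC2 G Γ V).1 at hxa
    have hb' : ∀ v, (z : CC2 G Γ V).2 v - res1 k (D.r v) x ∈ smZ1 (D.lev v) (D.rep ρ v) := by
      intro v
      refine ⟨?_, (hz.2.2 v).map₂ (cone_res1_isLC D hx v) (· - ·)⟩
      show dd1 (D.rep ρ v) ((z : CC2 G Γ V).2 v - res1 k (D.r v) x) = 0
      rw [map_sub, ← hz.1.2 v, ← hxa, dd1_res, sub_self]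
    refine ⟨cone_piπ1 D (fun v => ⟨(z : CC2 G Γ V).2 v - res1 k (D.r v) x, hb' v⟩), ?_⟩
    rw [cone_bdry2_piπ1]
    symm
    rw [smHc2π, Submodule.mkQ_apply, Submodule.mkQ_apply, Submodule.Quotient.eq]
    show (z : CC2 G Γ V) - _ ∈ smBc2 D ρ
    rw [cone_bdryZ2_coe, mem_smBc2]
    refine ⟨(x, fun _ => 0), hx, ?_⟩
    rw [dc1_apply, hxa]
    refine Prod.ext ?_ ?_
    · simp
    · funext v
      simp
  · rintro ⟨β, rfl⟩
    obtain ⟨b, rfl⟩ := cone_piπ1_surjective D (ρ := ρ) β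
    have h0 : ((cone_bdryZ2 D (ρ := ρ) b : ↥(smZc2 D ρ)) : CC2 G Γ V).1 ∈ smZ2 𝓛 ρ := by
      rw [cone_bdryZ2_coe]
      exact Submodule.zero_mem _
    rw [cone_bdry2_piπ1, cone_jc2_mk D _ h0, smH2π_eq_zero_iff]
    show (0 : G × G → V) ∈ smB2 𝓛 ρ
    exact Submodule.zero_mem _

include h in
/-- exactness of `H_c² → H² → P²`: the image of `j²` is `Ш²` -/
theorem exact_jc2_locP2 : Function.Exact (jc2 D (ρ := ρ)) (locP2 D (ρ := ρ)) := by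
  intro x
  constructor
  · intro hx
    obtain ⟨f, rfl⟩ := Submodule.mkQ_surjective _ x
    have hf : ∀ v, ∃ y : Γ v → V, IsLC₁ (D.lev v) y ∧
        dd1 (D.rep ρ v) y = res2 k (D.r v) (f : G × G → V) := by
      intro v
      have := congrFun hx v
      exact (mem_smB2 _ _ _).1 ((smH2π_eq_zero_iff _ _ _).1 this)
    choose b hb hbf using hf
    have hz : ((f : G × G → V), b) ∈ smZc2 D ρ := by
      rw [mem_smZc2]
      exact ⟨⟨f.2.1, fun v => (hbf v).symm⟩, f.2.2, hb⟩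
    refine ⟨smHc2π D ρ ⟨_, hz⟩, ?_⟩
    rw [cone_jc2_mk D _ f.2]
  · rintro ⟨c, rfl⟩
    obtain ⟨z, rfl⟩ := Submodule.mkQ_surjective _ c
    have hz := (mem_smZc2 D ρ _).1 z.2
    have hz1 : (z : CC2 G Γ V).1 ∈ smZ2 𝓛 ρ := ⟨LinearMap.mem_ker.2 hz.1.1, hz.2.1⟩
    rw [cone_jc2_mk D z hz1]
    funext v
    show smH2π (D.lev v) (D.rep ρ v) (smZ2res ρ (D.cont v) ⟨_, hz1⟩) = 0
    rw [smH2π_eq_zero_iff, mem_smB2]
    exact ⟨(z : CC2 G Γ V).2 v, hz.2.2 v, (hz.1.2 v).symm⟩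

include h in
/-- exactness of `H² → P² → H_c³` -/
theorem exact_locP2_bdry3 : Function.Exact (locP2 D (ρ := ρ)) (bdry3 D (ρ := ρ)) := by
  intro β
  constructor
  · intro hβ
    obtain ⟨b, rfl⟩ := cone_piπ2_surjective D (ρ := ρ) β
    rw [cone_bdry3_piπ2, smHc3π_eq_zero_iff, cone_bdryZ3_coe, mem_smBc3] at hβ
    obtain ⟨⟨a, y⟩, ⟨ha, hy⟩, hx⟩ := hβ
    rw [dc2_apply] at hx
    have h1 : dd2 ρ a = 0 := congrArg Prod.fst hx
    have h2 : ∀ v, res2 k (D.r v) a - dd1 (D.rep ρ v) (y v) =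
        ((b v : ↥(smZ2 (D.lev v) (D.rep ρ v))) : Γ v × Γ v → V) :=
      fun v => congrFun (congrArg Prod.snd hx) v
    have hf : a ∈ smZ2 𝓛 ρ := ⟨LinearMap.mem_ker.2 h1, ha⟩
    refine ⟨smH2π 𝓛 ρ ⟨a, hf⟩, ?_⟩
    rw [cone_locP2_mk]
    funext v
    show smH2π (D.lev v) (D.rep ρ v) (smZ2res ρ (D.cont v) ⟨a, hf⟩) =
      smH2π (D.lev v) (D.rep ρ v) (b v)
    rw [smH2π, Submodule.mkQ_apply, Submodule.mkQ_apply, Submodule.Quotient.eq]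
    show res2 k (D.r v) a - ((b v : ↥(smZ2 (D.lev v) (D.rep ρ v))) : Γ v × Γ v → V) ∈
      smB2 (D.lev v) (D.rep ρ v)
    rw [mem_smB2]
    refine ⟨y v, hy v, ?_⟩
    rw [← h2 v]
    abel
  · rintro ⟨x, rfl⟩
    obtain ⟨f, rfl⟩ := Submodule.mkQ_surjective _ x
    rw [cone_locP2_mk, cone_bdry3_piπ2, smHc3π_eq_zero_iff, cone_bdryZ3_coe, mem_smBc3]
    refine ⟨((f : G × G → V), fun _ => 0), ⟨f.2.2, fun v => isLC₁_const (D.lev v) (0 : V)⟩, ?_⟩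
    rw [dc2_apply]
    refine Prod.ext f.2.1 ?_
    funext v
    simp only [map_zero, sub_zero]
    rfl

include h in
/-- exactness of `P² → H_c³ → H³` -/
theorem exact_bdry3_jc3 : Function.Exact (bdry3 D (ρ := ρ)) (jc3 D (ρ := ρ)) := by
  intro c
  constructor
  · intro hc
    obtain ⟨z, rfl⟩ := Submodule.mkQ_surjective _ c
    have hz := (mem_smZc3 D ρ _).1 z.2
    have hz1 : (z : CC3 G Γ V).1 ∈ smZ3 𝓛 ρ := ⟨LinearMap.mem_ker.2 hz.1.1, hz.2.1⟩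
    rw [cone_jc3_mk D z hz1, smH3π_eq_zero_iff, mem_smB3] at hc
    obtain ⟨x, hx, hxa⟩ := hc
    change dd2 ρ x = (z : CC3 G Γ V).1 at hxa
    have hb' : ∀ v, (z : CC3 G Γ V).2 v - res2 k (D.r v) x ∈ smZ2 (D.lev v) (D.rep ρ v) := by
      intro v
      refine ⟨?_, (hz.2.2 v).map₂ (cone_res2_isLC D hx v) (· - ·)⟩
      show dd2 (D.rep ρ v) ((z : CC3 G Γ V).2 v - res2 k (D.r v) x) = 0
      rw [map_sub, ← hz.1.2 v, ← hxa, dd2_res, sub_self]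
    refine ⟨cone_piπ2 D (fun v => ⟨(z : CC3 G Γ V).2 v - res2 k (D.r v) x, hb' v⟩), ?_⟩
    rw [cone_bdry3_piπ2]
    symm
    rw [smHc3π, Submodule.mkQ_apply, Submodule.mkQ_apply, Submodule.Quotient.eq]
    show (z : CC3 G Γ V) - _ ∈ smBc3 D ρ
    rw [cone_bdryZ3_coe, mem_smBc3]
    refine ⟨(x, fun _ => 0), ⟨hx, fun v => isLC₁_const (D.lev v) (0 : V)⟩, ?_⟩
    rw [dc2_apply, hxa]
    refine Prod.ext ?_ ?_
    · simp
    · funext v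
      simp
  · rintro ⟨β, rfl⟩
    obtain ⟨b, rfl⟩ := cone_piπ2_surjective D (ρ := ρ) β
    have h0 : ((cone_bdryZ3 D (ρ := ρ) b : ↥(smZc3 D ρ)) : CC3 G Γ V).1 ∈ smZ3 𝓛 ρ := by
      rw [cone_bdryZ3_coe]
      exact Submodule.zero_mem _
    rw [cone_bdry3_piπ2, cone_jc3_mk D _ h0, smH3π_eq_zero_iff]
    show (0 : G × G × G → V) ∈ smB3 𝓛 ρ
    exact Submodule.zero_mem _

end ConeSeq

end Fermat.Agent.S55
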