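import Fermat.Agent.S55.Top.Cochains

/-!
# S55 top layer, leaf T-SM: smoothness is preserved by the differentials,
`B ≤ Z`, functoriality of `smH0 … smH3` in the module and in the group.
-/

set_option autoImplicit false

namespace Fermat.Agent.S55

variable {k : Type*} [CommRing k] {G : Type*} [Group G] (𝓛 : Levels G)
  {V : Type*} [AddCommGroup V] [Module k V] (ρ : Representation k G V)

section Fixing

variable {𝓛} {ρ}

/-- finitely many vectors of a smooth representation are fixed by a common level -/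
theorem sm_exists_level_fixing_finset (hρ : IsSmoothRep 𝓛 ρ) (T : Finset V) :
    ∃ U, 𝓛.IsLevel U ∧ ∀ s ∈ U, ∀ v ∈ T, ρ s v = v := by
  classical
  induction T using Finset.induction_on with
  | empty =>
    obtain ⟨U, hU⟩ := 𝓛.exists_level
    exact ⟨U, hU, fun _ _ v hv => absurd hv (Finset.notMem_empty v)⟩
  | insert a T _ ih =>
    obtain ⟨U, hU, h⟩ := ih
    obtain ⟨U', hU', h'⟩ := hρ a
    obtain ⟨W, hW, hle⟩ := 𝓛.exists_le_inf U U' hU hU'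
    refine ⟨W, hW, fun s hs v hv => ?_⟩
    rcases Finset.mem_insert.1 hv with rfl | hv
    · exact h' s (hle hs).2
    · exact h s (hle hs).1 v hv

/-- a function with finitely many values in a smooth representation: a common level fixes all
its values -/
theorem sm_exists_level_fixing_range (hρ : IsSmoothRep 𝓛 ρ) {X : Type*} {f : X → V}
    (hf : (Set.range f).Finite) : ∃ U, 𝓛.IsLevel U ∧ ∀ s ∈ U, ∀ x, ρ s (f x) = f x := by
  obtain ⟨U, hU, h⟩ := sm_exists_level_fixing_finset hρ hf.toFinset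
  exact ⟨U, hU, fun s hs x => h s hs (f x) (hf.mem_toFinset.2 ⟨x, rfl⟩)⟩

/-- every element is a chosen coset representative times an element of the subgroup -/
theorem sm_exists_out_mul (U : Subgroup G) (g : G) :
    ∃ s ∈ U, g = (QuotientGroup.mk g : G ⧸ U).out * s := by
  obtain ⟨h, hh⟩ := QuotientGroup.mk_out_eq_mul U g
  refine ⟨(h : G)⁻¹, U.inv_mem h.2, ?_⟩
  rw [hh, mul_inv_cancel_right]

theorem sm_finite_range₁ {X : Type*} {U : Subgroup G} [U.FiniteIndex] {f : G → X}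
    (h : ∀ g s : G, s ∈ U → f (g * s) = f g) : (Set.range f).Finite := by
  have : Finite (G ⧸ U) := Subgroup.finite_quotient_of_finiteIndex
  refine (Set.finite_range (fun q : G ⧸ U => f q.out)).subset ?_
  rintro _ ⟨g, rfl⟩
  obtain ⟨s, hs, hg⟩ := sm_exists_out_mul U g
  exact ⟨QuotientGroup.mk g, by rw [hg, h _ _ hs]; simp only [← hg]⟩

theorem sm_finite_range₂ {X : Type*} {U : Subgroup G} [U.FiniteIndex] {f : G × G → X}
    (h : ∀ g g' s s' : G, s ∈ U → s' ∈ U → f (g * s, g' * s') = f (g, g')) :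
    (Set.range f).Finite := by
  have : Finite (G ⧸ U) := Subgroup.finite_quotient_of_finiteIndex
  refine (Set.finite_range (fun q : (G ⧸ U) × (G ⧸ U) => f (q.1.out, q.2.out))).subset ?_
  rintro _ ⟨⟨g, g'⟩, rfl⟩
  obtain ⟨s, hs, hg⟩ := sm_exists_out_mul U g
  obtain ⟨s', hs', hg'⟩ := sm_exists_out_mul U g'
  refine ⟨(QuotientGroup.mk g, QuotientGroup.mk g'), ?_⟩
  show f ((QuotientGroup.mk g : G ⧸ U).out, (QuotientGroup.mk g' : G ⧸ U).out) = f (g, g')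
  conv_rhs => rw [hg, hg']
  exact (h _ _ _ _ hs hs').symm

theorem sm_finite_range₃ {X : Type*} {U : Subgroup G} [U.FiniteIndex] {f : G × G × G → X}
    (h : ∀ g g' g'' s s' s'' : G, s ∈ U → s' ∈ U → s'' ∈ U →
      f (g * s, g' * s', g'' * s'') = f (g, g', g'')) :
    (Set.range f).Finite := by
  have : Finite (G ⧸ U) := Subgroup.finite_quotient_of_finiteIndex
  refine (Set.finite_range
    (fun q : (G ⧸ U) × (G ⧸ U) × (G ⧸ U) => f (q.1.out, q.2.1.out, q.2.2.out))).subset ?_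
  rintro _ ⟨⟨g, g', g''⟩, rfl⟩
  obtain ⟨s, hs, hg⟩ := sm_exists_out_mul U g
  obtain ⟨s', hs', hg'⟩ := sm_exists_out_mul U g'
  obtain ⟨s'', hs'', hg''⟩ := sm_exists_out_mul U g''
  refine ⟨(QuotientGroup.mk g, QuotientGroup.mk g', QuotientGroup.mk g''), ?_⟩
  show f ((QuotientGroup.mk g : G ⧸ U).out, (QuotientGroup.mk g' : G ⧸ U).out,
    (QuotientGroup.mk g'' : G ⧸ U).out) = f (g, g', g'')
  conv_rhs => rw [hg, hg', hg'']
  exact (h _ _ _ _ _ _ hs hs' hs'').symm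

/-- in a normal subgroup: `h⁻¹ s h s' ∈ N` -/
theorem sm_conj_mul_mem {N : Subgroup G} (hN : N.Normal) {s s' : G} (hs : s ∈ N) (hs' : s' ∈ N)
    (h : G) : h⁻¹ * s * h * s' ∈ N := by
  have := hN.conj_mem s hs h⁻¹
  rw [inv_inv] at this
  exact N.mul_mem this hs'

/-- a level-constant function with values in a smooth representation: some normal level
leaves `f` invariant under right translation AND fixes all values of `f`
(finitely many values since levels have finite index). -/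
theorem IsLC₁.exists_level_fixing (hρ : IsSmoothRep 𝓛 ρ) {f : G → V} (hf : IsLC₁ 𝓛 f) :
    ∃ U, 𝓛.IsLevel U ∧ U.Normal ∧ (∀ g s : G, s ∈ U → f (g * s) = f g) ∧
      ∀ s ∈ U, ∀ g, ρ s (f g) = f g := by
  obtain ⟨U, hU, h⟩ := hf
  have : U.FiniteIndex := 𝓛.finiteIndex U hU
  obtain ⟨U', hU', h'⟩ := sm_exists_level_fixing_range hρ (sm_finite_range₁ h)
  obtain ⟨W, hW, hWn, hle, hle'⟩ := 𝓛.exists_normal_le_inf U U' hU hU'
  exact ⟨W, hW, hWn, fun g s hs => h g s (hle hs), fun s hs g => h' s (hle' hs) g⟩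

theorem IsLC₂.exists_level_fixing (hρ : IsSmoothRep 𝓛 ρ) {f : G × G → V} (hf : IsLC₂ 𝓛 f) :
    ∃ U, 𝓛.IsLevel U ∧ U.Normal ∧
      (∀ g g' s s' : G, s ∈ U → s' ∈ U → f (g * s, g' * s') = f (g, g')) ∧
      ∀ s ∈ U, ∀ p, ρ s (f p) = f p := by
  obtain ⟨U, hU, h⟩ := hf
  have : U.FiniteIndex := 𝓛.finiteIndex U hU
  obtain ⟨U', hU', h'⟩ := sm_exists_level_fixing_range hρ (sm_finite_range₂ h)
  obtain ⟨W, hW, hWn, hle, hle'⟩ := 𝓛.exists_normal_le_inf U U' hU hU'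
  exact ⟨W, hW, hWn, fun g g' s s' hs hs' => h g g' s s' (hle hs) (hle hs'),
    fun s hs p => h' s (hle' hs) p⟩

theorem IsLC₃.exists_level_fixing (hρ : IsSmoothRep 𝓛 ρ) {f : G × G × G → V}
    (hf : IsLC₃ 𝓛 f) :
    ∃ U, 𝓛.IsLevel U ∧ U.Normal ∧
      (∀ g g' g'' s s' s'' : G, s ∈ U → s' ∈ U → s'' ∈ U →
        f (g * s, g' * s', g'' * s'') = f (g, g', g'')) ∧
      ∀ s ∈ U, ∀ p, ρ s (f p) = f p := by
  obtain ⟨U, hU, h⟩ := hf
  have : U.FiniteIndex := 𝓛.finiteIndex U hU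
  obtain ⟨U', hU', h'⟩ := sm_exists_level_fixing_range hρ (sm_finite_range₃ h)
  obtain ⟨W, hW, hWn, hle, hle'⟩ := 𝓛.exists_normal_le_inf U U' hU hU'
  exact ⟨W, hW, hWn, fun g g' g'' s s' s'' hs hs' hs'' =>
    h g g' g'' s s' s'' (hle hs) (hle hs') (hle hs''), fun s hs p => h' s (hle' hs) p⟩

/-- a finite-dimensional smooth representation is trivial on some normal level -/
theorem IsSmoothRep.exists_level_trivial {k : Type*} [Field k] {V : Type*} [AddCommGroup V]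
    [Module k V] [FiniteDimensional k V] {ρ : Representation k G V} (hρ : IsSmoothRep 𝓛 ρ) :
    ∃ U, 𝓛.IsLevel U ∧ U.Normal ∧ ∀ s ∈ U, ρ s = 1 := by
  classical
  let b := Module.finBasis k V
  obtain ⟨U, hU, h⟩ := sm_exists_level_fixing_range hρ (Set.finite_range b)
  obtain ⟨W, hW, hWn, hle⟩ := 𝓛.exists_normal_le U hU
  refine ⟨W, hW, hWn, fun s hs => ?_⟩
  apply b.ext
  intro i
  rw [h s (hle hs) i]
  rfl

end Fixing

section DiffSmooth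

variable {𝓛} {ρ}

theorem dd0_isLC (hρ : IsSmoothRep 𝓛 ρ) (m : V) : IsLC₁ 𝓛 (dd0 ρ m) := by
  obtain ⟨U, hU, h⟩ := hρ m
  refine ⟨U, hU, fun g s hs => ?_⟩
  simp only [dd0_apply, map_mul, Module.End.mul_apply, h s hs]

theorem dd1_isLC (hρ : IsSmoothRep 𝓛 ρ) {f : G → V} (hf : IsLC₁ 𝓛 f) :
    IsLC₂ 𝓛 (dd1 ρ f) := by
  obtain ⟨N, hN, hNn, hinv, hfix⟩ := hf.exists_level_fixing hρ
  refine ⟨N, hN, fun g h s s' hs hs' => ?_⟩
  have e1 : g * s * (h * s') = g * h * (h⁻¹ * s * h * s') := by group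
  simp only [dd1_apply, map_mul, Module.End.mul_apply]
  rw [e1, hinv h s' hs', hfix s hs h, hinv (g * h) _ (sm_conj_mul_mem hNn hs hs' h),
    hinv g s hs]

theorem dd2_isLC (hρ : IsSmoothRep 𝓛 ρ) {f : G × G → V} (hf : IsLC₂ 𝓛 f) :
    IsLC₃ 𝓛 (dd2 ρ f) := by
  obtain ⟨N, hN, hNn, hinv, hfix⟩ := hf.exists_level_fixing hρ
  refine ⟨N, hN, fun g h j s s' s'' hs hs' hs'' => ?_⟩
  have e1 : g * s * (h * s') = g * h * (h⁻¹ * s * h * s') := by group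
  have e2 : h * s' * (j * s'') = h * j * (j⁻¹ * s' * j * s'') := by group
  simp only [dd2_apply, map_mul, Module.End.mul_apply]
  rw [e1, e2, hinv h j s' s'' hs' hs'', hfix s hs (h, j),
    hinv (g * h) j _ s'' (sm_conj_mul_mem hNn hs hs' h) hs'',
    hinv g (h * j) s _ hs (sm_conj_mul_mem hNn hs' hs'' j), hinv g h s s' hs hs']

theorem dd3_isLC (hρ : IsSmoothRep 𝓛 ρ) {f : G × G × G → V} (hf : IsLC₃ 𝓛 f) :
    IsLC₄ 𝓛 (dd3 ρ f) := by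
  obtain ⟨N, hN, hNn, hinv, hfix⟩ := hf.exists_level_fixing hρ
  refine ⟨N, hN, fun g h j l s₁ s₂ s₃ s₄ h₁ h₂ h₃ h₄ => ?_⟩
  have e1 : g * s₁ * (h * s₂) = g * h * (h⁻¹ * s₁ * h * s₂) := by group
  have e2 : h * s₂ * (j * s₃) = h * j * (j⁻¹ * s₂ * j * s₃) := by group
  have e3 : j * s₃ * (l * s₄) = j * l * (l⁻¹ * s₃ * l * s₄) := by group
  simp only [dd3_apply, map_mul, Module.End.mul_apply]
  rw [e1, e2, e3, hinv h j l s₂ s₃ s₄ h₂ h₃ h₄, hfix s₁ h₁ (h, j, l),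
    hinv (g * h) j l _ s₃ s₄ (sm_conj_mul_mem hNn h₁ h₂ h) h₃ h₄,
    hinv g (h * j) l s₁ _ s₄ h₁ (sm_conj_mul_mem hNn h₂ h₃ j) h₄,
    hinv g h (j * l) s₁ s₂ _ h₁ h₂ (sm_conj_mul_mem hNn h₃ h₄ l),
    hinv g h j s₁ s₂ s₃ h₁ h₂ h₃]

theorem smB1_le_smZ1 (hρ : IsSmoothRep 𝓛 ρ) : smB1 ρ ≤ smZ1 𝓛 ρ := by
  rintro _ ⟨m, rfl⟩
  exact ⟨LinearMap.mem_ker.2 (dd1_dd0 ρ m), dd0_isLC hρ m⟩

theorem smB2_le_smZ2 (hρ : IsSmoothRep 𝓛 ρ) : smB2 𝓛 ρ ≤ smZ2 𝓛 ρ := by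
  rintro _ ⟨f, hf, rfl⟩
  exact ⟨LinearMap.mem_ker.2 (dd2_dd1 ρ f), dd1_isLC hρ hf⟩

theorem smB3_le_smZ3 (hρ : IsSmoothRep 𝓛 ρ) : smB3 𝓛 ρ ≤ smZ3 𝓛 ρ := by
  rintro _ ⟨f, hf, rfl⟩
  exact ⟨LinearMap.mem_ker.2 (dd3_dd2 ρ f), dd2_isLC hρ hf⟩

end DiffSmooth

/-! ### functoriality in the coefficient module -/

section Coeff

variable {V' : Type*} [AddCommGroup V'] [Module k V'] (ρ' : Representation k G V')

/-- a `k`-linear map commuting with the two actions -/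
def IsEquivariant (φ : V →ₗ[k] V') : Prop := ∀ g v, φ (ρ g v) = ρ' g (φ v)

variable {ρ ρ'} (φ : V →ₗ[k] V') (hφ : IsEquivariant ρ ρ' φ)

/-- post-composition with a linear map, on functions `X → V` -/
abbrev postComp (X : Type*) : (X → V) →ₗ[k] (X → V') := φ.compLeft X

include hφ in
theorem dd0_postComp (m : V) : dd0 ρ' (φ m) = postComp φ G (dd0 ρ m) := by
  ext g; simp [hφ g m]

include hφ in
theorem dd1_postComp (f : G → V) : dd1 ρ' (postComp φ G f) = postComp φ (G × G) (dd1 ρ f) := by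
  ext ⟨g, h⟩; simp [hφ g]

include hφ in
theorem dd2_postComp (f : G × G → V) :
    dd2 ρ' (postComp φ (G × G) f) = postComp φ (G × G × G) (dd2 ρ f) := by
  ext ⟨g, h, j⟩; simp [hφ g]

include hφ in
theorem dd3_postComp (f : G × G × G → V) :
    dd3 ρ' (postComp φ (G × G × G) f) = postComp φ (G × G × G × G) (dd3 ρ f) := by
  ext ⟨g, h, j, l⟩; simp [hφ g]

/-- `H⁰(V) → H⁰(V')` -/
def smH0map : ↥(smH0 ρ) →ₗ[k] ↥(smH0 ρ') :=
  (φ.comp (smH0 ρ).subtype).codRestrict (smH0 ρ') (fun m => by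
    have hm : dd0 ρ (m : V) = 0 := m.2
    show dd0 ρ' (φ m) = 0
    rw [dd0_postComp φ hφ, hm, map_zero])

/-- `Z¹(V) → Z¹(V')` -/
def smZ1map : ↥(smZ1 𝓛 ρ) →ₗ[k] ↥(smZ1 𝓛 ρ') :=
  ((postComp φ G).comp (smZ1 𝓛 ρ).subtype).codRestrict (smZ1 𝓛 ρ') (fun f => by
    refine ⟨?_, f.2.2.comp φ⟩
    have hf : dd1 ρ (f : G → V) = 0 := f.2.1
    show dd1 ρ' (postComp φ G f) = 0
    rw [dd1_postComp φ hφ, hf, map_zero])

/-- `Z²(V) → Z²(V')` -/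
def smZ2map : ↥(smZ2 𝓛 ρ) →ₗ[k] ↥(smZ2 𝓛 ρ') :=
  ((postComp φ (G × G)).comp (smZ2 𝓛 ρ).subtype).codRestrict (smZ2 𝓛 ρ') (fun f => by
    refine ⟨?_, f.2.2.comp φ⟩
    have hf : dd2 ρ (f : G × G → V) = 0 := f.2.1
    show dd2 ρ' (postComp φ (G × G) f) = 0
    rw [dd2_postComp φ hφ, hf, map_zero])

/-- `Z³(V) → Z³(V')` -/
def smZ3map : ↥(smZ3 𝓛 ρ) →ₗ[k] ↥(smZ3 𝓛 ρ') :=
  ((postComp φ (G × G × G)).comp (smZ3 𝓛 ρ).subtype).codRestrict (smZ3 𝓛 ρ') (fun f => by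
    refine ⟨?_, f.2.2.comp φ⟩
    have hf : dd3 ρ (f : G × G × G → V) = 0 := f.2.1
    show dd3 ρ' (postComp φ (G × G × G) f) = 0
    rw [dd3_postComp φ hφ, hf, map_zero])

/-- `H¹(V) → H¹(V')` -/
def smH1map : smH1 𝓛 ρ →ₗ[k] smH1 𝓛 ρ' :=
  Submodule.mapQ _ _ (smZ1map 𝓛 φ hφ) (by
    rintro f ⟨m, hm⟩
    exact ⟨φ m, by
      show dd0 ρ' (φ m) = postComp φ G (f : G → V)
      rw [dd0_postComp φ hφ, hm]; rfl⟩)

/-- `H²(V) → H²(V')` -/
def smH2map : smH2 𝓛 ρ →ₗ[k] smH2 𝓛 ρ' :=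
  Submodule.mapQ _ _ (smZ2map 𝓛 φ hφ) (by
    rintro f ⟨x, hx, hxf⟩
    exact ⟨postComp φ G x, IsLC₁.comp hx φ, by
      show dd1 ρ' (postComp φ G x) = postComp φ (G × G) (f : G × G → V)
      rw [dd1_postComp φ hφ, hxf]; rfl⟩)

/-- `H³(V) → H³(V')` -/
def smH3map : smH3 𝓛 ρ →ₗ[k] smH3 𝓛 ρ' :=
  Submodule.mapQ _ _ (smZ3map 𝓛 φ hφ) (by
    rintro f ⟨x, hx, hxf⟩
    exact ⟨postComp φ (G × G) x, IsLC₂.comp hx φ, by
      show dd2 ρ' (postComp φ (G × G) x) = postComp φ (G × G × G) (f : G × G × G → V)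
      rw [dd2_postComp φ hφ, hxf]; rfl⟩)

@[simp] theorem smH1map_mk (f : ↥(smZ1 𝓛 ρ)) :
    smH1map 𝓛 φ hφ (smH1π 𝓛 ρ f) = smH1π 𝓛 ρ' (smZ1map 𝓛 φ hφ f) := rfl
@[simp] theorem smH2map_mk (f : ↥(smZ2 𝓛 ρ)) :
    smH2map 𝓛 φ hφ (smH2π 𝓛 ρ f) = smH2π 𝓛 ρ' (smZ2map 𝓛 φ hφ f) := rfl
@[simp] theorem smH3map_mk (f : ↥(smZ3 𝓛 ρ)) :
    smH3map 𝓛 φ hφ (smH3π 𝓛 ρ f) = smH3π 𝓛 ρ' (smZ3map 𝓛 φ hφ f) := rfl

end Coeff

/-! ### functoriality in the group: restriction along a continuous homomorphism -/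

section Res

variable {H : Type*} [Group H] (𝓛H : Levels H) (r : H →* G)

/-- restriction of 1-cochains -/
def res1 (k : Type*) [CommRing k] {V : Type*} [AddCommGroup V] [Module k V] (r : H →* G) :
    (G → V) →ₗ[k] (H → V) where
  toFun f h := f (r h)
  map_add' _ _ := rfl
  map_smul' _ _ := rfl
/-- restriction of 2-cochains -/
def res2 (k : Type*) [CommRing k] {V : Type*} [AddCommGroup V] [Module k V] (r : H →* G) :
    (G × G → V) →ₗ[k] (H × H → V) where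
  toFun f h := f (r h.1, r h.2)
  map_add' _ _ := rfl
  map_smul' _ _ := rfl
/-- restriction of 3-cochains -/
def res3 (k : Type*) [CommRing k] {V : Type*} [AddCommGroup V] [Module k V] (r : H →* G) :
    (G × G × G → V) →ₗ[k] (H × H × H → V) where
  toFun f h := f (r h.1, r h.2.1, r h.2.2)
  map_add' _ _ := rfl
  map_smul' _ _ := rfl

@[simp] theorem res1_apply (f : G → V) (h : H) : res1 k r f h = f (r h) := rfl
@[simp] theorem res2_apply (f : G × G → V) (h h' : H) :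
    res2 k r f (h, h') = f (r h, r h') := rfl
@[simp] theorem res3_apply (f : G × G × G → V) (h h' h'' : H) :
    res3 k r f (h, h', h'') = f (r h, r h', r h'') := rfl

theorem dd0_res (m : V) : dd0 (ρ.comp r) m = res1 k r (dd0 ρ m) := rfl

theorem dd1_res (f : G → V) : dd1 (ρ.comp r) (res1 k r f) = res2 k r (dd1 ρ f) := by
  ext ⟨g, h⟩; simp

theorem dd2_res (f : G × G → V) : dd2 (ρ.comp r) (res2 k r f) = res3 k r (dd2 ρ f) := by
  ext ⟨g, h, j⟩; simp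

variable {𝓛 𝓛H r} (hr : 𝓛H.Continuous 𝓛 r)

include hr in
theorem IsSmoothRep.comp_hom {ρ : Representation k G V} (hρ : IsSmoothRep 𝓛 ρ) :
    IsSmoothRep 𝓛H (ρ.comp r) := by
  intro v
  obtain ⟨U, hU, h⟩ := hρ v
  obtain ⟨W, hW, hle⟩ := hr U hU
  exact ⟨W, hW, fun s hs => h _ (hle hs)⟩

/-- `H⁰(G,V) → H⁰(H,V)` -/
def smH0res : ↥(smH0 ρ) →ₗ[k] ↥(smH0 (ρ.comp r)) :=
  (smH0 ρ).subtype.codRestrict (smH0 (ρ.comp r)) (fun m => by
    have hm : dd0 ρ (m : V) = 0 := m.2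
    show dd0 (ρ.comp r) (m : V) = 0
    rw [dd0_res, hm, map_zero])

/-- `Z¹(G,V) → Z¹(H,V)` -/
def smZ1res : ↥(smZ1 𝓛 ρ) →ₗ[k] ↥(smZ1 𝓛H (ρ.comp r)) :=
  ((res1 k r).comp (smZ1 𝓛 ρ).subtype).codRestrict (smZ1 𝓛H (ρ.comp r)) (fun f => by
    refine ⟨?_, IsLC₁.comp_hom 𝓛 hr f.2.2⟩
    have hf : dd1 ρ (f : G → V) = 0 := f.2.1
    show dd1 (ρ.comp r) (res1 k r f) = 0
    rw [dd1_res, hf, map_zero])

/-- `Z²(G,V) → Z²(H,V)` -/
def smZ2res : ↥(smZ2 𝓛 ρ) →ₗ[k] ↥(smZ2 𝓛H (ρ.comp r)) :=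
  ((res2 k r).comp (smZ2 𝓛 ρ).subtype).codRestrict (smZ2 𝓛H (ρ.comp r)) (fun f => by
    refine ⟨?_, IsLC₂.comp_hom 𝓛 hr f.2.2⟩
    have hf : dd2 ρ (f : G × G → V) = 0 := f.2.1
    show dd2 (ρ.comp r) (res2 k r f) = 0
    rw [dd2_res, hf, map_zero])

/-- `H¹(G,V) → H¹(H,V)` -/
def smH1res : smH1 𝓛 ρ →ₗ[k] smH1 𝓛H (ρ.comp r) :=
  Submodule.mapQ _ _ (smZ1res ρ hr) (by
    rintro f ⟨m, hm⟩
    exact ⟨m, by
      show dd0 (ρ.comp r) m = res1 k r (f : G → V)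
      rw [dd0_res, hm]; rfl⟩)

/-- `H²(G,V) → H²(H,V)` -/
def smH2res : smH2 𝓛 ρ →ₗ[k] smH2 𝓛H (ρ.comp r) :=
  Submodule.mapQ _ _ (smZ2res ρ hr) (by
    rintro f ⟨x, hx, hxf⟩
    exact ⟨res1 k r x, IsLC₁.comp_hom 𝓛 hr hx, by
      show dd1 (ρ.comp r) (res1 k r x) = res2 k r (f : G × G → V)
      rw [dd1_res, hxf]; rfl⟩)

@[simp] theorem smH1res_mk (f : ↥(smZ1 𝓛 ρ)) :
    smH1res ρ hr (smH1π 𝓛 ρ f) = smH1π 𝓛H (ρ.comp r) (smZ1res ρ hr f) := rfl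
@[simp] theorem smH2res_mk (f : ↥(smZ2 𝓛 ρ)) :
    smH2res ρ hr (smH2π 𝓛 ρ f) = smH2π 𝓛H (ρ.comp r) (smZ2res ρ hr f) := rfl

end Res

end Fermat.Agent.S55
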