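import Fermat.Agent.S55.Top.Theta

/-!
# S55 top layer, leaf T-ADJ: adjunction between `θ²_V` and `θ¹_W`

For `u = (a,b) ∈ Z_c²(V)`, `v = (a',b') ∈ Z_c¹(W)`:
`(a ∪ a', (b_v ∪ res a')_v) - (a' ∪' a, (b'_v ∪' res a)_v) = d_c (γ, (b_v ∪ b'_v)_v)` with
`γ (g,h) = β (a (g,h)) (a' (g*h))`.  Hence `θ²_V(u)(j¹ v) = θ¹_W(v)(j² u)`, where `θ¹_W` is formed
with the flipped pairing.

Helper lemmas are prefixed `adj_`.
-/

set_option autoImplicit false

namespace Fermat.Agent.S55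

variable {k : Type*} [CommRing k] {G : Type*} [Group G] {𝓛 : Levels G}
  {ι : Type*} {Γ : ι → Type*} [∀ v, Group (Γ v)] (D : LocSys 𝓛 ι Γ)

section Adjoint

variable {V W Z : Type*} [AddCommGroup V] [Module k V] [AddCommGroup W] [Module k W]
  [AddCommGroup Z] [Module k Z]
  {ρV : Representation k G V} {ρW : Representation k G W} {ρZ : Representation k G Z}
  {β : V →ₗ[k] W →ₗ[k] Z}

/-- the homotopy `γ (g,h) = β (a (g,h)) (a' (g*h))` -/
def adjGamma (β : V →ₗ[k] W →ₗ[k] Z) (a : G × G → V) (a' : G → W) : G × G → Z :=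
  fun p => β (a p) (a' (p.1 * p.2))

@[simp] theorem adjGamma_apply (a : G × G → V) (a' : G → W) (g h : G) :
    adjGamma β a a' (g, h) = β (a (g, h)) (a' (g * h)) := rfl

/-- `γ` is level-constant -/
theorem adj_isLC_gamma {a : G × G → V} {a' : G → W} (ha : IsLC₂ 𝓛 a) (ha' : IsLC₁ 𝓛 a') :
    IsLC₂ 𝓛 (adjGamma β a a') := by
  obtain ⟨U, hU, hUa⟩ := ha
  obtain ⟨U', hU', hUa'⟩ := ha'
  obtain ⟨N, hN, hNn, hNU, hNU'⟩ := 𝓛.exists_normal_le_inf U U' hU hU'
  refine ⟨N, hN, fun g g' s s' hs hs' => ?_⟩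
  rw [adjGamma_apply, adjGamma_apply, hUa g g' s s' (hNU hs) (hNU hs')]
  have h1 : g * s * (g' * s') = g * g' * (g'⁻¹ * s * g' * s') := by group
  have h2 : g'⁻¹ * s * g' * s' ∈ N := by
    refine N.mul_mem ?_ hs'
    have := hNn.conj_mem s hs g'⁻¹
    simpa using this
  rw [h1, hUa' (g * g') _ (hNU' h2)]

/-- global component of the homotopy identity -/
theorem adj_global (hβ : IsEquivariant₂ ρV ρW ρZ β) {a : G × G → V} {a' : G → W}
    (ha : dd2 ρV a = 0) (ha' : dd1 ρW a' = 0) :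
    cup21 β ρW a a' - cup12 β.flip ρV a' a = dd2 ρZ (adjGamma β a a') := by
  ext ⟨g, h, j⟩
  have e1 : ∀ x y : G, a' (x * y) = ρW x (a' y) + a' x := by
    intro x y
    have := congrFun ha' (x, y)
    simp only [dd1_apply, Pi.zero_apply] at this
    have h0 : ρW x (a' y) + a' x - a' (x * y) = 0 := by
      rw [← this]
      abel
    exact (sub_eq_zero.mp h0).symm
  have e2 : ρV g (a (h, j)) = a (g * h, j) - a (g, h * j) + a (g, h) := by
    have := congrFun ha (g, h, j)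
    simp only [dd2_apply, Pi.zero_apply] at this
    have h0 : ρV g (a (h, j)) - (a (g * h, j) - a (g, h * j) + a (g, h)) = 0 := by
      rw [← this]
      abel
    exact sub_eq_zero.mp h0
  simp only [Pi.sub_apply, cup21_apply, cup12_apply, LinearMap.flip_apply, dd2_apply,
    adjGamma_apply]
  rw [← hβ g (a (h, j)) (a' (h * j))]
  have e3 : ρW g (a' (h * j)) = a' (g * h * j) - a' g := by
    rw [mul_assoc, e1 g (h * j)]
    abel
  have e4 : ρW (g * h) (a' j) = a' (g * h * j) - a' (g * h) := by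
    rw [e1 (g * h) j]
    abel
  rw [e3, e4, e2, ← mul_assoc]
  simp only [map_sub, map_add, LinearMap.sub_apply, LinearMap.add_apply]
  abel

/-- local component of the homotopy identity -/
theorem adj_local {H : Type*} [Group H] (r : H →* G) (hβ : IsEquivariant₂ ρV ρW ρZ β)
    {a : G × G → V} {a' : G → W} {b : H → V} {b' : W}
    (hb : res2 k r a = dd1 (ρV.comp r) b) (hb' : res1 k r a' = dd0 (ρW.comp r) b') :
    cup11 β (ρW.comp r) b (res1 k r a') - cup02 β.flip b' (res2 k r a)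
      = res2 k r (adjGamma β a a') - dd1 (ρZ.comp r) (cup10 β (ρW.comp r) b b') := by
  ext ⟨x, y⟩
  have e1 : a (r x, r y) = ρV (r x) (b y) - b (x * y) + b x := by
    have := congrFun hb (x, y)
    simpa using this
  have e2 : ∀ z : H, a' (r z) = ρW (r z) b' - b' := by
    intro z
    have := congrFun hb' z
    simpa using this
  simp only [Pi.sub_apply, cup11_apply, cup02_apply, LinearMap.flip_apply, res1_apply,
    res2_apply, adjGamma_apply, dd1_apply, cup10_apply, MonoidHom.comp_apply]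
  rw [← map_mul, e2 y, e2 (x * y), ← hβ (r x) (b y) (ρW (r y) b'), e1, map_mul, map_mul]
  simp only [map_sub, map_add, LinearMap.sub_apply, LinearMap.add_apply, Module.End.mul_apply]
  abel

variable (P : PairingData 𝓛 ρV ρW ρZ β) (P' : PairingData 𝓛 ρW ρV ρZ β.flip)
  (tr : smHc3 D ρZ →ₗ[k] k)

include P in
/-- the cochain-level identity: the difference of the two cup products is a smooth cone
coboundary -/
theorem adj_sub_mem_smBc3 {u : CC2 G Γ V} (hu : u ∈ smZc2 D ρV) {v : CC1 G ι W}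
    (hv : v ∈ smZc1 D ρW) :
    cupc2 β ρW D u v.1 - cupc1 β.flip ρV D v u.1 ∈ smBc3 D ρZ := by
  obtain ⟨a, b⟩ := u
  obtain ⟨a', b'⟩ := v
  obtain ⟨⟨ha, hb⟩, haLC, hbLC⟩ := (mem_smZc2 D ρV _).1 hu
  obtain ⟨⟨ha', hb'⟩, ha'LC⟩ := (mem_smZc1 D ρW _).1 hv
  rw [mem_smBc3]
  refine ⟨(adjGamma β a a', fun v => cup10 β (D.rep ρW v) (b v) (b' v)),
    ⟨adj_isLC_gamma haLC ha'LC, fun v => ?_⟩, ?_⟩
  · exact cup10_isLC (P.smW.comp_hom (D.cont v)) (hbLC v) (b' v)
  · rw [dc2_apply, cupc2_apply, cupc1_apply, Prod.mk_sub_mk]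
    refine Prod.ext ?_ ?_
    · exact (adj_global P.equiv ha ha').symm
    · funext v
      exact (adj_local (D.r v) P.equiv (hb v) (hb' v)).symm

include P in
/-- For `u ∈ H_c²(V)`, `v ∈ H_c¹(W)`: `θ²_V(u)(j v) = θ¹_W(v)(j u)`, where `θ¹_W` is formed with
the flipped pairing. -/
theorem theta2_jc1_eq_theta1_jc2 (u : smHc2 D ρV) (v : smHc1 D ρW) :
    theta2 D P tr u (jc1 D (ρ := ρW) v) = theta1 D P' tr v (jc2 D (ρ := ρV) u) := by
  obtain ⟨u, rfl⟩ := Submodule.mkQ_surjective _ u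
  obtain ⟨v, rfl⟩ := Submodule.mkQ_surjective _ v
  have h1 : jc1 D (ρ := ρW) (smHc1π D ρW v) = smH1π 𝓛 ρW
      ⟨(v : CC1 G ι W).1, ((mem_smZc1 D ρW _).1 v.2).1.1, ((mem_smZc1 D ρW _).1 v.2).2⟩ := rfl
  have h2 : jc2 D (ρ := ρV) (smHc2π D ρV u) = smH2π 𝓛 ρV
      ⟨(u : CC2 G Γ V).1, ((mem_smZc2 D ρV _).1 u.2).1.1, ((mem_smZc2 D ρV _).1 u.2).2.1⟩ := rfl
  rw [h1, h2, theta2_mk, theta1_mk]
  congr 1
  rw [← sub_eq_zero, ← map_sub, smHc3π_eq_zero_iff]
  exact adj_sub_mem_smBc3 D P u.2 v.2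

end Adjoint

end Fermat.Agent.S55
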