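import Fermat.Agent.S55.Top.SmoothSpec

/-!
# S55 top layer: the cone complex (compactly supported cohomology), DEFINITIONS ONLY.

Datum: a group `G` with levels `𝓛` and a family of "local" groups `Γ v` with levels and
continuous homomorphisms `r v : Γ v →* G` (`LocSys`).  For a representation `ρ` of `G` on `V`:

`C_c^n(V) = C^n(G,V) × ∏_v C^(n-1)(Γ v, V)`,  `d_c (a, b) = (d a, res a - d b)`.

`smHc1, smHc2, smHc3` are the cohomology groups of the smooth cone cochains in degrees `1,2,3`.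
-/

set_option autoImplicit false

namespace Fermat.Agent.S55

variable {k : Type*} [CommRing k] {G : Type*} [Group G] {𝓛 : Levels G}
  {ι : Type*} {Γ : ι → Type*} [∀ v, Group (Γ v)]

/-- a family of local groups with levels mapping continuously to `G` -/
structure LocSys (𝓛 : Levels G) (ι : Type*) (Γ : ι → Type*) [∀ v, Group (Γ v)] where
  /-- levels of the local groups -/
  lev : ∀ v, Levels (Γ v)
  /-- the local-to-global homomorphisms -/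
  r : ∀ v, Γ v →* G
  cont : ∀ v, (lev v).Continuous 𝓛 (r v)

variable (D : LocSys 𝓛 ι Γ) {V : Type*} [AddCommGroup V] [Module k V]
  (ρ : Representation k G V)

/-- the local representation at `v` -/
abbrev LocSys.rep (v : ι) : Representation k (Γ v) V := ρ.comp (D.r v)

/-- cone 1-cochains -/
abbrev CC1 (G : Type*) (ι : Type*) (V : Type*) := (G → V) × (ι → V)
/-- cone 2-cochains -/
abbrev CC2 (G : Type*) {ι : Type*} (Γ : ι → Type*) (V : Type*) := (G × G → V) × (∀ v, Γ v → V)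
/-- cone 3-cochains -/
abbrev CC3 (G : Type*) {ι : Type*} (Γ : ι → Type*) (V : Type*) :=
  (G × G × G → V) × (∀ v, Γ v × Γ v → V)
/-- cone 4-cochains -/
abbrev CC4 (G : Type*) {ι : Type*} (Γ : ι → Type*) (V : Type*) :=
  (G × G × G × G → V) × (∀ v, Γ v × Γ v × Γ v → V)

/-- `d_c⁰ : V → C_c¹`, `m ↦ (d⁰ m, (m)_v)` -/
def dc0 : V →ₗ[k] CC1 G ι V :=
  LinearMap.prod (dd0 ρ) (LinearMap.pi fun _ => LinearMap.id)

/-- `d_c¹ : C_c¹ → C_c²`, `(a,b) ↦ (d¹ a, (res_v a - d⁰ b_v)_v)` -/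
def dc1 : CC1 G ι V →ₗ[k] CC2 G Γ V :=
  LinearMap.prod ((dd1 ρ).comp (LinearMap.fst k _ _))
    (LinearMap.pi fun v => (res1 k (D.r v)).comp (LinearMap.fst k _ _)
      - (dd0 (D.rep ρ v)).comp ((LinearMap.proj v).comp (LinearMap.snd k _ _)))

/-- `d_c² : C_c² → C_c³`, `(a,b) ↦ (d² a, (res_v a - d¹ b_v)_v)` -/
def dc2 : CC2 G Γ V →ₗ[k] CC3 G Γ V :=
  LinearMap.prod ((dd2 ρ).comp (LinearMap.fst k _ _))
    (LinearMap.pi fun v => (res2 k (D.r v)).comp (LinearMap.fst k _ _)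
      - (dd1 (D.rep ρ v)).comp ((LinearMap.proj v).comp (LinearMap.snd k _ _)))

/-- `d_c³ : C_c³ → C_c⁴`, `(a,b) ↦ (d³ a, (res_v a - d² b_v)_v)` -/
def dc3 : CC3 G Γ V →ₗ[k] CC4 G Γ V :=
  LinearMap.prod ((dd3 ρ).comp (LinearMap.fst k _ _))
    (LinearMap.pi fun v => (res3 k (D.r v)).comp (LinearMap.fst k _ _)
      - (dd2 (D.rep ρ v)).comp ((LinearMap.proj v).comp (LinearMap.snd k _ _)))

@[simp] theorem dc0_apply (m : V) : dc0 (ι := ι) ρ m = (dd0 ρ m, fun _ => m) := rfl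
@[simp] theorem dc1_apply (a : G → V) (b : ι → V) :
    dc1 D ρ (a, b) = (dd1 ρ a, fun v => res1 k (D.r v) a - dd0 (D.rep ρ v) (b v)) := rfl
@[simp] theorem dc2_apply (a : G × G → V) (b : ∀ v, Γ v → V) :
    dc2 D ρ (a, b) = (dd2 ρ a, fun v => res2 k (D.r v) a - dd1 (D.rep ρ v) (b v)) := rfl
@[simp] theorem dc3_apply (a : G × G × G → V) (b : ∀ v, Γ v × Γ v → V) :
    dc3 D ρ (a, b) = (dd3 ρ a, fun v => res3 k (D.r v) a - dd2 (D.rep ρ v) (b v)) := rfl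

/-- smooth cone 1-cochains (no condition on the local 0-cochains) -/
def smCC1 (k : Type*) [CommRing k] (𝓛 : Levels G) (ι : Type*) (V : Type*) [AddCommGroup V]
    [Module k V] : Submodule k (CC1 G ι V) :=
  (smC1 𝓛 k V).prod ⊤
/-- smooth cone 2-cochains -/
def smCC2 (k : Type*) [CommRing k] (V : Type*) [AddCommGroup V] [Module k V] :
    Submodule k (CC2 G Γ V) :=
  (smC2 𝓛 k V).prod (Submodule.pi Set.univ fun v => smC1 (D.lev v) k V)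
/-- smooth cone 3-cochains -/
def smCC3 (k : Type*) [CommRing k] (V : Type*) [AddCommGroup V] [Module k V] :
    Submodule k (CC3 G Γ V) :=
  (smC3 𝓛 k V).prod (Submodule.pi Set.univ fun v => smC2 (D.lev v) k V)
/-- smooth cone 4-cochains -/
def smCC4 (k : Type*) [CommRing k] (V : Type*) [AddCommGroup V] [Module k V] :
    Submodule k (CC4 G Γ V) :=
  (smC4 𝓛 k V).prod (Submodule.pi Set.univ fun v => smC3 (D.lev v) k V)

theorem mem_smCC1 (c : CC1 G ι V) : c ∈ smCC1 k 𝓛 ι V ↔ IsLC₁ 𝓛 c.1 := by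
  simp [smCC1, Submodule.mem_prod]
theorem mem_smCC2 (c : CC2 G Γ V) :
    c ∈ smCC2 D k V ↔ IsLC₂ 𝓛 c.1 ∧ ∀ v, IsLC₁ (D.lev v) (c.2 v) := by
  simp [smCC2, Submodule.mem_prod, Submodule.mem_pi]
theorem mem_smCC3 (c : CC3 G Γ V) :
    c ∈ smCC3 D k V ↔ IsLC₃ 𝓛 c.1 ∧ ∀ v, IsLC₂ (D.lev v) (c.2 v) := by
  simp [smCC3, Submodule.mem_prod, Submodule.mem_pi]

/-- smooth cone 1-cocycles -/
def smZc1 : Submodule k (CC1 G ι V) := LinearMap.ker (dc1 D ρ) ⊓ smCC1 k 𝓛 ι V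
/-- cone 1-coboundaries -/
def smBc1 : Submodule k (CC1 G ι V) := LinearMap.range (dc0 (ι := ι) ρ)
/-- smooth cone 2-cocycles -/
def smZc2 : Submodule k (CC2 G Γ V) := LinearMap.ker (dc2 D ρ) ⊓ smCC2 D k V
/-- smooth cone 2-coboundaries -/
def smBc2 : Submodule k (CC2 G Γ V) := (smCC1 k 𝓛 ι V).map (dc1 D ρ)
/-- smooth cone 3-cocycles -/
def smZc3 : Submodule k (CC3 G Γ V) := LinearMap.ker (dc3 D ρ) ⊓ smCC3 D k V
/-- smooth cone 3-coboundaries -/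
def smBc3 : Submodule k (CC3 G Γ V) := (smCC2 D k V).map (dc2 D ρ)

/-- `H_c¹` -/
abbrev smHc1 : Type _ := ↥(smZc1 D ρ) ⧸ (smBc1 (ι := ι) ρ).comap (smZc1 D ρ).subtype
/-- `H_c²` -/
abbrev smHc2 : Type _ := ↥(smZc2 D ρ) ⧸ (smBc2 D ρ).comap (smZc2 D ρ).subtype
/-- `H_c³` -/
abbrev smHc3 : Type _ := ↥(smZc3 D ρ) ⧸ (smBc3 D ρ).comap (smZc3 D ρ).subtype

/-- the class of a smooth cone 1-cocycle -/
abbrev smHc1π : ↥(smZc1 D ρ) →ₗ[k] smHc1 D ρ := Submodule.mkQ _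
/-- the class of a smooth cone 2-cocycle -/
abbrev smHc2π : ↥(smZc2 D ρ) →ₗ[k] smHc2 D ρ := Submodule.mkQ _
/-- the class of a smooth cone 3-cocycle -/
abbrev smHc3π : ↥(smZc3 D ρ) →ₗ[k] smHc3 D ρ := Submodule.mkQ _

theorem mem_smZc1 (c : CC1 G ι V) :
    c ∈ smZc1 D ρ ↔ (dd1 ρ c.1 = 0 ∧ ∀ v, res1 k (D.r v) c.1 = dd0 (D.rep ρ v) (c.2 v))
      ∧ IsLC₁ 𝓛 c.1 := by
  obtain ⟨a, b⟩ := c
  simp only [smZc1, Submodule.mem_inf, LinearMap.mem_ker, dc1_apply, Prod.mk_eq_zero,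
    mem_smCC1, funext_iff (f := fun v => _ - _), Pi.zero_apply, sub_eq_zero]

theorem mem_smZc2 (c : CC2 G Γ V) :
    c ∈ smZc2 D ρ ↔ (dd2 ρ c.1 = 0 ∧ ∀ v, res2 k (D.r v) c.1 = dd1 (D.rep ρ v) (c.2 v))
      ∧ IsLC₂ 𝓛 c.1 ∧ ∀ v, IsLC₁ (D.lev v) (c.2 v) := by
  obtain ⟨a, b⟩ := c
  simp only [smZc2, Submodule.mem_inf, LinearMap.mem_ker, dc2_apply, Prod.mk_eq_zero,
    mem_smCC2, funext_iff (f := fun v => _ - _), Pi.zero_apply, sub_eq_zero]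

theorem mem_smZc3 (c : CC3 G Γ V) :
    c ∈ smZc3 D ρ ↔ (dd3 ρ c.1 = 0 ∧ ∀ v, res3 k (D.r v) c.1 = dd2 (D.rep ρ v) (c.2 v))
      ∧ IsLC₃ 𝓛 c.1 ∧ ∀ v, IsLC₂ (D.lev v) (c.2 v) := by
  obtain ⟨a, b⟩ := c
  simp only [smZc3, Submodule.mem_inf, LinearMap.mem_ker, dc3_apply, Prod.mk_eq_zero,
    mem_smCC3, funext_iff (f := fun v => _ - _), Pi.zero_apply, sub_eq_zero]

theorem mem_smBc2 (c : CC2 G Γ V) :
    c ∈ smBc2 D ρ ↔ ∃ x : CC1 G ι V, IsLC₁ 𝓛 x.1 ∧ dc1 D ρ x = c := by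
  simp only [smBc2, Submodule.mem_map, mem_smCC1]

theorem mem_smBc3 (c : CC3 G Γ V) :
    c ∈ smBc3 D ρ ↔ ∃ x : CC2 G Γ V,
      (IsLC₂ 𝓛 x.1 ∧ ∀ v, IsLC₁ (D.lev v) (x.2 v)) ∧ dc2 D ρ x = c := by
  simp only [smBc3, Submodule.mem_map, mem_smCC2]

theorem smHc1π_eq_zero_iff (c : ↥(smZc1 D ρ)) :
    smHc1π D ρ c = 0 ↔ (c : CC1 G ι V) ∈ smBc1 (ι := ι) ρ := by
  simp [Submodule.Quotient.mk_eq_zero, Submodule.mem_comap]
theorem smHc2π_eq_zero_iff (c : ↥(smZc2 D ρ)) :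
    smHc2π D ρ c = 0 ↔ (c : CC2 G Γ V) ∈ smBc2 D ρ := by
  simp [Submodule.Quotient.mk_eq_zero, Submodule.mem_comap]
theorem smHc3π_eq_zero_iff (c : ↥(smZc3 D ρ)) :
    smHc3π D ρ c = 0 ↔ (c : CC3 G Γ V) ∈ smBc3 D ρ := by
  simp [Submodule.Quotient.mk_eq_zero, Submodule.mem_comap]

end Fermat.Agent.S55
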