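import Fermat.Agent.S55.Top.CupDefs

/-!
# S55 top layer, leaf T-CUP: Leibniz rules and smoothness of the cup products.

All proofs are `ext ⟨g, h, j⟩; simp [hβ ...]; abel`-style computations, or unfold smoothness
with `IsLC₁.exists_level_fixing` (leaf T-SM, imported here as a black box).
-/

set_option autoImplicit false

namespace Fermat.Agent.S55

variable {k : Type*} [CommRing k] {G : Type*} [Group G] {𝓛 : Levels G}
  {V W Z : Type*} [AddCommGroup V] [Module k V] [AddCommGroup W] [Module k W]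
  [AddCommGroup Z] [Module k Z]
  {ρV : Representation k G V} {ρW : Representation k G W} {ρZ : Representation k G Z}
  {β : V →ₗ[k] W →ₗ[k] Z}

/-- the standing hypotheses on a pairing of smooth representations -/
structure PairingData (𝓛 : Levels G) (ρV : Representation k G V) (ρW : Representation k G W)
    (ρZ : Representation k G Z) (β : V →ₗ[k] W →ₗ[k] Z) : Prop where
  smV : IsSmoothRep 𝓛 ρV
  smW : IsSmoothRep 𝓛 ρW
  smZ : IsSmoothRep 𝓛 ρZ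
  equiv : IsEquivariant₂ ρV ρW ρZ β

section Leibniz

variable (hβ : IsEquivariant₂ ρV ρW ρZ β)
include hβ

theorem dd1_cup01 (m : V) (f : G → W) :
    dd1 ρZ (cup01 β m f) = cup11 β ρW (dd0 ρV m) f + cup02 β m (dd1 ρW f) := by
  ext ⟨g, h⟩
  simp only [dd1_apply, dd0_apply, cup01_apply, cup11_apply, cup02_apply, Pi.add_apply, ← hβ g,
    map_sub, map_add, LinearMap.sub_apply]
  abel

theorem dd1_cup10 (a : G → V) (w : W) :
    dd1 ρZ (cup10 β ρW a w) = cup20 β ρW (dd1 ρV a) w - cup11 β ρW a (dd0 ρW w) := by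
  ext ⟨g, h⟩
  simp only [dd1_apply, dd0_apply, cup10_apply, cup11_apply, cup20_apply, Pi.sub_apply, ← hβ g,
    map_sub, map_add, LinearMap.sub_apply, LinearMap.add_apply, map_mul, Module.End.mul_apply]
  abel

theorem dd2_cup02 (m : V) {f : G × G → W} (hf : dd2 ρW f = 0) :
    dd2 ρZ (cup02 β m f) = cup12 β ρW (dd0 ρV m) f := by
  ext ⟨g, h, j⟩
  have key : dd2 ρZ (cup02 β m f) (g, h, j) - cup12 β ρW (dd0 ρV m) f (g, h, j) =
      β m (dd2 ρW f (g, h, j)) := by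
    simp only [dd2_apply, dd0_apply, cup02_apply, cup12_apply, ← hβ g, map_sub, map_add,
      LinearMap.sub_apply]
    abel
  rw [hf, Pi.zero_apply, map_zero, sub_eq_zero] at key
  exact key

theorem dd2_cup11 (a : G → V) (f : G → W) :
    dd2 ρZ (cup11 β ρW a f) = cup21 β ρW (dd1 ρV a) f - cup12 β ρW a (dd1 ρW f) := by
  ext ⟨g, h, j⟩
  simp only [dd2_apply, dd1_apply, cup11_apply, cup21_apply, cup12_apply, Pi.sub_apply, ← hβ g,
    map_sub, map_add, LinearMap.sub_apply, LinearMap.add_apply, map_mul, Module.End.mul_apply]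
  abel

theorem dd2_cup20 (a : G × G → V) (w : W) :
    dd2 ρZ (cup20 β ρW a w) = cup30 β ρW (dd2 ρV a) w + cup21 β ρW a (dd0 ρW w) := by
  ext ⟨g, h, j⟩
  simp only [dd2_apply, dd0_apply, cup20_apply, cup30_apply, cup21_apply, Pi.add_apply, ← hβ g,
    map_sub, map_add, LinearMap.sub_apply, LinearMap.add_apply, map_mul, Module.End.mul_apply,
    mul_assoc]
  abel

theorem dd3_cup12 {a : G → V} {f : G × G → W} (ha : dd1 ρV a = 0) (hf : dd2 ρW f = 0) :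
    dd3 ρZ (cup12 β ρW a f) = 0 := by
  ext ⟨g, h, j, l⟩
  have key : dd3 ρZ (cup12 β ρW a f) (g, h, j, l) =
      β (dd1 ρV a (g, h)) (ρW (g * h) (f (j, l))) - β (a g) (ρW g (dd2 ρW f (h, j, l))) := by
    simp only [dd3_apply, dd2_apply, dd1_apply, cup12_apply, ← hβ g, map_sub, map_add,
      LinearMap.sub_apply, LinearMap.add_apply, map_mul, Module.End.mul_apply]
    abel
  rw [key, ha, hf]
  simp

theorem dd3_cup21 {a : G × G → V} {f : G → W} (ha : dd2 ρV a = 0) (hf : dd1 ρW f = 0) :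
    dd3 ρZ (cup21 β ρW a f) = 0 := by
  ext ⟨g, h, j, l⟩
  have key : dd3 ρZ (cup21 β ρW a f) (g, h, j, l) =
      β (dd2 ρV a (g, h, j)) (ρW (g * h * j) (f l)) +
        β (a (g, h)) (ρW (g * h) (dd1 ρW f (j, l))) := by
    simp only [dd3_apply, dd2_apply, dd1_apply, cup21_apply, ← hβ g, map_sub, map_add,
      LinearMap.sub_apply, LinearMap.add_apply, map_mul, Module.End.mul_apply, mul_assoc]
    abel
  rw [key, ha, hf]
  simp

theorem dd3_cup30 {a : G × G × G → V} {w : W} (ha : dd3 ρV a = 0) (hw : dd0 ρW w = 0) :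
    dd3 ρZ (cup30 β ρW a w) = 0 := by
  ext ⟨g, h, j, l⟩
  have key : dd3 ρZ (cup30 β ρW a w) (g, h, j, l) =
      β (dd3 ρV a (g, h, j, l)) (ρW (g * h * j * l) w) -
        β (a (g, h, j)) (ρW (g * h * j) (dd0 ρW w l)) := by
    simp only [dd3_apply, dd0_apply, cup30_apply, ← hβ g, map_sub, map_add,
      LinearMap.sub_apply, LinearMap.add_apply, map_mul, Module.End.mul_apply, mul_assoc]
    abel
  rw [key, ha, hw]
  simp

end Leibniz

section SmoothCup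

variable (hW : IsSmoothRep 𝓛 ρW)
include hW

theorem cup10_isLC {a : G → V} (ha : IsLC₁ 𝓛 a) (w : W) : IsLC₁ 𝓛 (cup10 β ρW a w) := by
  obtain ⟨U, hU, ha'⟩ := ha
  obtain ⟨U', hU', hw⟩ := hW w
  obtain ⟨N, hN, hle⟩ := 𝓛.exists_le_inf U U' hU hU'
  refine ⟨N, hN, fun g s hs => ?_⟩
  simp only [cup10_apply, map_mul, Module.End.mul_apply]
  rw [ha' g s (hle hs).1, hw s (hle hs).2]

theorem cup11_isLC {a : G → V} {f : G → W} (ha : IsLC₁ 𝓛 a) (hf : IsLC₁ 𝓛 f) :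
    IsLC₂ 𝓛 (cup11 β ρW a f) := by
  obtain ⟨U, hU, ha'⟩ := ha
  obtain ⟨U', hU', -, hf1, hf2⟩ := hf.exists_level_fixing hW
  obtain ⟨N, hN, hle⟩ := 𝓛.exists_le_inf U U' hU hU'
  refine ⟨N, hN, fun g h s s' hs hs' => ?_⟩
  simp only [cup11_apply, map_mul, Module.End.mul_apply]
  rw [ha' g s (hle hs).1, hf1 h s' (hle hs').2, hf2 s (hle hs).2]

theorem cup20_isLC {a : G × G → V} (ha : IsLC₂ 𝓛 a) (w : W) : IsLC₂ 𝓛 (cup20 β ρW a w) := by
  obtain ⟨U, hU, ha'⟩ := ha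
  obtain ⟨U', hU', hw⟩ := hW w
  obtain ⟨N, hN, hNn, hle, hle'⟩ := 𝓛.exists_normal_le_inf U U' hU hU'
  refine ⟨N, hN, fun g h s s' hs hs' => ?_⟩
  simp only [cup20_apply]
  have h1 : g * s * (h * s') = g * h * (h⁻¹ * s * h * s') := by group
  have h2 : h⁻¹ * s * h * s' ∈ N := by
    refine N.mul_mem ?_ hs'
    have := hNn.conj_mem s hs h⁻¹
    simpa using this
  rw [ha' g h s s' (hle hs) (hle hs'), h1, map_mul, Module.End.mul_apply, hw _ (hle' h2)]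

theorem cup12_isLC {a : G → V} {f : G × G → W} (ha : IsLC₁ 𝓛 a) (hf : IsLC₂ 𝓛 f) :
    IsLC₃ 𝓛 (cup12 β ρW a f) := by
  obtain ⟨U, hU, ha'⟩ := ha
  obtain ⟨U', hU', -, hf1, hf2⟩ := hf.exists_level_fixing hW
  obtain ⟨N, hN, hle⟩ := 𝓛.exists_le_inf U U' hU hU'
  refine ⟨N, hN, fun g h j s s' s'' hs hs' hs'' => ?_⟩
  simp only [cup12_apply, map_mul, Module.End.mul_apply]
  rw [ha' g s (hle hs).1, hf1 h j s' s'' (hle hs').2 (hle hs'').2, hf2 s (hle hs).2]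

theorem cup21_isLC {a : G × G → V} {f : G → W} (ha : IsLC₂ 𝓛 a) (hf : IsLC₁ 𝓛 f) :
    IsLC₃ 𝓛 (cup21 β ρW a f) := by
  obtain ⟨U, hU, ha'⟩ := ha
  obtain ⟨U', hU', -, hf1, hf2⟩ := hf.exists_level_fixing hW
  obtain ⟨N, hN, hNn, hle, hle'⟩ := 𝓛.exists_normal_le_inf U U' hU hU'
  refine ⟨N, hN, fun g h j s s' s'' hs hs' hs'' => ?_⟩
  simp only [cup21_apply]
  have h1 : g * s * (h * s') = g * h * (h⁻¹ * s * h * s') := by group
  have h2 : h⁻¹ * s * h * s' ∈ N := by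
    refine N.mul_mem ?_ hs'
    have := hNn.conj_mem s hs h⁻¹
    simpa using this
  rw [ha' g h s s' (hle hs) (hle hs'), hf1 j s'' (hle' hs''), h1, map_mul, Module.End.mul_apply,
    hf2 _ (hle' h2)]

theorem cup30_isLC {a : G × G × G → V} (ha : IsLC₃ 𝓛 a) (w : W) :
    IsLC₃ 𝓛 (cup30 β ρW a w) := by
  obtain ⟨U, hU, ha'⟩ := ha
  obtain ⟨U', hU', hw⟩ := hW w
  obtain ⟨N, hN, hNn, hle, hle'⟩ := 𝓛.exists_normal_le_inf U U' hU hU'
  refine ⟨N, hN, fun g h j s s' s'' hs hs' hs'' => ?_⟩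
  simp only [cup30_apply]
  have h1 : g * s * (h * s') * (j * s'') =
      g * h * j * ((h * j)⁻¹ * s * (h * j) * (j⁻¹ * s' * j) * s'') := by group
  have h2 : (h * j)⁻¹ * s * (h * j) * (j⁻¹ * s' * j) * s'' ∈ N := by
    refine N.mul_mem (N.mul_mem ?_ ?_) hs''
    · have := hNn.conj_mem s hs (h * j)⁻¹
      simpa using this
    · have := hNn.conj_mem s' hs' j⁻¹
      simpa using this
  rw [ha' g h j s s' s'' (hle hs) (hle hs') (hle hs''), h1, map_mul, Module.End.mul_apply,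
    hw _ (hle' h2)]

end SmoothCup

theorem cup01_isLC (m : V) {f : G → W} (hf : IsLC₁ 𝓛 f) :
    IsLC₁ 𝓛 (cup01 β m f) :=
  hf.comp (β m)

theorem cup02_isLC (m : V) {f : G × G → W} (hf : IsLC₂ 𝓛 f) :
    IsLC₂ 𝓛 (cup02 β m f) :=
  hf.comp (β m)

/-! ### compatibility of cup products with restriction -/

section ResCup

variable {H : Type*} [Group H] (r : H →* G) (β) (ρW)

theorem res1_cup01 (m : V) (f : G → W) :
    res1 k r (cup01 β m f) = cup01 β m (res1 k r f) := rfl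

theorem res1_cup10 (a : G → V) (w : W) :
    res1 k r (cup10 β ρW a w) = cup10 β (ρW.comp r) (res1 k r a) w := rfl

theorem res2_cup02 (m : V) (f : G × G → W) :
    res2 k r (cup02 β m f) = cup02 β m (res2 k r f) := rfl

theorem res2_cup11 (a : G → V) (f : G → W) :
    res2 k r (cup11 β ρW a f) = cup11 β (ρW.comp r) (res1 k r a) (res1 k r f) := rfl

theorem res2_cup20 (a : G × G → V) (w : W) :
    res2 k r (cup20 β ρW a w) = cup20 β (ρW.comp r) (res2 k r a) w := by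
  ext ⟨g, h⟩
  simp only [res2_apply, cup20_apply, MonoidHom.coe_comp, Function.comp_apply, map_mul]

theorem res3_cup12 (a : G → V) (f : G × G → W) :
    res3 k r (cup12 β ρW a f) = cup12 β (ρW.comp r) (res1 k r a) (res2 k r f) := rfl

theorem res3_cup21 (a : G × G → V) (f : G → W) :
    res3 k r (cup21 β ρW a f) = cup21 β (ρW.comp r) (res2 k r a) (res1 k r f) := by
  ext ⟨g, h, j⟩
  simp only [res3_apply, cup21_apply, res2_apply, res1_apply, MonoidHom.coe_comp,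
    Function.comp_apply, map_mul]

theorem res3_cup30 (a : G × G × G → V) (w : W) :
    res3 k r (cup30 β ρW a w) = cup30 β (ρW.comp r) (res3 k r a) w := by
  ext ⟨g, h, j⟩
  simp only [res3_apply, cup30_apply, MonoidHom.coe_comp, Function.comp_apply, map_mul]

end ResCup

theorem IsEquivariant₂.comp_hom {H : Type*} [Group H] (hβ : IsEquivariant₂ ρV ρW ρZ β)
    (r : H →* G) : IsEquivariant₂ (ρV.comp r) (ρW.comp r) (ρZ.comp r) β :=
  fun g v w => hβ (r g) v w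

/-! ### the cone versions -/

section ConeCup

variable {ι : Type*} {Γ : ι → Type*} [∀ v, Group (Γ v)] (D : LocSys 𝓛 ι Γ)
  (P : PairingData 𝓛 ρV ρW ρZ β)
include P

/-- (GL1) `d_c (x ∪ f) = d_c x ∪ f - x ∪ d f` for `x ∈ C_c¹(V)`, `f ∈ C¹(W)` -/
theorem dc2_cupc1' (x : CC1 G ι V) (f : G → W) :
    dc2 D ρZ (cupc1' β ρW D x f) = cupc2 β ρW D (dc1 D ρV x) f - cupc1 β ρW D x (dd1 ρW f) := by
  obtain ⟨a, b⟩ := x
  refine Prod.ext ?_ ?_
  · exact dd2_cup11 P.equiv a f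
  · funext v
    have hβv := P.equiv.comp_hom (D.r v)
    show res2 k (D.r v) (cup11 β ρW a f) -
        dd1 (D.rep ρZ v) (cup01 β (b v) (res1 k (D.r v) f)) =
      cup11 β (D.rep ρW v) (res1 k (D.r v) a - dd0 (D.rep ρV v) (b v)) (res1 k (D.r v) f) -
        cup02 β (b v) (res2 k (D.r v) (dd1 ρW f))
    rw [res2_cup11, dd1_cup01 hβv, dd1_res, map_sub, LinearMap.sub_apply]
    abel

/-- (GL2) `d_c (x ∪ w) = d_c x ∪ w + x ∪ d w` for `x ∈ C_c²(V)`, `w ∈ C⁰(W)` -/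
theorem dc2_cupc2' (x : CC2 G Γ V) (w : W) :
    dc2 D ρZ (cupc2' β ρW D x w) = cupc3 β ρW D (dc2 D ρV x) w + cupc2 β ρW D x (dd0 ρW w) := by
  obtain ⟨a, b⟩ := x
  refine Prod.ext ?_ ?_
  · exact dd2_cup20 P.equiv a w
  · funext v
    have hβv := P.equiv.comp_hom (D.r v)
    show res2 k (D.r v) (cup20 β ρW a w) -
        dd1 (D.rep ρZ v) (cup10 β (D.rep ρW v) (b v) w) =
      cup20 β (D.rep ρW v) (res2 k (D.r v) a - dd1 (D.rep ρV v) (b v)) w +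
        cup11 β (D.rep ρW v) (b v) (res1 k (D.r v) (dd0 ρW w))
    rw [res2_cup20, dd1_cup10 hβv, ← dd0_res, map_sub, LinearMap.sub_apply]
    abel

/-- (CB1) `d_c m ∪ f = d_c (m ∪ f, 0)` for `m ∈ V = C_c⁰`, `f ∈ Z²(W)` -/
theorem cupc1_dc0 (m : V) {f : G × G → W} (hf : dd2 ρW f = 0) :
    cupc1 β ρW D (dc0 (ι := ι) ρV m) f = dc2 D ρZ ((cup02 β m f, 0) : CC2 G Γ Z) := by
  refine Prod.ext ?_ ?_
  · exact (dd2_cup02 P.equiv m hf).symm
  · funext v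
    show cup02 β m (res2 k (D.r v) f) =
      res2 k (D.r v) (cup02 β m f) - dd1 (D.rep ρZ v) ((0 : ∀ v, Γ v → Z) v)
    rw [res2_cup02, Pi.zero_apply, map_zero, sub_zero]

/-- (CL1) cocycle ∪ cocycle is a smooth cone cocycle, degrees (1,2) -/
theorem cupc1_mem_smZc3 {u : CC1 G ι V} (hu : u ∈ smZc1 D ρV) {f : G × G → W}
    (hf : f ∈ smZ2 𝓛 ρW) : cupc1 β ρW D u f ∈ smZc3 D ρZ := by
  obtain ⟨a, b⟩ := u
  obtain ⟨⟨ha, hab⟩, haLC⟩ := (mem_smZc1 D ρV _).1 hu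
  obtain ⟨hf0, hfLC⟩ := (mem_smZ2 𝓛 ρW f).1 hf
  have hf0' : dd2 ρW f = 0 := LinearMap.mem_ker.1 hf0
  rw [mem_smZc3]
  refine ⟨⟨dd3_cup12 P.equiv ha hf0', fun v => ?_⟩, cup12_isLC P.smW haLC hfLC, fun v => ?_⟩
  · have hβv := P.equiv.comp_hom (D.r v)
    have hfv : dd2 (D.rep ρW v) (res2 k (D.r v) f) = 0 := by
      rw [dd2_res, hf0', map_zero]
    show res3 k (D.r v) (cup12 β ρW a f) =
      dd2 (D.rep ρZ v) (cup02 β (b v) (res2 k (D.r v) f))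
    rw [res3_cup12, dd2_cup02 hβv (b v) hfv, hab v]
  · exact cup02_isLC (b v) (IsLC₂.comp_hom 𝓛 (D.cont v) hfLC)

/-- (CL2) degrees (2,1) -/
theorem cupc2_mem_smZc3 {u : CC2 G Γ V} (hu : u ∈ smZc2 D ρV) {f : G → W}
    (hf : f ∈ smZ1 𝓛 ρW) : cupc2 β ρW D u f ∈ smZc3 D ρZ := by
  obtain ⟨a, b⟩ := u
  obtain ⟨⟨ha, hab⟩, haLC, hbLC⟩ := (mem_smZc2 D ρV _).1 hu
  obtain ⟨hf0, hfLC⟩ := (mem_smZ1 𝓛 ρW f).1 hf
  have hf0' : dd1 ρW f = 0 := LinearMap.mem_ker.1 hf0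
  rw [mem_smZc3]
  refine ⟨⟨dd3_cup21 P.equiv ha hf0', fun v => ?_⟩, cup21_isLC P.smW haLC hfLC, fun v => ?_⟩
  · have hβv := P.equiv.comp_hom (D.r v)
    have hfv : dd1 (D.rep ρW v) (res1 k (D.r v) f) = 0 := by
      rw [dd1_res, hf0', map_zero]
    show res3 k (D.r v) (cup21 β ρW a f) =
      dd2 (D.rep ρZ v) (cup11 β (D.rep ρW v) (b v) (res1 k (D.r v) f))
    rw [res3_cup21, dd2_cup11 hβv, hfv, map_zero, sub_zero, hab v]
  · exact cup11_isLC (P.smW.comp_hom (D.cont v)) (hbLC v) (IsLC₁.comp_hom 𝓛 (D.cont v) hfLC)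

/-- (CL3) degrees (3,0) -/
theorem cupc3_mem_smZc3 {u : CC3 G Γ V} (hu : u ∈ smZc3 D ρV) {w : W}
    (hw : w ∈ smH0 ρW) : cupc3 β ρW D u w ∈ smZc3 D ρZ := by
  obtain ⟨a, b⟩ := u
  obtain ⟨⟨ha, hab⟩, haLC, hbLC⟩ := (mem_smZc3 D ρV _).1 hu
  have hw0 : dd0 ρW w = 0 := LinearMap.mem_ker.1 hw
  rw [mem_smZc3]
  refine ⟨⟨dd3_cup30 P.equiv ha hw0, fun v => ?_⟩, cup30_isLC P.smW haLC w, fun v => ?_⟩
  · have hβv := P.equiv.comp_hom (D.r v)
    have hwv : dd0 (D.rep ρW v) w = 0 := by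
      rw [dd0_res, hw0, map_zero]
    show res3 k (D.r v) (cup30 β ρW a w) =
      dd2 (D.rep ρZ v) (cup20 β (D.rep ρW v) (b v) w)
    rw [res3_cup30, dd2_cup20 hβv, hwv, map_zero, add_zero, hab v]
  · exact cup20_isLC (P.smW.comp_hom (D.cont v)) (hbLC v) w

/-- smoothness of the degree-2 cone cups -/
theorem cupc1'_mem_smCC2 {x : CC1 G ι V} (hx : x ∈ smCC1 k 𝓛 ι V) {f : G → W}
    (hf : IsLC₁ 𝓛 f) : cupc1' β ρW D x f ∈ smCC2 D k Z := by
  rw [mem_smCC1] at hx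
  rw [mem_smCC2]
  exact ⟨cup11_isLC P.smW hx hf,
    fun v => cup01_isLC (x.2 v) (IsLC₁.comp_hom 𝓛 (D.cont v) hf)⟩

theorem cupc2'_mem_smCC2 {x : CC2 G Γ V} (hx : x ∈ smCC2 D k V) (w : W) :
    cupc2' β ρW D x w ∈ smCC2 D k Z := by
  rw [mem_smCC2] at hx ⊢
  exact ⟨cup20_isLC P.smW hx.1 w,
    fun v => cup10_isLC (P.smW.comp_hom (D.cont v)) (hx.2 v) w⟩

theorem cup02_zero_mem_smCC2 (m : V) {f : G × G → W} (hf : IsLC₂ 𝓛 f) :
    ((cup02 β m f, 0) : CC2 G Γ Z) ∈ smCC2 D k Z := by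
  rw [mem_smCC2]
  exact ⟨cup02_isLC m hf, fun v => isLC₁_const (D.lev v) (0 : Z)⟩

/-- coboundary ∪ cocycle and cocycle ∪ coboundary are coboundaries (all six cases) -/
theorem cupc1_mem_smBc3_left {u : CC1 G ι V} (hu : u ∈ smBc1 (ι := ι) ρV) {f : G × G → W}
    (hf : f ∈ smZ2 𝓛 ρW) : cupc1 β ρW D u f ∈ smBc3 D ρZ := by
  obtain ⟨m, rfl⟩ := hu
  obtain ⟨hf0, hfLC⟩ := (mem_smZ2 𝓛 ρW f).1 hf
  have hf0' : dd2 ρW f = 0 := LinearMap.mem_ker.1 hf0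
  rw [cupc1_dc0 D P m hf0']
  exact Submodule.mem_map_of_mem (cup02_zero_mem_smCC2 D P m hfLC)

theorem cupc1_mem_smBc3_right {u : CC1 G ι V} (hu : u ∈ smZc1 D ρV) {f : G × G → W}
    (hf : f ∈ smB2 𝓛 ρW) : cupc1 β ρW D u f ∈ smBc3 D ρZ := by
  obtain ⟨x, hx, rfl⟩ := (mem_smB2 𝓛 ρW f).1 hf
  have hu0 : dc1 D ρV u = 0 := LinearMap.mem_ker.1 hu.1
  have hu1 : u ∈ smCC1 k 𝓛 ι V := hu.2
  have h1 := dc2_cupc1' D P u x
  rw [hu0, map_zero, LinearMap.zero_apply, zero_sub] at h1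
  have h2 : cupc1 β ρW D u (dd1 ρW x) = dc2 D ρZ (-(cupc1' β ρW D u x)) := by
    rw [map_neg, h1, neg_neg]
  rw [h2]
  exact Submodule.mem_map_of_mem (Submodule.neg_mem _ (cupc1'_mem_smCC2 D P hu1 hx))

theorem cupc2_mem_smBc3_left {u : CC2 G Γ V} (hu : u ∈ smBc2 D ρV) {f : G → W}
    (hf : f ∈ smZ1 𝓛 ρW) : cupc2 β ρW D u f ∈ smBc3 D ρZ := by
  obtain ⟨x, hx, rfl⟩ := hu
  obtain ⟨hf0, hfLC⟩ := (mem_smZ1 𝓛 ρW f).1 hf
  have hf0' : dd1 ρW f = 0 := LinearMap.mem_ker.1 hf0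
  have h1 := dc2_cupc1' D P x f
  rw [hf0', map_zero, sub_zero] at h1
  rw [← h1]
  exact Submodule.mem_map_of_mem (cupc1'_mem_smCC2 D P hx hfLC)

theorem cupc2_mem_smBc3_right {u : CC2 G Γ V} (hu : u ∈ smZc2 D ρV) {f : G → W}
    (hf : f ∈ smB1 ρW) : cupc2 β ρW D u f ∈ smBc3 D ρZ := by
  obtain ⟨w, rfl⟩ := hf
  have hu0 : dc2 D ρV u = 0 := LinearMap.mem_ker.1 hu.1
  have hu1 : u ∈ smCC2 D k V := hu.2
  have h1 := dc2_cupc2' D P u w
  rw [hu0, map_zero, LinearMap.zero_apply, zero_add] at h1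
  rw [← h1]
  exact Submodule.mem_map_of_mem (cupc2'_mem_smCC2 D P hu1 w)

theorem cupc3_mem_smBc3_left {u : CC3 G Γ V} (hu : u ∈ smBc3 D ρV) {w : W}
    (hw : w ∈ smH0 ρW) : cupc3 β ρW D u w ∈ smBc3 D ρZ := by
  obtain ⟨x, hx, rfl⟩ := hu
  have hw0 : dd0 ρW w = 0 := LinearMap.mem_ker.1 hw
  have h1 := dc2_cupc2' D P x w
  rw [hw0, map_zero, add_zero] at h1
  rw [← h1]
  exact Submodule.mem_map_of_mem (cupc2'_mem_smCC2 D P hx w)

end ConeCup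

end Fermat.Agent.S55
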