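import Fermat.Agent.S55.Top.ConeDefs

/-!
# S55 top layer: cup products of low-degree inhomogeneous cochains, DEFINITIONS ONLY.

For a bilinear map `β : V →ₗ[k] W →ₗ[k] Z` and representations `ρV, ρW, ρZ` with
`β (ρV g v) (ρW g w) = ρZ g (β v w)`:

`(a ∪ b)(g₁,…,g_i,h₁,…,h_j) = β (a (g₁,…,g_i)) (ρW (g₁⋯g_i) (b (h₁,…,h_j)))`.

`cup_ij` is defined for `(i,j) ∈ {(0,1),(1,0),(0,2),(1,1),(2,0),(1,2),(2,1),(3,0)}`; the cone
versions `cupc1, cupc2, cupc3 : C_c^i(V) × C^(3-i)(W) → C_c³(Z)` are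
`(a,b) ∪ f = (a ∪ f, (b_v ∪ res_v f)_v)`.
-/

set_option autoImplicit false

namespace Fermat.Agent.S55

variable {k : Type*} [CommRing k] {G : Type*} [Group G]
  {V W Z : Type*} [AddCommGroup V] [Module k V] [AddCommGroup W] [Module k W]
  [AddCommGroup Z] [Module k Z]
  (β : V →ₗ[k] W →ₗ[k] Z) (ρW : Representation k G W)

/-- equivariance of a bilinear pairing -/
def IsEquivariant₂ (ρV : Representation k G V) (ρW : Representation k G W)
    (ρZ : Representation k G Z) (β : V →ₗ[k] W →ₗ[k] Z) : Prop :=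
  ∀ g v w, β (ρV g v) (ρW g w) = ρZ g (β v w)

/-- `C⁰ × C¹ → C¹` -/
def cup01 : V →ₗ[k] (G → W) →ₗ[k] (G → Z) :=
  LinearMap.mk₂ k (fun m f g => β m (f g))
    (fun _ _ _ => by ext; simp) (fun _ _ _ => by ext; simp)
    (fun _ _ _ => by ext; simp) (fun _ _ _ => by ext; simp)

/-- `C¹ × C⁰ → C¹` -/
def cup10 : (G → V) →ₗ[k] W →ₗ[k] (G → Z) :=
  LinearMap.mk₂ k (fun a w g => β (a g) (ρW g w))
    (fun _ _ _ => by ext; simp) (fun _ _ _ => by ext; simp)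
    (fun _ _ _ => by ext; simp) (fun _ _ _ => by ext; simp)

/-- `C⁰ × C² → C²` -/
def cup02 : V →ₗ[k] (G × G → W) →ₗ[k] (G × G → Z) :=
  LinearMap.mk₂ k (fun m f p => β m (f p))
    (fun _ _ _ => by ext; simp) (fun _ _ _ => by ext; simp)
    (fun _ _ _ => by ext; simp) (fun _ _ _ => by ext; simp)

/-- `C¹ × C¹ → C²` -/
def cup11 : (G → V) →ₗ[k] (G → W) →ₗ[k] (G × G → Z) :=
  LinearMap.mk₂ k (fun a f p => β (a p.1) (ρW p.1 (f p.2)))
    (fun _ _ _ => by ext; simp) (fun _ _ _ => by ext; simp)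
    (fun _ _ _ => by ext; simp) (fun _ _ _ => by ext; simp)

/-- `C² × C⁰ → C²` -/
def cup20 : (G × G → V) →ₗ[k] W →ₗ[k] (G × G → Z) :=
  LinearMap.mk₂ k (fun a w p => β (a p) (ρW (p.1 * p.2) w))
    (fun _ _ _ => by ext; simp) (fun _ _ _ => by ext; simp)
    (fun _ _ _ => by ext; simp) (fun _ _ _ => by ext; simp)

/-- `C¹ × C² → C³` -/
def cup12 : (G → V) →ₗ[k] (G × G → W) →ₗ[k] (G × G × G → Z) :=
  LinearMap.mk₂ k (fun a f p => β (a p.1) (ρW p.1 (f (p.2.1, p.2.2))))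
    (fun _ _ _ => by ext; simp) (fun _ _ _ => by ext; simp)
    (fun _ _ _ => by ext; simp) (fun _ _ _ => by ext; simp)

/-- `C² × C¹ → C³` -/
def cup21 : (G × G → V) →ₗ[k] (G → W) →ₗ[k] (G × G × G → Z) :=
  LinearMap.mk₂ k (fun a f p => β (a (p.1, p.2.1)) (ρW (p.1 * p.2.1) (f p.2.2)))
    (fun _ _ _ => by ext; simp) (fun _ _ _ => by ext; simp)
    (fun _ _ _ => by ext; simp) (fun _ _ _ => by ext; simp)

/-- `C³ × C⁰ → C³` -/
def cup30 : (G × G × G → V) →ₗ[k] W →ₗ[k] (G × G × G → Z) :=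
  LinearMap.mk₂ k (fun a w p => β (a p) (ρW (p.1 * p.2.1 * p.2.2) w))
    (fun _ _ _ => by ext; simp) (fun _ _ _ => by ext; simp)
    (fun _ _ _ => by ext; simp) (fun _ _ _ => by ext; simp)

@[simp] theorem cup01_apply (m : V) (f : G → W) (g : G) : cup01 β m f g = β m (f g) := rfl
@[simp] theorem cup10_apply (a : G → V) (w : W) (g : G) :
    cup10 β ρW a w g = β (a g) (ρW g w) := rfl
@[simp] theorem cup02_apply (m : V) (f : G × G → W) (p : G × G) :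
    cup02 β m f p = β m (f p) := rfl
@[simp] theorem cup11_apply (a : G → V) (f : G → W) (g h : G) :
    cup11 β ρW a f (g, h) = β (a g) (ρW g (f h)) := rfl
@[simp] theorem cup20_apply (a : G × G → V) (w : W) (g h : G) :
    cup20 β ρW a w (g, h) = β (a (g, h)) (ρW (g * h) w) := rfl
@[simp] theorem cup12_apply (a : G → V) (f : G × G → W) (g h j : G) :
    cup12 β ρW a f (g, h, j) = β (a g) (ρW g (f (h, j))) := rfl
@[simp] theorem cup21_apply (a : G × G → V) (f : G → W) (g h j : G) :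
    cup21 β ρW a f (g, h, j) = β (a (g, h)) (ρW (g * h) (f j)) := rfl
@[simp] theorem cup30_apply (a : G × G × G → V) (w : W) (g h j : G) :
    cup30 β ρW a w (g, h, j) = β (a (g, h, j)) (ρW (g * h * j) w) := rfl

/-! ### cone cup products `C_c^i(V) × C^(3-i)(W) → C_c³(Z)` and `C_c^i(V) × C^(2-i)(W) → C_c²(Z)` -/

variable {𝓛 : Levels G} {ι : Type*} {Γ : ι → Type*} [∀ v, Group (Γ v)] (D : LocSys 𝓛 ι Γ)

/-- `C_c¹(V) × C²(W) → C_c³(Z)`, `(a,b) ∪ f = (a ∪ f, (b_v ∪ res_v f)_v)` -/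
def cupc1 : CC1 G ι V →ₗ[k] (G × G → W) →ₗ[k] CC3 G Γ Z :=
  LinearMap.mk₂ k (fun c f => (cup12 β ρW c.1 f, fun v => cup02 β (c.2 v) (res2 k (D.r v) f)))
    (fun _ _ _ => by ext <;> simp) (fun _ _ _ => by ext <;> simp)
    (fun _ _ _ => by ext <;> simp) (fun _ _ _ => by ext <;> simp)

/-- `C_c²(V) × C¹(W) → C_c³(Z)` -/
def cupc2 : CC2 G Γ V →ₗ[k] (G → W) →ₗ[k] CC3 G Γ Z :=
  LinearMap.mk₂ k (fun c f => (cup21 β ρW c.1 f,
      fun v => cup11 β (D.rep ρW v) (c.2 v) (res1 k (D.r v) f)))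
    (fun _ _ _ => by ext <;> simp) (fun _ _ _ => by ext <;> simp)
    (fun _ _ _ => by ext <;> simp) (fun _ _ _ => by ext <;> simp)

/-- `C_c³(V) × C⁰(W) → C_c³(Z)` -/
def cupc3 : CC3 G Γ V →ₗ[k] W →ₗ[k] CC3 G Γ Z :=
  LinearMap.mk₂ k (fun c w => (cup30 β ρW c.1 w, fun v => cup20 β (D.rep ρW v) (c.2 v) w))
    (fun _ _ _ => by ext <;> simp) (fun _ _ _ => by ext <;> simp)
    (fun _ _ _ => by ext <;> simp) (fun _ _ _ => by ext <;> simp)

/-- `C_c¹(V) × C¹(W) → C_c²(Z)` -/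
def cupc1' : CC1 G ι V →ₗ[k] (G → W) →ₗ[k] CC2 G Γ Z :=
  LinearMap.mk₂ k (fun c f => (cup11 β ρW c.1 f, fun v => cup01 β (c.2 v) (res1 k (D.r v) f)))
    (fun _ _ _ => by ext <;> simp) (fun _ _ _ => by ext <;> simp)
    (fun _ _ _ => by ext <;> simp) (fun _ _ _ => by ext <;> simp)

/-- `C_c²(V) × C⁰(W) → C_c²(Z)` -/
def cupc2' : CC2 G Γ V →ₗ[k] W →ₗ[k] CC2 G Γ Z :=
  LinearMap.mk₂ k (fun c w => (cup20 β ρW c.1 w, fun v => cup10 β (D.rep ρW v) (c.2 v) w))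
    (fun _ _ _ => by ext <;> simp) (fun _ _ _ => by ext <;> simp)
    (fun _ _ _ => by ext <;> simp) (fun _ _ _ => by ext <;> simp)

@[simp] theorem cupc1_apply (c : CC1 G ι V) (f : G × G → W) :
    cupc1 β ρW D c f = (cup12 β ρW c.1 f, fun v => cup02 β (c.2 v) (res2 k (D.r v) f)) := rfl
@[simp] theorem cupc2_apply (c : CC2 G Γ V) (f : G → W) :
    cupc2 β ρW D c f = (cup21 β ρW c.1 f,
      fun v => cup11 β (D.rep ρW v) (c.2 v) (res1 k (D.r v) f)) := rfl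
@[simp] theorem cupc3_apply (c : CC3 G Γ V) (w : W) :
    cupc3 β ρW D c w = (cup30 β ρW c.1 w, fun v => cup20 β (D.rep ρW v) (c.2 v) w) := rfl
@[simp] theorem cupc1'_apply (c : CC1 G ι V) (f : G → W) :
    cupc1' β ρW D c f = (cup11 β ρW c.1 f, fun v => cup01 β (c.2 v) (res1 k (D.r v) f)) := rfl
@[simp] theorem cupc2'_apply (c : CC2 G Γ V) (w : W) :
    cupc2' β ρW D c w = (cup20 β ρW c.1 w, fun v => cup10 β (D.rep ρW v) (c.2 v) w) := rfl

end Fermat.Agent.S55
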