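import Fermat.Agent.S55.Top.PkgDefs

/-!
# S55 top layer, leaf T-EXT: the duality package is closed under extensions.

* `DualityPkg` (the package `𝒫(V,W,β)`: `θ¹` surjective, `θ²` bijective, `θ³` injective) lives in
  `Top/PkgDefs.lean` (helper11's file, verbatim from the spec).
* `DualityPkg.of_shortExact`: four applications of the four lemma.

Helper lemmas are prefixed `ext_`.
-/

set_option autoImplicit false

namespace Fermat.Agent.S55

/-- over a field the dual of an exact sequence is exact -/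
theorem ext_exact_dualMap {k : Type*} [Field k] {A B C : Type*} [AddCommGroup A] [Module k A]
    [AddCommGroup B] [Module k B] [AddCommGroup C] [Module k C] (f : A →ₗ[k] B) (g : B →ₗ[k] C)
    (h : Function.Exact f g) : Function.Exact g.dualMap f.dualMap := by
  intro φ
  constructor
  · intro hφ
    have h1 : φ ∈ (LinearMap.ker g).dualAnnihilator := by
      rw [Submodule.mem_dualAnnihilator]
      intro w hw
      obtain ⟨a, rfl⟩ := (h w).mp (LinearMap.mem_ker.mp hw)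
      exact LinearMap.congr_fun hφ a
    rw [← LinearMap.range_dualMap_eq_dualAnnihilator_ker] at h1
    exact h1
  · rintro ⟨ψ, rfl⟩
    ext a
    simp only [LinearMap.dualMap_apply, LinearMap.zero_apply]
    rw [h.apply_apply_eq_zero, map_zero]

variable {k : Type*} [Field k] {G : Type*} [Group G] {𝓛 : Levels G}
  {ι : Type*} {Γ : ι → Type*} [∀ v, Group (Γ v)] (D : LocSys 𝓛 ι Γ)

section Ext

variable {V₁ V V₂ W₁ W W₂ Z : Type*}
  [AddCommGroup V₁] [Module k V₁] [AddCommGroup V] [Module k V] [AddCommGroup V₂] [Module k V₂]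
  [AddCommGroup W₁] [Module k W₁] [AddCommGroup W] [Module k W] [AddCommGroup W₂] [Module k W₂]
  [AddCommGroup Z] [Module k Z]
  {ρ₁ : Representation k G V₁} {ρ : Representation k G V} {ρ₂ : Representation k G V₂}
  {σ₁ : Representation k G W₁} {σ : Representation k G W} {σ₂ : Representation k G W₂}
  {ρZ : Representation k G Z}
  {β₁ : V₁ →ₗ[k] W₁ →ₗ[k] Z} {β : V →ₗ[k] W →ₗ[k] Z} {β₂ : V₂ →ₗ[k] W₂ →ₗ[k] Z}

variable (S : ShortExactPairing 𝓛 ρ₁ ρ ρ₂ σ₁ σ σ₂ ρZ β₁ β β₂) (tr : smHc3 D ρZ →ₗ[k] k)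

/-! #### the commutative squares -/

theorem ext_sq1_i : (smH2map 𝓛 S.EW.p S.EW.p_equiv).dualMap.comp (theta1 D S.P₁ tr) =
    (theta1 D S.P tr).comp (smHc1map D S.EV.i S.EV.i_equiv) := by
  refine LinearMap.ext fun u => LinearMap.ext fun y => ?_
  exact (theta1_natural D S.P₁ S.P tr S.EV.i S.EW.p S.EV.i_equiv S.EW.p_equiv S.adj₁ u y).symm

theorem ext_sq1_p : (smH2map 𝓛 S.EW.i S.EW.i_equiv).dualMap.comp (theta1 D S.P tr) =
    (theta1 D S.P₂ tr).comp (smHc1map D S.EV.p S.EV.p_equiv) := by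
  refine LinearMap.ext fun u => LinearMap.ext fun y => ?_
  exact (theta1_natural D S.P S.P₂ tr S.EV.p S.EW.i S.EV.p_equiv S.EW.i_equiv
    (fun v w => (S.adj₂ v w).symm) u y).symm

theorem ext_sq2_i : (smH1map 𝓛 S.EW.p S.EW.p_equiv).dualMap.comp (theta2 D S.P₁ tr) =
    (theta2 D S.P tr).comp (smHc2map D S.EV.i S.EV.i_equiv) := by
  refine LinearMap.ext fun u => LinearMap.ext fun y => ?_
  exact (theta2_natural D S.P₁ S.P tr S.EV.i S.EW.p S.EV.i_equiv S.EW.p_equiv S.adj₁ u y).symm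

theorem ext_sq2_p : (smH1map 𝓛 S.EW.i S.EW.i_equiv).dualMap.comp (theta2 D S.P tr) =
    (theta2 D S.P₂ tr).comp (smHc2map D S.EV.p S.EV.p_equiv) := by
  refine LinearMap.ext fun u => LinearMap.ext fun y => ?_
  exact (theta2_natural D S.P S.P₂ tr S.EV.p S.EW.i S.EV.p_equiv S.EW.i_equiv
    (fun v w => (S.adj₂ v w).symm) u y).symm

theorem ext_sq3_i : (smH0map S.EW.p S.EW.p_equiv).dualMap.comp (theta3 D S.P₁ tr) =
    (theta3 D S.P tr).comp (smHc3map D S.EV.i S.EV.i_equiv) := by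
  refine LinearMap.ext fun u => LinearMap.ext fun y => ?_
  exact (theta3_natural D S.P₁ S.P tr S.EV.i S.EW.p S.EV.i_equiv S.EW.p_equiv S.adj₁ u y).symm

theorem ext_sq3_p : (smH0map S.EW.i S.EW.i_equiv).dualMap.comp (theta3 D S.P tr) =
    (theta3 D S.P₂ tr).comp (smHc3map D S.EV.p S.EV.p_equiv) := by
  refine LinearMap.ext fun u => LinearMap.ext fun y => ?_
  exact (theta3_natural D S.P S.P₂ tr S.EV.p S.EW.i S.EV.p_equiv S.EW.i_equiv
    (fun v w => (S.adj₂ v w).symm) u y).symm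

theorem ext_sq_conn1 : (conn1 S.EW S.P₂.smW S.P.smW).dualMap.comp (theta1 D S.P₂ tr) =
    (theta2 D S.P₁ tr).comp (connc1 D S.EV S.P₁.smV S.P.smV) := by
  refine LinearMap.ext fun u => LinearMap.ext fun y => ?_
  exact (theta2_connc1 D S tr u y).symm

theorem ext_sq_conn2 : (conn0 S.EW S.P₂.smW S.P.smW).dualMap.comp (theta2 D S.P₂ tr) =
    (-(theta3 D S.P₁ tr)).comp (connc2 D S.EV S.P₁.smV S.P.smV) := by
  refine LinearMap.ext fun u => LinearMap.ext fun y => ?_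
  simp only [LinearMap.comp_apply, LinearMap.dualMap_apply, LinearMap.neg_apply]
  rw [theta3_connc2 D S tr u y, neg_neg]

theorem ext_sq_conn2' : (conn0 S.EW S.P₂.smW S.P.smW).dualMap.comp (-(theta2 D S.P₂ tr)) =
    (theta3 D S.P₁ tr).comp (connc2 D S.EV S.P₁.smV S.P.smV) := by
  refine LinearMap.ext fun u => LinearMap.ext fun y => ?_
  simp only [LinearMap.comp_apply, LinearMap.dualMap_apply, LinearMap.neg_apply]
  rw [theta3_connc2 D S tr u y]

/-- T-EXT: the package is closed under extensions. -/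
theorem DualityPkg.of_shortExact (S : ShortExactPairing 𝓛 ρ₁ ρ ρ₂ σ₁ σ σ₂ ρZ β₁ β β₂)
    (tr : smHc3 D ρZ →ₗ[k] k) (h₁ : DualityPkg D S.P₁ tr) (h₂ : DualityPkg D S.P₂ tr) :
    DualityPkg D S.P tr := by
  refine ⟨?_, ?_, ?_, ?_⟩
  · -- θ¹ surjective
    exact LinearMap.surjective_of_surjective_of_surjective_of_injective
      (smHc1map D S.EV.i S.EV.i_equiv) (smHc1map D S.EV.p S.EV.p_equiv)
      (connc1 D S.EV S.P₁.smV S.P.smV)
      (smH2map 𝓛 S.EW.p S.EW.p_equiv).dualMap (smH2map 𝓛 S.EW.i S.EW.i_equiv).dualMap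
      (conn1 S.EW S.P₂.smW S.P.smW).dualMap
      (theta1 D S.P₁ tr) (theta1 D S.P tr) (theta1 D S.P₂ tr) (theta2 D S.P₁ tr)
      (ext_sq1_i D S tr) (ext_sq1_p D S tr) (ext_sq_conn1 D S tr)
      (exact_smHc1map_connc1 D S.EV S.P₁.smV S.P.smV)
      (ext_exact_dualMap _ _ (exact_smH2map_smH2map S.EW S.P.smW))
      (ext_exact_dualMap _ _ (exact_conn1_smH2map S.EW S.P₂.smW S.P.smW))
      h₁.surj1 h₂.surj1 h₁.inj2
  · -- θ² injective
    exact LinearMap.injective_of_surjective_of_injective_of_injective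
      (connc1 D S.EV S.P₁.smV S.P.smV) (smHc2map D S.EV.i S.EV.i_equiv)
      (smHc2map D S.EV.p S.EV.p_equiv)
      (conn1 S.EW S.P₂.smW S.P.smW).dualMap (smH1map 𝓛 S.EW.p S.EW.p_equiv).dualMap
      (smH1map 𝓛 S.EW.i S.EW.i_equiv).dualMap
      (theta1 D S.P₂ tr) (theta2 D S.P₁ tr) (theta2 D S.P tr) (theta2 D S.P₂ tr)
      (ext_sq_conn1 D S tr) (ext_sq2_i D S tr) (ext_sq2_p D S tr)
      (exact_connc1_smHc2map D S.EV S.P₁.smV S.P.smV)
      (exact_smHc2map_smHc2map D S.EV S.P.smV)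
      (ext_exact_dualMap _ _ (exact_smH1map_conn1 S.EW S.P₂.smW S.P.smW))
      h₂.surj1 h₁.inj2 h₂.inj2
  · -- θ² surjective
    exact LinearMap.surjective_of_surjective_of_surjective_of_injective
      (smHc2map D S.EV.i S.EV.i_equiv) (smHc2map D S.EV.p S.EV.p_equiv)
      (connc2 D S.EV S.P₁.smV S.P.smV)
      (smH1map 𝓛 S.EW.p S.EW.p_equiv).dualMap (smH1map 𝓛 S.EW.i S.EW.i_equiv).dualMap
      (conn0 S.EW S.P₂.smW S.P.smW).dualMap
      (theta2 D S.P₁ tr) (theta2 D S.P tr) (theta2 D S.P₂ tr) (-(theta3 D S.P₁ tr))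
      (ext_sq2_i D S tr) (ext_sq2_p D S tr) (ext_sq_conn2 D S tr)
      (exact_smHc2map_connc2 D S.EV S.P₁.smV S.P.smV)
      (ext_exact_dualMap _ _ (exact_smH1map_smH1map S.EW S.P.smW))
      (ext_exact_dualMap _ _ (exact_conn0_smH1map S.EW S.P₂.smW S.P.smW))
      h₁.surj2 h₂.surj2 (neg_injective.comp h₁.inj3)
  · -- θ³ injective
    exact LinearMap.injective_of_surjective_of_injective_of_injective
      (connc2 D S.EV S.P₁.smV S.P.smV) (smHc3map D S.EV.i S.EV.i_equiv)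
      (smHc3map D S.EV.p S.EV.p_equiv)
      (conn0 S.EW S.P₂.smW S.P.smW).dualMap (smH0map S.EW.p S.EW.p_equiv).dualMap
      (smH0map S.EW.i S.EW.i_equiv).dualMap
      (-(theta2 D S.P₂ tr)) (theta3 D S.P₁ tr) (theta3 D S.P tr) (theta3 D S.P₂ tr)
      (ext_sq_conn2' D S tr) (ext_sq3_i D S tr) (ext_sq3_p D S tr)
      (exact_connc2_smHc3map D S.EV S.P₁.smV S.P.smV)
      (exact_smHc3map_smHc3map D S.EV S.P.smV)
      (ext_exact_dualMap _ _ (exact_smH0map_conn0 S.EW S.P₂.smW S.P.smW))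
      (neg_surjective.comp h₂.surj2) h₁.inj3 h₂.inj3

end Ext

end Fermat.Agent.S55
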