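import Mathlib

/-!
# S55 top layer: two consecutive degrees of a linearly split short exact sequence of complexes

Pure linear algebra (no groups): the diagram chases behind the long exact cohomology sequence,
stated for abstract `k`-modules so that they can be instantiated for the group cochains and for
the cone cochains, degree by degree.

`0 → X → Y → Z → 0` in degrees `0, 1` (any two consecutive degrees), maps `i, p`, a linear
section `s` of `p` and a linear retraction `t` of `i` with `i t + s p = 1`.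
-/

set_option autoImplicit false

namespace Fermat.Agent.S55

/-- two consecutive degrees of a linearly split short exact sequence of complexes -/
structure SesSeg (k : Type*) [CommRing k] (X0 Y0 Z0 X1 Y1 Z1 : Type*)
    [AddCommGroup X0] [Module k X0] [AddCommGroup Y0] [Module k Y0]
    [AddCommGroup Z0] [Module k Z0] [AddCommGroup X1] [Module k X1]
    [AddCommGroup Y1] [Module k Y1] [AddCommGroup Z1] [Module k Z1] where
  /-- differential of the sub complex -/
  dX : X0 →ₗ[k] X1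
  /-- differential of the middle complex -/
  dY : Y0 →ₗ[k] Y1
  /-- differential of the quotient complex -/
  dZ : Z0 →ₗ[k] Z1
  /-- injection, lower degree -/
  i0 : X0 →ₗ[k] Y0
  /-- surjection, lower degree -/
  p0 : Y0 →ₗ[k] Z0
  /-- section, lower degree -/
  s0 : Z0 →ₗ[k] Y0
  /-- retraction, lower degree -/
  t0 : Y0 →ₗ[k] X0
  /-- injection, upper degree -/
  i1 : X1 →ₗ[k] Y1
  /-- surjection, upper degree -/
  p1 : Y1 →ₗ[k] Z1
  /-- section, upper degree -/
  s1 : Z1 →ₗ[k] Y1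
  /-- retraction, upper degree -/
  t1 : Y1 →ₗ[k] X1
  di : ∀ x, dY (i0 x) = i1 (dX x)
  dp : ∀ y, dZ (p0 y) = p1 (dY y)
  split0 : ∀ y, i0 (t0 y) + s0 (p0 y) = y
  split1 : ∀ y, i1 (t1 y) + s1 (p1 y) = y
  ps0 : ∀ z, p0 (s0 z) = z
  pi0 : ∀ x, p0 (i0 x) = 0
  pi1 : ∀ x, p1 (i1 x) = 0
  ti1 : ∀ x, t1 (i1 x) = x

namespace SesSeg

variable {k : Type*} [CommRing k] {X0 Y0 Z0 X1 Y1 Z1 X2 Y2 Z2 : Type*}
  [AddCommGroup X0] [Module k X0] [AddCommGroup Y0] [Module k Y0]
  [AddCommGroup Z0] [Module k Z0] [AddCommGroup X1] [Module k X1]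
  [AddCommGroup Y1] [Module k Y1] [AddCommGroup Z1] [Module k Z1]
  [AddCommGroup X2] [Module k X2] [AddCommGroup Y2] [Module k Y2]
  [AddCommGroup Z2] [Module k Z2]
  (S : SesSeg k X0 Y0 Z0 X1 Y1 Z1)

theorem it1 {y : Y1} (hy : S.p1 y = 0) : S.i1 (S.t1 y) = y := by
  have := S.split1 y
  rwa [hy, map_zero, add_zero] at this

theorem inj1 : Function.Injective S.i1 :=
  Function.LeftInverse.injective S.ti1

theorem s_p_eq (c : Y0) : S.s0 (S.p0 c) = c - S.i0 (S.t0 c) := by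
  rw [eq_sub_iff_add_eq, add_comm]
  exact S.split0 c

/-- (A) `δ ∘ p_* = 0` at cochain level -/
theorem t_d_s_p {c : Y0} (hc : S.dY c = 0) :
    S.t1 (S.dY (S.s0 (S.p0 c))) = S.dX (-S.t0 c) := by
  rw [S.s_p_eq, map_sub, hc, zero_sub, S.di, map_neg, S.ti1, map_neg]

/-- (B) the lift of a cocycle has its coboundary in the sub complex -/
theorem i_t_d_s {u : Z0} (hu : S.dZ u = 0) : S.i1 (S.t1 (S.dY (S.s0 u))) = S.dY (S.s0 u) := by
  apply S.it1
  rw [← S.dp, S.ps0, hu]

/-- (C) exactness at `H(Z)`: a cocycle of `Z` whose connecting image is a coboundary lifts to a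
cocycle of `Y` -/
theorem lift_cocycle {u : Z0} (hu : S.dZ u = 0) {y : X0} (hy : S.t1 (S.dY (S.s0 u)) = S.dX y) :
    S.dY (S.s0 u - S.i0 y) = 0 ∧ S.p0 (S.s0 u - S.i0 y) = u := by
  constructor
  · rw [map_sub, S.di, ← hy, S.i_t_d_s hu, sub_self]
  · rw [map_sub, S.ps0, S.pi0, sub_zero]

/-- (D) exactness at `H(X)` in the upper degree -/
theorem conn_of_bdry {w : X1} {x : Y0} (hw : S.i1 w = S.dY x) :
    S.dZ (S.p0 x) = 0 ∧ S.t1 (S.dY (S.s0 (S.p0 x))) - w = S.dX (-S.t0 x) := by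
  constructor
  · rw [S.dp, ← hw, S.pi1]
  · rw [S.s_p_eq, map_sub, ← hw, S.di, map_sub, S.ti1, S.ti1, map_neg]
    abel

/-- (E) exactness at `H(Y)` in the upper degree -/
theorem sub_d_s {c : Y1} {x : Z0} (hc : S.p1 c = S.dZ x) :
    S.i1 (S.t1 (c - S.dY (S.s0 x))) = c - S.dY (S.s0 x) := by
  apply S.it1
  rw [map_sub, hc, ← S.dp, S.ps0, sub_self]

variable (S' : SesSeg k X1 Y1 Z1 X2 Y2 Z2)

/-- a cochain of `X` in the middle degree whose image in `Y` is a cocycle is a cocycle -/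
theorem dX_eq_zero_of (hi : ∀ x, S'.i0 x = S.i1 x) {w : X1} (hw : S'.dY (S.i1 w) = 0) :
    S'.dX w = 0 := by
  apply S'.inj1
  rw [← S'.di, hi, hw, map_zero]

/-- (F) the connecting cochain of a cocycle is a cocycle -/
theorem dX_t_d_s (hi : ∀ x, S'.i0 x = S.i1 x) (hdd : ∀ y, S'.dY (S.dY y) = 0) {u : Z0}
    (hu : S.dZ u = 0) : S'.dX (S.t1 (S.dY (S.s0 u))) = 0 :=
  S.dX_eq_zero_of S' hi (by rw [S.i_t_d_s hu, hdd])

/-- (E') the cochain produced in (E) is a cocycle -/
theorem dX_t_sub_d_s (hi : ∀ x, S'.i0 x = S.i1 x) (hdd : ∀ y, S'.dY (S.dY y) = 0) {c : Y1}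
    (hc0 : S'.dY c = 0) {x : Z0} (hc : S.p1 c = S.dZ x) :
    S'.dX (S.t1 (c - S.dY (S.s0 x))) = 0 :=
  S.dX_eq_zero_of S' hi (by rw [S.sub_d_s hc, map_sub, hc0, hdd, sub_self])

/-- (G) the connecting cochain of a coboundary is a coboundary -/
theorem t_d_s_d (hi : ∀ x, S'.i0 x = S.i1 x) (hp : ∀ y, S'.p0 y = S.p1 y)
    (hdd : ∀ y, S'.dY (S.dY y) = 0) (x : Z0) :
    S'.t1 (S'.dY (S'.s0 (S.dZ x))) = S'.dX (S.t1 (S'.s0 (S.dZ x) - S.dY (S.s0 x))) := by
  have h1 : S.i1 (S.t1 (S'.s0 (S.dZ x) - S.dY (S.s0 x))) = S'.s0 (S.dZ x) - S.dY (S.s0 x) := by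
    apply S.it1
    rw [map_sub, ← hp, S'.ps0, ← S.dp, S.ps0, sub_self]
  have h2 : S'.dY (S'.s0 (S.dZ x)) = S'.dY (S'.s0 (S.dZ x) - S.dY (S.s0 x)) := by
    rw [map_sub, hdd, sub_zero]
  calc S'.t1 (S'.dY (S'.s0 (S.dZ x)))
      = S'.t1 (S'.dY (S.i1 (S.t1 (S'.s0 (S.dZ x) - S.dY (S.s0 x))))) := by rw [h2, h1]
    _ = S'.dX (S.t1 (S'.s0 (S.dZ x) - S.dY (S.s0 x))) := by rw [← hi, S'.di, S'.ti1]

end SesSeg

/-- exactness of two maps between quotients, from facts on representatives -/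
theorem exact_mapQ_of {k : Type*} [CommRing k] {M N P : Type*} [AddCommGroup M] [Module k M]
    [AddCommGroup N] [Module k N] [AddCommGroup P] [Module k P]
    (BM : Submodule k M) (BN : Submodule k N) (BP : Submodule k P)
    (f : M →ₗ[k] N) (g : N →ₗ[k] P) (hf : BM ≤ BN.comap f) (hg : BN ≤ BP.comap g)
    (h1 : ∀ m, g (f m) ∈ BP) (h2 : ∀ n, g n ∈ BP → ∃ m, f m - n ∈ BN) :
    Function.Exact (Submodule.mapQ BM BN f hf) (Submodule.mapQ BN BP g hg) := by
  intro y
  induction y using Submodule.Quotient.induction_on with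
  | H n =>
    rw [Submodule.mapQ_apply, Submodule.Quotient.mk_eq_zero]
    constructor
    · intro hn
      obtain ⟨m, hm⟩ := h2 n hn
      refine ⟨Submodule.Quotient.mk m, ?_⟩
      rw [Submodule.mapQ_apply, Submodule.Quotient.eq]
      exact hm
    · rintro ⟨x, hx⟩
      induction x using Submodule.Quotient.induction_on with
      | H m =>
        rw [Submodule.mapQ_apply, Submodule.Quotient.eq] at hx
        have : g n = g (f m) - g (f m - n) := by rw [map_sub]; abel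
        rw [this]
        exact BP.sub_mem (h1 m) (hg hx)

end Fermat.Agent.S55
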