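import Fermat.Agent.S55.Top.LesSpec
import Fermat.Agent.S55.Top.SesSeg

/-!
# S55 top layer, leaf T-LES-C: functoriality of the cone cohomology in the coefficients
and its long exact sequence.
-/

set_option autoImplicit false

namespace Fermat.Agent.S55

variable {k : Type*} [CommRing k] {G : Type*} [Group G] {𝓛 : Levels G}
  {ι : Type*} {Γ : ι → Type*} [∀ v, Group (Γ v)] (D : LocSys 𝓛 ι Γ)

section Functor

variable {V V' : Type*} [AddCommGroup V] [Module k V] [AddCommGroup V'] [Module k V']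
  {ρ : Representation k G V} {ρ' : Representation k G V'} (φ : V →ₗ[k] V')

/-- post-composition on cone 1-cochains -/
def ccMap1 : CC1 G ι V →ₗ[k] CC1 G ι V' :=
  LinearMap.prodMap (postComp φ G) (postComp φ ι)
/-- post-composition on cone 2-cochains -/
def ccMap2 : CC2 G Γ V →ₗ[k] CC2 G Γ V' :=
  LinearMap.prodMap (postComp φ (G × G)) (LinearMap.pi fun v => (postComp φ (Γ v)).comp
    (LinearMap.proj v))
/-- post-composition on cone 3-cochains -/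
def ccMap3 : CC3 G Γ V →ₗ[k] CC3 G Γ V' :=
  LinearMap.prodMap (postComp φ (G × G × G))
    (LinearMap.pi fun v => (postComp φ (Γ v × Γ v)).comp (LinearMap.proj v))

@[simp] theorem ccMap1_apply (c : CC1 G ι V) :
    ccMap1 (G := G) (ι := ι) φ c = (φ ∘ c.1, φ ∘ c.2) := rfl
@[simp] theorem ccMap2_apply (c : CC2 G Γ V) :
    ccMap2 (G := G) (Γ := Γ) φ c = (φ ∘ c.1, fun v => φ ∘ c.2 v) := rfl
@[simp] theorem ccMap3_apply (c : CC3 G Γ V) :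
    ccMap3 (G := G) (Γ := Γ) φ c = (φ ∘ c.1, fun v => φ ∘ c.2 v) := rfl

/-- post-composition on cone 4-cochains -/
def lescMap4 : CC4 G Γ V →ₗ[k] CC4 G Γ V' :=
  LinearMap.prodMap (postComp φ (G × G × G × G))
    (LinearMap.pi fun v => (postComp φ (Γ v × Γ v × Γ v)).comp (LinearMap.proj v))

theorem lescMap4_apply (c : CC4 G Γ V) :
    lescMap4 (G := G) (Γ := Γ) φ c = (φ ∘ c.1, fun v => φ ∘ c.2 v) := rfl

variable (hφ : IsEquivariant ρ ρ' φ)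

include hφ in
theorem lesc_equiv_loc (v : ι) : IsEquivariant (D.rep ρ v) (D.rep ρ' v) φ :=
  fun g x => hφ (D.r v g) x

include hφ in
theorem dc0_ccMap (m : V) : dc0 (ι := ι) ρ' (φ m) = ccMap1 φ (dc0 (ι := ι) ρ m) := by
  rw [dc0_apply, dc0_apply, ccMap1_apply]
  exact Prod.ext (dd0_postComp φ hφ m) rfl

include hφ in
theorem dc1_ccMap (c : CC1 G ι V) : dc1 D ρ' (ccMap1 φ c) = ccMap2 φ (dc1 D ρ c) := by
  obtain ⟨a, b⟩ := c
  rw [ccMap1_apply, dc1_apply, dc1_apply, ccMap2_apply]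
  refine Prod.ext (dd1_postComp φ hφ a) ?_
  funext v γ
  have h0 := congrFun (dd0_postComp φ (lesc_equiv_loc D φ hφ v) (b v)) γ
  simp only [Pi.sub_apply, Function.comp_apply, res1_apply, map_sub]
  rw [h0]
  rfl

include hφ in
theorem dc2_ccMap (c : CC2 G Γ V) : dc2 D ρ' (ccMap2 φ c) = ccMap3 φ (dc2 D ρ c) := by
  obtain ⟨a, b⟩ := c
  rw [ccMap2_apply, dc2_apply, dc2_apply, ccMap3_apply]
  refine Prod.ext (dd2_postComp φ hφ a) ?_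
  funext v γ
  have h0 := congrFun (dd1_postComp φ (lesc_equiv_loc D φ hφ v) (b v)) γ
  obtain ⟨γ₁, γ₂⟩ := γ
  simp only [Pi.sub_apply, Function.comp_apply, res2_apply, map_sub]
  exact congrArg (fun t => φ (a (D.r v γ₁, D.r v γ₂)) - t) h0

include hφ in
theorem lesc_dc3_map (c : CC3 G Γ V) : dc3 D ρ' (ccMap3 φ c) = lescMap4 φ (dc3 D ρ c) := by
  obtain ⟨a, b⟩ := c
  rw [ccMap3_apply, dc3_apply, dc3_apply, lescMap4_apply]
  refine Prod.ext (dd3_postComp φ hφ a) ?_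
  funext v γ
  have h0 := congrFun (dd2_postComp φ (lesc_equiv_loc D φ hφ v) (b v)) γ
  obtain ⟨γ₁, γ₂, γ₃⟩ := γ
  simp only [Pi.sub_apply, Function.comp_apply, res3_apply, map_sub]
  exact congrArg (fun t => φ (a (D.r v γ₁, D.r v γ₂, D.r v γ₃)) - t) h0

theorem lesc_map1_mem {c : CC1 G ι V} (hc : c ∈ smCC1 k 𝓛 ι V) :
    ccMap1 (G := G) (ι := ι) φ c ∈ smCC1 k 𝓛 ι V' :=
  (mem_smCC1 _).2 (IsLC₁.comp ((mem_smCC1 _).1 hc) φ)

theorem lesc_map2_mem {c : CC2 G Γ V} (hc : c ∈ smCC2 D k V) :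
    ccMap2 (G := G) (Γ := Γ) φ c ∈ smCC2 D k V' := by
  rw [mem_smCC2] at hc ⊢
  exact ⟨hc.1.comp φ, fun v => (hc.2 v).comp φ⟩

theorem lesc_map3_mem {c : CC3 G Γ V} (hc : c ∈ smCC3 D k V) :
    ccMap3 (G := G) (Γ := Γ) φ c ∈ smCC3 D k V' := by
  rw [mem_smCC3] at hc ⊢
  exact ⟨hc.1.comp φ, fun v => (hc.2 v).comp φ⟩

/-- `Z_c¹(V) → Z_c¹(V')` -/
def smZc1map : ↥(smZc1 D ρ) →ₗ[k] ↥(smZc1 D ρ') :=
  ((ccMap1 φ).comp (smZc1 D ρ).subtype).codRestrict (smZc1 D ρ')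
    (by
      have _h := hφ
      intro c
      refine ⟨?_, lesc_map1_mem φ c.2.2⟩
      have hc : dc1 D ρ (c : CC1 G ι V) = 0 := c.2.1
      show dc1 D ρ' (ccMap1 φ c) = 0
      rw [dc1_ccMap D φ hφ, hc, map_zero])
/-- `Z_c²(V) → Z_c²(V')` -/
def smZc2map : ↥(smZc2 D ρ) →ₗ[k] ↥(smZc2 D ρ') :=
  ((ccMap2 φ).comp (smZc2 D ρ).subtype).codRestrict (smZc2 D ρ')
    (by
      have _h := hφ
      intro c
      refine ⟨?_, lesc_map2_mem D φ c.2.2⟩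
      have hc : dc2 D ρ (c : CC2 G Γ V) = 0 := c.2.1
      show dc2 D ρ' (ccMap2 φ c) = 0
      rw [dc2_ccMap D φ hφ, hc, map_zero])
/-- `Z_c³(V) → Z_c³(V')` -/
def smZc3map : ↥(smZc3 D ρ) →ₗ[k] ↥(smZc3 D ρ') :=
  ((ccMap3 φ).comp (smZc3 D ρ).subtype).codRestrict (smZc3 D ρ')
    (by
      have _h := hφ
      intro c
      refine ⟨?_, lesc_map3_mem D φ c.2.2⟩
      have hc : dc3 D ρ (c : CC3 G Γ V) = 0 := c.2.1
      show dc3 D ρ' (ccMap3 φ c) = 0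
      rw [lesc_dc3_map D φ hφ, hc, map_zero])

/-- `H_c¹(V) → H_c¹(V')` -/
def smHc1map : smHc1 D ρ →ₗ[k] smHc1 D ρ' :=
  Submodule.mapQ _ _ (smZc1map D φ hφ) (by
    rintro c ⟨m, hm⟩
    exact ⟨φ m, by
      show dc0 (ι := ι) ρ' (φ m) = ccMap1 φ (c : CC1 G ι V)
      rw [dc0_ccMap φ hφ, hm]; rfl⟩)
/-- `H_c²(V) → H_c²(V')` -/
def smHc2map : smHc2 D ρ →ₗ[k] smHc2 D ρ' :=
  Submodule.mapQ _ _ (smZc2map D φ hφ) (by
    rintro c ⟨x, hx, hxc⟩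
    exact ⟨ccMap1 φ x, lesc_map1_mem φ hx, by
      show dc1 D ρ' (ccMap1 φ x) = ccMap2 φ (c : CC2 G Γ V)
      rw [dc1_ccMap D φ hφ, hxc]; rfl⟩)
/-- `H_c³(V) → H_c³(V')` -/
def smHc3map : smHc3 D ρ →ₗ[k] smHc3 D ρ' :=
  Submodule.mapQ _ _ (smZc3map D φ hφ) (by
    rintro c ⟨x, hx, hxc⟩
    exact ⟨ccMap2 φ x, lesc_map2_mem D φ hx, by
      show dc2 D ρ' (ccMap2 φ x) = ccMap3 φ (c : CC3 G Γ V)
      rw [dc2_ccMap D φ hφ, hxc]; rfl⟩)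

@[simp] theorem smHc1map_mk (c : ↥(smZc1 D ρ)) :
    smHc1map D φ hφ (smHc1π D ρ c) = smHc1π D ρ' (smZc1map D φ hφ c) := rfl
@[simp] theorem smHc2map_mk (c : ↥(smZc2 D ρ)) :
    smHc2map D φ hφ (smHc2π D ρ c) = smHc2π D ρ' (smZc2map D φ hφ c) := rfl
@[simp] theorem smHc3map_mk (c : ↥(smZc3 D ρ)) :
    smHc3map D φ hφ (smHc3π D ρ c) = smHc3π D ρ' (smZc3map D φ hφ c) := rfl

end Functor

section LesC

variable {V₁ V V₂ : Type*} [AddCommGroup V₁] [Module k V₁] [AddCommGroup V] [Module k V]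
  [AddCommGroup V₂] [Module k V₂]
  {ρ₁ : Representation k G V₁} {ρ : Representation k G V} {ρ₂ : Representation k G V₂}
  (E : ShortExactRep ρ₁ ρ ρ₂) (h₁ : IsSmoothRep 𝓛 ρ₁) (h : IsSmoothRep 𝓛 ρ)

/-! ### the splitting identities on cone cochains -/

theorem lesc_split1 (y : CC1 G ι V) :
    ccMap1 (G := G) (ι := ι) E.i (ccMap1 E.t y) + ccMap1 E.s (ccMap1 E.p y) = y := by
  obtain ⟨a, b⟩ := y
  exact Prod.ext (funext fun g => E.split _) (funext fun v => E.split _)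

theorem lesc_split2 (y : CC2 G Γ V) :
    ccMap2 (G := G) (Γ := Γ) E.i (ccMap2 E.t y) + ccMap2 E.s (ccMap2 E.p y) = y := by
  obtain ⟨a, b⟩ := y
  exact Prod.ext (funext fun g => E.split _) (funext fun v => funext fun γ => E.split _)

theorem lesc_split3 (y : CC3 G Γ V) :
    ccMap3 (G := G) (Γ := Γ) E.i (ccMap3 E.t y) + ccMap3 E.s (ccMap3 E.p y) = y := by
  obtain ⟨a, b⟩ := y
  exact Prod.ext (funext fun g => E.split _) (funext fun v => funext fun γ => E.split _)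

theorem lesc_split4 (y : CC4 G Γ V) :
    lescMap4 (G := G) (Γ := Γ) E.i (lescMap4 E.t y) + lescMap4 E.s (lescMap4 E.p y) = y := by
  obtain ⟨a, b⟩ := y
  exact Prod.ext (funext fun g => E.split _) (funext fun v => funext fun γ => E.split _)

theorem lesc_ps1 (z : CC1 G ι V₂) : ccMap1 (G := G) (ι := ι) E.p (ccMap1 E.s z) = z := by
  obtain ⟨a, b⟩ := z
  exact Prod.ext (funext fun g => E.p_s _) (funext fun v => E.p_s _)

theorem lesc_ps2 (z : CC2 G Γ V₂) : ccMap2 (G := G) (Γ := Γ) E.p (ccMap2 E.s z) = z := by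
  obtain ⟨a, b⟩ := z
  exact Prod.ext (funext fun g => E.p_s _) (funext fun v => funext fun γ => E.p_s _)

theorem lesc_ps3 (z : CC3 G Γ V₂) : ccMap3 (G := G) (Γ := Γ) E.p (ccMap3 E.s z) = z := by
  obtain ⟨a, b⟩ := z
  exact Prod.ext (funext fun g => E.p_s _) (funext fun v => funext fun γ => E.p_s _)

theorem lesc_pi1 (x : CC1 G ι V₁) : ccMap1 (G := G) (ι := ι) E.p (ccMap1 E.i x) = 0 := by
  obtain ⟨a, b⟩ := x
  exact Prod.ext (funext fun g => E.p_i _) (funext fun v => E.p_i _)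

theorem lesc_pi2 (x : CC2 G Γ V₁) : ccMap2 (G := G) (Γ := Γ) E.p (ccMap2 E.i x) = 0 := by
  obtain ⟨a, b⟩ := x
  exact Prod.ext (funext fun g => E.p_i _) (funext fun v => funext fun γ => E.p_i _)

theorem lesc_pi3 (x : CC3 G Γ V₁) : ccMap3 (G := G) (Γ := Γ) E.p (ccMap3 E.i x) = 0 := by
  obtain ⟨a, b⟩ := x
  exact Prod.ext (funext fun g => E.p_i _) (funext fun v => funext fun γ => E.p_i _)

theorem lesc_pi4 (x : CC4 G Γ V₁) : lescMap4 (G := G) (Γ := Γ) E.p (lescMap4 E.i x) = 0 := by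
  obtain ⟨a, b⟩ := x
  exact Prod.ext (funext fun g => E.p_i _) (funext fun v => funext fun γ => E.p_i _)

theorem lesc_ti1 (x : CC1 G ι V₁) : ccMap1 (G := G) (ι := ι) E.t (ccMap1 E.i x) = x := by
  obtain ⟨a, b⟩ := x
  exact Prod.ext (funext fun g => E.t_i _) (funext fun v => E.t_i _)

theorem lesc_ti2 (x : CC2 G Γ V₁) : ccMap2 (G := G) (Γ := Γ) E.t (ccMap2 E.i x) = x := by
  obtain ⟨a, b⟩ := x
  exact Prod.ext (funext fun g => E.t_i _) (funext fun v => funext fun γ => E.t_i _)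

theorem lesc_ti3 (x : CC3 G Γ V₁) : ccMap3 (G := G) (Γ := Γ) E.t (ccMap3 E.i x) = x := by
  obtain ⟨a, b⟩ := x
  exact Prod.ext (funext fun g => E.t_i _) (funext fun v => funext fun γ => E.t_i _)

theorem lesc_ti4 (x : CC4 G Γ V₁) : lescMap4 (G := G) (Γ := Γ) E.t (lescMap4 E.i x) = x := by
  obtain ⟨a, b⟩ := x
  exact Prod.ext (funext fun g => E.t_i _) (funext fun v => funext fun γ => E.t_i _)

/-! ### the four segments of the cone complex -/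

/-- degrees `(0,1)` -/
def lescSeg01 : SesSeg k V₁ V V₂ (CC1 G ι V₁) (CC1 G ι V) (CC1 G ι V₂) where
  dX := dc0 (ι := ι) ρ₁
  dY := dc0 (ι := ι) ρ
  dZ := dc0 (ι := ι) ρ₂
  i0 := E.i
  p0 := E.p
  s0 := E.s
  t0 := E.t
  i1 := ccMap1 E.i
  p1 := ccMap1 E.p
  s1 := ccMap1 E.s
  t1 := ccMap1 E.t
  di x := dc0_ccMap E.i E.i_equiv x
  dp y := dc0_ccMap E.p E.p_equiv y
  split0 := E.split
  split1 := lesc_split1 E
  ps0 := E.p_s
  pi0 := E.p_i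
  pi1 := lesc_pi1 E
  ti1 := lesc_ti1 E

/-- degrees `(1,2)` -/
def lescSeg12 : SesSeg k (CC1 G ι V₁) (CC1 G ι V) (CC1 G ι V₂) (CC2 G Γ V₁) (CC2 G Γ V)
    (CC2 G Γ V₂) where
  dX := dc1 D ρ₁
  dY := dc1 D ρ
  dZ := dc1 D ρ₂
  i0 := ccMap1 E.i
  p0 := ccMap1 E.p
  s0 := ccMap1 E.s
  t0 := ccMap1 E.t
  i1 := ccMap2 E.i
  p1 := ccMap2 E.p
  s1 := ccMap2 E.s
  t1 := ccMap2 E.t
  di x := dc1_ccMap D E.i E.i_equiv x
  dp y := dc1_ccMap D E.p E.p_equiv y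
  split0 := lesc_split1 E
  split1 := lesc_split2 E
  ps0 := lesc_ps1 E
  pi0 := lesc_pi1 E
  pi1 := lesc_pi2 E
  ti1 := lesc_ti2 E

/-- degrees `(2,3)` -/
def lescSeg23 : SesSeg k (CC2 G Γ V₁) (CC2 G Γ V) (CC2 G Γ V₂) (CC3 G Γ V₁) (CC3 G Γ V)
    (CC3 G Γ V₂) where
  dX := dc2 D ρ₁
  dY := dc2 D ρ
  dZ := dc2 D ρ₂
  i0 := ccMap2 E.i
  p0 := ccMap2 E.p
  s0 := ccMap2 E.s
  t0 := ccMap2 E.t
  i1 := ccMap3 E.i
  p1 := ccMap3 E.p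
  s1 := ccMap3 E.s
  t1 := ccMap3 E.t
  di x := dc2_ccMap D E.i E.i_equiv x
  dp y := dc2_ccMap D E.p E.p_equiv y
  split0 := lesc_split2 E
  split1 := lesc_split3 E
  ps0 := lesc_ps2 E
  pi0 := lesc_pi2 E
  pi1 := lesc_pi3 E
  ti1 := lesc_ti3 E

/-- degrees `(3,4)` -/
def lescSeg34 : SesSeg k (CC3 G Γ V₁) (CC3 G Γ V) (CC3 G Γ V₂) (CC4 G Γ V₁) (CC4 G Γ V)
    (CC4 G Γ V₂) where
  dX := dc3 D ρ₁
  dY := dc3 D ρ
  dZ := dc3 D ρ₂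
  i0 := ccMap3 E.i
  p0 := ccMap3 E.p
  s0 := ccMap3 E.s
  t0 := ccMap3 E.t
  i1 := lescMap4 E.i
  p1 := lescMap4 E.p
  s1 := lescMap4 E.s
  t1 := lescMap4 E.t
  di x := lesc_dc3_map D E.i E.i_equiv x
  dp y := lesc_dc3_map D E.p E.p_equiv y
  split0 := lesc_split3 E
  split1 := lesc_split4 E
  ps0 := lesc_ps3 E
  pi0 := lesc_pi3 E
  pi1 := lesc_pi4 E
  ti1 := lesc_ti4 E

include h in
theorem lesc_dc0_mem (m : V) : dc0 (ι := ι) ρ m ∈ smCC1 k 𝓛 ι V :=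
  (mem_smCC1 _).2 (dd0_isLC h m)

/-- cochain-level connecting map `Z_c¹(V₂) → Z_c²(V₁)`, `u ↦ t ∘ d_c (s ∘ u)` -/
def conncZ1 : ↥(smZc1 D ρ₂) →ₗ[k] ↥(smZc2 D ρ₁) :=
  ((ccMap2 E.t).comp ((dc1 D ρ).comp ((ccMap1 E.s).comp (smZc1 D ρ₂).subtype))).codRestrict
    (smZc2 D ρ₁) (by
      have _h₁ := h₁
      have _h := h
      intro u
      have hu : dc1 D ρ₂ (u : CC1 G ι V₂) = 0 := u.2.1
      exact ⟨(lescSeg12 D E).dX_t_d_s (lescSeg23 D E) (fun _ => rfl) (dc2_dc1 D) hu,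
        lesc_map2_mem D E.t (dc1_mem_smCC2 D h (lesc_map1_mem E.s u.2.2))⟩)

/-- cochain-level connecting map `Z_c²(V₂) → Z_c³(V₁)`, `u ↦ t ∘ d_c (s ∘ u)` -/
def conncZ2 : ↥(smZc2 D ρ₂) →ₗ[k] ↥(smZc3 D ρ₁) :=
  ((ccMap3 E.t).comp ((dc2 D ρ).comp ((ccMap2 E.s).comp (smZc2 D ρ₂).subtype))).codRestrict
    (smZc3 D ρ₁) (by
      have _h₁ := h₁
      have _h := h
      intro u
      have hu : dc2 D ρ₂ (u : CC2 G Γ V₂) = 0 := u.2.1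
      exact ⟨(lescSeg23 D E).dX_t_d_s (lescSeg34 D E) (fun _ => rfl) (dc3_dc2 D) hu,
        lesc_map3_mem D E.t (dc2_mem_smCC3 D h (lesc_map2_mem D E.s u.2.2))⟩)

theorem lesc_conncZ1_coe (u : ↥(smZc1 D ρ₂)) :
    (conncZ1 D E h₁ h u : CC2 G Γ V₁) = ccMap2 E.t (dc1 D ρ (ccMap1 E.s (u : CC1 G ι V₂))) := rfl

theorem lesc_conncZ2_coe (u : ↥(smZc2 D ρ₂)) :
    (conncZ2 D E h₁ h u : CC3 G Γ V₁) = ccMap3 E.t (dc2 D ρ (ccMap2 E.s (u : CC2 G Γ V₂))) := rfl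

/-- `δ_c¹ : H_c¹(V₂) → H_c²(V₁)` -/
def connc1 : smHc1 D ρ₂ →ₗ[k] smHc2 D ρ₁ :=
  Submodule.mapQ _ _ (conncZ1 D E h₁ h) (by
    rintro u ⟨m, hm⟩
    have hm' : dc0 (ι := ι) ρ₂ m = (u : CC1 G ι V₂) := hm
    refine ⟨ccMap1 E.t (ccMap1 E.s (dc0 (ι := ι) ρ₂ m) - dc0 (ι := ι) ρ (E.s m)), ?_, ?_⟩
    · refine lesc_map1_mem E.t (Submodule.sub_mem _ ?_ (lesc_dc0_mem h _))
      rw [hm']
      exact lesc_map1_mem E.s u.2.2
    · have := (lescSeg01 (G := G) (ι := ι) E).t_d_s_d (lescSeg12 D E) (fun _ => rfl)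
        (fun _ => rfl) (dc1_dc0 D) m
      show dc1 D ρ₁ _ = ccMap2 E.t (dc1 D ρ (ccMap1 E.s (u : CC1 G ι V₂)))
      rw [← hm']
      exact this.symm)

/-- `δ_c² : H_c²(V₂) → H_c³(V₁)` -/
def connc2 : smHc2 D ρ₂ →ₗ[k] smHc3 D ρ₁ :=
  Submodule.mapQ _ _ (conncZ2 D E h₁ h) (by
    rintro u ⟨x, hx, hxu⟩
    have hxu' : dc1 D ρ₂ x = (u : CC2 G Γ V₂) := hxu
    refine ⟨ccMap2 E.t (ccMap2 E.s (dc1 D ρ₂ x) - dc1 D ρ (ccMap1 E.s x)), ?_, ?_⟩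
    · refine lesc_map2_mem D E.t (Submodule.sub_mem _ ?_
        (dc1_mem_smCC2 D h (lesc_map1_mem E.s hx)))
      rw [hxu']
      exact lesc_map2_mem D E.s u.2.2
    · have := (lescSeg12 D E).t_d_s_d (lescSeg23 D E) (fun _ => rfl)
        (fun _ => rfl) (dc2_dc1 D) x
      show dc2 D ρ₁ _ = ccMap3 E.t (dc2 D ρ (ccMap2 E.s (u : CC2 G Γ V₂)))
      rw [← hxu']
      exact this.symm)

/-- (E1, i = 1) exactness at `H_c¹(V₂)` -/
theorem exact_smHc1map_connc1 :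
    Function.Exact (smHc1map D E.p E.p_equiv) (connc1 D E h₁ h) := by
  unfold smHc1map connc1
  refine exact_mapQ_of _ _ _ _ _ _ _ ?_ ?_
  · intro c
    have hc : dc1 D ρ (c : CC1 G ι V) = 0 := c.2.1
    exact ⟨-ccMap1 E.t (c : CC1 G ι V), Submodule.neg_mem _ (lesc_map1_mem E.t c.2.2),
      ((lescSeg12 D E).t_d_s_p hc).symm⟩
  · rintro u ⟨y, hy, hyu⟩
    have hu : dc1 D ρ₂ (u : CC1 G ι V₂) = 0 := u.2.1
    have hyu' : ccMap2 E.t (dc1 D ρ (ccMap1 E.s (u : CC1 G ι V₂))) = dc1 D ρ₁ y := hyu.symm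
    obtain ⟨hc1, hc2⟩ := (lescSeg12 D E).lift_cocycle hu hyu'
    refine ⟨⟨ccMap1 E.s (u : CC1 G ι V₂) - ccMap1 E.i y, hc1,
      Submodule.sub_mem _ (lesc_map1_mem E.s u.2.2) (lesc_map1_mem E.i hy)⟩, ?_⟩
    have h0 : smZc1map D E.p E.p_equiv ⟨ccMap1 E.s (u : CC1 G ι V₂) - ccMap1 E.i y, hc1,
        Submodule.sub_mem _ (lesc_map1_mem E.s u.2.2) (lesc_map1_mem E.i hy)⟩ - u = 0 :=
      sub_eq_zero.2 (Subtype.ext hc2)
    rw [h0]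
    exact zero_mem _

/-- exactness at `H_c²(V₁)` (in particular `i_* ∘ δ_c¹ = 0`) -/
theorem exact_connc1_smHc2map :
    Function.Exact (connc1 D E h₁ h) (smHc2map D E.i E.i_equiv) := by
  unfold smHc2map connc1
  refine exact_mapQ_of _ _ _ _ _ _ _ ?_ ?_
  · intro u
    have hu : dc1 D ρ₂ (u : CC1 G ι V₂) = 0 := u.2.1
    exact ⟨ccMap1 E.s (u : CC1 G ι V₂), lesc_map1_mem E.s u.2.2,
      ((lescSeg12 D E).i_t_d_s hu).symm⟩
  · rintro w ⟨x, hx, hxw⟩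
    have hxw' : ccMap2 E.i (w : CC2 G Γ V₁) = dc1 D ρ x := hxw.symm
    obtain ⟨hu1, hu2⟩ := (lescSeg12 D E).conn_of_bdry hxw'
    refine ⟨⟨ccMap1 E.p x, hu1, lesc_map1_mem E.p hx⟩, ?_⟩
    exact ⟨-ccMap1 E.t x, Submodule.neg_mem _ (lesc_map1_mem E.t hx), hu2.symm⟩

include h in
/-- (E2, i = 2) exactness at `H_c²(V)` -/
theorem exact_smHc2map_smHc2map :
    Function.Exact (smHc2map D E.i E.i_equiv) (smHc2map D E.p E.p_equiv) := by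
  unfold smHc2map
  refine exact_mapQ_of _ _ _ _ _ _ _ ?_ ?_
  · intro w
    have h0 : smZc2map D E.p E.p_equiv (smZc2map D E.i E.i_equiv w) = 0 :=
      Subtype.ext (lesc_pi2 E (w : CC2 G Γ V₁))
    rw [h0]
    exact zero_mem _
  · rintro c ⟨x, hx, hxc⟩
    have hc0 : dc2 D ρ (c : CC2 G Γ V) = 0 := c.2.1
    have hxc' : ccMap2 E.p (c : CC2 G Γ V) = dc1 D ρ₂ x := hxc.symm
    have hsm : (c : CC2 G Γ V) - dc1 D ρ (ccMap1 E.s x) ∈ smCC2 D k V :=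
      Submodule.sub_mem _ c.2.2 (dc1_mem_smCC2 D h (lesc_map1_mem E.s hx))
    refine ⟨⟨ccMap2 E.t ((c : CC2 G Γ V) - dc1 D ρ (ccMap1 E.s x)),
      (lescSeg12 D E).dX_t_sub_d_s (lescSeg23 D E) (fun _ => rfl) (dc2_dc1 D) hc0 hxc',
      lesc_map2_mem D E.t hsm⟩, ?_⟩
    refine ⟨-ccMap1 E.s x, Submodule.neg_mem _ (lesc_map1_mem E.s hx), ?_⟩
    have h1 : ccMap2 E.i (ccMap2 E.t ((c : CC2 G Γ V) - dc1 D ρ (ccMap1 E.s x))) =
        (c : CC2 G Γ V) - dc1 D ρ (ccMap1 E.s x) := (lescSeg12 D E).sub_d_s hxc'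
    show dc1 D ρ (-ccMap1 E.s x) =
      ccMap2 E.i (ccMap2 E.t ((c : CC2 G Γ V) - dc1 D ρ (ccMap1 E.s x))) - (c : CC2 G Γ V)
    rw [map_neg]
    exact (sub_eq_iff_eq_add.2 (by rw [h1]; abel)).symm

/-- (E1, i = 2) exactness at `H_c²(V₂)` -/
theorem exact_smHc2map_connc2 :
    Function.Exact (smHc2map D E.p E.p_equiv) (connc2 D E h₁ h) := by
  unfold smHc2map connc2
  refine exact_mapQ_of _ _ _ _ _ _ _ ?_ ?_
  · intro c
    have hc : dc2 D ρ (c : CC2 G Γ V) = 0 := c.2.1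
    exact ⟨-ccMap2 E.t (c : CC2 G Γ V), Submodule.neg_mem _ (lesc_map2_mem D E.t c.2.2),
      ((lescSeg23 D E).t_d_s_p hc).symm⟩
  · rintro u ⟨y, hy, hyu⟩
    have hu : dc2 D ρ₂ (u : CC2 G Γ V₂) = 0 := u.2.1
    have hyu' : ccMap3 E.t (dc2 D ρ (ccMap2 E.s (u : CC2 G Γ V₂))) = dc2 D ρ₁ y := hyu.symm
    obtain ⟨hc1, hc2⟩ := (lescSeg23 D E).lift_cocycle hu hyu'
    refine ⟨⟨ccMap2 E.s (u : CC2 G Γ V₂) - ccMap2 E.i y, hc1,
      Submodule.sub_mem _ (lesc_map2_mem D E.s u.2.2) (lesc_map2_mem D E.i hy)⟩, ?_⟩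
    have h0 : smZc2map D E.p E.p_equiv ⟨ccMap2 E.s (u : CC2 G Γ V₂) - ccMap2 E.i y, hc1,
        Submodule.sub_mem _ (lesc_map2_mem D E.s u.2.2) (lesc_map2_mem D E.i hy)⟩ - u = 0 :=
      sub_eq_zero.2 (Subtype.ext hc2)
    rw [h0]
    exact zero_mem _

/-- exactness at `H_c³(V₁)` (in particular `i_* ∘ δ_c² = 0`) -/
theorem exact_connc2_smHc3map :
    Function.Exact (connc2 D E h₁ h) (smHc3map D E.i E.i_equiv) := by
  unfold smHc3map connc2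
  refine exact_mapQ_of _ _ _ _ _ _ _ ?_ ?_
  · intro u
    have hu : dc2 D ρ₂ (u : CC2 G Γ V₂) = 0 := u.2.1
    exact ⟨ccMap2 E.s (u : CC2 G Γ V₂), lesc_map2_mem D E.s u.2.2,
      ((lescSeg23 D E).i_t_d_s hu).symm⟩
  · rintro w ⟨x, hx, hxw⟩
    have hxw' : ccMap3 E.i (w : CC3 G Γ V₁) = dc2 D ρ x := hxw.symm
    obtain ⟨hu1, hu2⟩ := (lescSeg23 D E).conn_of_bdry hxw'
    refine ⟨⟨ccMap2 E.p x, hu1, lesc_map2_mem D E.p hx⟩, ?_⟩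
    exact ⟨-ccMap2 E.t x, Submodule.neg_mem _ (lesc_map2_mem D E.t hx), hu2.symm⟩

include h in
/-- (E2, i = 3) exactness at `H_c³(V)` -/
theorem exact_smHc3map_smHc3map :
    Function.Exact (smHc3map D E.i E.i_equiv) (smHc3map D E.p E.p_equiv) := by
  unfold smHc3map
  refine exact_mapQ_of _ _ _ _ _ _ _ ?_ ?_
  · intro w
    have h0 : smZc3map D E.p E.p_equiv (smZc3map D E.i E.i_equiv w) = 0 :=
      Subtype.ext (lesc_pi3 E (w : CC3 G Γ V₁))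
    rw [h0]
    exact zero_mem _
  · rintro c ⟨x, hx, hxc⟩
    have hc0 : dc3 D ρ (c : CC3 G Γ V) = 0 := c.2.1
    have hxc' : ccMap3 E.p (c : CC3 G Γ V) = dc2 D ρ₂ x := hxc.symm
    have hsm : (c : CC3 G Γ V) - dc2 D ρ (ccMap2 E.s x) ∈ smCC3 D k V :=
      Submodule.sub_mem _ c.2.2 (dc2_mem_smCC3 D h (lesc_map2_mem D E.s hx))
    refine ⟨⟨ccMap3 E.t ((c : CC3 G Γ V) - dc2 D ρ (ccMap2 E.s x)),
      (lescSeg23 D E).dX_t_sub_d_s (lescSeg34 D E) (fun _ => rfl) (dc3_dc2 D) hc0 hxc',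
      lesc_map3_mem D E.t hsm⟩, ?_⟩
    refine ⟨-ccMap2 E.s x, Submodule.neg_mem _ (lesc_map2_mem D E.s hx), ?_⟩
    have h1 : ccMap3 E.i (ccMap3 E.t ((c : CC3 G Γ V) - dc2 D ρ (ccMap2 E.s x))) =
        (c : CC3 G Γ V) - dc2 D ρ (ccMap2 E.s x) := (lescSeg23 D E).sub_d_s hxc'
    show dc2 D ρ (-ccMap2 E.s x) =
      ccMap3 E.i (ccMap3 E.t ((c : CC3 G Γ V) - dc2 D ρ (ccMap2 E.s x))) - (c : CC3 G Γ V)
    rw [map_neg]
    exact (sub_eq_iff_eq_add.2 (by rw [h1]; abel)).symm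

include h in
/-- exactness at `H_c¹(V)` -/
theorem exact_smHc1map_smHc1map :
    Function.Exact (smHc1map D E.i E.i_equiv) (smHc1map D E.p E.p_equiv) := by
  unfold smHc1map
  refine exact_mapQ_of _ _ _ _ _ _ _ ?_ ?_
  · intro w
    have h0 : smZc1map D E.p E.p_equiv (smZc1map D E.i E.i_equiv w) = 0 :=
      Subtype.ext (lesc_pi1 E (w : CC1 G ι V₁))
    rw [h0]
    exact zero_mem _
  · rintro c ⟨m, hmc⟩
    have hc0 : dc1 D ρ (c : CC1 G ι V) = 0 := c.2.1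
    have hmc' : ccMap1 E.p (c : CC1 G ι V) = dc0 (ι := ι) ρ₂ m := hmc.symm
    have hsm : (c : CC1 G ι V) - dc0 (ι := ι) ρ (E.s m) ∈ smCC1 k 𝓛 ι V :=
      Submodule.sub_mem _ c.2.2 (lesc_dc0_mem h _)
    refine ⟨⟨ccMap1 E.t ((c : CC1 G ι V) - dc0 (ι := ι) ρ (E.s m)),
      (lescSeg01 (G := G) (ι := ι) E).dX_t_sub_d_s (lescSeg12 D E) (fun _ => rfl)
        (dc1_dc0 D) hc0 hmc',
      lesc_map1_mem E.t hsm⟩, ?_⟩
    refine ⟨-E.s m, ?_⟩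
    have h1 : ccMap1 E.i (ccMap1 E.t ((c : CC1 G ι V) - dc0 (ι := ι) ρ (E.s m))) =
        (c : CC1 G ι V) - dc0 (ι := ι) ρ (E.s m) :=
      (lescSeg01 (G := G) (ι := ι) E).sub_d_s hmc'
    show dc0 (ι := ι) ρ (-E.s m) =
      ccMap1 E.i (ccMap1 E.t ((c : CC1 G ι V) - dc0 (ι := ι) ρ (E.s m))) - (c : CC1 G ι V)
    rw [map_neg]
    exact (sub_eq_iff_eq_add.2 (by rw [h1]; abel)).symm

end LesC

end Fermat.Agent.S55
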