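import Fermat.Agent.S55.Top.SmoothSpec

/-!
# S55 top layer, leaf T-LES-G: the long exact sequence of smooth group cohomology.

* `ShortExactRep`: a short exact sequence `0 → V₁ → V → V₂ → 0` of representations together
  with a `k`-LINEAR (not equivariant) splitting `s : V₂ → V`, `t : V → V₁`
  (exists over a field); it makes the connecting homomorphisms explicit LINEAR maps on cocycles:
  `δ f = t ∘ d (s ∘ f)`.
* the long exact sequence of `smH0 … smH3`.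

(first part of `LesSpec.lean`; `p_s` is a FIELD of the structure: it does not follow from the
other fields.)
-/

set_option autoImplicit false

namespace Fermat.Agent.S55

variable {k : Type*} [CommRing k] {G : Type*} [Group G] {𝓛 : Levels G}
  {V₁ V V₂ : Type*} [AddCommGroup V₁] [Module k V₁] [AddCommGroup V] [Module k V]
  [AddCommGroup V₂] [Module k V₂]

/-- a short exact sequence of representations with a chosen `k`-linear splitting -/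
structure ShortExactRep (ρ₁ : Representation k G V₁) (ρ : Representation k G V)
    (ρ₂ : Representation k G V₂) where
  /-- the injection -/
  i : V₁ →ₗ[k] V
  /-- the surjection -/
  p : V →ₗ[k] V₂
  /-- linear section of `p` (not equivariant) -/
  s : V₂ →ₗ[k] V
  /-- linear retraction of `i` (not equivariant) -/
  t : V →ₗ[k] V₁
  i_equiv : IsEquivariant ρ₁ ρ i
  p_equiv : IsEquivariant ρ ρ₂ p
  p_i : ∀ v, p (i v) = 0
  split : ∀ x, i (t x) + s (p x) = x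
  p_s : ∀ w, p (s w) = w
  i_inj : Function.Injective i

namespace ShortExactRep

variable {ρ₁ : Representation k G V₁} {ρ : Representation k G V} {ρ₂ : Representation k G V₂}
  (E : ShortExactRep ρ₁ ρ ρ₂)

theorem t_i (v : V₁) : E.t (E.i v) = v := by
  apply E.i_inj
  have := E.split (E.i v)
  rw [E.p_i, map_zero, add_zero] at this
  exact this

theorem p_surj : Function.Surjective E.p := fun w => ⟨E.s w, E.p_s w⟩

theorem i_t_of_p_eq_zero {x : V} (hx : E.p x = 0) : E.i (E.t x) = x := by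
  have := E.split x
  rwa [hx, map_zero, add_zero] at this

theorem exact : Function.Exact E.i E.p := by
  intro x
  exact ⟨fun hx => ⟨E.t x, E.i_t_of_p_eq_zero hx⟩, fun ⟨v, hv⟩ => hv ▸ E.p_i v⟩

/-! ### the same facts for functions -/

theorem lesg_postComp_i_injective (X : Type*) : Function.Injective (postComp E.i X) := by
  intro a b hab
  funext x
  exact E.i_inj (congrFun hab x)

theorem lesg_postComp_t_i (X : Type*) (a : X → V₁) :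
    postComp E.t X (postComp E.i X a) = a := by
  funext x
  exact E.t_i (a x)

theorem lesg_postComp_p_i (X : Type*) (a : X → V₁) :
    postComp E.p X (postComp E.i X a) = 0 := by
  funext x
  exact E.p_i (a x)

theorem lesg_postComp_p_s (X : Type*) (f : X → V₂) :
    postComp E.p X (postComp E.s X f) = f := by
  funext x
  exact E.p_s (f x)

theorem lesg_postComp_split (X : Type*) (F : X → V) :
    postComp E.i X (postComp E.t X F) + postComp E.s X (postComp E.p X F) = F := by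
  funext x
  exact E.split (F x)

theorem lesg_postComp_i_t (X : Type*) {F : X → V} (hF : postComp E.p X F = 0) :
    postComp E.i X (postComp E.t X F) = F := by
  have := E.lesg_postComp_split X F
  rwa [hF, map_zero, add_zero] at this

theorem lesg_postComp_s_p (X : Type*) (F : X → V) :
    postComp E.s X (postComp E.p X F) = F - postComp E.i X (postComp E.t X F) := by
  rw [eq_sub_iff_add_eq, add_comm]
  exact E.lesg_postComp_split X F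

end ShortExactRep

/-- over a field every short exact sequence of representations admits a linear splitting -/
theorem ShortExactRep.exists_of_exact {k : Type*} [Field k] {V₁ V V₂ : Type*} [AddCommGroup V₁]
    [Module k V₁] [AddCommGroup V] [Module k V] [AddCommGroup V₂] [Module k V₂]
    {ρ₁ : Representation k G V₁} {ρ : Representation k G V} {ρ₂ : Representation k G V₂}
    (i : V₁ →ₗ[k] V) (p : V →ₗ[k] V₂) (hi : IsEquivariant ρ₁ ρ i) (hp : IsEquivariant ρ ρ₂ p)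
    (hinj : Function.Injective i) (hsurj : Function.Surjective p) (hex : Function.Exact i p) :
    ∃ E : ShortExactRep ρ₁ ρ ρ₂, E.i = i ∧ E.p = p := by
  obtain ⟨s, hs⟩ := p.exists_rightInverse_of_surjective (LinearMap.range_eq_top.mpr hsurj)
  obtain ⟨t, ht⟩ := i.exists_leftInverse_of_injective (LinearMap.ker_eq_bot.mpr hinj)
  have hps : ∀ w, p (s w) = w := fun w => by
    have := congrArg (fun f : V₂ →ₗ[k] V₂ => f w) hs
    simpa using this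
  have hti : ∀ v, t (i v) = v := fun v => by
    have := congrArg (fun f : V₁ →ₗ[k] V₁ => f v) ht
    simpa using this
  have hpi : ∀ v, p (i v) = 0 := fun v => (hex (i v)).mpr ⟨v, rfl⟩
  -- the retraction adapted to `s`
  refine ⟨{ i := i, p := p, s := s, t := t.comp (LinearMap.id - s.comp p), i_equiv := hi,
            p_equiv := hp, p_i := hpi, split := ?_, p_s := hps, i_inj := hinj }, rfl, rfl⟩
  intro x
  have hx : p (x - s (p x)) = 0 := by rw [map_sub, hps, sub_self]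
  obtain ⟨v, hv⟩ := (hex _).mp hx
  show i (t (x - s (p x))) + s (p x) = x
  rw [← hv, hti, hv]
  abel

/-! ## T-LES-G: the long exact sequence of smooth group cohomology -/

section LesG

variable {ρ₁ : Representation k G V₁} {ρ : Representation k G V} {ρ₂ : Representation k G V₂}
  (E : ShortExactRep ρ₁ ρ ρ₂) (h₁ : IsSmoothRep 𝓛 ρ₁) (h : IsSmoothRep 𝓛 ρ)

/-! ### helper lemmas -/

theorem lesg_dd0_s_mem (m : ↥(smH0 ρ₂)) :
    postComp E.p G (dd0 ρ (E.s (m : V₂))) = 0 := by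
  rw [← dd0_postComp E.p E.p_equiv, E.p_s]
  exact m.2

theorem lesg_dd1_s_mem {f : G → V₂} (hf : dd1 ρ₂ f = 0) :
    postComp E.p (G × G) (dd1 ρ (postComp E.s G f)) = 0 := by
  rw [← dd1_postComp E.p E.p_equiv, E.lesg_postComp_p_s, hf]

theorem lesg_dd2_s_mem {f : G × G → V₂} (hf : dd2 ρ₂ f = 0) :
    postComp E.p (G × G × G) (dd2 ρ (postComp E.s (G × G) f)) = 0 := by
  rw [← dd2_postComp E.p E.p_equiv, E.lesg_postComp_p_s, hf]

/-- `t ∘ F` is a 1-cocycle if `p ∘ F = 0` and `F` is a 1-cocycle -/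
theorem lesg_dd1_t {F : G → V} (hp : postComp E.p G F = 0) (hF : dd1 ρ F = 0) :
    dd1 ρ₁ (postComp E.t G F) = 0 := by
  apply E.lesg_postComp_i_injective
  rw [← dd1_postComp E.i E.i_equiv, E.lesg_postComp_i_t G hp, hF, map_zero]

theorem lesg_dd2_t {F : G × G → V} (hp : postComp E.p (G × G) F = 0) (hF : dd2 ρ F = 0) :
    dd2 ρ₁ (postComp E.t (G × G) F) = 0 := by
  apply E.lesg_postComp_i_injective
  rw [← dd2_postComp E.i E.i_equiv, E.lesg_postComp_i_t (G × G) hp, hF, map_zero]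

theorem lesg_dd3_t {F : G × G × G → V} (hp : postComp E.p (G × G × G) F = 0)
    (hF : dd3 ρ F = 0) : dd3 ρ₁ (postComp E.t (G × G × G) F) = 0 := by
  apply E.lesg_postComp_i_injective
  rw [← dd3_postComp E.i E.i_equiv, E.lesg_postComp_i_t (G × G × G) hp, hF, map_zero]

/-- cochain-level connecting map `Z⁰(V₂) = H⁰(V₂) → Z¹(V₁)`, `m ↦ t ∘ d⁰ (s m)` -/
def connZ0 : ↥(smH0 ρ₂) →ₗ[k] ↥(smZ1 𝓛 ρ₁) :=
  ((postComp E.t G).comp ((dd0 ρ).comp (E.s.comp (smH0 ρ₂).subtype))).codRestrict (smZ1 𝓛 ρ₁)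
    (by
      have _h₁ := h₁
      intro m
      exact ⟨LinearMap.mem_ker.2 (lesg_dd1_t E (lesg_dd0_s_mem E m) (dd1_dd0 ρ _)),
        (dd0_isLC h _).comp E.t⟩)

/-- cochain-level connecting map `Z¹(V₂) → Z²(V₁)`, `f ↦ t ∘ d¹ (s ∘ f)` -/
def connZ1 : ↥(smZ1 𝓛 ρ₂) →ₗ[k] ↥(smZ2 𝓛 ρ₁) :=
  ((postComp E.t (G × G)).comp ((dd1 ρ).comp ((postComp E.s G).comp
    (smZ1 𝓛 ρ₂).subtype))).codRestrict (smZ2 𝓛 ρ₁)
    (by
      have _h₁ := h₁
      intro f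
      exact ⟨LinearMap.mem_ker.2 (lesg_dd2_t E (lesg_dd1_s_mem E f.2.1) (dd2_dd1 ρ _)),
        (dd1_isLC h (f.2.2.comp E.s)).comp E.t⟩)

/-- cochain-level connecting map `Z²(V₂) → Z³(V₁)`, `f ↦ t ∘ d² (s ∘ f)` -/
def connZ2 : ↥(smZ2 𝓛 ρ₂) →ₗ[k] ↥(smZ3 𝓛 ρ₁) :=
  ((postComp E.t (G × G × G)).comp ((dd2 ρ).comp ((postComp E.s (G × G)).comp
    (smZ2 𝓛 ρ₂).subtype))).codRestrict (smZ3 𝓛 ρ₁)
    (by
      have _h₁ := h₁
      intro f
      exact ⟨LinearMap.mem_ker.2 (lesg_dd3_t E (lesg_dd2_s_mem E f.2.1) (dd3_dd2 ρ _)),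
        (dd2_isLC h (f.2.2.comp E.s)).comp E.t⟩)

theorem connZ0_coe (m : ↥(smH0 ρ₂)) :
    ((connZ0 (𝓛 := 𝓛) E h₁ h m : ↥(smZ1 𝓛 ρ₁)) : G → V₁) =
      postComp E.t G (dd0 ρ (E.s (m : V₂))) := rfl

theorem connZ1_coe (f : ↥(smZ1 𝓛 ρ₂)) :
    ((connZ1 E h₁ h f : ↥(smZ2 𝓛 ρ₁)) : G × G → V₁) =
      postComp E.t (G × G) (dd1 ρ (postComp E.s G (f : G → V₂))) := rfl

theorem connZ2_coe (f : ↥(smZ2 𝓛 ρ₂)) :
    ((connZ2 E h₁ h f : ↥(smZ3 𝓛 ρ₁)) : G × G × G → V₁) =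
      postComp E.t (G × G × G) (dd2 ρ (postComp E.s (G × G) (f : G × G → V₂))) := rfl

/-- `t ∘ d⁰ (s (p m)) = t ∘ d⁰ m - d⁰ (t m)` -/
theorem lesg_t_dd0_s_p (m : V) :
    postComp E.t G (dd0 ρ (E.s (E.p m))) = postComp E.t G (dd0 ρ m) - dd0 ρ₁ (E.t m) := by
  have h1 : E.s (E.p m) = m - E.i (E.t m) := by
    rw [eq_sub_iff_add_eq, add_comm]; exact E.split m
  rw [h1, map_sub, map_sub, dd0_postComp E.i E.i_equiv, E.lesg_postComp_t_i]

/-- `t ∘ d¹ (s ∘ p ∘ y) = t ∘ d¹ y - d¹ (t ∘ y)` -/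
theorem lesg_t_dd1_s_p (y : G → V) :
    postComp E.t (G × G) (dd1 ρ (postComp E.s G (postComp E.p G y))) =
      postComp E.t (G × G) (dd1 ρ y) - dd1 ρ₁ (postComp E.t G y) := by
  rw [E.lesg_postComp_s_p, map_sub, map_sub, dd1_postComp E.i E.i_equiv, E.lesg_postComp_t_i]

/-- `t ∘ d² (s ∘ p ∘ y) = t ∘ d² y - d² (t ∘ y)` -/
theorem lesg_t_dd2_s_p (y : G × G → V) :
    postComp E.t (G × G × G) (dd2 ρ (postComp E.s (G × G) (postComp E.p (G × G) y))) =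
      postComp E.t (G × G × G) (dd2 ρ y) - dd2 ρ₁ (postComp E.t (G × G) y) := by
  rw [E.lesg_postComp_s_p, map_sub, map_sub, dd2_postComp E.i E.i_equiv, E.lesg_postComp_t_i]

/-- `δ⁰ : H⁰(V₂) → H¹(V₁)` -/
def conn0 : ↥(smH0 ρ₂) →ₗ[k] smH1 𝓛 ρ₁ := (smH1π 𝓛 ρ₁).comp (connZ0 E h₁ h)

/-- `δ¹ : H¹(V₂) → H²(V₁)` -/
def conn1 : smH1 𝓛 ρ₂ →ₗ[k] smH2 𝓛 ρ₁ :=
  Submodule.mapQ _ _ (connZ1 E h₁ h) (by
    rintro f ⟨m₂, hm₂⟩
    show ((connZ1 E h₁ h f : ↥(smZ2 𝓛 ρ₁)) : G × G → V₁) ∈ smB2 𝓛 ρ₁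
    rw [mem_smB2]
    refine ⟨-postComp E.t G (dd0 ρ (E.s m₂)), ((dd0_isLC h _).comp E.t).comp (fun v => -v), ?_⟩
    have h1 : ((f : ↥(smZ1 𝓛 ρ₂)) : G → V₂) = postComp E.p G (dd0 ρ (E.s m₂)) := by
      rw [← dd0_postComp E.p E.p_equiv, E.p_s]
      exact hm₂.symm
    rw [connZ1_coe, h1, lesg_t_dd1_s_p, dd1_dd0, map_zero, zero_sub, map_neg])

/-- `δ² : H²(V₂) → H³(V₁)` -/
def conn2 : smH2 𝓛 ρ₂ →ₗ[k] smH3 𝓛 ρ₁ :=
  Submodule.mapQ _ _ (connZ2 E h₁ h) (by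
    rintro f hf
    obtain ⟨z, hz, hzf⟩ := (mem_smB2 𝓛 ρ₂ _).mp hf
    show ((connZ2 E h₁ h f : ↥(smZ3 𝓛 ρ₁)) : G × G × G → V₁) ∈ smB3 𝓛 ρ₁
    rw [mem_smB3]
    refine ⟨-postComp E.t (G × G) (dd1 ρ (postComp E.s G z)),
      ((dd1_isLC h (hz.comp E.s)).comp E.t).comp (fun v => -v), ?_⟩
    have h1 : ((f : ↥(smZ2 𝓛 ρ₂)) : G × G → V₂) =
        postComp E.p (G × G) (dd1 ρ (postComp E.s G z)) := by
      rw [← dd1_postComp E.p E.p_equiv, E.lesg_postComp_p_s]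
      exact hzf.symm
    rw [connZ2_coe, h1, lesg_t_dd2_s_p, dd2_dd1, map_zero, zero_sub, map_neg])

@[simp] theorem conn1_mk (f : ↥(smZ1 𝓛 ρ₂)) :
    conn1 E h₁ h (smH1π 𝓛 ρ₂ f) = smH2π 𝓛 ρ₁ (connZ1 E h₁ h f) := rfl

@[simp] theorem conn2_mk (f : ↥(smZ2 𝓛 ρ₂)) :
    conn2 E h₁ h (smH2π 𝓛 ρ₂ f) = smH3π 𝓛 ρ₁ (connZ2 E h₁ h f) := rfl

/-- (E4, j = 0) exactness at `H⁰(V₂)` -/
theorem exact_smH0map_conn0 :
    Function.Exact (smH0map E.p E.p_equiv) (conn0 (𝓛 := 𝓛) E h₁ h) := by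
  intro m₂
  constructor
  · intro hm
    have hm' : ((connZ0 (𝓛 := 𝓛) E h₁ h m₂ : ↥(smZ1 𝓛 ρ₁)) : G → V₁) ∈ smB1 ρ₁ :=
      (smH1π_eq_zero_iff 𝓛 ρ₁ _).mp hm
    obtain ⟨v, hv⟩ := hm'
    rw [connZ0_coe] at hv
    have h1 : dd0 ρ (E.s (m₂ : V₂)) = dd0 ρ (E.i v) := by
      rw [dd0_postComp E.i E.i_equiv, hv, E.lesg_postComp_i_t G (lesg_dd0_s_mem E m₂)]
    refine ⟨⟨E.s (m₂ : V₂) - E.i v, ?_⟩, ?_⟩
    · show dd0 ρ (E.s (m₂ : V₂) - E.i v) = 0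
      rw [map_sub, h1, sub_self]
    · apply Subtype.ext
      show E.p (E.s (m₂ : V₂) - E.i v) = m₂
      rw [map_sub, E.p_s, E.p_i, sub_zero]
  · rintro ⟨m, rfl⟩
    apply (smH1π_eq_zero_iff 𝓛 ρ₁ _).mpr
    refine ⟨-E.t (m : V), ?_⟩
    rw [connZ0_coe]
    show dd0 ρ₁ (-E.t (m : V)) = postComp E.t G (dd0 ρ (E.s (E.p (m : V))))
    have hm : dd0 ρ (m : V) = 0 := m.2
    rw [lesg_t_dd0_s_p, hm, map_zero, zero_sub, map_neg]

/-- `i_* ∘ δ⁰ = 0` and exactness at `H¹(V₁)` -/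
theorem exact_conn0_smH1map :
    Function.Exact (conn0 (𝓛 := 𝓛) E h₁ h) (smH1map 𝓛 E.i E.i_equiv) := by
  intro c
  obtain ⟨f, rfl⟩ := Submodule.mkQ_surjective _ c
  constructor
  · intro hc
    have hc' : ((smZ1map 𝓛 E.i E.i_equiv f : ↥(smZ1 𝓛 ρ)) : G → V) ∈ smB1 ρ :=
      (smH1π_eq_zero_iff 𝓛 ρ _).mp hc
    obtain ⟨m, hm⟩ := hc'
    have hm' : dd0 ρ m = postComp E.i G (f : G → V₁) := hm
    have hpm : dd0 ρ₂ (E.p m) = 0 := by
      rw [dd0_postComp E.p E.p_equiv, hm', E.lesg_postComp_p_i]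
    refine ⟨⟨E.p m, hpm⟩, ?_⟩
    show smH1π 𝓛 ρ₁ (connZ0 E h₁ h ⟨E.p m, hpm⟩) = smH1π 𝓛 ρ₁ f
    rw [← sub_eq_zero, ← map_sub]
    apply (smH1π_eq_zero_iff 𝓛 ρ₁ _).mpr
    refine ⟨-E.t m, ?_⟩
    show dd0 ρ₁ (-E.t m) = postComp E.t G (dd0 ρ (E.s (E.p m))) - (f : G → V₁)
    rw [lesg_t_dd0_s_p, hm', E.lesg_postComp_t_i, map_neg]
    abel
  · rintro ⟨m₂, hm₂⟩
    rw [← hm₂]
    show smH1π 𝓛 ρ (smZ1map 𝓛 E.i E.i_equiv (connZ0 E h₁ h m₂)) = 0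
    apply (smH1π_eq_zero_iff 𝓛 ρ _).mpr
    refine ⟨E.s (m₂ : V₂), ?_⟩
    show dd0 ρ (E.s (m₂ : V₂)) = postComp E.i G (postComp E.t G (dd0 ρ (E.s (m₂ : V₂))))
    rw [E.lesg_postComp_i_t G (lesg_dd0_s_mem E m₂)]

include h in
/-- (E3, j = 1) exactness at `H¹(V)` -/
theorem exact_smH1map_smH1map :
    Function.Exact (smH1map 𝓛 E.i E.i_equiv) (smH1map 𝓛 E.p E.p_equiv) := by
  intro c
  obtain ⟨f, rfl⟩ := Submodule.mkQ_surjective _ c
  constructor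
  · intro hc
    have hc' : ((smZ1map 𝓛 E.p E.p_equiv f : ↥(smZ1 𝓛 ρ₂)) : G → V₂) ∈ smB1 ρ₂ :=
      (smH1π_eq_zero_iff 𝓛 ρ₂ _).mp hc
    obtain ⟨m₂, hm₂⟩ := hc'
    have hm₂' : dd0 ρ₂ m₂ = postComp E.p G (f : G → V) := hm₂
    have hf1 : dd1 ρ (f : G → V) = 0 := f.2.1
    -- the corrected cocycle
    have hp : postComp E.p G ((f : G → V) - dd0 ρ (E.s m₂)) = 0 := by
      rw [map_sub, ← dd0_postComp E.p E.p_equiv, E.p_s, hm₂', sub_self]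
    have hd : dd1 ρ ((f : G → V) - dd0 ρ (E.s m₂)) = 0 := by
      rw [map_sub, hf1, dd1_dd0, sub_zero]
    have hlc : IsLC₁ 𝓛 ((f : G → V) - dd0 ρ (E.s m₂)) :=
      f.2.2.map₂ (dd0_isLC h (E.s m₂)) (· - ·)
    refine ⟨smH1π 𝓛 ρ₁ ⟨postComp E.t G ((f : G → V) - dd0 ρ (E.s m₂)),
      LinearMap.mem_ker.2 (lesg_dd1_t E hp hd), hlc.comp E.t⟩, ?_⟩
    show smH1π 𝓛 ρ (smZ1map 𝓛 E.i E.i_equiv _) = smH1π 𝓛 ρ f
    rw [← sub_eq_zero, ← map_sub]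
    apply (smH1π_eq_zero_iff 𝓛 ρ _).mpr
    refine ⟨-E.s m₂, ?_⟩
    show dd0 ρ (-E.s m₂) =
      postComp E.i G (postComp E.t G ((f : G → V) - dd0 ρ (E.s m₂))) - (f : G → V)
    rw [E.lesg_postComp_i_t G hp, map_neg]
    abel
  · rintro ⟨c₁, hc₁⟩
    rw [← hc₁]
    obtain ⟨x, rfl⟩ := Submodule.mkQ_surjective _ c₁
    show smH1π 𝓛 ρ₂ (smZ1map 𝓛 E.p E.p_equiv (smZ1map 𝓛 E.i E.i_equiv x)) = 0
    apply (smH1π_eq_zero_iff 𝓛 ρ₂ _).mpr
    refine ⟨0, ?_⟩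
    show dd0 ρ₂ 0 = postComp E.p G (postComp E.i G (x : G → V₁))
    rw [E.lesg_postComp_p_i, map_zero]

/-- (E4, j = 1) exactness at `H¹(V₂)` -/
theorem exact_smH1map_conn1 :
    Function.Exact (smH1map 𝓛 E.p E.p_equiv) (conn1 E h₁ h) := by
  intro c
  obtain ⟨f₂, rfl⟩ := Submodule.mkQ_surjective _ c
  constructor
  · intro hc
    have hc' : ((connZ1 E h₁ h f₂ : ↥(smZ2 𝓛 ρ₁)) : G × G → V₁) ∈ smB2 𝓛 ρ₁ :=
      (smH2π_eq_zero_iff 𝓛 ρ₁ _).mp hc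
    obtain ⟨x, hx, hxf⟩ := (mem_smB2 𝓛 ρ₁ _).mp hc'
    rw [connZ1_coe] at hxf
    have hf₂ : dd1 ρ₂ (f₂ : G → V₂) = 0 := f₂.2.1
    have h1 : dd1 ρ (postComp E.s G (f₂ : G → V₂)) = dd1 ρ (postComp E.i G x) := by
      rw [dd1_postComp E.i E.i_equiv, hxf, E.lesg_postComp_i_t (G × G) (lesg_dd1_s_mem E hf₂)]
    have hd : dd1 ρ (postComp E.s G (f₂ : G → V₂) - postComp E.i G x) = 0 := by
      rw [map_sub, h1, sub_self]
    have hlc : IsLC₁ 𝓛 (postComp E.s G (f₂ : G → V₂) - postComp E.i G x) :=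
      (f₂.2.2.comp E.s).map₂ (hx.comp E.i) (· - ·)
    refine ⟨smH1π 𝓛 ρ ⟨postComp E.s G (f₂ : G → V₂) - postComp E.i G x,
      LinearMap.mem_ker.2 hd, hlc⟩, ?_⟩
    show smH1π 𝓛 ρ₂ (smZ1map 𝓛 E.p E.p_equiv _) = smH1π 𝓛 ρ₂ f₂
    congr 1
    apply Subtype.ext
    show postComp E.p G (postComp E.s G (f₂ : G → V₂) - postComp E.i G x) = f₂
    rw [map_sub, E.lesg_postComp_p_s, E.lesg_postComp_p_i, sub_zero]
  · rintro ⟨c', hc'⟩
    rw [← hc']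
    obtain ⟨f, rfl⟩ := Submodule.mkQ_surjective _ c'
    show smH2π 𝓛 ρ₁ (connZ1 E h₁ h (smZ1map 𝓛 E.p E.p_equiv f)) = 0
    apply (smH2π_eq_zero_iff 𝓛 ρ₁ _).mpr
    rw [mem_smB2]
    refine ⟨-postComp E.t G (f : G → V), (f.2.2.comp E.t).comp (fun v => -v), ?_⟩
    have hf : dd1 ρ (f : G → V) = 0 := f.2.1
    rw [connZ1_coe]
    show dd1 ρ₁ (-postComp E.t G (f : G → V)) =
      postComp E.t (G × G) (dd1 ρ (postComp E.s G (postComp E.p G (f : G → V))))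
    rw [lesg_t_dd1_s_p, hf, map_zero, zero_sub, map_neg]

/-- exactness at `H²(V₁)` -/
theorem exact_conn1_smH2map :
    Function.Exact (conn1 E h₁ h) (smH2map 𝓛 E.i E.i_equiv) := by
  intro c
  obtain ⟨f, rfl⟩ := Submodule.mkQ_surjective _ c
  constructor
  · intro hc
    have hc' : ((smZ2map 𝓛 E.i E.i_equiv f : ↥(smZ2 𝓛 ρ)) : G × G → V) ∈ smB2 𝓛 ρ :=
      (smH2π_eq_zero_iff 𝓛 ρ _).mp hc
    obtain ⟨y, hy, hyf⟩ := (mem_smB2 𝓛 ρ _).mp hc'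
    have hyf' : dd1 ρ y = postComp E.i (G × G) (f : G × G → V₁) := hyf
    have hpy : dd1 ρ₂ (postComp E.p G y) = 0 := by
      rw [dd1_postComp E.p E.p_equiv, hyf', E.lesg_postComp_p_i]
    refine ⟨smH1π 𝓛 ρ₂ ⟨postComp E.p G y, LinearMap.mem_ker.2 hpy, hy.comp E.p⟩, ?_⟩
    show smH2π 𝓛 ρ₁ (connZ1 E h₁ h _) = smH2π 𝓛 ρ₁ f
    rw [← sub_eq_zero, ← map_sub]
    apply (smH2π_eq_zero_iff 𝓛 ρ₁ _).mpr
    rw [mem_smB2]
    refine ⟨-postComp E.t G y, (hy.comp E.t).comp (fun v => -v), ?_⟩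
    show dd1 ρ₁ (-postComp E.t G y) =
      postComp E.t (G × G) (dd1 ρ (postComp E.s G (postComp E.p G y))) - (f : G × G → V₁)
    rw [lesg_t_dd1_s_p, hyf', E.lesg_postComp_t_i, map_neg]
    abel
  · rintro ⟨c₂, hc₂⟩
    rw [← hc₂]
    obtain ⟨f₂, rfl⟩ := Submodule.mkQ_surjective _ c₂
    show smH2π 𝓛 ρ (smZ2map 𝓛 E.i E.i_equiv (connZ1 E h₁ h f₂)) = 0
    apply (smH2π_eq_zero_iff 𝓛 ρ _).mpr
    rw [mem_smB2]
    refine ⟨postComp E.s G (f₂ : G → V₂), f₂.2.2.comp E.s, ?_⟩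
    have hf₂ : dd1 ρ₂ (f₂ : G → V₂) = 0 := f₂.2.1
    show dd1 ρ (postComp E.s G (f₂ : G → V₂)) =
      postComp E.i (G × G) (postComp E.t (G × G) (dd1 ρ (postComp E.s G (f₂ : G → V₂))))
    rw [E.lesg_postComp_i_t (G × G) (lesg_dd1_s_mem E hf₂)]

include h in
/-- (E3, j = 2) exactness at `H²(V)` -/
theorem exact_smH2map_smH2map :
    Function.Exact (smH2map 𝓛 E.i E.i_equiv) (smH2map 𝓛 E.p E.p_equiv) := by
  intro c
  obtain ⟨f, rfl⟩ := Submodule.mkQ_surjective _ c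
  constructor
  · intro hc
    have hc' : ((smZ2map 𝓛 E.p E.p_equiv f : ↥(smZ2 𝓛 ρ₂)) : G × G → V₂) ∈ smB2 𝓛 ρ₂ :=
      (smH2π_eq_zero_iff 𝓛 ρ₂ _).mp hc
    obtain ⟨z, hz, hzf⟩ := (mem_smB2 𝓛 ρ₂ _).mp hc'
    have hzf' : dd1 ρ₂ z = postComp E.p (G × G) (f : G × G → V) := hzf
    have hf1 : dd2 ρ (f : G × G → V) = 0 := f.2.1
    have hp : postComp E.p (G × G) ((f : G × G → V) - dd1 ρ (postComp E.s G z)) = 0 := by
      rw [map_sub, ← dd1_postComp E.p E.p_equiv, E.lesg_postComp_p_s, hzf', sub_self]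
    have hd : dd2 ρ ((f : G × G → V) - dd1 ρ (postComp E.s G z)) = 0 := by
      rw [map_sub, hf1, dd2_dd1, sub_zero]
    have hlc : IsLC₂ 𝓛 ((f : G × G → V) - dd1 ρ (postComp E.s G z)) :=
      f.2.2.map₂ (dd1_isLC h (hz.comp E.s)) (· - ·)
    refine ⟨smH2π 𝓛 ρ₁ ⟨postComp E.t (G × G) ((f : G × G → V) - dd1 ρ (postComp E.s G z)),
      LinearMap.mem_ker.2 (lesg_dd2_t E hp hd), hlc.comp E.t⟩, ?_⟩
    show smH2π 𝓛 ρ (smZ2map 𝓛 E.i E.i_equiv _) = smH2π 𝓛 ρ f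
    rw [← sub_eq_zero, ← map_sub]
    apply (smH2π_eq_zero_iff 𝓛 ρ _).mpr
    rw [mem_smB2]
    refine ⟨-postComp E.s G z, (hz.comp E.s).comp (fun v => -v), ?_⟩
    show dd1 ρ (-postComp E.s G z) =
      postComp E.i (G × G) (postComp E.t (G × G)
        ((f : G × G → V) - dd1 ρ (postComp E.s G z))) - (f : G × G → V)
    rw [E.lesg_postComp_i_t (G × G) hp, map_neg]
    abel
  · rintro ⟨c₁, hc₁⟩
    rw [← hc₁]
    obtain ⟨x, rfl⟩ := Submodule.mkQ_surjective _ c₁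
    show smH2π 𝓛 ρ₂ (smZ2map 𝓛 E.p E.p_equiv (smZ2map 𝓛 E.i E.i_equiv x)) = 0
    apply (smH2π_eq_zero_iff 𝓛 ρ₂ _).mpr
    rw [mem_smB2]
    refine ⟨0, isLC₁_const 𝓛 (0 : V₂), ?_⟩
    show dd1 ρ₂ 0 = postComp E.p (G × G) (postComp E.i (G × G) (x : G × G → V₁))
    rw [E.lesg_postComp_p_i, map_zero]

/-- exactness at `H²(V₂)` -/
theorem exact_smH2map_conn2 :
    Function.Exact (smH2map 𝓛 E.p E.p_equiv) (conn2 E h₁ h) := by
  intro c
  obtain ⟨f₂, rfl⟩ := Submodule.mkQ_surjective _ c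
  constructor
  · intro hc
    have hc' : ((connZ2 E h₁ h f₂ : ↥(smZ3 𝓛 ρ₁)) : G × G × G → V₁) ∈ smB3 𝓛 ρ₁ :=
      (smH3π_eq_zero_iff 𝓛 ρ₁ _).mp hc
    obtain ⟨x, hx, hxf⟩ := (mem_smB3 𝓛 ρ₁ _).mp hc'
    rw [connZ2_coe] at hxf
    have hf₂ : dd2 ρ₂ (f₂ : G × G → V₂) = 0 := f₂.2.1
    have h1 : dd2 ρ (postComp E.s (G × G) (f₂ : G × G → V₂)) =
        dd2 ρ (postComp E.i (G × G) x) := by
      rw [dd2_postComp E.i E.i_equiv, hxf,
        E.lesg_postComp_i_t (G × G × G) (lesg_dd2_s_mem E hf₂)]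
    have hd : dd2 ρ (postComp E.s (G × G) (f₂ : G × G → V₂) - postComp E.i (G × G) x) = 0 := by
      rw [map_sub, h1, sub_self]
    have hlc : IsLC₂ 𝓛 (postComp E.s (G × G) (f₂ : G × G → V₂) - postComp E.i (G × G) x) :=
      (f₂.2.2.comp E.s).map₂ (hx.comp E.i) (· - ·)
    refine ⟨smH2π 𝓛 ρ ⟨postComp E.s (G × G) (f₂ : G × G → V₂) - postComp E.i (G × G) x,
      LinearMap.mem_ker.2 hd, hlc⟩, ?_⟩
    show smH2π 𝓛 ρ₂ (smZ2map 𝓛 E.p E.p_equiv _) = smH2π 𝓛 ρ₂ f₂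
    congr 1
    apply Subtype.ext
    show postComp E.p (G × G)
      (postComp E.s (G × G) (f₂ : G × G → V₂) - postComp E.i (G × G) x) = f₂
    rw [map_sub, E.lesg_postComp_p_s, E.lesg_postComp_p_i, sub_zero]
  · rintro ⟨c', hc'⟩
    rw [← hc']
    obtain ⟨f, rfl⟩ := Submodule.mkQ_surjective _ c'
    show smH3π 𝓛 ρ₁ (connZ2 E h₁ h (smZ2map 𝓛 E.p E.p_equiv f)) = 0
    apply (smH3π_eq_zero_iff 𝓛 ρ₁ _).mpr
    rw [mem_smB3]
    refine ⟨-postComp E.t (G × G) (f : G × G → V), (f.2.2.comp E.t).comp (fun v => -v), ?_⟩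
    have hf : dd2 ρ (f : G × G → V) = 0 := f.2.1
    rw [connZ2_coe]
    show dd2 ρ₁ (-postComp E.t (G × G) (f : G × G → V)) =
      postComp E.t (G × G × G)
        (dd2 ρ (postComp E.s (G × G) (postComp E.p (G × G) (f : G × G → V))))
    rw [lesg_t_dd2_s_p, hf, map_zero, zero_sub, map_neg]

/-- `H⁰` is left exact -/
theorem exact_smH0map_smH0map :
    Function.Exact (smH0map E.i E.i_equiv) (smH0map E.p E.p_equiv) := by
  intro m
  constructor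
  · intro hm
    have hpm : E.p (m : V) = 0 := congrArg Subtype.val hm
    have hm0 : dd0 ρ (m : V) = 0 := m.2
    refine ⟨⟨E.t (m : V), ?_⟩, ?_⟩
    · show dd0 ρ₁ (E.t (m : V)) = 0
      apply E.lesg_postComp_i_injective G
      rw [← dd0_postComp E.i E.i_equiv, E.i_t_of_p_eq_zero hpm, hm0, map_zero]
    · apply Subtype.ext
      exact E.i_t_of_p_eq_zero hpm
  · rintro ⟨v, rfl⟩
    apply Subtype.ext
    exact E.p_i _

end LesG

end Fermat.Agent.S55
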