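import Mathlib

/-!
# S55 top layer, file 1: groups with a directed family of "open" subgroups (levels),
level-constant functions, smooth representations.

This is the abstract version of the frozen Prelude's `IsLevelConstant₁/₂` and
`IsLevelConstantS₁/₂`: a profinite group without its topology.
-/

set_option autoImplicit false

namespace Fermat.Agent.S55

/-- A directed family of finite-index subgroups ("levels") of an abstract group, cofinal with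
normal ones: the open subgroups of a profinite topology, without the topology. -/
structure Levels (G : Type*) [Group G] where
  /-- the predicate "is a level" -/
  IsLevel : Subgroup G → Prop
  exists_level : ∃ U, IsLevel U
  exists_le_inf : ∀ U V, IsLevel U → IsLevel V → ∃ W, IsLevel W ∧ W ≤ U ⊓ V
  exists_normal_le : ∀ U, IsLevel U → ∃ W, IsLevel W ∧ W.Normal ∧ W ≤ U
  finiteIndex : ∀ U, IsLevel U → U.FiniteIndex

namespace Levels

variable {G H : Type*} [Group G] [Group H]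

/-- Pull back a level structure along a group homomorphism. -/
def comap (𝓛 : Levels G) (φ : H →* G) : Levels H where
  IsLevel V := ∃ U, 𝓛.IsLevel U ∧ V = U.comap φ
  exists_level := by
    obtain ⟨U, hU⟩ := 𝓛.exists_level
    exact ⟨U.comap φ, U, hU, rfl⟩
  exists_le_inf := by
    rintro _ _ ⟨U, hU, rfl⟩ ⟨V, hV, rfl⟩
    obtain ⟨W, hW, hle⟩ := 𝓛.exists_le_inf U V hU hV
    refine ⟨W.comap φ, ⟨W, hW, rfl⟩, ?_⟩
    rw [← Subgroup.comap_inf]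
    exact Subgroup.comap_mono hle
  exists_normal_le := by
    rintro _ ⟨U, hU, rfl⟩
    obtain ⟨W, hW, hWn, hle⟩ := 𝓛.exists_normal_le U hU
    exact ⟨W.comap φ, ⟨W, hW, rfl⟩, hWn.comap φ, Subgroup.comap_mono hle⟩
  finiteIndex := by
    rintro _ ⟨U, hU, rfl⟩
    have hU' := 𝓛.finiteIndex U hU
    refine ⟨?_⟩
    rw [Subgroup.index_comap]
    exact fun h0 => hU'.index_ne_zero (Subgroup.index_eq_zero_of_relIndex_eq_zero h0)

/-- The trivial level structure on a finite group: every subgroup is a level. -/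
def ofFinite (G : Type*) [Group G] [Finite G] : Levels G where
  IsLevel _ := True
  exists_level := ⟨⊥, trivial⟩
  exists_le_inf U V _ _ := ⟨U ⊓ V, trivial, le_rfl⟩
  exists_normal_le _ _ := ⟨⊥, trivial, inferInstance, bot_le⟩
  finiteIndex _ _ := inferInstance

/-- A subgroup is open if it contains a level. -/
def IsOpen (𝓛 : Levels G) (V : Subgroup G) : Prop := ∃ U, 𝓛.IsLevel U ∧ U ≤ V

/-- Restrict a level structure to an open subgroup (levels = the levels of `G` contained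
in `V`, viewed inside `V`). -/
def sub (𝓛 : Levels G) (V : Subgroup G) : Levels V := 𝓛.comap V.subtype

/-- A group homomorphism is continuous for the level structures. -/
def Continuous (𝓛H : Levels H) (𝓛G : Levels G) (φ : H →* G) : Prop :=
  ∀ U, 𝓛G.IsLevel U → ∃ V, 𝓛H.IsLevel V ∧ V ≤ U.comap φ

lemma continuous_comap (𝓛 : Levels G) (φ : H →* G) : Continuous (𝓛.comap φ) 𝓛 φ :=
  fun U hU => ⟨U.comap φ, ⟨U, hU, rfl⟩, le_rfl⟩

/-- a normal level below two given levels -/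
lemma exists_normal_le_inf (𝓛 : Levels G) (U V : Subgroup G) (hU : 𝓛.IsLevel U)
    (hV : 𝓛.IsLevel V) : ∃ W, 𝓛.IsLevel W ∧ W.Normal ∧ W ≤ U ∧ W ≤ V := by
  obtain ⟨W, hW, hle⟩ := 𝓛.exists_le_inf U V hU hV
  obtain ⟨W', hW', hn, hle'⟩ := 𝓛.exists_normal_le W hW
  exact ⟨W', hW', hn, hle'.trans (hle.trans inf_le_left), hle'.trans (hle.trans inf_le_right)⟩

end Levels

section LC

variable {G : Type*} [Group G] (𝓛 : Levels G)

/-- Level-constant functions of one variable. -/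
def IsLC₁ {X : Type*} (f : G → X) : Prop :=
  ∃ U, 𝓛.IsLevel U ∧ ∀ g s : G, s ∈ U → f (g * s) = f g

/-- Level-constant functions of two variables. -/
def IsLC₂ {X : Type*} (f : G × G → X) : Prop :=
  ∃ U, 𝓛.IsLevel U ∧ ∀ g g' s s' : G, s ∈ U → s' ∈ U → f (g * s, g' * s') = f (g, g')

/-- Level-constant functions of three variables. -/
def IsLC₃ {X : Type*} (f : G × G × G → X) : Prop :=
  ∃ U, 𝓛.IsLevel U ∧ ∀ g g' g'' s s' s'' : G, s ∈ U → s' ∈ U → s'' ∈ U →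
    f (g * s, g' * s', g'' * s'') = f (g, g', g'')

/-- Level-constant functions of four variables. -/
def IsLC₄ {X : Type*} (f : G × G × G × G → X) : Prop :=
  ∃ U, 𝓛.IsLevel U ∧ ∀ g₁ g₂ g₃ g₄ s₁ s₂ s₃ s₄ : G, s₁ ∈ U → s₂ ∈ U → s₃ ∈ U → s₄ ∈ U →
    f (g₁ * s₁, g₂ * s₂, g₃ * s₃, g₄ * s₄) = f (g₁, g₂, g₃, g₄)

variable {𝓛}

lemma IsLC₁.comp {X Y : Type*} {f : G → X} (hf : IsLC₁ 𝓛 f) (φ : X → Y) : IsLC₁ 𝓛 (φ ∘ f) := by
  obtain ⟨U, hU, h⟩ := hf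
  exact ⟨U, hU, fun g s hs => by simp only [Function.comp_apply, h g s hs]⟩

lemma IsLC₂.comp {X Y : Type*} {f : G × G → X} (hf : IsLC₂ 𝓛 f) (φ : X → Y) :
    IsLC₂ 𝓛 (φ ∘ f) := by
  obtain ⟨U, hU, h⟩ := hf
  exact ⟨U, hU, fun g g' s s' hs hs' => by simp only [Function.comp_apply, h g g' s s' hs hs']⟩

lemma IsLC₃.comp {X Y : Type*} {f : G × G × G → X} (hf : IsLC₃ 𝓛 f) (φ : X → Y) :
    IsLC₃ 𝓛 (φ ∘ f) := by
  obtain ⟨U, hU, h⟩ := hf
  exact ⟨U, hU, fun g g' g'' s s' s'' hs hs' hs'' => by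
    simp only [Function.comp_apply, h g g' g'' s s' s'' hs hs' hs'']⟩

lemma IsLC₄.comp {X Y : Type*} {f : G × G × G × G → X} (hf : IsLC₄ 𝓛 f) (φ : X → Y) :
    IsLC₄ 𝓛 (φ ∘ f) := by
  obtain ⟨U, hU, h⟩ := hf
  exact ⟨U, hU, fun g₁ g₂ g₃ g₄ s₁ s₂ s₃ s₄ h₁ h₂ h₃ h₄ => by
    simp only [Function.comp_apply, h g₁ g₂ g₃ g₄ s₁ s₂ s₃ s₄ h₁ h₂ h₃ h₄]⟩

/-- two level-constant functions can be combined pointwise -/
lemma IsLC₁.map₂ {X Y Z : Type*} {f : G → X} {f' : G → Y} (hf : IsLC₁ 𝓛 f) (hf' : IsLC₁ 𝓛 f')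
    (φ : X → Y → Z) : IsLC₁ 𝓛 (fun g => φ (f g) (f' g)) := by
  obtain ⟨U, hU, h⟩ := hf
  obtain ⟨U', hU', h'⟩ := hf'
  obtain ⟨W, hW, hle⟩ := 𝓛.exists_le_inf U U' hU hU'
  exact ⟨W, hW, fun g s hs => by
    show φ (f (g * s)) (f' (g * s)) = φ (f g) (f' g)
    rw [h g s (hle hs).1, h' g s (hle hs).2]⟩

lemma IsLC₂.map₂ {X Y Z : Type*} {f : G × G → X} {f' : G × G → Y} (hf : IsLC₂ 𝓛 f)
    (hf' : IsLC₂ 𝓛 f') (φ : X → Y → Z) : IsLC₂ 𝓛 (fun g => φ (f g) (f' g)) := by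
  obtain ⟨U, hU, h⟩ := hf
  obtain ⟨U', hU', h'⟩ := hf'
  obtain ⟨W, hW, hle⟩ := 𝓛.exists_le_inf U U' hU hU'
  exact ⟨W, hW, fun g g' s s' hs hs' => by
    show φ (f (g * s, g' * s')) (f' (g * s, g' * s')) = φ (f (g, g')) (f' (g, g'))
    rw [h g g' s s' (hle hs).1 (hle hs').1, h' g g' s s' (hle hs).2 (hle hs').2]⟩

lemma IsLC₃.map₂ {X Y Z : Type*} {f : G × G × G → X} {f' : G × G × G → Y} (hf : IsLC₃ 𝓛 f)
    (hf' : IsLC₃ 𝓛 f') (φ : X → Y → Z) : IsLC₃ 𝓛 (fun g => φ (f g) (f' g)) := by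
  obtain ⟨U, hU, h⟩ := hf
  obtain ⟨U', hU', h'⟩ := hf'
  obtain ⟨W, hW, hle⟩ := 𝓛.exists_le_inf U U' hU hU'
  exact ⟨W, hW, fun g g' g'' s s' s'' hs hs' hs'' => by
    show φ (f (g * s, g' * s', g'' * s'')) (f' (g * s, g' * s', g'' * s''))
      = φ (f (g, g', g'')) (f' (g, g', g''))
    rw [h g g' g'' s s' s'' (hle hs).1 (hle hs').1 (hle hs'').1,
      h' g g' g'' s s' s'' (hle hs).2 (hle hs').2 (hle hs'').2]⟩

lemma IsLC₄.map₂ {X Y Z : Type*} {f : G × G × G × G → X} {f' : G × G × G × G → Y}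
    (hf : IsLC₄ 𝓛 f) (hf' : IsLC₄ 𝓛 f') (φ : X → Y → Z) :
    IsLC₄ 𝓛 (fun g => φ (f g) (f' g)) := by
  obtain ⟨U, hU, h⟩ := hf
  obtain ⟨U', hU', h'⟩ := hf'
  obtain ⟨W, hW, hle⟩ := 𝓛.exists_le_inf U U' hU hU'
  exact ⟨W, hW, fun g₁ g₂ g₃ g₄ s₁ s₂ s₃ s₄ h₁ h₂ h₃ h₄ => by
    show φ (f (g₁ * s₁, g₂ * s₂, g₃ * s₃, g₄ * s₄)) (f' (g₁ * s₁, g₂ * s₂, g₃ * s₃, g₄ * s₄))
      = φ (f (g₁, g₂, g₃, g₄)) (f' (g₁, g₂, g₃, g₄))
    rw [h g₁ g₂ g₃ g₄ s₁ s₂ s₃ s₄ (hle h₁).1 (hle h₂).1 (hle h₃).1 (hle h₄).1,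
      h' g₁ g₂ g₃ g₄ s₁ s₂ s₃ s₄ (hle h₁).2 (hle h₂).2 (hle h₃).2 (hle h₄).2]⟩

variable (𝓛)

lemma isLC₁_const {X : Type*} (x : X) : IsLC₁ 𝓛 (fun _ : G => x) := by
  obtain ⟨U, hU⟩ := 𝓛.exists_level
  exact ⟨U, hU, fun _ _ _ => rfl⟩

lemma isLC₂_const {X : Type*} (x : X) : IsLC₂ 𝓛 (fun _ : G × G => x) := by
  obtain ⟨U, hU⟩ := 𝓛.exists_level
  exact ⟨U, hU, fun _ _ _ _ _ _ => rfl⟩

lemma isLC₃_const {X : Type*} (x : X) : IsLC₃ 𝓛 (fun _ : G × G × G => x) := by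
  obtain ⟨U, hU⟩ := 𝓛.exists_level
  exact ⟨U, hU, fun _ _ _ _ _ _ _ _ _ => rfl⟩

lemma isLC₄_const {X : Type*} (x : X) : IsLC₄ 𝓛 (fun _ : G × G × G × G => x) := by
  obtain ⟨U, hU⟩ := 𝓛.exists_level
  exact ⟨U, hU, fun _ _ _ _ _ _ _ _ _ _ _ _ => rfl⟩

/-- restriction along a continuous homomorphism preserves level-constancy -/
lemma IsLC₁.comp_hom {H : Type*} [Group H] {𝓛H : Levels H} {φ : H →* G}
    (hφ : 𝓛H.Continuous 𝓛 φ) {X : Type*} {f : G → X} (hf : IsLC₁ 𝓛 f) :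
    IsLC₁ 𝓛H (fun h => f (φ h)) := by
  obtain ⟨U, hU, h⟩ := hf
  obtain ⟨W, hW, hle⟩ := hφ U hU
  exact ⟨W, hW, fun g s hs => by
    show f (φ (g * s)) = f (φ g)
    rw [map_mul, h _ _ (hle hs)]⟩

lemma IsLC₂.comp_hom {H : Type*} [Group H] {𝓛H : Levels H} {φ : H →* G}
    (hφ : 𝓛H.Continuous 𝓛 φ) {X : Type*} {f : G × G → X} (hf : IsLC₂ 𝓛 f) :
    IsLC₂ 𝓛H (fun h => f (φ h.1, φ h.2)) := by
  obtain ⟨U, hU, h⟩ := hf
  obtain ⟨W, hW, hle⟩ := hφ U hU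
  exact ⟨W, hW, fun g g' s s' hs hs' => by
    show f (φ (g * s), φ (g' * s')) = f (φ g, φ g')
    rw [map_mul, map_mul, h _ _ _ _ (hle hs) (hle hs')]⟩

lemma IsLC₃.comp_hom {H : Type*} [Group H] {𝓛H : Levels H} {φ : H →* G}
    (hφ : 𝓛H.Continuous 𝓛 φ) {X : Type*} {f : G × G × G → X} (hf : IsLC₃ 𝓛 f) :
    IsLC₃ 𝓛H (fun h => f (φ h.1, φ h.2.1, φ h.2.2)) := by
  obtain ⟨U, hU, h⟩ := hf
  obtain ⟨W, hW, hle⟩ := hφ U hU
  exact ⟨W, hW, fun g g' g'' s s' s'' hs hs' hs'' => by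
    show f (φ (g * s), φ (g' * s'), φ (g'' * s'')) = f (φ g, φ g', φ g'')
    rw [map_mul, map_mul, map_mul, h _ _ _ _ _ _ (hle hs) (hle hs') (hle hs'')]⟩

variable {k : Type*} [CommRing k] {V : Type*} [AddCommGroup V] [Module k V]

/-- A representation is smooth if every vector is fixed by some level. -/
def IsSmoothRep (ρ : Representation k G V) : Prop :=
  ∀ v : V, ∃ U, 𝓛.IsLevel U ∧ ∀ s ∈ U, ρ s v = v

end LC

end Fermat.Agent.S55
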