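import Fermat.Agent.S55.Top.ThetaSpec

/-!
# S55 top layer: the duality package `𝒫(V, W, β)` (definition verbatim from `ExtSpec.lean`).
-/

set_option autoImplicit false

namespace Fermat.Agent.S55

variable {k : Type*} [Field k] {G : Type*} [Group G] {𝓛 : Levels G}
  {ι : Type*} {Γ : ι → Type*} [∀ v, Group (Γ v)] (D : LocSys 𝓛 ι Γ)

/-- the duality package `𝒫(V, W, β)` -/
structure DualityPkg {V W Z : Type*} [AddCommGroup V] [Module k V] [AddCommGroup W] [Module k W]
    [AddCommGroup Z] [Module k Z]
    {ρV : Representation k G V} {ρW : Representation k G W} {ρZ : Representation k G Z}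
    {β : V →ₗ[k] W →ₗ[k] Z} (P : PairingData 𝓛 ρV ρW ρZ β) (tr : smHc3 D ρZ →ₗ[k] k) : Prop where
  surj1 : Function.Surjective (theta1 D P tr)
  inj2 : Function.Injective (theta2 D P tr)
  surj2 : Function.Surjective (theta2 D P tr)
  inj3 : Function.Injective (theta3 D P tr)

end Fermat.Agent.S55
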