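import Fermat.Agent.S55.Top.ThetaSpec

/-!
# S55 top layer, leaf T-SHA-A: the abstract formal lemma `theta2_ne_zero_of_theta3`
(section Abstract of `Top/ShaSpec.lean`, statement verbatim).

A short exact sequence of pairings `0 → V₁ → V → V₂ → 0`, `0 → W₂ → W → W₁ → 0` with `θ³_V`
injective, `H⁰(W) → H⁰(W₁)` zero, an equivariant `τ : W₁ → W` with adjoint `τ' : V → V₁`, `θ³_V`
separating the points of `H⁰(W)`, and `q ∈ H⁰(W₁)` with `τ q ≠ 0`: then some `u ∈ H_c²(V₂)` has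
`θ²_{V₂}(u)(δ⁰ q) ≠ 0`.
-/

set_option autoImplicit false

namespace Fermat.Agent.S55

section Abstract

variable {k : Type*} [Field k] {G : Type*} [Group G] {𝓛 : Levels G}
  {ι : Type*} {Γ : ι → Type*} [∀ v, Group (Γ v)] (D : LocSys 𝓛 ι Γ)
  {V₁ V V₂ W₁ W W₂ Z : Type*}
  [AddCommGroup V₁] [Module k V₁] [AddCommGroup V] [Module k V] [AddCommGroup V₂] [Module k V₂]
  [AddCommGroup W₁] [Module k W₁] [AddCommGroup W] [Module k W] [AddCommGroup W₂] [Module k W₂]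
  [AddCommGroup Z] [Module k Z]
  {ρ₁ : Representation k G V₁} {ρ : Representation k G V} {ρ₂ : Representation k G V₂}
  {σ₁ : Representation k G W₁} {σ : Representation k G W} {σ₂ : Representation k G W₂}
  {ρZ : Representation k G Z}
  {β₁ : V₁ →ₗ[k] W₁ →ₗ[k] Z} {β : V →ₗ[k] W →ₗ[k] Z} {β₂ : V₂ →ₗ[k] W₂ →ₗ[k] Z}

/-- (A) the abstract half. -/
theorem theta2_ne_zero_of_theta3 (S : ShortExactPairing 𝓛 ρ₁ ρ ρ₂ σ₁ σ σ₂ ρZ β₁ β β₂)
    (tr : smHc3 D ρZ →ₗ[k] k)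
    (hinj : Function.Injective (theta3 D S.P tr))
    (hsep : ∀ w : ↥(smH0 σ), w ≠ 0 → ∃ x : smHc3 D ρ, theta3 D S.P tr x w ≠ 0)
    (hzero : ∀ w : ↥(smH0 σ), smH0map S.EW.p S.EW.p_equiv w = 0)
    (τ : W₁ →ₗ[k] W) (hτ : IsEquivariant σ₁ σ τ) (τ' : V →ₗ[k] V₁) (hτ' : IsEquivariant ρ ρ₁ τ')
    (hadj : ∀ v w₁, β₁ (τ' v) w₁ = β v (τ w₁))
    (q : ↥(smH0 σ₁)) (hq : τ (q : W₁) ≠ 0) :
    ∃ u : smHc2 D ρ₂, theta2 D S.P₂ tr u (conn0 S.EW S.P₂.smW S.P.smW q) ≠ 0 := by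
  -- (1) `i_* = 0` on `H_c³(V₁)`
  have h1 : ∀ x : smHc3 D ρ₁, smHc3map D S.EV.i S.EV.i_equiv x = 0 := by
    intro x
    apply hinj
    rw [map_zero]
    ext w
    rw [theta3_natural D S.P₁ S.P tr S.EV.i S.EW.p S.EV.i_equiv S.EW.p_equiv S.adj₁ x w,
      hzero w, map_zero, LinearMap.zero_apply]
  -- (2) hence `δ_c : H_c²(V₂) → H_c³(V₁)` is onto
  have h2 : ∀ x : smHc3 D ρ₁, ∃ u : smHc2 D ρ₂, connc2 D S.EV S.P₁.smV S.P.smV u = x :=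
    fun x => (exact_connc2_smHc3map D S.EV S.P₁.smV S.P.smV x).1 (h1 x)
  -- (3) a class `x ∈ H_c³(V₁)` with `θ³_{V₁}(x)(q) ≠ 0`
  have hw0 : smH0map τ hτ q ≠ 0 := by
    intro h
    apply hq
    have := congrArg Subtype.val h
    exact this
  obtain ⟨x', hx'⟩ := hsep _ hw0
  have h3 : theta3 D S.P₁ tr (smHc3map D τ' hτ' x') q ≠ 0 := by
    rw [theta3_natural D S.P S.P₁ tr τ' τ hτ' hτ hadj x' q]
    exact hx'
  -- (4) write `x = δ_c u` and use the compatibility of `θ` with the connecting maps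
  obtain ⟨u, hu⟩ := h2 (smHc3map D τ' hτ' x')
  refine ⟨u, ?_⟩
  rw [← hu, theta3_connc2 D S tr u q] at h3
  exact fun h => h3 (by rw [h, neg_zero])

end Abstract

end Fermat.Agent.S55
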