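import Fermat.Agent.S55.Top.DevSpec

/-!
# S55 top layer, leaf T-SHA-B: linear algebra of perfect pairs
(exact statements of `ShaSpec.lean`, section PerfectPairs: `exists_adjoint`,
`exists_shortExactPairing_of_adjoint`).  Helper names carry the prefix `shab`.
Black box used: `ShortExactRep.exists_of_exact` (LesSpec / LesG).
-/

set_option autoImplicit false
set_option linter.unusedSectionVars false
set_option linter.style.haveILetI false

namespace Fermat.Agent.S55

section ShabLinear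

variable {k : Type*} [Field k] {V W : Type*} [AddCommGroup V] [Module k V]
  [AddCommGroup W] [Module k W]

/-- a bilinear form which is nondegenerate on both sides, on finite-dimensional spaces, is a
perfect pairing -/
theorem shab_isPerfPair [FiniteDimensional k V] (β : V →ₗ[k] W →ₗ[k] k)
    (hl : ∀ v, (∀ w, β v w = 0) → v = 0) (hr : ∀ w, (∀ v, β v w = 0) → w = 0) :
    β.IsPerfPair := by
  apply LinearMap.IsPerfPair.of_injective
  · rw [injective_iff_map_eq_zero]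
    intro v hv
    exact hl v (fun w => by rw [hv]; rfl)
  · rw [injective_iff_map_eq_zero]
    intro w hw
    exact hr w (fun v => by
      have := LinearMap.congr_fun hw v
      simpa using this)

/-- the pairing induced on `ker π × (W ⧸ range i)` by a pairing `β` on `V × W` when
`β v (i w₂) = β₂ (π v) w₂` -/
def shabPair {V₂ W₂ : Type*} [AddCommGroup V₂] [Module k V₂] [AddCommGroup W₂] [Module k W₂]
    (β : V →ₗ[k] W →ₗ[k] k) (β₂ : V₂ →ₗ[k] W₂ →ₗ[k] k) (i : W₂ →ₗ[k] W) (π : V →ₗ[k] V₂)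
    (hadj : ∀ v w₂, β₂ (π v) w₂ = β v (i w₂)) :
    ↥(LinearMap.ker π) →ₗ[k] (W ⧸ LinearMap.range i) →ₗ[k] k where
  toFun v₁ := (LinearMap.range i).liftQ (β (v₁ : V)) (by
    rintro _ ⟨w₂, rfl⟩
    rw [LinearMap.mem_ker, ← hadj, LinearMap.mem_ker.mp v₁.2, map_zero, LinearMap.zero_apply])
  map_add' v₁ v₁' := by
    apply Submodule.linearMap_qext
    ext w
    simp
  map_smul' c v₁ := by
    apply Submodule.linearMap_qext
    ext w
    simp

@[simp] theorem shabPair_mk {V₂ W₂ : Type*} [AddCommGroup V₂] [Module k V₂] [AddCommGroup W₂]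
    [Module k W₂]
    (β : V →ₗ[k] W →ₗ[k] k) (β₂ : V₂ →ₗ[k] W₂ →ₗ[k] k) (i : W₂ →ₗ[k] W) (π : V →ₗ[k] V₂)
    (hadj : ∀ v w₂, β₂ (π v) w₂ = β v (i w₂)) (v₁ : ↥(LinearMap.ker π)) (w : W) :
    shabPair β β₂ i π hadj v₁ (Submodule.Quotient.mk w) = β (v₁ : V) w := rfl

end ShabLinear


section ShabLinear2

variable {k : Type*} [Field k] {V W V₂ W₂ : Type*} [AddCommGroup V] [Module k V]
  [AddCommGroup W] [Module k W] [AddCommGroup V₂] [Module k V₂] [AddCommGroup W₂] [Module k W₂]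
  (β : V →ₗ[k] W →ₗ[k] k) (β₂ : V₂ →ₗ[k] W₂ →ₗ[k] k) (i : W₂ →ₗ[k] W) (π : V →ₗ[k] V₂)
  (hadj : ∀ v w₂, β₂ (π v) w₂ = β v (i w₂))

include hadj in
theorem shab_surjective (hβr : ∀ w, (∀ v, β v w = 0) → w = 0) (hinj : Function.Injective i)
    (hβ₂ : β₂.IsPerfPair) : Function.Surjective π := by
  rw [← LinearMap.range_eq_top]
  by_contra hne
  obtain ⟨f, hf0, hf⟩ := Submodule.exists_le_ker_of_lt_top (LinearMap.range π)
    (lt_top_iff_ne_top.mpr hne)
  obtain ⟨w₂, hw₂⟩ := hβ₂.bijective_right.2 f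
  have h1 : i w₂ = 0 := by
    apply hβr
    intro v
    rw [← hadj]
    have : β₂ (π v) w₂ = f (π v) := by rw [← hw₂]; rfl
    rw [this]
    exact hf ⟨v, rfl⟩
  have h2 : w₂ = 0 := hinj (h1.trans (map_zero i).symm)
  rw [h2, map_zero] at hw₂
  exact hf0 hw₂.symm

include hadj in
theorem shab_mem_range (hsurj : Function.Surjective π) (hβ₂ : β₂.IsPerfPair)
    (hβr : ∀ w, (∀ v, β v w = 0) → w = 0) (w : W)
    (h : ∀ v₁ ∈ LinearMap.ker π, β v₁ w = 0) : w ∈ LinearMap.range i := by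
  obtain ⟨s, hs⟩ := π.exists_rightInverse_of_surjective (LinearMap.range_eq_top.mpr hsurj)
  obtain ⟨w₂, hw₂⟩ := hβ₂.bijective_right.2 ((β.flip w).comp s)
  refine ⟨w₂, ?_⟩
  apply sub_eq_zero.mp
  apply hβr
  intro v
  rw [map_sub, ← hadj]
  have h1 : β₂ (π v) w₂ = β (s (π v)) w := by
    have := LinearMap.congr_fun hw₂ (π v)
    simpa using this
  rw [h1, ← LinearMap.sub_apply, ← map_sub]
  have h2 : s (π v) - v ∈ LinearMap.ker π := by
    rw [LinearMap.mem_ker, map_sub, sub_eq_zero]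
    exact LinearMap.congr_fun hs (π v)
  exact h _ h2

end ShabLinear2


section PerfectPairs

universe u

variable {k : Type u} [Field k] [Finite k] {G : Type u} [Group G] (𝓛 : Levels G) (χ : G →* kˣ)
  {V W V₁ W₁ V₂ W₂ : Type u} [AddCommGroup V] [Module k V] [AddCommGroup W] [Module k W]
  [AddCommGroup V₁] [Module k V₁] [AddCommGroup W₁] [Module k W₁]
  [AddCommGroup V₂] [Module k V₂] [AddCommGroup W₂] [Module k W₂]
  {ρV : Representation k G V} {ρW : Representation k G W}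
  {ρ₁ : Representation k G V₁} {σ₁ : Representation k G W₁}
  {ρ₂ : Representation k G V₂} {σ₂ : Representation k G W₂}
  {β : V →ₗ[k] W →ₗ[k] k} {β₁ : V₁ →ₗ[k] W₁ →ₗ[k] k} {β₂ : V₂ →ₗ[k] W₂ →ₗ[k] k}

theorem PerfPair.shab_isPerfPair {𝓛 : Levels G} {χ : G →* kˣ} (hP : PerfPair 𝓛 χ ρV ρW β) :
    β.IsPerfPair :=
  haveI := hP.finV
  Fermat.Agent.S55.shab_isPerfPair β hP.nondeg_left hP.nondeg_right

/-- (B1) adjoint of an equivariant map with respect to a perfect pair on the target side -/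
theorem exists_adjoint (hP₁ : PerfPair 𝓛 χ ρ₁ σ₁ β₁)
    (hβ : IsEquivariant₂ ρV ρW (chiRep χ) β)
    (τ : W₁ →ₗ[k] W) (hτ : IsEquivariant σ₁ ρW τ) :
    ∃ τ' : V →ₗ[k] V₁, IsEquivariant ρV ρ₁ τ' ∧ ∀ v w₁, β₁ (τ' v) w₁ = β v (τ w₁) := by
  have hperf := hP₁.shab_isPerfPair
  let e : V₁ ≃ₗ[k] Module.Dual k W₁ := LinearEquiv.ofBijective β₁ hperf.bijective_left
  let τ' : V →ₗ[k] V₁ := e.symm.toLinearMap.comp (τ.dualMap.comp β)
  have hadj : ∀ v w₁, β₁ (τ' v) w₁ = β v (τ w₁) := by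
    intro v w₁
    have h1 : β₁ (τ' v) = τ.dualMap (β v) := e.apply_symm_apply _
    rw [h1]
    rfl
  refine ⟨τ', ?_, hadj⟩
  intro g v
  apply sub_eq_zero.mp
  apply hP₁.nondeg_left
  intro w₁
  rw [map_sub, LinearMap.sub_apply, sub_eq_zero, hadj]
  -- write `w₁ = σ₁ g w'`
  obtain ⟨w', rfl⟩ : ∃ w', σ₁ g w' = w₁ := ⟨σ₁ g⁻¹ w₁, by
    rw [← Module.End.mul_apply, ← map_mul, mul_inv_cancel, map_one]; rfl⟩
  rw [hP₁.pd.equiv g (τ' v) w', hadj, hτ g w', hβ g v (τ w')]

theorem shab_isSmoothRep_sub {ρ : Representation k G V} (h : IsSmoothRep 𝓛 ρ) (p : Submodule k V)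
    (hp : ∀ g, p ≤ p.comap (ρ g)) : IsSmoothRep 𝓛 (ρ.subrepresentation p hp) := by
  intro v
  obtain ⟨U, hU, hfix⟩ := h (v : V)
  exact ⟨U, hU, fun s hs => Subtype.ext (hfix s hs)⟩

theorem shab_isSmoothRep_quot {ρ : Representation k G V} (h : IsSmoothRep 𝓛 ρ) (p : Submodule k V)
    (hp : ∀ g, p ≤ p.comap (ρ g)) : IsSmoothRep 𝓛 (ρ.quotient p hp) := by
  intro v
  induction v using Submodule.Quotient.induction_on with
  | _ v =>
    obtain ⟨U, hU, hfix⟩ := h v
    refine ⟨U, hU, fun s hs => ?_⟩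
    change Submodule.Quotient.mk (ρ s v) = _
    rw [hfix s hs]

/-- (B2) an equivariant injection `ι : W₂ → W` between the `W`-sides of two perfect pairs, with
adjoint `π : V → V₂`, gives a short exact sequence of pairings
`0 → ker π → V → V₂ → 0`, `0 → W₂ → W → W / ι W₂ → 0` whose third pair is perfect again. -/
theorem exists_shortExactPairing_of_adjoint (hP : PerfPair 𝓛 χ ρV ρW β)
    (hP₂ : PerfPair 𝓛 χ ρ₂ σ₂ β₂)
    (i : W₂ →ₗ[k] W) (hi : IsEquivariant σ₂ ρW i) (hinj : Function.Injective i)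
    (π : V →ₗ[k] V₂) (hπ : IsEquivariant ρV ρ₂ π) (hadj : ∀ v w₂, β₂ (π v) w₂ = β v (i w₂)) :
    ∃ (hV₁ : ∀ g, LinearMap.ker π ≤ (LinearMap.ker π).comap (ρV g))
      (hW₂ : ∀ g, LinearMap.range i ≤ (LinearMap.range i).comap (ρW g))
      (β₁ : ↥(LinearMap.ker π) →ₗ[k] (W ⧸ LinearMap.range i) →ₗ[k] k)
      (S : ShortExactPairing 𝓛 (ρV.subrepresentation _ hV₁) ρV ρ₂
        (ρW.quotient _ hW₂) ρW σ₂ (chiRep χ) β₁ β β₂),
      S.EV.i = (LinearMap.ker π).subtype ∧ S.EV.p = π ∧ S.EW.i = i ∧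
      S.EW.p = (LinearMap.range i).mkQ ∧
      PerfPair 𝓛 χ (ρV.subrepresentation _ hV₁) (ρW.quotient _ hW₂) β₁ ∧
      ∀ (v₁ : ↥(LinearMap.ker π)) (w : W), β₁ v₁ (Submodule.Quotient.mk w) = β (v₁ : V) w := by
  have hV₁ : ∀ g, LinearMap.ker π ≤ (LinearMap.ker π).comap (ρV g) := by
    intro g v hv
    rw [Submodule.mem_comap, LinearMap.mem_ker, hπ g v, LinearMap.mem_ker.mp hv, map_zero]
  have hW₂ : ∀ g, LinearMap.range i ≤ (LinearMap.range i).comap (ρW g) := by
    rintro g _ ⟨w₂, rfl⟩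
    rw [Submodule.mem_comap, ← hi g w₂]
    exact ⟨_, rfl⟩
  have hperf₂ := hP₂.shab_isPerfPair
  have hsurj : Function.Surjective π :=
    shab_surjective β β₂ i π hadj hP.nondeg_right hinj hperf₂
  -- the two short exact sequences
  obtain ⟨EV, hEVi, hEVp⟩ := ShortExactRep.exists_of_exact
    (ρ₁ := ρV.subrepresentation _ hV₁) (ρ := ρV) (ρ₂ := ρ₂)
    (LinearMap.ker π).subtype π (fun g v => rfl) hπ (Submodule.subtype_injective _) hsurj
    (fun v => by
      rw [Set.mem_range]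
      constructor
      · intro hv
        exact ⟨⟨v, hv⟩, rfl⟩
      · rintro ⟨v₁, rfl⟩
        exact v₁.2)
  obtain ⟨EW, hEWi, hEWp⟩ := ShortExactRep.exists_of_exact
    (ρ₁ := σ₂) (ρ := ρW) (ρ₂ := ρW.quotient _ hW₂)
    i (LinearMap.range i).mkQ hi (fun g w => rfl) hinj (Submodule.mkQ_surjective _)
    (fun w => by
      rw [Submodule.mkQ_apply, Submodule.Quotient.mk_eq_zero]
      rfl)
  have hP₁ : PairingData 𝓛 (ρV.subrepresentation _ hV₁) (ρW.quotient _ hW₂) (chiRep χ)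
      (shabPair β β₂ i π hadj) :=
    { smV := shab_isSmoothRep_sub 𝓛 hP.pd.smV _ hV₁
      smW := shab_isSmoothRep_quot 𝓛 hP.pd.smW _ hW₂
      smZ := hP.pd.smZ
      equiv := by
        intro g v₁ w
        induction w using Submodule.Quotient.induction_on with
        | _ w => exact hP.pd.equiv g (v₁ : V) w }
  refine ⟨hV₁, hW₂, shabPair β β₂ i π hadj,
    { EV := EV, EW := EW, P₁ := hP₁, P := hP.pd, P₂ := hP₂.pd, adj₁ := ?_, adj₂ := ?_ },
    hEVi, hEVp, hEWi, hEWp, ?_, fun v₁ w => rfl⟩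
  · intro v₁ w
    rw [hEVi, hEWp]
    rfl
  · intro v w₂
    rw [hEWi, hEVp, hadj]
  · haveI := hP.finV
    haveI := hP.finW
    exact
      { finV := inferInstance
        finW := inferInstance
        pd := hP₁
        nondeg_left := by
          intro v₁ h
          apply Subtype.ext
          apply hP.nondeg_left
          intro w
          exact h (Submodule.Quotient.mk w)
        nondeg_right := by
          intro w h
          induction w using Submodule.Quotient.induction_on with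
          | _ w =>
            rw [Submodule.Quotient.mk_eq_zero]
            exact shab_mem_range β β₂ i π hadj hsurj hperf₂ hP.nondeg_right w
              (fun v₁ hv₁ => h ⟨v₁, hv₁⟩) }

end PerfectPairs

end Fermat.Agent.S55
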