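import Fermat.Agent.S55.Top.CritSpec
import Fermat.Agent.S55.Top.DevSpec
import Fermat.Agent.S55.Top.ShaA
import Fermat.Agent.S55.Top.ShaB

/-!
# S55 top layer, leaf T-SHA-C: the concrete (induced module) part of the formal Ш lemma.

`theta2_base_ne_zero`: if `θ³` is injective and nonzero for all base pairs `B_{H'} = Ind_{H'}^G k`
then for every `y ≠ 0` in `H¹(G, B_H)` there is `u ∈ H_c²(B_H)` with `θ²(u)(y) ≠ 0`.
-/

set_option autoImplicit false

namespace Fermat.Agent.S55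

section Base

universe u

variable {k : Type u} [Field k] [Finite k] {G : Type u} [Group G] {𝓛 : Levels G}
  {ι : Type*} {Γ : ι → Type*} [∀ v, Group (Γ v)] (D : LocSys 𝓛 ι Γ) (χ : G →* kˣ)

/-- the constant function `1`, the generator of `H⁰(G, Ind_H^G k)` -/
def baseOne (H : Subgroup G) : ↥(smH0 (indRep H (trivRep (k := k) H))) :=
  ⟨⟨fun _ => 1, fun _ _ => rfl⟩, by
    show dd0 _ _ = 0
    ext g x
    simp only [dd0_apply, Pi.zero_apply]
    show (1 : k) - 1 = 0
    exact sub_self _⟩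

/-- left invariance of the elements of `Ind_H^G k` -/
theorem shac_apply_mul {H : Subgroup G} (F : ↥(indSpace H (trivRep (k := k) H))) {h : G}
    (hh : h ∈ H) (g : G) : F.1 (h * g) = F.1 g := F.2 ⟨h, hh⟩ g

theorem shac_apply_mem {H : Subgroup G} (F : ↥(indSpace H (trivRep (k := k) H))) {h : G}
    (hh : h ∈ H) : F.1 h = F.1 1 := by
  have := shac_apply_mul F hh 1
  rwa [mul_one] at this

/-- every invariant of `Ind_H^G k` is a constant function -/
theorem smH0_base_eq (H : Subgroup G) (w : ↥(smH0 (indRep H (trivRep (k := k) H)))) :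
    w = ((w : ↥(indSpace H (trivRep (k := k) H))) : G → k) 1 • baseOne H := by
  have hw : dd0 (indRep H (trivRep (k := k) H)) w.1 = 0 := w.2
  apply Subtype.ext
  apply Subtype.ext
  funext g
  have h1 := congrFun hw g
  rw [dd0_apply, Pi.zero_apply, sub_eq_zero] at h1
  have h2 := congrArg (fun F : ↥(indSpace H (trivRep (k := k) H)) => F.1 1) h1
  simp only [indRep_apply, one_mul] at h2
  show w.1.1 g = w.1.1 1 • (1 : k)
  rw [smul_eq_mul, mul_one]
  exact h2

/-- the base pairing is symmetric -/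
theorem basePairing_flip (H : Subgroup G) : (basePairing χ H).flip = basePairing (k := k) χ H := by
  have h1 : (LinearMap.mul k k).flip = LinearMap.mul k k := by
    refine LinearMap.ext fun a => LinearMap.ext fun b => ?_
    rw [LinearMap.flip_apply, LinearMap.mul_apply', LinearMap.mul_apply']
    exact mul_comm b a
  show (indPairing H (trivRep H) (trivRep H) χ (LinearMap.mul k k)).flip = _
  rw [indPairing_flip, h1]

/-! ### a cocycle with values in `Ind_H^G k` -/

section Cocycle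

variable {H : Subgroup G} (f : G → ↥(indSpace H (trivRep (k := k) H)))

/-- `F' x = f x 1` -/
def shacF : G → k := fun x => (f x).1 1

variable {f} (hf : dd1 (indRep H (trivRep (k := k) H)) f = 0)
include hf

theorem shac_cocycle_apply (g h x : G) :
    (f (g * h)).1 x = (f h).1 (x * g) + (f g).1 x := by
  have h1 := congrFun hf (g, h)
  rw [dd1_apply, Pi.zero_apply] at h1
  have h2 := congrArg (fun F : ↥(indSpace H (trivRep (k := k) H)) => F.1 x) h1
  simp only [Submodule.coe_add, Submodule.coe_sub, Pi.add_apply, Pi.sub_apply, indRep_apply,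
    Submodule.coe_zero, Pi.zero_apply] at h2
  linear_combination (-1 : k) * h2

/-- `f g' = g' • F' - F'` -/
theorem shac_apply (g' x : G) : (f g').1 x = shacF f (x * g') - shacF f x := by
  have h1 := shac_cocycle_apply hf x g' 1
  rw [one_mul] at h1
  unfold shacF
  linear_combination (-1 : k) * h1

theorem shacF_mul {h : G} (hh : h ∈ H) (x : G) : shacF f (h * x) = shacF f h + shacF f x := by
  have h1 := shac_cocycle_apply hf h x 1
  rw [one_mul, shac_apply_mem (f x) hh] at h1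
  unfold shacF
  linear_combination h1

theorem shacF_one : shacF f 1 = 0 := by
  have h1 := shacF_mul hf H.one_mem 1
  rw [mul_one] at h1
  linear_combination (-1 : k) * h1

/-- the kernel of `F'` on `H` -/
def shacKer : Subgroup G where
  carrier := {g | g ∈ H ∧ shacF f g = 0}
  one_mem' := ⟨H.one_mem, shacF_one hf⟩
  mul_mem' := by
    rintro a b ⟨ha, ha0⟩ ⟨hb, hb0⟩
    exact ⟨H.mul_mem ha hb, by rw [shacF_mul hf ha b, ha0, hb0, add_zero]⟩
  inv_mem' := by
    rintro a ⟨ha, ha0⟩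
    refine ⟨H.inv_mem ha, ?_⟩
    have h1 := shacF_mul hf (H.inv_mem ha) a
    rw [inv_mul_cancel, shacF_one hf, ha0, add_zero] at h1
    exact h1.symm

theorem mem_shacKer {g : G} : g ∈ shacKer hf ↔ g ∈ H ∧ shacF f g = 0 := Iff.rfl

theorem shacKer_le : shacKer hf ≤ H := fun _ hg => hg.1

theorem shacKer_conj {s : G} (hs : s ∈ H) {h' : G} (hh' : h' ∈ shacKer hf) :
    s⁻¹ * h' * s ∈ shacKer hf := by
  refine ⟨H.mul_mem (H.mul_mem (H.inv_mem hs) hh'.1) hs, ?_⟩
  have h1 := shacF_mul hf (H.inv_mem hs) (h' * s)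
  have h2 := shacF_mul hf hh'.1 s
  have h3 := shacF_mul hf (H.inv_mem hs) s
  rw [inv_mul_cancel, shacF_one hf] at h3
  rw [mul_assoc, h1, h2, hh'.2]
  linear_combination (-1 : k) * h3

theorem shacKer_isOpen (hH : 𝓛.IsOpen H) (hLC : IsLC₁ 𝓛 f) : 𝓛.IsOpen (shacKer hf) := by
  obtain ⟨U, hU, hfU⟩ := hLC
  obtain ⟨U₀, hU₀, hU₀H⟩ := hH
  obtain ⟨U₁, hU₁, hle⟩ := 𝓛.exists_le_inf U U₀ hU hU₀
  refine ⟨U₁, hU₁, fun u hu => ⟨hU₀H (hle hu).2, ?_⟩⟩
  have h1 := hfU 1 u (hle hu).1
  rw [one_mul] at h1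
  show (f u).1 1 = 0
  rw [h1]
  exact shacF_one hf

/-- `F'` is left invariant under the kernel -/
theorem shacF_mem_indSpace :
    shacF f ∈ indSpace (shacKer hf) (trivRep (k := k) (shacKer hf)) := by
  intro h' x
  show shacF f ((h' : G) * x) = shacF f x
  rw [shacF_mul hf h'.2.1 x, h'.2.2, zero_add]

end Cocycle

/-! ### the inclusion `Ind_H k ⊆ Ind_{H'} k` and the operator `L_s - 1` -/

section Incl

variable {H H' : Subgroup G} (hle : H' ≤ H)

include hle in
theorem shac_indSpace_le :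
    indSpace H (trivRep (k := k) H) ≤ indSpace H' (trivRep (k := k) H') :=
  fun _ hF h' g => hF ⟨h', hle h'.2⟩ g

variable (k)

/-- the inclusion `Ind_H k → Ind_{H'} k` for `H' ≤ H` -/
def shacIncl : ↥(indSpace H (trivRep (k := k) H)) →ₗ[k] ↥(indSpace H' (trivRep (k := k) H')) :=
  Submodule.inclusion (shac_indSpace_le hle)

@[simp] theorem shacIncl_apply_val (F : ↥(indSpace H (trivRep (k := k) H))) :
    (shacIncl k hle F).1 = F.1 := rfl

theorem shacIncl_injective : Function.Injective (shacIncl k hle) :=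
  Submodule.inclusion_injective _

theorem shacIncl_equivariant :
    IsEquivariant (indRep H (trivRep (k := k) H)) (indRep H' (trivRep (k := k) H'))
      (shacIncl k hle) :=
  fun _ _ => rfl

theorem shacIncl_baseOne : shacIncl k hle (baseOne (k := k) H).1 = (baseOne H').1 := rfl

variable {s : G} (hs : s ∈ H) (hnorm : ∀ h' ∈ H', s⁻¹ * h' * s ∈ H')

/-- `(L_s F) x = F (s⁻¹ x)` on `Ind_{H'} k`, for `s` normalising `H'` -/
def shacL : ↥(indSpace H' (trivRep (k := k) H')) →ₗ[k] ↥(indSpace H' (trivRep (k := k) H')) where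
  toFun F := ⟨fun x => F.1 (s⁻¹ * x), fun h' x => by
    show F.1 (s⁻¹ * ((h' : G) * x)) = F.1 (s⁻¹ * x)
    have h1 : s⁻¹ * ((h' : G) * x) = (s⁻¹ * (h' : G) * s) * (s⁻¹ * x) := by group
    rw [h1]
    exact shac_apply_mul F (hnorm h' h'.2) _⟩
  map_add' _ _ := rfl
  map_smul' _ _ := rfl

@[simp] theorem shacL_apply_val (F : ↥(indSpace H' (trivRep (k := k) H'))) (x : G) :
    (shacL k hnorm F).1 x = F.1 (s⁻¹ * x) := rfl

theorem shacL_equivariant (g : G) (F : ↥(indSpace H' (trivRep (k := k) H'))) :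
    shacL k hnorm (indRep H' (trivRep (k := k) H') g F)
      = indRep H' (trivRep (k := k) H') g (shacL k hnorm F) := by
  apply Subtype.ext
  funext x
  show F.1 (s⁻¹ * x * g) = F.1 (s⁻¹ * (x * g))
  rw [mul_assoc]

/-- `L_s - 1` -/
def shacLsub : ↥(indSpace H' (trivRep (k := k) H')) →ₗ[k] ↥(indSpace H' (trivRep (k := k) H')) :=
  shacL k hnorm - LinearMap.id

theorem shacLsub_apply (F : ↥(indSpace H' (trivRep (k := k) H'))) :
    shacLsub k hnorm F = shacL k hnorm F - F := rfl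

include hs in
theorem shacL_sub_id_incl (F : ↥(indSpace H (trivRep (k := k) H))) :
    shacLsub k hnorm (shacIncl k hle F) = 0 := by
  apply Subtype.ext
  funext x
  show F.1 (s⁻¹ * x) - F.1 x = 0
  rw [shac_apply_mul F (H.inv_mem hs) x, sub_self]

include hs in
theorem shac_range_le_ker :
    LinearMap.range (shacIncl k hle) ≤ LinearMap.ker (shacLsub k hnorm) := by
  rintro _ ⟨F, rfl⟩
  exact shacL_sub_id_incl k hle hs hnorm F

/-- `τ : Ind_{H'} k ⧸ Ind_H k → Ind_{H'} k` induced by `L_s - 1` -/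
def shacTau : (↥(indSpace H' (trivRep (k := k) H')) ⧸ LinearMap.range (shacIncl k hle))
    →ₗ[k] ↥(indSpace H' (trivRep (k := k) H')) :=
  (LinearMap.range (shacIncl k hle)).liftQ (shacLsub k hnorm)
    (shac_range_le_ker k hle hs hnorm)

theorem shacTau_mk (F : ↥(indSpace H' (trivRep (k := k) H'))) :
    shacTau k hle hs hnorm (Submodule.Quotient.mk F) = shacL k hnorm F - F := rfl

theorem shacTau_equivariant
    (hW₂ : ∀ g, LinearMap.range (shacIncl k hle)
      ≤ (LinearMap.range (shacIncl k hle)).comap (indRep H' (trivRep (k := k) H') g)) :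
    IsEquivariant ((indRep H' (trivRep (k := k) H')).quotient _ hW₂)
      (indRep H' (trivRep (k := k) H')) (shacTau k hle hs hnorm) := by
  intro g w
  obtain ⟨F, rfl⟩ := Submodule.mkQ_surjective _ w
  show shacTau k hle hs hnorm (Submodule.Quotient.mk (indRep H' (trivRep (k := k) H') g F)) = _
  rw [shacTau_mk]
  show _ = indRep H' (trivRep (k := k) H') g (shacTau k hle hs hnorm (Submodule.Quotient.mk F))
  rw [shacTau_mk, map_sub, shacL_equivariant]

end Incl

/-- the core of (C): the abstract lemma applied to `0 → Ind_H k → Ind_{H'} k → Q → 0` -/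
theorem shac_theta2_ne_zero_aux (hχ : ∃ U, 𝓛.IsLevel U ∧ U ≤ χ.ker)
    (tr : smHc3 D (chiRep χ) →ₗ[k] k)
    (h3 : ∀ H' : Subgroup G, 𝓛.IsOpen H' → H' ≤ χ.ker →
      ∀ P' : PairingData 𝓛 (indRep H' (trivRep (k := k) H')) (indRep H' (trivRep (k := k) H'))
        (chiRep χ) (basePairing χ H'),
      Function.Injective (theta3 D P' tr) ∧ ∃ x, theta3 D P' tr x (baseOne H') ≠ 0)
    (H : Subgroup G) (hH : 𝓛.IsOpen H) (hHχ : H ≤ χ.ker)
    (P : PairingData 𝓛 (indRep H (trivRep (k := k) H)) (indRep H (trivRep (k := k) H))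
      (chiRep χ) (basePairing χ H))
    (H' : Subgroup G) (hle : H' ≤ H) (hH' : 𝓛.IsOpen H')
    {s : G} (hs : s ∈ H) (hnorm : ∀ h' ∈ H', s⁻¹ * h' * s ∈ H')
    (f : G → ↥(indSpace H (trivRep (k := k) H)))
    (hfmem : f ∈ smZ1 𝓛 (indRep H (trivRep (k := k) H)))
    (F' : ↥(indSpace H' (trivRep (k := k) H')))
    (hdiff : ∀ g, indRep H' (trivRep (k := k) H') g F' - F' = shacIncl k hle (f g))
    (hF's : shacLsub k hnorm F' ≠ 0) :
    ∃ u : smHc2 D (indRep H (trivRep (k := k) H)),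
      theta2 D P tr u (smH1π 𝓛 (indRep H (trivRep (k := k) H)) ⟨f, hfmem⟩) ≠ 0 := by
  classical
  have hH'χ : H' ≤ χ.ker := hle.trans hHχ
  -- perfect pairs
  have hPH := basePairing_perfPair (k := k) 𝓛 χ hχ H hH hHχ
  have hPH' := basePairing_perfPair (k := k) 𝓛 χ hχ H' hH' hH'χ
  obtain ⟨π, hπ, hπadj⟩ := exists_adjoint 𝓛 χ hPH hPH'.pd.equiv (shacIncl k hle)
    (shacIncl_equivariant k hle)
  obtain ⟨hV₁, hW₂, β₁, S, -, -, hSWi, hSWp, hP₁, -⟩ :=
    exists_shortExactPairing_of_adjoint 𝓛 χ hPH' hPH (shacIncl k hle)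
      (shacIncl_equivariant k hle) (shacIncl_injective k hle) π hπ hπadj
  have hτ := shacTau_equivariant k hle hs hnorm hW₂
  obtain ⟨τ', hτ', hτadj⟩ := exists_adjoint 𝓛 χ hP₁ hPH'.pd.equiv (shacTau k hle hs hnorm) hτ
  -- the class `q = [F']`
  have hq0 : dd0 ((indRep H' (trivRep (k := k) H')).quotient _ hW₂)
      ((LinearMap.range (shacIncl k hle)).mkQ F') = 0 := by
    funext g
    show (LinearMap.range (shacIncl k hle)).mkQ (indRep H' (trivRep (k := k) H') g F')
      - (LinearMap.range (shacIncl k hle)).mkQ F' = 0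
    rw [← map_sub, hdiff, Submodule.mkQ_apply, Submodule.Quotient.mk_eq_zero]
    exact ⟨_, rfl⟩
  obtain ⟨q, hqdef⟩ : ∃ q : ↥(smH0 ((indRep H' (trivRep (k := k) H')).quotient _ hW₂)),
      (q : ↥(indSpace H' (trivRep (k := k) H')) ⧸ LinearMap.range (shacIncl k hle))
        = (LinearMap.range (shacIncl k hle)).mkQ F' := ⟨⟨_, hq0⟩, rfl⟩
  have hq : shacTau k hle hs hnorm
      (q : ↥(indSpace H' (trivRep (k := k) H')) ⧸ LinearMap.range (shacIncl k hle)) ≠ 0 := by
    rw [hqdef]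
    exact hF's
  -- hypotheses of the abstract lemma
  have h3' := h3 H' hH' hH'χ S.P
  have hsep : ∀ w : ↥(smH0 (indRep H' (trivRep (k := k) H'))), w ≠ 0 →
      ∃ x : smHc3 D (indRep H' (trivRep (k := k) H')), theta3 D S.P tr x w ≠ 0 := by
    intro w hw
    obtain ⟨x, hx⟩ := h3'.2
    refine ⟨x, ?_⟩
    rw [smH0_base_eq H' w, map_smul, smul_eq_mul]
    refine mul_ne_zero ?_ hx
    intro hc
    apply hw
    rw [smH0_base_eq H' w, hc, zero_smul]
  have hzero : ∀ w : ↥(smH0 (indRep H' (trivRep (k := k) H'))),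
      smH0map S.EW.p S.EW.p_equiv w = 0 := by
    intro w
    apply Subtype.ext
    show S.EW.p w.1 = 0
    rw [hSWp, smH0_base_eq H' w]
    show (LinearMap.range (shacIncl k hle)).mkQ (_ • (baseOne H').1) = 0
    rw [map_smul, ← shacIncl_baseOne k hle, Submodule.mkQ_apply,
      (Submodule.Quotient.mk_eq_zero (LinearMap.range (shacIncl k hle))).2
        (LinearMap.mem_range_self _ _), smul_zero]
  obtain ⟨u, hu⟩ := theta2_ne_zero_of_theta3 D S tr h3'.1 hsep hzero
    (shacTau k hle hs hnorm) hτ τ' hτ' hτadj q hq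
  refine ⟨u, ?_⟩
  -- `δ⁰ q = y`
  have hti : ∀ x, S.EW.t (shacIncl k hle x) = x := by
    intro x
    have h1 := S.EW.t_i x
    rwa [hSWi] at h1
  have hconn : conn0 S.EW S.P₂.smW S.P.smW q
      = smH1π 𝓛 (indRep H (trivRep (k := k) H)) ⟨f, hfmem⟩ := by
    have hps : S.EW.p (S.EW.s (q : _ ⧸ _)) = (q : _ ⧸ _) := S.EW.p_s _
    rw [hSWp] at hps
    have hmem : S.EW.s (q : _ ⧸ _) - F' ∈ LinearMap.range (shacIncl k hle) := by
      rw [← Submodule.Quotient.mk_eq_zero, ← Submodule.mkQ_apply, map_sub]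
      exact sub_eq_zero.2 (hps.trans hqdef)
    obtain ⟨c, hc⟩ := hmem
    have h2 : S.EW.s (q : _ ⧸ _) = F' + shacIncl k hle c := by
      rw [hc]
      abel
    show smH1π 𝓛 (indRep H (trivRep (k := k) H)) (connZ0 S.EW S.P₂.smW S.P.smW q)
      = smH1π 𝓛 (indRep H (trivRep (k := k) H)) ⟨f, hfmem⟩
    rw [← sub_eq_zero, ← map_sub, smH1π_eq_zero_iff]
    refine ⟨c, ?_⟩
    funext g
    have h1 : (connZ0 S.EW S.P₂.smW S.P.smW q).1 g
        = S.EW.t (dd0 (indRep H' (trivRep (k := k) H')) (S.EW.s (q : _ ⧸ _)) g) := rfl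
    show dd0 _ c g = (connZ0 S.EW S.P₂.smW S.P.smW q).1 g - f g
    rw [h1, dd0_apply, dd0_apply, h2, map_add, add_sub_add_comm, hdiff g,
      ← shacIncl_equivariant k hle g c, ← map_sub, ← map_add, hti]
    abel
  rw [hconn] at hu
  exact hu

/-- (C) THE FORMAL HALF OF THE Ш-PAIRING for base pairs. -/
theorem theta2_base_ne_zero (hχ : ∃ U, 𝓛.IsLevel U ∧ U ≤ χ.ker)
    (tr : smHc3 D (chiRep χ) →ₗ[k] k)
    (h3 : ∀ H' : Subgroup G, 𝓛.IsOpen H' → H' ≤ χ.ker →
      ∀ P' : PairingData 𝓛 (indRep H' (trivRep (k := k) H')) (indRep H' (trivRep (k := k) H'))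
        (chiRep χ) (basePairing χ H'),
      Function.Injective (theta3 D P' tr) ∧ ∃ x, theta3 D P' tr x (baseOne H') ≠ 0)
    (H : Subgroup G) (hH : 𝓛.IsOpen H) (hHχ : H ≤ χ.ker)
    (P : PairingData 𝓛 (indRep H (trivRep (k := k) H)) (indRep H (trivRep (k := k) H))
      (chiRep χ) (basePairing χ H))
    (y : smH1 𝓛 (indRep H (trivRep (k := k) H))) (hy : y ≠ 0) :
    ∃ u : smHc2 D (indRep H (trivRep (k := k) H)), theta2 D P tr u y ≠ 0 := by
  classical
  obtain ⟨⟨f, hfmem⟩, rfl⟩ := Submodule.mkQ_surjective _ y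
  have hf : dd1 (indRep H (trivRep (k := k) H)) f = 0 := LinearMap.mem_ker.1 hfmem.1
  have hLC : IsLC₁ 𝓛 f := hfmem.2
  -- some `s₀ ∈ H` with `F' s₀ ≠ 0`, otherwise `f` is a coboundary
  have hex : ∃ s₀ ∈ H, shacF f s₀ ≠ 0 := by
    by_contra hcon
    push Not at hcon
    apply hy
    have hmem : shacF f ∈ indSpace H (trivRep (k := k) H) := by
      intro h x
      show shacF f ((h : G) * x) = shacF f x
      rw [shacF_mul hf h.2 x, hcon h h.2, zero_add]
    show smH1π 𝓛 (indRep H (trivRep (k := k) H)) ⟨f, hfmem⟩ = 0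
    rw [smH1π_eq_zero_iff]
    refine ⟨⟨shacF f, hmem⟩, ?_⟩
    funext g
    apply Subtype.ext
    funext x
    show shacF f (x * g) - shacF f x = (f g).1 x
    exact (shac_apply hf g x).symm
  obtain ⟨s₀, hs₀H, hs₀⟩ := hex
  have hsH : s₀⁻¹ ∈ H := H.inv_mem hs₀H
  have hnorm : ∀ h' ∈ shacKer hf, (s₀⁻¹)⁻¹ * h' * s₀⁻¹ ∈ shacKer hf :=
    fun h' hh' => shacKer_conj hf hsH hh'
  refine shac_theta2_ne_zero_aux D χ hχ tr h3 H hH hHχ P (shacKer hf) (shacKer_le hf)
    (shacKer_isOpen hf hH hLC) hsH hnorm f hfmem ⟨shacF f, shacF_mem_indSpace hf⟩ ?_ ?_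
  · intro g
    apply Subtype.ext
    funext x
    show shacF f (x * g) - shacF f x = (f g).1 x
    exact (shac_apply hf g x).symm
  · intro h0
    have h1 := congrArg (fun F : ↥(indSpace (shacKer hf) (trivRep (k := k) (shacKer hf))) =>
      F.1 1) h0
    have h2 : shacF f ((s₀⁻¹)⁻¹ * 1) - shacF f 1 = 0 := h1
    rw [inv_inv, mul_one, shacF_one hf, sub_zero] at h2
    exact hs₀ h2

end Base

end Fermat.Agent.S55
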