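import Fermat.Agent.S55.Top.LesCSpec

/-!
# S55 top layer, leaf T-THETA: the duality maps
`θ^i : H_c^i(V) → Dual (H^(3-i)(W))`, `i = 1, 2, 3`, attached to an equivariant pairing
`β : V × W → Z` and a linear functional `tr : H_c³(Z) → k`; naturality and compatibility with the
connecting homomorphisms.

This is `ThetaSpec.lean` (sections Defs, Natural, Delta; definitions verbatim) with every
placeholder of the sections Natural and Delta replaced by a proof.  The section Adjoint of the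
spec is delivered separately (`Top/Adjoint.lean`).  Auxiliary lemmas have the prefix `theta_`.
-/

set_option autoImplicit false

namespace Fermat.Agent.S55

variable {k : Type*} [CommRing k] {G : Type*} [Group G] {𝓛 : Levels G}
  {ι : Type*} {Γ : ι → Type*} [∀ v, Group (Γ v)] (D : LocSys 𝓛 ι Γ)

section Defs

variable {V W Z : Type*} [AddCommGroup V] [Module k V] [AddCommGroup W] [Module k W]
  [AddCommGroup Z] [Module k Z]
  {ρV : Representation k G V} {ρW : Representation k G W} {ρZ : Representation k G Z}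
  {β : V →ₗ[k] W →ₗ[k] Z} (P : PairingData 𝓛 ρV ρW ρZ β)

/-- cup product of cocycles `Z_c¹(V) × Z²(W) → Z_c³(Z)` -/
def cupZ1 : ↥(smZc1 D ρV) →ₗ[k] ↥(smZ2 𝓛 ρW) →ₗ[k] ↥(smZc3 D ρZ) :=
  LinearMap.mk₂ k (fun u f => ⟨cupc1 β ρW D u.1 f.1, cupc1_mem_smZc3 D P u.2 f.2⟩)
    (fun _ _ _ => Subtype.ext (LinearMap.map_add₂ (cupc1 β ρW D) _ _ _))
    (fun _ _ _ => Subtype.ext (LinearMap.map_smul₂ (cupc1 β ρW D) _ _ _))
    (fun _ _ _ => Subtype.ext (map_add (cupc1 β ρW D _) _ _))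
    (fun _ _ _ => Subtype.ext (map_smul (cupc1 β ρW D _) _ _))

/-- cup product of cocycles `Z_c²(V) × Z¹(W) → Z_c³(Z)` -/
def cupZ2 : ↥(smZc2 D ρV) →ₗ[k] ↥(smZ1 𝓛 ρW) →ₗ[k] ↥(smZc3 D ρZ) :=
  LinearMap.mk₂ k (fun u f => ⟨cupc2 β ρW D u.1 f.1, cupc2_mem_smZc3 D P u.2 f.2⟩)
    (fun _ _ _ => Subtype.ext (LinearMap.map_add₂ (cupc2 β ρW D) _ _ _))
    (fun _ _ _ => Subtype.ext (LinearMap.map_smul₂ (cupc2 β ρW D) _ _ _))
    (fun _ _ _ => Subtype.ext (map_add (cupc2 β ρW D _) _ _))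
    (fun _ _ _ => Subtype.ext (map_smul (cupc2 β ρW D _) _ _))

/-- cup product of cocycles `Z_c³(V) × H⁰(W) → Z_c³(Z)` -/
def cupZ3 : ↥(smZc3 D ρV) →ₗ[k] ↥(smH0 ρW) →ₗ[k] ↥(smZc3 D ρZ) :=
  LinearMap.mk₂ k (fun u w => ⟨cupc3 β ρW D u.1 w.1, cupc3_mem_smZc3 D P u.2 w.2⟩)
    (fun _ _ _ => Subtype.ext (LinearMap.map_add₂ (cupc3 β ρW D) _ _ _))
    (fun _ _ _ => Subtype.ext (LinearMap.map_smul₂ (cupc3 β ρW D) _ _ _))
    (fun _ _ _ => Subtype.ext (map_add (cupc3 β ρW D _) _ _))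
    (fun _ _ _ => Subtype.ext (map_smul (cupc3 β ρW D _) _ _))

variable (tr : smHc3 D ρZ →ₗ[k] k)

/-- `θ¹ : H_c¹(V) → Dual (H²(W))`, `θ¹ [u] [f] = tr [u ∪ f]` -/
def theta1 : smHc1 D ρV →ₗ[k] Module.Dual k (smH2 𝓛 ρW) :=
  ((cupZ1 D P).compr₂ (tr.comp (smHc3π D ρZ))).liftQ₂ _ _
    (by
      intro u hu
      ext f
      simp only [LinearMap.compr₂_apply, LinearMap.comp_apply, LinearMap.zero_apply]
      rw [(smHc3π_eq_zero_iff D ρZ _).2 (cupc1_mem_smBc3_left D P hu f.2), map_zero])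
    (by
      intro f hf
      ext u
      simp only [LinearMap.flip_apply, LinearMap.compr₂_apply, LinearMap.comp_apply,
        LinearMap.zero_apply]
      rw [(smHc3π_eq_zero_iff D ρZ _).2 (cupc1_mem_smBc3_right D P u.2 hf), map_zero])

/-- `θ² : H_c²(V) → Dual (H¹(W))` -/
def theta2 : smHc2 D ρV →ₗ[k] Module.Dual k (smH1 𝓛 ρW) :=
  ((cupZ2 D P).compr₂ (tr.comp (smHc3π D ρZ))).liftQ₂ _ _
    (by
      intro u hu
      ext f
      simp only [LinearMap.compr₂_apply, LinearMap.comp_apply, LinearMap.zero_apply]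
      rw [(smHc3π_eq_zero_iff D ρZ _).2 (cupc2_mem_smBc3_left D P hu f.2), map_zero])
    (by
      intro f hf
      ext u
      simp only [LinearMap.flip_apply, LinearMap.compr₂_apply, LinearMap.comp_apply,
        LinearMap.zero_apply]
      rw [(smHc3π_eq_zero_iff D ρZ _).2 (cupc2_mem_smBc3_right D P u.2 hf), map_zero])

/-- `θ³ : H_c³(V) → Dual (H⁰(W))` -/
def theta3 : smHc3 D ρV →ₗ[k] Module.Dual k ↥(smH0 ρW) :=
  Submodule.liftQ _ ((cupZ3 D P).compr₂ (tr.comp (smHc3π D ρZ)))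
    (by
      intro u hu
      ext w
      simp only [LinearMap.compr₂_apply, LinearMap.comp_apply, LinearMap.zero_apply]
      rw [(smHc3π_eq_zero_iff D ρZ _).2 (cupc3_mem_smBc3_left D P hu w.2), map_zero])

@[simp] theorem theta1_mk (u : ↥(smZc1 D ρV)) (f : ↥(smZ2 𝓛 ρW)) :
    theta1 D P tr (smHc1π D ρV u) (smH2π 𝓛 ρW f) = tr (smHc3π D ρZ (cupZ1 D P u f)) := rfl
@[simp] theorem theta2_mk (u : ↥(smZc2 D ρV)) (f : ↥(smZ1 𝓛 ρW)) :
    theta2 D P tr (smHc2π D ρV u) (smH1π 𝓛 ρW f) = tr (smHc3π D ρZ (cupZ2 D P u f)) := rfl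
@[simp] theorem theta3_mk (u : ↥(smZc3 D ρV)) (w : ↥(smH0 ρW)) :
    theta3 D P tr (smHc3π D ρV u) w = tr (smHc3π D ρZ (cupZ3 D P u w)) := rfl

end Defs

/-! ### auxiliary cochain-level lemmas -/

section NatCochain

variable {V W V' W' Z : Type*} [AddCommGroup V] [Module k V] [AddCommGroup W] [Module k W]
  [AddCommGroup V'] [Module k V'] [AddCommGroup W'] [Module k W'] [AddCommGroup Z] [Module k Z]
  {ρW : Representation k G W} {ρW' : Representation k G W'}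
  {β : V →ₗ[k] W →ₗ[k] Z} {β' : V' →ₗ[k] W' →ₗ[k] Z}
  (φ : V →ₗ[k] V') (ψ : W' →ₗ[k] W) (hψ : IsEquivariant ρW' ρW ψ)
  (hadj : ∀ v w', β' (φ v) w' = β v (ψ w'))

include hψ hadj in
theorem theta_cupc1_nat (c : CC1 G ι V) (f : G × G → W') :
    cupc1 β' ρW' D (ccMap1 φ c) f = cupc1 β ρW D c (postComp ψ (G × G) f) := by
  refine Prod.ext ?_ ?_
  · funext ⟨g, h, j⟩
    show β' (φ (c.1 g)) (ρW' g (f (h, j))) = β (c.1 g) (ρW g (ψ (f (h, j))))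
    rw [hadj, hψ]
  · funext v ⟨g, h⟩
    show β' (φ (c.2 v)) (f (D.r v g, D.r v h)) = β (c.2 v) (ψ (f (D.r v g, D.r v h)))
    rw [hadj]

include hψ hadj in
theorem theta_cupc2_nat (c : CC2 G Γ V) (f : G → W') :
    cupc2 β' ρW' D (ccMap2 φ c) f = cupc2 β ρW D c (postComp ψ G f) := by
  refine Prod.ext ?_ ?_
  · funext ⟨g, h, j⟩
    show β' (φ (c.1 (g, h))) (ρW' (g * h) (f j)) = β (c.1 (g, h)) (ρW (g * h) (ψ (f j)))
    rw [hadj, hψ]
  · funext v ⟨g, h⟩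
    show β' (φ (c.2 v g)) (ρW' (D.r v g) (f (D.r v h)))
      = β (c.2 v g) (ρW (D.r v g) (ψ (f (D.r v h))))
    rw [hadj, hψ]

include hψ hadj in
theorem theta_cupc3_nat (c : CC3 G Γ V) (w : W') :
    cupc3 β' ρW' D (ccMap3 φ c) w = cupc3 β ρW D c (ψ w) := by
  refine Prod.ext ?_ ?_
  · funext ⟨g, h, j⟩
    show β' (φ (c.1 (g, h, j))) (ρW' (g * h * j) w) = β (c.1 (g, h, j)) (ρW (g * h * j) (ψ w))
    rw [hadj, hψ]
  · funext v ⟨g, h⟩
    show β' (φ (c.2 v (g, h))) (ρW' (D.r v (g * h)) w)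
      = β (c.2 v (g, h)) (ρW (D.r v (g * h)) (ψ w))
    rw [hadj, hψ]

end NatCochain

section SplitLemmas

variable {V₁ V V₂ : Type*}
  [AddCommGroup V₁] [Module k V₁] [AddCommGroup V] [Module k V] [AddCommGroup V₂] [Module k V₂]
  {ρ₁ : Representation k G V₁} {ρ : Representation k G V} {ρ₂ : Representation k G V₂}
  (E : ShortExactRep ρ₁ ρ ρ₂)

theorem theta_postComp_p_s {X : Type*} (x : X → V₂) :
    postComp E.p X (postComp E.s X x) = x := by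
  funext a
  exact E.p_s (x a)

theorem theta_postComp_i_t {X : Type*} {x : X → V} (hx : postComp E.p X x = 0) :
    postComp E.i X (postComp E.t X x) = x := by
  funext a
  exact E.i_t_of_p_eq_zero (congrFun hx a)

theorem theta_ccMap1_p_s (c : CC1 G ι V₂) :
    ccMap1 E.p (ccMap1 (G := G) (ι := ι) E.s c) = c := by
  refine Prod.ext ?_ ?_
  · funext g; exact E.p_s _
  · funext v; exact E.p_s _

omit [∀ v, Group (Γ v)] in
theorem theta_ccMap2_p_s (c : CC2 G Γ V₂) :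
    ccMap2 E.p (ccMap2 (G := G) (Γ := Γ) E.s c) = c := by
  refine Prod.ext ?_ ?_
  · funext g; exact E.p_s _
  · funext v g; exact E.p_s _

omit [∀ v, Group (Γ v)] in
theorem theta_ccMap2_i_t {x : CC2 G Γ V} (hx : ccMap2 (G := G) (Γ := Γ) E.p x = 0) :
    ccMap2 E.i (ccMap2 (G := G) (Γ := Γ) E.t x) = x := by
  refine Prod.ext ?_ ?_
  · funext g
    exact E.i_t_of_p_eq_zero (congrFun (congrArg Prod.fst hx) g)
  · funext v g
    exact E.i_t_of_p_eq_zero (congrFun (congrFun (congrArg Prod.snd hx) v) g)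

omit [∀ v, Group (Γ v)] in
theorem theta_ccMap3_i_t {x : CC3 G Γ V} (hx : ccMap3 (G := G) (Γ := Γ) E.p x = 0) :
    ccMap3 E.i (ccMap3 (G := G) (Γ := Γ) E.t x) = x := by
  refine Prod.ext ?_ ?_
  · funext g
    exact E.i_t_of_p_eq_zero (congrFun (congrArg Prod.fst hx) g)
  · funext v g
    exact E.i_t_of_p_eq_zero (congrFun (congrFun (congrArg Prod.snd hx) v) g)

end SplitLemmas

section QuotLemma

variable {Z : Type*} [AddCommGroup Z] [Module k Z] {ρZ : Representation k G Z}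

theorem theta_smHc3π_eq_of_sub_mem {x y : ↥(smZc3 D ρZ)}
    (h : (x : CC3 G Γ Z) - (y : CC3 G Γ Z) ∈ smBc3 D ρZ) :
    smHc3π D ρZ x = smHc3π D ρZ y := by
  rw [← sub_eq_zero, ← map_sub, smHc3π_eq_zero_iff]
  exact h

theorem theta_smHc3π_eq_neg_of_add_mem {x y : ↥(smZc3 D ρZ)}
    (h : (x : CC3 G Γ Z) + (y : CC3 G Γ Z) ∈ smBc3 D ρZ) :
    smHc3π D ρZ x = - smHc3π D ρZ y := by
  rw [eq_neg_iff_add_eq_zero, ← map_add, smHc3π_eq_zero_iff]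
  exact h

end QuotLemma

/-! ### naturality: a morphism of pairings -/

section Natural

variable {V W V' W' Z : Type*} [AddCommGroup V] [Module k V] [AddCommGroup W] [Module k W]
  [AddCommGroup V'] [Module k V'] [AddCommGroup W'] [Module k W'] [AddCommGroup Z] [Module k Z]
  {ρV : Representation k G V} {ρW : Representation k G W}
  {ρV' : Representation k G V'} {ρW' : Representation k G W'} {ρZ : Representation k G Z}
  {β : V →ₗ[k] W →ₗ[k] Z} {β' : V' →ₗ[k] W' →ₗ[k] Z}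
  (P : PairingData 𝓛 ρV ρW ρZ β) (P' : PairingData 𝓛 ρV' ρW' ρZ β')
  (tr : smHc3 D ρZ →ₗ[k] k)
  (φ : V →ₗ[k] V') (ψ : W' →ₗ[k] W) (hφ : IsEquivariant ρV ρV' φ) (hψ : IsEquivariant ρW' ρW ψ)
  (hadj : ∀ v w', β' (φ v) w' = β v (ψ w'))

include hadj in
/-- `θ¹_{V'}(φ_* u)(y') = θ¹_V(u)(ψ_* y')` -/
theorem theta1_natural (u : smHc1 D ρV) (y : smH2 𝓛 ρW') :
    theta1 D P' tr (smHc1map D φ hφ u) y = theta1 D P tr u (smH2map 𝓛 ψ hψ y) := by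
  induction u using Submodule.Quotient.induction_on with | _ u =>
  induction y using Submodule.Quotient.induction_on with | _ y =>
  show theta1 D P' tr (smHc1map D φ hφ (smHc1π D ρV u)) (smH2π 𝓛 ρW' y)
    = theta1 D P tr (smHc1π D ρV u) (smH2map 𝓛 ψ hψ (smH2π 𝓛 ρW' y))
  rw [smHc1map_mk, smH2map_mk, theta1_mk, theta1_mk]
  congr 2
  apply Subtype.ext
  exact theta_cupc1_nat D φ ψ hψ hadj u.1 y.1

include hadj in
theorem theta2_natural (u : smHc2 D ρV) (y : smH1 𝓛 ρW') :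
    theta2 D P' tr (smHc2map D φ hφ u) y = theta2 D P tr u (smH1map 𝓛 ψ hψ y) := by
  induction u using Submodule.Quotient.induction_on with | _ u =>
  induction y using Submodule.Quotient.induction_on with | _ y =>
  show theta2 D P' tr (smHc2map D φ hφ (smHc2π D ρV u)) (smH1π 𝓛 ρW' y)
    = theta2 D P tr (smHc2π D ρV u) (smH1map 𝓛 ψ hψ (smH1π 𝓛 ρW' y))
  rw [smHc2map_mk, smH1map_mk, theta2_mk, theta2_mk]
  congr 2
  apply Subtype.ext
  exact theta_cupc2_nat D φ ψ hψ hadj u.1 y.1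

include hadj in
theorem theta3_natural (u : smHc3 D ρV) (y : ↥(smH0 ρW')) :
    theta3 D P' tr (smHc3map D φ hφ u) y = theta3 D P tr u (smH0map ψ hψ y) := by
  induction u using Submodule.Quotient.induction_on with | _ u =>
  show theta3 D P' tr (smHc3map D φ hφ (smHc3π D ρV u)) y
    = theta3 D P tr (smHc3π D ρV u) (smH0map ψ hψ y)
  rw [smHc3map_mk, theta3_mk, theta3_mk]
  congr 2
  apply Subtype.ext
  exact theta_cupc3_nat D φ ψ hψ hadj u.1 y.1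

end Natural

/-! ### compatibility with connecting homomorphisms -/

section Delta

variable {V₁ V V₂ W₁ W W₂ Z : Type*}
  [AddCommGroup V₁] [Module k V₁] [AddCommGroup V] [Module k V] [AddCommGroup V₂] [Module k V₂]
  [AddCommGroup W₁] [Module k W₁] [AddCommGroup W] [Module k W] [AddCommGroup W₂] [Module k W₂]
  [AddCommGroup Z] [Module k Z]
  {ρ₁ : Representation k G V₁} {ρ : Representation k G V} {ρ₂ : Representation k G V₂}
  {σ₁ : Representation k G W₁} {σ : Representation k G W} {σ₂ : Representation k G W₂}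
  {ρZ : Representation k G Z}
  {β₁ : V₁ →ₗ[k] W₁ →ₗ[k] Z} {β : V →ₗ[k] W →ₗ[k] Z} {β₂ : V₂ →ₗ[k] W₂ →ₗ[k] Z}

/-- A short exact sequence of pairings: `0 → V₁ → V → V₂ → 0`, `0 → W₂ → W → W₁ → 0`
(note the order!) with `β (i v₁) w = β₁ v₁ (p' w)` and `β v (i' w₂) = β₂ (p v) w₂`. -/
structure ShortExactPairing (𝓛 : Levels G) (ρ₁ : Representation k G V₁)
    (ρ : Representation k G V) (ρ₂ : Representation k G V₂) (σ₁ : Representation k G W₁)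
    (σ : Representation k G W) (σ₂ : Representation k G W₂) (ρZ : Representation k G Z)
    (β₁ : V₁ →ₗ[k] W₁ →ₗ[k] Z) (β : V →ₗ[k] W →ₗ[k] Z) (β₂ : V₂ →ₗ[k] W₂ →ₗ[k] Z) where
  /-- `0 → V₁ → V → V₂ → 0` -/
  EV : ShortExactRep ρ₁ ρ ρ₂
  /-- `0 → W₂ → W → W₁ → 0` -/
  EW : ShortExactRep σ₂ σ σ₁
  P₁ : PairingData 𝓛 ρ₁ σ₁ ρZ β₁
  P : PairingData 𝓛 ρ σ ρZ β
  P₂ : PairingData 𝓛 ρ₂ σ₂ ρZ β₂
  adj₁ : ∀ v₁ w, β (EV.i v₁) w = β₁ v₁ (EW.p w)
  adj₂ : ∀ v w₂, β v (EW.i w₂) = β₂ (EV.p v) w₂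

variable (S : ShortExactPairing 𝓛 ρ₁ ρ ρ₂ σ₁ σ σ₂ ρZ β₁ β β₂) (tr : smHc3 D ρZ →ₗ[k] k)

/-- the cochain identity behind `theta2_connc1` -/
theorem theta_delta1_cochain (u : ↥(smZc1 D ρ₂)) (y : ↥(smZ1 𝓛 σ₁)) :
    cupc2 β₁ σ₁ D (ccMap2 S.EV.t (dc1 D ρ (ccMap1 S.EV.s (u : CC1 G ι V₂)))) (y : G → W₁)
      - cupc1 β₂ σ₂ D (u : CC1 G ι V₂)
          (postComp S.EW.t (G × G) (dd1 σ (postComp S.EW.s G (y : G → W₁))))
      = dc2 D ρZ (cupc1' β σ D (ccMap1 S.EV.s (u : CC1 G ι V₂))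
          (postComp S.EW.s G (y : G → W₁))) := by
  have hu : dc1 D ρ₂ (u : CC1 G ι V₂) = 0 := LinearMap.mem_ker.1 u.2.1
  have hy : dd1 σ₁ (y : G → W₁) = 0 := LinearMap.mem_ker.1 y.2.1
  -- `p ∘ d_c (s ∘ u) = 0`
  have h1 : ccMap2 (G := G) (Γ := Γ) S.EV.p (dc1 D ρ (ccMap1 S.EV.s (u : CC1 G ι V₂))) = 0 := by
    rw [← dc1_ccMap D S.EV.p S.EV.p_equiv, theta_ccMap1_p_s, hu]
  -- `p' ∘ d (s' ∘ y) = 0`
  have h2 : postComp S.EW.p (G × G) (dd1 σ (postComp S.EW.s G (y : G → W₁))) = 0 := by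
    rw [← dd1_postComp S.EW.p S.EW.p_equiv, theta_postComp_p_s, hy]
  have e1 := theta_cupc2_nat D S.EV.i S.EW.p S.EW.p_equiv S.adj₁
    (ccMap2 S.EV.t (dc1 D ρ (ccMap1 S.EV.s (u : CC1 G ι V₂)))) (postComp S.EW.s G (y : G → W₁))
  rw [theta_ccMap2_i_t S.EV h1, theta_postComp_p_s] at e1
  have e2 := theta_cupc1_nat D S.EV.p S.EW.i S.EW.i_equiv (fun v w => (S.adj₂ v w).symm)
    (ccMap1 S.EV.s (u : CC1 G ι V₂))
    (postComp S.EW.t (G × G) (dd1 σ (postComp S.EW.s G (y : G → W₁))))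
  rw [theta_ccMap1_p_s, theta_postComp_i_t S.EW h2] at e2
  rw [← e1, e2, dc2_cupc1' D S.P]

/-- the cochain identity behind `theta3_connc2` -/
theorem theta_delta2_cochain (u : ↥(smZc2 D ρ₂)) (y : ↥(smH0 σ₁)) :
    cupc3 β₁ σ₁ D (ccMap3 S.EV.t (dc2 D ρ (ccMap2 S.EV.s (u : CC2 G Γ V₂)))) (y : W₁)
      + cupc2 β₂ σ₂ D (u : CC2 G Γ V₂)
          (postComp S.EW.t G (dd0 σ (S.EW.s (y : W₁))))
      = dc2 D ρZ (cupc2' β σ D (ccMap2 S.EV.s (u : CC2 G Γ V₂)) (S.EW.s (y : W₁))) := by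
  have hu : dc2 D ρ₂ (u : CC2 G Γ V₂) = 0 := LinearMap.mem_ker.1 u.2.1
  have hy : dd0 σ₁ (y : W₁) = 0 := LinearMap.mem_ker.1 y.2
  -- `p ∘ d_c (s ∘ u) = 0`
  have h1 : ccMap3 (G := G) (Γ := Γ) S.EV.p (dc2 D ρ (ccMap2 S.EV.s (u : CC2 G Γ V₂))) = 0 := by
    rw [← dc2_ccMap D S.EV.p S.EV.p_equiv, theta_ccMap2_p_s, hu]
  -- `p' ∘ d (s' y) = 0`
  have h2 : postComp S.EW.p G (dd0 σ (S.EW.s (y : W₁))) = 0 := by
    rw [← dd0_postComp S.EW.p S.EW.p_equiv, S.EW.p_s, hy]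
  have e1 := theta_cupc3_nat D S.EV.i S.EW.p S.EW.p_equiv S.adj₁
    (ccMap3 S.EV.t (dc2 D ρ (ccMap2 S.EV.s (u : CC2 G Γ V₂)))) (S.EW.s (y : W₁))
  rw [theta_ccMap3_i_t S.EV h1, S.EW.p_s] at e1
  have e2 := theta_cupc2_nat D S.EV.p S.EW.i S.EW.i_equiv (fun v w => (S.adj₂ v w).symm)
    (ccMap2 S.EV.s (u : CC2 G Γ V₂))
    (postComp S.EW.t G (dd0 σ (S.EW.s (y : W₁))))
  rw [theta_ccMap2_p_s, theta_postComp_i_t S.EW h2] at e2
  rw [← e1, e2, dc2_cupc2' D S.P]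

/-- `θ²_{V₁}(δ_c u₂)(y₁) = θ¹_{V₂}(u₂)(δ y₁)` for `u₂ ∈ H_c¹(V₂)`, `y₁ ∈ H¹(W₁)`
(sign `(-1)^(i+1)` with `i = 1`) -/
theorem theta2_connc1 (u : smHc1 D ρ₂) (y : smH1 𝓛 σ₁) :
    theta2 D S.P₁ tr (connc1 D S.EV S.P₁.smV S.P.smV u) y
      = theta1 D S.P₂ tr u (conn1 S.EW S.P₂.smW S.P.smW y) := by
  induction u using Submodule.Quotient.induction_on with | _ u =>
  induction y using Submodule.Quotient.induction_on with | _ y =>
  show theta2 D S.P₁ tr (smHc2π D ρ₁ (conncZ1 D S.EV S.P₁.smV S.P.smV u)) (smH1π 𝓛 σ₁ y)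
    = theta1 D S.P₂ tr (smHc1π D ρ₂ u) (smH2π 𝓛 σ₂ (connZ1 S.EW S.P₂.smW S.P.smW y))
  rw [theta2_mk, theta1_mk]
  congr 1
  apply theta_smHc3π_eq_of_sub_mem
  have hmem : cupc1' β σ D (ccMap1 S.EV.s (u : CC1 G ι V₂)) (postComp S.EW.s G (y : G → W₁))
      ∈ smCC2 D k Z := by
    refine cupc1'_mem_smCC2 D S.P ?_ (IsLC₁.comp y.2.2 S.EW.s)
    rw [mem_smCC1]
    exact IsLC₁.comp ((mem_smCC1 _).1 u.2.2) S.EV.s
  have := Submodule.mem_map_of_mem (f := dc2 D ρZ) hmem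
  rw [← theta_delta1_cochain D S u y] at this
  exact this

/-- `θ³_{V₁}(δ_c u₂)(y₁) = - θ²_{V₂}(u₂)(δ y₁)` for `u₂ ∈ H_c²(V₂)`, `y₁ ∈ H⁰(W₁)`
(sign `(-1)^(i+1)` with `i = 2`) -/
theorem theta3_connc2 (u : smHc2 D ρ₂) (y : ↥(smH0 σ₁)) :
    theta3 D S.P₁ tr (connc2 D S.EV S.P₁.smV S.P.smV u) y
      = - theta2 D S.P₂ tr u (conn0 S.EW S.P₂.smW S.P.smW y) := by
  induction u using Submodule.Quotient.induction_on with | _ u =>
  show theta3 D S.P₁ tr (smHc3π D ρ₁ (conncZ2 D S.EV S.P₁.smV S.P.smV u)) y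
    = - theta2 D S.P₂ tr (smHc2π D ρ₂ u) (smH1π 𝓛 σ₂ (connZ0 S.EW S.P₂.smW S.P.smW y))
  rw [theta3_mk, theta2_mk, ← map_neg]
  congr 1
  apply theta_smHc3π_eq_neg_of_add_mem
  have hmem : cupc2' β σ D (ccMap2 S.EV.s (u : CC2 G Γ V₂)) (S.EW.s (y : W₁))
      ∈ smCC2 D k Z := by
    refine cupc2'_mem_smCC2 D S.P ?_ _
    rw [mem_smCC2]
    obtain ⟨hu1, hu2⟩ := (mem_smCC2 D _).1 u.2.2
    exact ⟨IsLC₂.comp hu1 S.EV.s, fun v => IsLC₁.comp (hu2 v) S.EV.s⟩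
  have := Submodule.mem_map_of_mem (f := dc2 D ρZ) hmem
  rw [← theta_delta2_cochain D S u y] at this
  exact this

end Delta

end Fermat.Agent.S55
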